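import Fermat.Agent.Corollaries.RayN.Compose
import Fermat.Agent.Corollaries.Bin.Kron

/-!
# The class group of forms and the ideal class group

`D` any non-square discriminant, `K = ℚ(√D)`. The map `(a, b, c) ↦ [(a, (-b + √D) / 2)]` is a
surjective homomorphism from the group of classes of primitive forms of discriminant `D` (Gauss's
composition) to the ideal class group of `K`. It is an isomorphism if `D = discr K < 0`
(Dedekind).
-/

set_option autoImplicit false

noncomputable section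

open NumberField QuadraticAlgebra
open scoped nonZeroDivisors Pointwise

namespace Fermat.Agent.Cor.RayN

open Fermat.Agent.Cor.Ray

section Field

variable {e n : ℤ} [hF : Fact (∀ r : ℚ, r ^ 2 ≠ -(((1 : ℤ) : ℚ) * n) + -(e : ℚ) * r)]

/-- the ideal generated by a lattice -/
def toId (M : Submodule ℤ (𝓞 (QF 1 e n))) : Ideal (𝓞 (QF 1 e n)) :=
  Ideal.span (M : Set (𝓞 (QF 1 e n)))

theorem toId_span (S : Set (𝓞 (QF 1 e n))) : toId (Submodule.span ℤ S) = Ideal.span S :=
  Submodule.span_span_of_tower ℤ (𝓞 (QF 1 e n)) S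

theorem toId_mul (M N : Submodule ℤ (𝓞 (QF 1 e n))) : toId (M * N) = toId M * toId N := by
  rw [Submodule.mul_def, toId_span, toId, toId, Ideal.span_mul_span']

theorem toId_latF (f : BForm) : toId (latF e n f) = idF e n f := toId_span _

theorem idF_ne_bot' {f : BForm} (ha : f.a ≠ 0) : idF e n f ≠ ⊥ := by
  intro h
  have h1 := a_mem_idF (e := e) (n := n) f
  rw [h, Ideal.mem_bot] at h1
  exact ha (by exact_mod_cast h1)

/-- the ideal class of a form -/
def clI (f : BForm) (ha : f.a ≠ 0) : ClassGroup (𝓞 (QF 1 e n)) :=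
  ClassGroup.mk0 ⟨idF e n f, mem_nonZeroDivisors_of_ne_zero (idF_ne_bot' ha)⟩

theorem clI_eq_of_eqv {f g : BForm} (hf : f.disc = e ^ 2 - 4 * 1 * n)
    (hg : g.disc = e ^ 2 - 4 * 1 * n) (hfa : f.a ≠ 0) (hga : g.a ≠ 0) (h : f.Eqv g) :
    (clI f hfa : ClassGroup (𝓞 (QF 1 e n))) = clI g hga := by
  have h1 := (phiF_eq_iff hf hg hfa hga).mpr h
  rw [phiF, phiF, Con.eq] at h1
  obtain ⟨l, m, hl, hm, h2, -⟩ := h1
  have h3 := congrArg toId h2
  rw [toId_mul, toId_mul, toId_span, toId_span] at h3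
  rw [clI, clI, ClassGroup.mk0_eq_mk0_iff]
  refine ⟨l, m, hl, hm, ?_⟩
  have h4 : toId (latF e n f) = idF e n f := toId_latF f
  have h5 : toId (latF e n g) = idF e n g := toId_latF g
  show Ideal.span {l} * idF e n f = Ideal.span {m} * idF e n g
  rw [← h4, ← h5]
  exact h3

theorem clI_mul {a a' B C : ℤ} (hD : B ^ 2 - 4 * (a * a') * C = e ^ 2 - 4 * 1 * n)
    (h1 : ∃ x y z : ℤ, x * a + y * a' + z * B = 1) (ha : a ≠ 0) (ha' : a' ≠ 0) :
    (clI (⟨a, B, a' * C⟩ : BForm) ha : ClassGroup (𝓞 (QF 1 e n))) *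
      clI (⟨a', B, a * C⟩ : BForm) ha' = clI (⟨a * a', B, C⟩ : BForm) (mul_ne_zero ha ha') := by
  rw [clI, clI, clI, ← map_mul]
  congr 1
  apply Subtype.ext
  show idF e n _ * idF e n _ = idF e n _
  rw [← toId_latF, ← toId_latF, ← toId_latF, ← toId_mul, latF_mul_latF hD h1]

variable (hsq : ¬ IsSquare (e ^ 2 - 4 * 1 * n))

/-- the ideal class of a class of forms -/
def toCl (x : Quotient (formSetoidN (e ^ 2 - 4 * 1 * n))) : ClassGroup (𝓞 (QF 1 e n)) :=
  Quotient.lift (s := formSetoidN (e ^ 2 - 4 * 1 * n))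
    (fun f => clI f.1 (ne_zero_of_disc hsq f.2.2.1))
    (fun f g h => clI_eq_of_eqv f.2.2.1 g.2.2.1 _ _ h) x

theorem toCl_cls {f : BForm} (h : MemN (e ^ 2 - 4 * 1 * n) f) :
    toCl hsq (cls f h) = clI f (ne_zero_of_disc hsq h.2.1) := rfl

theorem toCl_mul {a a' B C : ℤ} (hf : MemN (e ^ 2 - 4 * 1 * n) ⟨a, B, a' * C⟩)
    (hg : MemN (e ^ 2 - 4 * 1 * n) ⟨a', B, a * C⟩) :
    toCl hsq (cls _ (hf.comp hg)) = toCl hsq (cls _ hf) * toCl hsq (cls _ hg) := by
  rw [toCl_cls, toCl_cls, toCl_cls]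
  exact (clI_mul (hf.comp hg).2.1 hf.bezout _ _).symm

/-- **every ideal class is the class of a form** -/
theorem toCl_surjective : Function.Surjective (toCl hsq) := by
  intro C
  have hD0 : e ^ 2 - 4 * 1 * n ≠ 0 := fun h => hsq ⟨0, by rw [h]; ring⟩
  obtain ⟨P, hPC, hPp, hPB⟩ := exists_deg_one_in_class C (2 * (e ^ 2 - 4 * 1 * n)).natAbs
  have hcop : IsCoprime ((Ideal.absNorm (P.1 : Ideal (𝓞 (QF 1 e n))) : ℕ) : ℤ)
      (2 * (e ^ 2 - 4 * 1 * n)) := by
    refine (Prime.coprime_iff_not_dvd (Nat.prime_iff_prime_int.mp hPp)).mpr fun h => ?_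
    rw [← Int.dvd_natAbs, Int.natCast_dvd_natCast] at h
    have h1 := Nat.le_of_dvd (Int.natAbs_pos.mpr (mul_ne_zero two_ne_zero hD0)) h
    omega
  obtain ⟨F, hFa, hFd, hFp, hFi⟩ := exists_form_of_prime (Ideal.isPrime_of_prime P.2) hPp rfl hcop
  have hpos : 0 < F.a := by rw [hFa]; exact_mod_cast hPp.pos
  have hM : MemN (e ^ 2 - 4 * 1 * n) F := ⟨hFp, hFd, fun _ => hpos⟩
  refine ⟨cls F hM, ?_⟩
  rw [toCl_cls, clI, ← hPC]
  congr 1
  exact Subtype.ext hFi

/-- **injectivity for a negative fundamental discriminant** -/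
theorem toCl_eq_one (hD : IsFundDiscr (e ^ 2 - 4 * 1 * n)) (hneg : e ^ 2 - 4 * 1 * n < 0)
    {x : Quotient (formSetoidN (e ^ 2 - 4 * 1 * n))} (hx : toCl hsq x = 1) :
    x = cls _ memN_principal := by
  obtain ⟨f, hf, rfl⟩ := exists_cls x
  -- a representative with first coefficient positive and prime to `2D`
  have h2 : 2 ≤ (2 * (e ^ 2 - 4 * 1 * n)).natAbs := by omega
  obtain ⟨f₁, hff₁, hco, hf₁a⟩ := exists_eqv_coprime_pos hf.1 (by rw [hf.2.1]; exact hsq)
    (by rw [hf.2.1]; exact hf.2.2) h2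
  have hco' : IsCoprime f₁.a (2 * (e ^ 2 - 4 * 1 * n)) := by
    rcases Int.natAbs_eq (2 * (e ^ 2 - 4 * 1 * n)) with h | h
    · rwa [← h] at hco
    · rw [h]
      exact hco.neg_right
  have hf₁ : MemN (e ^ 2 - 4 * 1 * n) f₁ := hf.of_eqv hff₁
  rw [show cls f hf = cls f₁ hf₁ from cls_eq_iff.mpr hff₁] at hx ⊢
  rw [toCl_cls, clI, ClassGroup.mk0_eq_one_iff] at hx
  obtain ⟨α, hα⟩ := hx.principal
  have hα' : idF e n f₁ = Ideal.span {α} := hα
  have hα0 : α ≠ 0 := by
    rintro rfl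
    apply idF_ne_bot' (e := e) (n := n) hf₁a.ne'
    rw [hα', Ideal.span_singleton_eq_bot]
  have hmem : ∀ z : 𝓞 (QF 1 e n), z ∈ ordO e n := fun z => exists_comb hD z
  have hlat : latF e n f₁ = Submodule.span ℤ {α} * latF e n ⟨1, e, n⟩ := by
    ext z
    have h3 : z ∈ latF e n f₁ ↔ z ∈ idF e n f₁ := by
      rw [mem_latF]
      constructor
      · rintro ⟨x, y, rfl⟩
        refine (idF e n f₁).add_mem ?_ ((idF e n f₁).mul_mem_left _ (thF_mem_idF f₁))
        rw [Int.cast_mul]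
        exact (idF e n f₁).mul_mem_left _ (a_mem_idF f₁)
      · intro h
        exact exists_of_mem_idF hf₁.2.1 hco' (hmem z) h
    rw [h3, hα', Ideal.mem_span_singleton', mem_span_mul_latF]
    constructor
    · rintro ⟨w, rfl⟩
      obtain ⟨x, y, hw⟩ := exists_comb_thF (⟨1, e, n⟩ : BForm) (hmem w)
      refine ⟨x, y, ?_⟩
      rw [hw]
      push_cast
      ring
    · rintro ⟨x, y, rfl⟩
      exact ⟨_, mul_comm _ _⟩
  refine cls_eq_iff.mpr ?_
  refine eqv_of_span_mul hf₁.2.1 memN_principal.2.1 hf₁a.ne' one_ne_zero (l := 1) (m := α)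
    one_ne_zero hα0 ?_ ?_
  · rw [← hlat]
    have h3 : (Submodule.span ℤ {(1 : 𝓞 (QF 1 e n))} : Submodule ℤ (𝓞 (QF 1 e n))) = 1 :=
      Submodule.one_eq_span.symm
    rw [h3, one_mul]
  · obtain ⟨x, y, hxy⟩ := exists_comb_thF (⟨1, e, n⟩ : BForm) (hmem α)
    have h3 : Algebra.norm ℤ α = 1 * (⟨1, e, n⟩ : BForm).val x (-y) := by
      rw [hxy]
      have := norm_comb_thF (n := n) (f := ⟨1, e, n⟩) (e := e) rfl x y
      rw [← this]
      congr 1
      push_cast
      ring
    have h4 : 0 < (⟨1, e, n⟩ : BForm).val x (-y) := by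
      refine BForm.val_pos (f := ⟨1, e, n⟩) one_pos hneg ?_
      by_contra hcon
      push Not at hcon
      apply hα0
      rw [hxy, hcon.1, show y = 0 by linarith [hcon.2]]
      push_cast
      ring
    rw [map_one, one_mul, h3, one_mul, mul_one]
    exact mul_pos hf₁a h4

end Field

/-- **Dedekind: Gauss's class group of forms is the ideal class group.** Let `K` be an imaginary
quadratic field. The proper equivalence classes of the positive definite primitive forms of
discriminant `discr K`, with Gauss's composition (`[(a, B, a' C)] [(a', B, a C)] = [(a a', B, C)]`),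
form a group isomorphic to the class group of `K`. -/
theorem gauss_dedekind {K : Type*} [Field K] [NumberField K] (h2 : Module.finrank ℚ K = 2)
    (hneg : discr K < 0) :
    ∃ _ : CommGroup (Quotient (formSetoidN (discr K))),
      (∀ (a a' B C : ℤ) (hf : MemN (discr K) ⟨a, B, a' * C⟩) (hg : MemN (discr K) ⟨a', B, a * C⟩),
        cls _ hf * cls _ hg = cls _ (hf.comp hg)) ∧
      Nonempty (Quotient (formSetoidN (discr K)) ≃* ClassGroup (𝓞 K)) := by
  obtain ⟨e, n, hF, hd, ⟨φ⟩⟩ := Bin.exists_ringEquiv_discr (K := K) h2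
  have hd' : discr K = e ^ 2 - 4 * 1 * n := by rw [hd]; ring
  have hD : IsFundDiscr (e ^ 2 - 4 * 1 * n) := hd' ▸ Bin.isFundDiscr_discr h2
  have hsq := hD.not_isSquare
  have hmod : discr K % 4 = 0 ∨ discr K % 4 = 1 := by
    rw [hd]
    rcases Int.even_or_odd e with ⟨k, hk⟩ | ⟨k, hk⟩
    · left
      rw [hk]
      ring_nf
      omega
    · right
      rw [hk]
      ring_nf
      omega
  rw [hd'] at hneg hmod ⊢
  obtain ⟨inst, hmul, -, hone⟩ := gauss_composition hsq hmod
  refine ⟨inst, hmul, ?_⟩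
  let κ : Quotient (formSetoidN (e ^ 2 - 4 * 1 * n)) →* ClassGroup (𝓞 (QF 1 e n)) :=
    { toFun := toCl hsq
      map_one' := by
        have h1 : (1 : Quotient (formSetoidN (e ^ 2 - 4 * 1 * n))) * 1 = 1 := one_mul 1
        obtain ⟨a, a', B, C, hf, hg, h3, h4⟩ := exists_united_cls hsq
          (1 : Quotient (formSetoidN (e ^ 2 - 4 * 1 * n))) 1
        have h5 := toCl_mul hsq hf hg
        rw [← hmul a a' B C hf hg, h3, h4, h1] at h5
        exact (mul_eq_left.mp h5.symm)
      map_mul' := by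
        intro x y
        obtain ⟨a, a', B, C, hf, hg, rfl, rfl⟩ := exists_united_cls hsq x y
        rw [hmul a a' B C hf hg]
        exact toCl_mul hsq hf hg }
  have hκ : Function.Bijective κ := by
    refine ⟨(injective_iff_map_eq_one κ).mpr fun x hx => ?_, toCl_surjective hsq⟩
    exact (toCl_eq_one hsq hD hneg hx).trans (hone e n memN_principal)
  exact ⟨(MulEquiv.ofBijective κ hκ).trans
    (ClassGroup.mulEquiv (RingOfIntegers.mapRingEquiv φ))⟩

end Fermat.Agent.Cor.RayN
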