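import Fermat.Agent.Corollaries.RayN.Final
import Fermat.Agent.Corollaries.RayF.Defs

/-!
# The conductor of a narrow ray class character

Every narrow ray class character modulo `𝔪` is induced by a unique primitive one
(`exists_unique_primitive`), and the `L`-series differ by finitely many Euler factors.
-/

set_option autoImplicit false
set_option linter.unusedSectionVars false

noncomputable section

namespace Fermat.Agent.Cor.RayN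

open NumberField NumberField.InfinitePlace
open Fermat.Agent.ClassL Fermat.Agent.Cor.Ray Fermat.Agent.Cor.RayF
open scoped nonZeroDivisors Classical

universe u

variable {K : Type u} [Field K] [NumberField K] {𝔪 𝔫 : Ideal (𝓞 K)}
  {ψ : (Ideal (𝓞 K))⁰ →* ℂ}

/-! ### Elements and ideals prime to `𝔪` -/

theorem finite_dvd (h𝔪 : 𝔪 ≠ ⊥) : {P : Ideal (𝓞 K) | P ∣ 𝔪}.Finite := by
  have h := UniqueFactorizationMonoid.fintypeSubtypeDvd 𝔪 h𝔪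
  exact Set.finite_coe_iff.mp (@Finite.of_fintype _ h)

theorem isCoprime_of_prime {P : Ideal (𝓞 K)} (hP : P.IsPrime) (hP0 : P ≠ ⊥) (h : ¬ P ∣ 𝔪) :
    IsCoprime P 𝔪 := by
  have hmax : P.IsMaximal := hP.isMaximal hP0
  rw [Ideal.isCoprime_iff_sup_eq]
  refine hmax.1.2 _ (lt_of_le_of_ne le_sup_left fun h1 => h ?_)
  rw [Ideal.dvd_iff_le, h1]
  exact le_sup_right

/-- elements prime to `𝔪` in a given class modulo `𝔫`, with given signs -/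
theorem exists_congr (h𝔪 : 𝔪 ≠ ⊥) (h𝔫 : 𝔫 ≠ ⊥) {α : 𝓞 K}
    (hα : IsCoprime (Ideal.span {α}) 𝔫) (T : Finset (RP K)) :
    ∃ x : 𝓞 K, x ≠ 0 ∧ IsCoprime (Ideal.span {x}) 𝔪 ∧ x - α ∈ 𝔫 ∧
      ∀ w : RP K, (w ∈ T → em w (x : K) < 0) ∧ (w ∉ T → 0 < em w (x : K)) := by
  obtain ⟨P, ⟨π, hπ, h1, h2, rfl⟩, hP⟩ := ((dirichlet_signs h𝔫 hα T).sdiff (finite_dvd h𝔪)).nonempty
  refine ⟨π, hπ.ne_zero, isCoprime_of_prime ?_ ?_ hP, h1, h2⟩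
  · exact (Ideal.span_singleton_prime hπ.ne_zero).mpr hπ
  · rw [Ne, Ideal.span_singleton_eq_bot]
    exact hπ.ne_zero

theorem exists_congr_pos (h𝔪 : 𝔪 ≠ ⊥) (h𝔫 : 𝔫 ≠ ⊥) {α : 𝓞 K}
    (hα : IsCoprime (Ideal.span {α}) 𝔫) {y : 𝓞 K} (hy : y ≠ 0) :
    ∃ x : 𝓞 K, x ≠ 0 ∧ IsCoprime (Ideal.span {x}) 𝔪 ∧ x - α ∈ 𝔫 ∧
      ∀ w : RP K, 0 < em w (x : K) * em w (y : K) := by
  obtain ⟨x, h0, h1, h2, h3⟩ := exists_congr h𝔪 h𝔫 hα
    (Finset.univ.filter fun w => em w (y : K) < 0)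
  refine ⟨x, h0, h1, h2, fun w => ?_⟩
  have hyw := em_ne_zeroF w hy
  by_cases hw : em w (y : K) < 0
  · exact mul_pos_of_neg_of_neg ((h3 w).1 (Finset.mem_filter.mpr ⟨Finset.mem_univ _, hw⟩)) hw
  · refine mul_pos ((h3 w).2 fun h => hw (Finset.mem_filter.mp h).2)
      (lt_of_le_of_ne (not_lt.mp hw) hyw.symm)

/-- an ideal prime to `𝔪` in a given narrow class -/
theorem exists_rep (h𝔪 : 𝔪 ≠ ⊥) (h𝔫 : 𝔫 ≠ ⊥) {I : (Ideal (𝓞 K))⁰}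
    (hI : IsCoprime (I : Ideal (𝓞 K)) 𝔫) :
    ∃ J : (Ideal (𝓞 K))⁰, IsCoprime (J : Ideal (𝓞 K)) 𝔪 ∧ NRayEq 𝔫 J I := by
  have hfin : {P : (Ideal (𝓞 K))⁰ | (P : Ideal (𝓞 K)) ∣ 𝔪}.Finite :=
    Set.Finite.preimage (f := fun J : (Ideal (𝓞 K))⁰ => (J : Ideal (𝓞 K)))
      Subtype.val_injective.injOn (finite_dvd h𝔪)
  obtain ⟨P, ⟨h1, h2⟩, hP⟩ :=
    ((infinite_primes_in_narrow_ray_class h𝔫 hI).sdiff hfin).nonempty
  exact ⟨P, isCoprime_of_prime h1 (nonZeroDivisors.coe_ne_zero P) hP, h2⟩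

theorem isCoprime_mono {I : Ideal (𝓞 K)} (hle : 𝔪 ≤ 𝔫) (h : IsCoprime I 𝔪) :
    IsCoprime I 𝔫 := by
  rw [Ideal.isCoprime_iff_sup_eq] at h ⊢
  exact top_le_iff.mp (h ▸ sup_le_sup_left hle I)

/-- an inverse modulo `𝔪`, prime to `𝔪`, with the same signs -/
theorem exists_inv_pos (h𝔪 : 𝔪 ≠ ⊥) {a : 𝓞 K} (ha : a ≠ 0)
    (hc : IsCoprime (Ideal.span {a}) 𝔪) : ∃ z : 𝓞 K, z ≠ 0 ∧ IsCoprime (Ideal.span {z}) 𝔪 ∧
      z * a - 1 ∈ 𝔪 ∧ ∀ w : RP K, 0 < em w (z : K) * em w (a : K) := by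
  obtain ⟨b, hb⟩ := isCoprime_span_iff.mp hc
  have hbc : IsCoprime (Ideal.span {b}) 𝔪 := isCoprime_span_iff.mpr ⟨a, by rwa [mul_comm]⟩
  obtain ⟨z, h0, h1, h2, h3⟩ := exists_congr_pos h𝔪 h𝔪 hbc ha
  refine ⟨z, h0, h1, ?_, h3⟩
  have : z * a - 1 = (z - b) * a + (b * a - 1) := by ring
  rw [this]
  exact 𝔪.add_mem (𝔪.mul_mem_right _ h2) hb

/-! ### Moduli of definition -/

/-- `ψ` is defined modulo `𝔫` -/
def IsMod (𝔪 : Ideal (𝓞 K)) (ψ : (Ideal (𝓞 K))⁰ →* ℂ) (𝔫 : Ideal (𝓞 K)) : Prop :=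
  ∀ (a : 𝓞 K) (ha : a ≠ 0), IsCoprime (Ideal.span {a}) 𝔪 → a - 1 ∈ 𝔫 →
    (∀ w : RP K, 0 < em w (a : K)) → ψ (sp a ha) = 1

theorem NRayChar.isMod (h : NRayChar 𝔪 ψ) : IsMod 𝔪 ψ 𝔪 := fun _ ha _ h1 h2 => h.cong' ha h1 h2

/-- **the gcd of two moduli of definition** -/
theorem IsMod.sup (h𝔪 : 𝔪 ≠ ⊥) (h : NRayChar 𝔪 ψ) {𝔫₁ 𝔫₂ : Ideal (𝓞 K)} (hle₁ : 𝔪 ≤ 𝔫₁)
    (hle₂ : 𝔪 ≤ 𝔫₂) (h₁ : IsMod 𝔪 ψ 𝔫₁) (h₂ : IsMod 𝔪 ψ 𝔫₂) : IsMod 𝔪 ψ (𝔫₁ ⊔ 𝔫₂) := by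
  intro a ha hac h1 hpos
  obtain ⟨n₁, hn₁, n₂, hn₂, hn⟩ := Submodule.mem_sup.mp h1
  have h𝔫₁ : 𝔫₁ ≠ ⊥ := fun h0 => h𝔪 (le_bot_iff.mp (h0 ▸ hle₁))
  have h𝔫₂ : 𝔫₂ ≠ ⊥ := fun h0 => h𝔪 (le_bot_iff.mp (h0 ▸ hle₂))
  have hc : IsCoprime (Ideal.span {1 + n₂}) (𝔫₁ * 𝔫₂) := by
    refine IsCoprime.mul_right ?_ ?_
    · obtain ⟨b, hb⟩ := isCoprime_span_iff.mp hac
      refine isCoprime_span_iff.mpr ⟨b, ?_⟩
      have : b * (1 + n₂) - 1 = (b * a - 1) - b * n₁ := by linear_combination b * hn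
      rw [this]
      exact 𝔫₁.sub_mem (hle₁ hb) (𝔫₁.mul_mem_left _ hn₁)
    · refine isCoprime_span_iff.mpr ⟨1, ?_⟩
      have : 1 * (1 + n₂) - 1 = n₂ := by ring
      rwa [this]
  obtain ⟨x, hx0, hxc, hx, hxs⟩ := exists_congr h𝔪 (mul_ne_zero h𝔫₁ h𝔫₂) hc ∅
  have hxpos : ∀ w : RP K, 0 < em w (x : K) := fun w => (hxs w).2 (Finset.notMem_empty w)
  have e1 : ψ (sp x hx0) = 1 := by
    refine h₂ x hx0 hxc ?_ hxpos
    have : x - 1 = (x - (1 + n₂)) + n₂ := by ring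
    rw [this]
    exact 𝔫₂.add_mem (Ideal.mul_le_right hx) hn₂
  obtain ⟨z, hz0, hzc, hz, hzs⟩ := exists_inv_pos h𝔪 hx0 hxc
  have hzpos : ∀ w : RP K, 0 < em w (z : K) := fun w => pos_of_mul_pos_left (hzs w) (hxpos w).le
  have e2 : ψ (sp z hz0) * ψ (sp x hx0) = 1 := by
    rw [← map_mul, ← sp_mul hz0 hx0]
    refine h.cong' _ hz fun w => ?_
    rw [em_mulF]
    exact hzs w
  have e3 : ψ (sp z hz0) * ψ (sp a ha) = 1 := by
    rw [← map_mul, ← sp_mul hz0 ha]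
    refine h₁ _ _ ?_ ?_ fun w => ?_
    · rw [← Ideal.span_singleton_mul_span_singleton]
      exact IsCoprime.mul_left hzc hac
    · have : z * a - 1 = z * (n₁ - (x - (1 + n₂))) + (z * x - 1) := by
        linear_combination (-z) * hn
      rw [this]
      exact 𝔫₁.add_mem (𝔫₁.mul_mem_left _ (𝔫₁.sub_mem hn₁ (Ideal.mul_le_left hx))) (hle₁ hz)
    · rw [em_mulF]
      exact mul_pos (hzpos w) (hpos w)
  rw [e1, mul_one] at e2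
  rwa [e2, one_mul] at e3

/-- the greatest modulus of definition -/
theorem exists_greatest (h𝔪 : 𝔪 ≠ ⊥) (h : NRayChar 𝔪 ψ) :
    ∃ 𝔣 : Ideal (𝓞 K), 𝔪 ≤ 𝔣 ∧ IsMod 𝔪 ψ 𝔣 ∧ ∀ 𝔫, 𝔪 ≤ 𝔫 → IsMod 𝔪 ψ 𝔫 → 𝔫 ≤ 𝔣 := by
  obtain ⟨𝔣, ⟨h1, h2⟩, hmax⟩ := WellFounded.has_min
    (wellFounded_gt : WellFounded ((· > ·) : Ideal (𝓞 K) → Ideal (𝓞 K) → Prop))
    {𝔫 | 𝔪 ≤ 𝔫 ∧ IsMod 𝔪 ψ 𝔫} ⟨𝔪, le_rfl, h.isMod⟩
  refine ⟨𝔣, h1, h2, fun 𝔫 h3 h4 => ?_⟩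
  by_contra hcon
  exact hmax (𝔣 ⊔ 𝔫) ⟨h1.trans le_sup_left, h2.sup h𝔪 h h1 h3 h4⟩
    (left_lt_sup.mpr hcon)

/-- **`ψ` depends only on the narrow class modulo a modulus of definition.** -/
theorem IsMod.psi_eq (h𝔪 : 𝔪 ≠ ⊥) (h : NRayChar 𝔪 ψ) (hle : 𝔪 ≤ 𝔫) (h1 : IsMod 𝔪 ψ 𝔫)
    {I J : (Ideal (𝓞 K))⁰} (hI : IsCoprime (I : Ideal (𝓞 K)) 𝔪)
    (hJ : IsCoprime (J : Ideal (𝓞 K)) 𝔪) (hIJ : NRayEq 𝔫 I J) : ψ I = ψ J := by
  obtain ⟨a, b, ha, hb, hac, hab, hs, he⟩ := hIJ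
  obtain ⟨L, b', hb', hL, hbc', hIL⟩ := exists_mul_eq_span h𝔪 hI
  -- `a b' = b a'`
  have h2 : Ideal.span {a * b'} = Ideal.span {b} * ((J : Ideal (𝓞 K)) * (L : Ideal (𝓞 K))) := by
    rw [← Ideal.span_singleton_mul_span_singleton, ← hIL, ← mul_assoc, he, mul_assoc]
  obtain ⟨a', haa⟩ : ∃ a' : 𝓞 K, a * b' = b * a' := by
    have h3 : a * b' ∈ Ideal.span {b} := by
      refine Ideal.mul_le_left (I := Ideal.span {b}) (J := (J : Ideal (𝓞 K)) * (L : Ideal (𝓞 K))) ?_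
      rw [← h2]
      exact Ideal.mem_span_singleton_self _
    exact Ideal.mem_span_singleton.mp h3
  have ha'0 : a' ≠ 0 := by
    rintro rfl
    rw [mul_zero] at haa
    exact mul_ne_zero ha hb' haa
  have h4 : Ideal.span {a'} = (J : Ideal (𝓞 K)) * (L : Ideal (𝓞 K)) := by
    rw [haa, ← Ideal.span_singleton_mul_span_singleton] at h2
    refine mul_left_cancel₀ ?_ h2
    rwa [Ne, Ideal.zero_eq_bot, Ideal.span_singleton_eq_bot]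
  have hac' : IsCoprime (Ideal.span {a'}) 𝔪 := by
    rw [h4]
    exact IsCoprime.mul_left hJ hL
  have hsgn : ∀ w : RP K, 0 < em w (a' : K) * em w (b' : K) := by
    intro w
    have h5 := hs w
    have h6 := congrArg (fun x : 𝓞 K => em w (x : K)) haa
    simp only [em_mulF] at h6
    have hbw := em_ne_zeroF w hb
    have hbw' := em_ne_zeroF w hb'
    have h7 : (em w (a' : K) * em w (b' : K)) * (em w (b : K) * em w (b : K)) =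
        (em w (a : K) * em w (b : K)) * (em w (b' : K) * em w (b' : K)) := by
      linear_combination (-(em w (b' : K) * em w (b : K))) * h6
    have h8 : 0 < em w (b : K) * em w (b : K) := mul_self_pos.mpr hbw
    have h9 : 0 < em w (b' : K) * em w (b' : K) := mul_self_pos.mpr hbw'
    exact pos_of_mul_pos_left (h7 ▸ mul_pos h5 h9) h8.le
  have hcongr : a' - b' ∈ 𝔫 := by
    have hbc : IsCoprime (Ideal.span {b}) 𝔫 := by
      obtain ⟨c, hc⟩ := isCoprime_span_iff.mp hac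
      refine isCoprime_span_iff.mpr ⟨c, ?_⟩
      have : c * b - 1 = (c * a - 1) - c * (a - b) := by ring
      rw [this]
      exact 𝔫.sub_mem hc (𝔫.mul_mem_left _ hab)
    obtain ⟨c, hc⟩ := isCoprime_span_iff.mp hbc
    have : a' - b' = c * (b' * (a - b)) - (c * b - 1) * (a' - b') := by
      linear_combination (-c) * haa
    rw [this]
    exact 𝔫.sub_mem (𝔫.mul_mem_left _ (𝔫.mul_mem_left _ hab)) (𝔫.mul_mem_right _ hc)
  obtain ⟨z, hz0, hzc, hz, hzs⟩ := exists_inv_pos h𝔪 ha'0 hac'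
  have e1 : ψ (sp z hz0) * ψ (sp a' ha'0) = 1 := by
    rw [← map_mul, ← sp_mul hz0 ha'0]
    refine h.cong' _ hz fun w => ?_
    rw [em_mulF]
    exact hzs w
  have e2 : ψ (sp z hz0) * ψ (sp b' hb') = 1 := by
    rw [← map_mul, ← sp_mul hz0 hb']
    refine h1 _ _ ?_ ?_ fun w => ?_
    · rw [← Ideal.span_singleton_mul_span_singleton]
      exact IsCoprime.mul_left hzc hbc'
    · have : z * b' - 1 = (z * a' - 1) - z * (a' - b') := by ring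
      rw [this]
      exact 𝔫.sub_mem (hle hz) (𝔫.mul_mem_left _ hcongr)
    · rw [em_mulF]
      have h5 : 0 < (em w (z : K) * em w (a' : K)) * (em w (a' : K) * em w (b' : K)) :=
        mul_pos (hzs w) (hsgn w)
      have h6 : (em w (z : K) * em w (a' : K)) * (em w (a' : K) * em w (b' : K)) =
          (em w (z : K) * em w (b' : K)) * (em w (a' : K) * em w (a' : K)) := by ring
      rw [h6] at h5
      exact pos_of_mul_pos_left h5 (mul_self_nonneg _)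
  have e3 : ψ (sp a' ha'0) = ψ (sp b' hb') :=
    mul_left_cancel₀ (left_ne_zero_of_mul_eq_one e1) (e1.trans e2.symm)
  have e4 : ψ (sp a' ha'0) = ψ J * ψ L := by
    rw [← map_mul]
    exact congrArg ψ (Subtype.ext h4)
  have e5 : ψ (sp b' hb') = ψ I * ψ L := by
    rw [← map_mul]
    exact congrArg ψ (Subtype.ext hIL.symm)
  rw [e4, e5] at e3
  have hL0 : ψ L ≠ 0 := by
    obtain ⟨S, hS⟩ := h.exists_S h𝔪
    exact ne_zero_of_coprimeN h𝔪 hS hL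
  exact (mul_right_cancel₀ hL0 e3).symm

/-! ### The primitive character -/

section Star

variable (h𝔪 : 𝔪 ≠ ⊥) (h𝔫 : 𝔫 ≠ ⊥) (h : NRayChar 𝔪 ψ) (hle : 𝔪 ≤ 𝔫) (h1 : IsMod 𝔪 ψ 𝔫)

/-- the character modulo `𝔫` -/
def star : (Ideal (𝓞 K))⁰ →* ℂ where
  toFun I := if hI : IsCoprime (I : Ideal (𝓞 K)) 𝔫 then ψ (exists_rep h𝔪 h𝔫 hI).choose else 0
  map_one' := by
    have h0 : IsCoprime ((1 : (Ideal (𝓞 K))⁰) : Ideal (𝓞 K)) 𝔫 := isCoprime_one_left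
    rw [dif_pos h0, ← map_one ψ]
    have hs := (exists_rep h𝔪 h𝔫 h0).choose_spec
    exact h1.psi_eq h𝔪 h hle hs.1 isCoprime_one_left hs.2
  map_mul' I J := by
    by_cases hI : IsCoprime (I : Ideal (𝓞 K)) 𝔫
    · by_cases hJ : IsCoprime (J : Ideal (𝓞 K)) 𝔫
      · have hIJ : IsCoprime ((I * J : (Ideal (𝓞 K))⁰) : Ideal (𝓞 K)) 𝔫 := by
          rw [Submonoid.coe_mul]
          exact IsCoprime.mul_left hI hJ
        rw [dif_pos hI, dif_pos hJ, dif_pos hIJ, ← map_mul]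
        have hs := (exists_rep h𝔪 h𝔫 hI).choose_spec
        have hs' := (exists_rep h𝔪 h𝔫 hJ).choose_spec
        have hs'' := (exists_rep h𝔪 h𝔫 hIJ).choose_spec
        refine h1.psi_eq h𝔪 h hle hs''.1 ?_ ?_
        · rw [Submonoid.coe_mul]
          exact IsCoprime.mul_left hs.1 hs'.1
        · exact hs''.2.trans (NRayEq.symm (NRayEq.mul hs.2 hs'.2))
      · have hIJ : ¬ IsCoprime ((I * J : (Ideal (𝓞 K))⁰) : Ideal (𝓞 K)) 𝔫 := by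
          rw [Submonoid.coe_mul]
          exact fun h2 => hJ h2.of_mul_left_right
        rw [dif_neg hIJ, dif_neg hJ, mul_zero]
    · have hIJ : ¬ IsCoprime ((I * J : (Ideal (𝓞 K))⁰) : Ideal (𝓞 K)) 𝔫 := by
        rw [Submonoid.coe_mul]
        exact fun h2 => hI h2.of_mul_left_left
      rw [dif_neg hIJ, dif_neg hI, zero_mul]

theorem star_eq {I J : (Ideal (𝓞 K))⁰} (hI : IsCoprime (I : Ideal (𝓞 K)) 𝔫)
    (hJ : IsCoprime (J : Ideal (𝓞 K)) 𝔪) (hJI : NRayEq 𝔫 J I) :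
    star h𝔪 h𝔫 h hle h1 I = ψ J := by
  have hs := (exists_rep h𝔪 h𝔫 hI).choose_spec
  have h2 : star h𝔪 h𝔫 h hle h1 I = ψ (exists_rep h𝔪 h𝔫 hI).choose := dif_pos hI
  rw [h2]
  exact h1.psi_eq h𝔪 h hle hs.1 hJ (hs.2.trans hJI.symm)

theorem star_of_coprime {I : (Ideal (𝓞 K))⁰} (hI : IsCoprime (I : Ideal (𝓞 K)) 𝔪) :
    star h𝔪 h𝔫 h hle h1 I = ψ I :=
  star_eq h𝔪 h𝔫 h hle h1 (isCoprime_mono hle hI) hI (NRayEq.refl I)

theorem nrayChar_star : NRayChar 𝔫 (star h𝔪 h𝔫 h hle h1) where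
  norm_le I := by
    change ‖(if hI : IsCoprime (I : Ideal (𝓞 K)) 𝔫 then ψ (exists_rep h𝔪 h𝔫 hI).choose
      else 0 : ℂ)‖ ≤ 1
    split_ifs
    · exact h.norm_le _
    · simp
  eq_zero I hI := dif_neg hI
  cong I a hIa ha hpos := by
    have ha0 : a ≠ 0 := by
      rintro rfl
      rw [Ideal.span_singleton_eq_bot.mpr rfl] at hIa
      exact nonZeroDivisors.coe_ne_zero I hIa
    have hI : IsCoprime (I : Ideal (𝓞 K)) 𝔫 := by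
      rw [hIa]
      exact isCoprime_span_iff.mpr ⟨1, by rwa [one_mul]⟩
    rw [star_eq h𝔪 h𝔫 h hle h1 hI (J := 1) isCoprime_one_left
      (NRayEq.symm (nrayEq_one ha0 ha hpos hIa)), map_one]

end Star

/-- two narrow ray class characters modulo `𝔫` which agree on the ideals prime to `𝔪` -/
theorem eq_of_agree (h𝔪 : 𝔪 ≠ ⊥) (h𝔫 : 𝔫 ≠ ⊥) {ψ₁ ψ₂ : (Ideal (𝓞 K))⁰ →* ℂ}
    (h₁ : NRayChar 𝔫 ψ₁) (h₂ : NRayChar 𝔫 ψ₂)
    (hag : ∀ I : (Ideal (𝓞 K))⁰, IsCoprime (I : Ideal (𝓞 K)) 𝔪 → ψ₁ I = ψ₂ I) : ψ₁ = ψ₂ := by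
  refine MonoidHom.ext fun I => ?_
  by_cases hI : IsCoprime (I : Ideal (𝓞 K)) 𝔫
  · obtain ⟨J, hJ, hJI⟩ := exists_rep h𝔪 h𝔫 hI
    have hJ' : IsCoprime (J : Ideal (𝓞 K)) 𝔫 := by
      obtain ⟨a, b, ha, hb, hac, hab, hs, he⟩ := hJI
      have hbc : IsCoprime (Ideal.span {b}) 𝔫 := by
        obtain ⟨c, hc⟩ := isCoprime_span_iff.mp hac
        refine isCoprime_span_iff.mpr ⟨c, ?_⟩
        have : c * b - 1 = (c * a - 1) - c * (a - b) := by ring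
        rw [this]
        exact 𝔫.sub_mem hc (𝔫.mul_mem_left _ hab)
      have h3 : IsCoprime (Ideal.span {a} * (J : Ideal (𝓞 K))) 𝔫 := by
        rw [he]
        exact IsCoprime.mul_left hbc hI
      exact h3.of_mul_left_right
    have e1 := h₁.isMod.psi_eq h𝔫 h₁ le_rfl hJ' hI hJI
    have e2 := h₂.isMod.psi_eq h𝔫 h₂ le_rfl hJ' hI hJI
    rw [← e1, ← e2, hag J hJ]
  · rw [h₁.eq_zero I hI, h₂.eq_zero I hI]

/-- **The conductor**: every narrow ray class character modulo `𝔪` is induced by a unique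
primitive one. -/
theorem exists_unique_primitive (h𝔪 : 𝔪 ≠ ⊥) (h : NRayChar 𝔪 ψ) :
    ∃! p : Ideal (𝓞 K) × ((Ideal (𝓞 K))⁰ →* ℂ), 𝔪 ≤ p.1 ∧ NRayChar p.1 p.2 ∧ IsPrimC p.1 p.2 ∧
      ∀ I : (Ideal (𝓞 K))⁰, IsCoprime (I : Ideal (𝓞 K)) 𝔪 → ψ I = p.2 I := by
  obtain ⟨𝔣, hle, hmod, hmax⟩ := exists_greatest h𝔪 h
  have h𝔣 : 𝔣 ≠ ⊥ := fun h0 => h𝔪 (le_bot_iff.mp (h0 ▸ hle))
  refine ⟨(𝔣, star h𝔪 h𝔣 h hle hmod), ⟨hle, nrayChar_star h𝔪 h𝔣 h hle hmod, ?_,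
    fun I hI => (star_of_coprime h𝔪 h𝔣 h hle hmod hI).symm⟩, ?_⟩
  · intro 𝔫 hle' hne
    have h1 : ¬ IsMod 𝔪 ψ 𝔫 := fun h2 => hne (le_antisymm (hmax 𝔫 (hle.trans hle') h2) hle')
    unfold IsMod at h1
    push Not at h1
    obtain ⟨a, ha, hac, ha1, hpos, hψ⟩ := h1
    refine ⟨a, ha, isCoprime_mono hle hac, ha1, hpos, ?_⟩
    have h2 : star h𝔪 h𝔣 h hle hmod (sp a ha) = ψ (sp a ha) :=
      star_of_coprime h𝔪 h𝔣 h hle hmod (I := sp a ha) hac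
    change star h𝔪 h𝔣 h hle hmod (sp a ha) ≠ 1
    rwa [h2]
  · rintro ⟨𝔣', ψ'⟩ ⟨hle', hψ', hprim, hag⟩
    change 𝔪 ≤ 𝔣' at hle'
    change NRayChar 𝔣' ψ' at hψ'
    change IsPrimC 𝔣' ψ' at hprim
    change ∀ I : (Ideal (𝓞 K))⁰, IsCoprime (I : Ideal (𝓞 K)) 𝔪 → ψ I = ψ' I at hag
    have h𝔣' : 𝔣' ≠ ⊥ := fun h0 => h𝔪 (le_bot_iff.mp (h0 ▸ hle'))
    have hle2 : 𝔣' ≤ 𝔣 := by
      refine hmax 𝔣' hle' fun a ha hac ha1 hpos => ?_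
      have h2 := hag (sp a ha) hac
      rw [h2]
      exact hψ'.cong' ha ha1 hpos
    have heq : 𝔣 = 𝔣' := by
      by_contra hne
      obtain ⟨a, ha, hac, ha1, hpos, hψ1⟩ := hprim 𝔣 hle2 hne
      obtain ⟨x, hx0, hxc, hxa, hxs⟩ := exists_congr_pos h𝔪 h𝔣' hac ha
      have hxpos : ∀ w : RP K, 0 < em w (x : K) := fun w =>
        pos_of_mul_pos_left (hxs w) (hpos w).le
      apply hψ1
      have e1 : NRayEq 𝔣' (sp a ha) (sp x hx0) := by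
        refine ⟨x, a, hx0, ha, isCoprime_mono hle' hxc, hxa, hxs, ?_⟩
        change Ideal.span {x} * Ideal.span {a} = Ideal.span {a} * Ideal.span {x}
        rw [mul_comm]
      have e2 := hψ'.isMod.psi_eq h𝔣' hψ' le_rfl (I := sp a ha) (J := sp x hx0) hac
        (isCoprime_mono hle' hxc) e1
      have e3 := hag (sp x hx0) hxc
      rw [e2, ← e3]
      refine hmod x hx0 hxc ?_ hxpos
      have : x - 1 = (x - a) + (a - 1) := by ring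
      rw [this]
      exact 𝔣.add_mem (hle2 hxa) ha1
    subst heq
    rw [Prod.mk.injEq]
    refine ⟨rfl, eq_of_agree h𝔪 h𝔣 hψ' (nrayChar_star h𝔪 h𝔣 h hle hmod) fun I hI => ?_⟩
    rw [star_of_coprime h𝔪 h𝔣 h hle hmod hI, hag I hI]

/-! ### Euler factors -/

section Euler

open Fermat.Agent.Cor.Psi

/-- two completely multiplicative functions which agree outside a finite set of primes, where the
first is zero -/
theorem Ls_eq_mul_prod {ψ ψ' : (Ideal (𝓞 K))⁰ →* ℂ} (hu : ∀ I, ‖ψ I‖ ≤ 1) (hu' : ∀ I, ‖ψ' I‖ ≤ 1)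
    {T : Finset (Pr K)} (h0 : ∀ P ∈ T, ψ P.1 = 0) (h1 : ∀ P ∉ T, ψ P.1 = ψ' P.1) {s : ℂ}
    (hs : 1 < s.re) : Ray.Ls ψ s = Ray.Ls ψ' s *
      ∏ P ∈ T, (1 - ψ' P.1 * (Ideal.absNorm (P.1 : Ideal (𝓞 K)) : ℂ) ^ (-s)) := by
  have hsum := summable_log (summable_norm_psHom (K := K) hu' hs)
  have hne : ∀ P : Pr K, 1 - psHom ψ' s P.1 ≠ 0 := fun P =>
    one_sub_ne_zero (summable_norm_psHom hu' hs) P
  have h3 : HasSum (fun P : Pr K => -Complex.log (1 - psHom ψ s P.1) -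
      -Complex.log (1 - psHom ψ' s P.1)) (∑ P ∈ T, Complex.log (1 - psHom ψ' s P.1)) := by
    have h4 : ∀ P : Pr K, -Complex.log (1 - psHom ψ s P.1) - -Complex.log (1 - psHom ψ' s P.1) =
        if P ∈ T then Complex.log (1 - psHom ψ' s P.1) else 0 := by
      intro P
      by_cases hP : P ∈ T
      · rw [if_pos hP, psHom_apply ψ, h0 P hP, zero_mul, sub_zero, Complex.log_one, neg_zero,
          zero_sub, neg_neg]
      · rw [if_neg hP, psHom_apply, psHom_apply, h1 P hP, sub_self]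
    simp only [h4]
    have h5 : HasSum (fun P : Pr K => if P ∈ T then Complex.log (1 - psHom ψ' s P.1) else 0)
        (∑ P ∈ T, if P ∈ T then Complex.log (1 - psHom ψ' s P.1) else 0) :=
      hasSum_sum_of_ne_finset_zero (fun P hP => if_neg hP)
    rw [Finset.sum_congr rfl (fun P hP => if_pos hP)] at h5
    exact h5
  have h6 : ∑' P : Pr K, -Complex.log (1 - psHom ψ s P.1) =
      (∑' P : Pr K, -Complex.log (1 - psHom ψ' s P.1)) +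
        ∑ P ∈ T, Complex.log (1 - psHom ψ' s P.1) := by
    rw [← h3.tsum_eq, ← hsum.tsum_add h3.summable]
    refine tsum_congr fun P => ?_
    ring
  change Lp ψ s = Lp ψ' s * _
  rw [← exp_tsum_log_ps hu hs, h6, Complex.exp_add, exp_tsum_log_ps hu' hs, Complex.exp_sum]
  congr 1
  exact Finset.prod_congr rfl fun P _ => Complex.exp_log (hne P)

/-- the primes dividing `𝔪` -/
def badPr (h𝔪 : 𝔪 ≠ ⊥) : Finset (Pr K) :=
  (Set.Finite.preimage (f := fun P : Pr K => ((P.1 : (Ideal (𝓞 K))⁰) : Ideal (𝓞 K)))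
    (fun _ _ _ _ h => Subtype.ext (Subtype.ext h)) (finite_dvd h𝔪)).toFinset

theorem mem_badPr (h𝔪 : 𝔪 ≠ ⊥) (P : Pr K) :
    P ∈ badPr h𝔪 ↔ ((P.1 : (Ideal (𝓞 K))⁰) : Ideal (𝓞 K)) ∣ 𝔪 := by
  rw [badPr, Set.Finite.mem_toFinset]
  rfl

/-- **the `L`-series of an induced character** -/
theorem Ls_induced (h𝔪 : 𝔪 ≠ ⊥) (h : NRayChar 𝔪 ψ) {𝔣 : Ideal (𝓞 K)}
    {ψ' : (Ideal (𝓞 K))⁰ →* ℂ} (h' : NRayChar 𝔣 ψ')
    (hag : ∀ I : (Ideal (𝓞 K))⁰, IsCoprime (I : Ideal (𝓞 K)) 𝔪 → ψ I = ψ' I) {s : ℂ}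
    (hs : 1 < s.re) : Ray.Ls ψ s = Ray.Ls ψ' s *
      ∏ P ∈ badPr h𝔪, (1 - ψ' P.1 * (Ideal.absNorm (P.1 : Ideal (𝓞 K)) : ℂ) ^ (-s)) := by
  refine Ls_eq_mul_prod h.norm_le h'.norm_le (fun P hP => ?_) (fun P hP => ?_) hs
  · refine h.eq_zero _ fun hc => ?_
    rw [mem_badPr] at hP
    have h1 : (((P.1 : (Ideal (𝓞 K))⁰) : Ideal (𝓞 K)) : Ideal (𝓞 K)) = ⊤ := by
      rw [Ideal.isCoprime_iff_sup_eq, sup_eq_left.mpr (Ideal.le_of_dvd hP)] at hc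
      exact hc
    exact P.2.not_isUnit (Ideal.isUnit_iff.mpr h1)
  · rw [mem_badPr] at hP
    exact hag P.1 (isCoprime_of_prime (Ideal.isPrime_of_prime P.2)
      (nonZeroDivisors.coe_ne_zero P.1) hP)

end Euler

end Fermat.Agent.Cor.RayN

end
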