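import Fermat.Agent.Corollaries.Ray.Defs
import Fermat.Agent.Classic.Zeta.Coord

/-!
# Narrow ray classes: weighted theta functions with signs at real places, statements of the pieces

`S` a set of real places, `φ : K → ℂ` a weight with `φ (v x) = sgn_S(v) φ(x)` for the units `v`.
The theta function of `φ` has the additional factor `∏_{w ∈ S} √t_w · x_w`.
-/

set_option autoImplicit false

noncomputable section

namespace Fermat.Agent.Cor.RayN

open NumberField NumberField.InfinitePlace NumberField.Units MeasureTheory Set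
open NumberField.Units.dirichletUnitTheorem
open Fermat.Agent.Classic.Zeta Fermat.Agent.Cor.Ray
open scoped nonZeroDivisors Classical Real

universe u

variable {K : Type u} [Field K] [NumberField K]

variable (K) in
/-- the real places -/
abbrev RP : Type u := {w : InfinitePlace K // IsReal w}

/-- the embedding at a real place -/
def em (w : RP K) : K →+* ℝ := embedding_of_isReal w.2

/-! ### Signs -/

/-- the product of the embeddings in `S` -/
def pS (S : Finset (RP K)) (x : K) : ℝ := ∏ w ∈ S, em w x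

/-- the sign character of `S` -/
def sg (S : Finset (RP K)) (x : K) : ℝ := ((SignType.sign (pS S x) : SignType) : ℝ)

/-- the summand of the theta function -/
def ES (S : Finset (RP K)) (t : InfinitePlace K → ℝ) (x : K) : ℝ :=
  (∏ w ∈ S, √(t w.1)) * pS S x * E t x

omit [NumberField K] in
theorem abs_em (w : RP K) (x : K) : |em w x| = w.1 x := by
  rw [em, ← Real.norm_eq_abs, norm_embedding_of_isReal]

omit [NumberField K] in
theorem pS_mul (S : Finset (RP K)) (x y : K) : pS S (x * y) = pS S x * pS S y := by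
  unfold pS
  rw [← Finset.prod_mul_distrib]
  exact Finset.prod_congr rfl fun w _ => map_mul _ _ _

omit [NumberField K] in
theorem pS_one (S : Finset (RP K)) : pS S (1 : K) = 1 := by
  unfold pS
  exact Finset.prod_eq_one fun w _ => map_one _

omit [NumberField K] in
theorem pS_zero {S : Finset (RP K)} (hS : S.Nonempty) : pS S (0 : K) = 0 := by
  obtain ⟨w, hw⟩ := hS
  exact Finset.prod_eq_zero hw (map_zero _)

omit [NumberField K] in
theorem pS_ne_zero (S : Finset (RP K)) {x : K} (hx : x ≠ 0) : pS S x ≠ 0 :=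
  Finset.prod_ne_zero_iff.mpr fun w _ => (map_ne_zero (em w)).mpr hx

omit [NumberField K] in
theorem abs_pS (S : Finset (RP K)) (x : K) : |pS S x| = ∏ w ∈ S, w.1 x := by
  unfold pS
  rw [Finset.abs_prod]
  exact Finset.prod_congr rfl fun w _ => abs_em w x

omit [NumberField K] in
theorem sg_mul (S : Finset (RP K)) (x y : K) : sg S (x * y) = sg S x * sg S y := by
  unfold sg
  rw [pS_mul, sign_mul, SignType.coe_mul]

omit [NumberField K] in
theorem sg_one (S : Finset (RP K)) : sg S (1 : K) = 1 := by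
  unfold sg
  rw [pS_one, sign_one, SignType.coe_one]

omit [NumberField K] in
theorem sg_empty (x : K) : sg (∅ : Finset (RP K)) x = 1 := by
  unfold sg pS
  rw [Finset.prod_empty, sign_one, SignType.coe_one]

omit [NumberField K] in
theorem sg_mul_abs (S : Finset (RP K)) (x : K) : sg S x * |pS S x| = pS S x :=
  sign_mul_abs (pS S x)

omit [NumberField K] in
theorem sg_eq (S : Finset (RP K)) {x : K} (hx : x ≠ 0) : sg S x = 1 ∨ sg S x = -1 := by
  unfold sg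
  rcases lt_or_gt_of_ne (pS_ne_zero S hx) with h | h
  · right
    rw [sign_neg h, SignType.coe_neg_one]
  · left
    rw [sign_pos h, SignType.coe_one]

omit [NumberField K] in
theorem sg_sq (S : Finset (RP K)) {x : K} (hx : x ≠ 0) : sg S x * sg S x = 1 := by
  rcases sg_eq S hx with h | h <;> rw [h] <;> norm_num

omit [NumberField K] in
theorem abs_sg (S : Finset (RP K)) {x : K} (hx : x ≠ 0) : |sg S x| = 1 := by
  rcases sg_eq S hx with h | h <;> rw [h] <;> norm_num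

omit [NumberField K] in
theorem sg_of_pos (S : Finset (RP K)) {x : K} (hx : ∀ w : RP K, 0 < em w x) : sg S x = 1 := by
  have h : 0 < pS S x := Finset.prod_pos fun w _ => hx w
  unfold sg
  rw [sign_pos h, SignType.coe_one]

omit [NumberField K] in
/-- two elements with the same signs -/
theorem sg_congr (S : Finset (RP K)) {x y : K} (h : ∀ w : RP K, 0 < em w x * em w y) :
    sg S x = sg S y := by
  have hx : ∀ w : RP K, x ≠ 0 := fun w h0 => by
    have := h w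
    rw [h0, map_zero, zero_mul] at this
    exact lt_irrefl _ this
  by_cases hS : S.Nonempty
  · obtain ⟨w, hw⟩ := hS
    have hx0 := hx w
    have h1 : sg S (x * y) = 1 := sg_of_pos S fun w => by rw [map_mul]; exact h w
    rw [sg_mul] at h1
    have h2 := sg_sq S hx0
    calc sg S x = sg S x * (sg S x * sg S y) := by rw [h1, mul_one]
      _ = sg S x * sg S x * sg S y := by ring
      _ = sg S y := by rw [h2, one_mul]
  · rw [Finset.not_nonempty_iff_eq_empty] at hS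
    rw [hS, sg_empty, sg_empty]

/-! ### The summand of the theta function -/

theorem ES_zero {S : Finset (RP K)} (hS : S.Nonempty) (t : InfinitePlace K → ℝ) :
    ES S t (0 : K) = 0 := by
  rw [ES, pS_zero hS, mul_zero, zero_mul]

/-- the action of the units -/
theorem ES_mul (S : Finset (RP K)) (x : ℝ) (y : logSpace K) (v : (𝓞 K)ˣ) (a : K) :
    ES S (tt x y) (((v : 𝓞 K) : K) * a) =
      sg S (v : K) * ES S (tt x (y + logEmbedding K (Additive.ofMul v))) a := by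
  have h1 : ∏ w ∈ S, √(tt x (y + logEmbedding K (Additive.ofMul v)) w.1) =
      (∏ w ∈ S, √(tt x y w.1)) * |pS S (v : K)| := by
    rw [abs_pS, ← Finset.prod_mul_distrib]
    refine Finset.prod_congr rfl fun w _ => ?_
    have h0 : 0 ≤ tt x y w.1 := by rw [tt_eq]; positivity
    rw [tt_add, Real.sqrt_mul h0, Real.sqrt_sq (apply_nonneg w.1 _)]
  have h2 := sg_mul_abs S (v : K)
  rw [ES, ES, E_mul, pS_mul, h1]
  linear_combination (-(∏ w ∈ S, √(tt x y w.1)) * pS S a *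
    E (tt x (y + logEmbedding K (Additive.ofMul v))) a) * h2

/-- **the bound**: `|ES S t x| ≤ E (t / 2) x` -/
theorem abs_ES_le (S : Finset (RP K)) {t : InfinitePlace K → ℝ} (ht : ∀ w, 0 ≤ t w) (x : K) :
    |ES S t x| ≤ E (fun w => t w / 2) x := by
  have hexp : ∀ u : ℝ, 0 ≤ u → u ≤ Real.exp (π * (u ^ 2 / 2)) := fun u _ => by
    have h1 := Real.add_one_le_exp (π * (u ^ 2 / 2))
    have h2 := Real.pi_gt_three
    nlinarith [sq_nonneg (u - 1), sq_nonneg u]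
  have h1 : |∏ w ∈ S, √(t w.1)| * |pS S x| ≤ Real.exp (π * ∑ w ∈ S, (t w.1 * w.1 x ^ 2) / 2) := by
    rw [abs_pS, abs_of_nonneg (Finset.prod_nonneg fun w _ => Real.sqrt_nonneg _),
      ← Finset.prod_mul_distrib, Finset.mul_sum, Real.exp_sum]
    refine Finset.prod_le_prod (fun w _ => by positivity) fun w _ => ?_
    have h3 := hexp (√(t w.1) * w.1 x) (by positivity)
    rw [mul_pow, Real.sq_sqrt (ht _)] at h3
    exact h3
  have h2 : ∑ w ∈ S, (t w.1 * w.1 x ^ 2) / 2 ≤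
      ∑ w : InfinitePlace K, (w.mult : ℝ) * (t w / 2 * w x ^ 2) := by
    have h3 : ∑ w ∈ S, (t w.1 * w.1 x ^ 2) / 2 =
        ∑ w ∈ S.map (Function.Embedding.subtype _), (t w * w x ^ 2) / 2 := by
      rw [Finset.sum_map]
      rfl
    rw [h3]
    refine (Finset.sum_le_sum fun w _ => ?_).trans
      (Finset.sum_le_sum_of_subset_of_nonneg (Finset.subset_univ _) fun w _ _ => ?_)
    · have h4 : (1 : ℝ) ≤ w.mult := by exact_mod_cast w.mult_pos
      have h5 : 0 ≤ t w / 2 * w x ^ 2 := mul_nonneg (div_nonneg (ht w) zero_le_two) (sq_nonneg _)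
      nlinarith
    · exact mul_nonneg (Nat.cast_nonneg _) (mul_nonneg (div_nonneg (ht w) zero_le_two) (sq_nonneg _))
  have h3 : E t x = Real.exp (-π * ∑ w : InfinitePlace K, (w.mult : ℝ) * (t w / 2 * w x ^ 2)) *
      E (fun w => t w / 2) x := by
    rw [E, E, ← Real.exp_add, ← mul_add, ← Finset.sum_add_distrib]
    congr 2
    exact Finset.sum_congr rfl fun w _ => by ring
  rw [ES, abs_mul, abs_mul, abs_of_pos (E_pos t x), h3, ← mul_assoc]
  refine mul_le_of_le_one_left (E_pos _ _).le ?_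
  calc |∏ w ∈ S, √(t w.1)| * |pS S x| *
        Real.exp (-π * ∑ w : InfinitePlace K, (w.mult : ℝ) * (t w / 2 * w x ^ 2))
      ≤ Real.exp (π * ∑ w ∈ S, (t w.1 * w.1 x ^ 2) / 2) *
        Real.exp (-π * ∑ w : InfinitePlace K, (w.mult : ℝ) * (t w / 2 * w x ^ 2)) :=
        mul_le_mul_of_nonneg_right h1 (Real.exp_pos _).le
    _ = Real.exp (π * (∑ w ∈ S, (t w.1 * w.1 x ^ 2) / 2 -
        ∑ w : InfinitePlace K, (w.mult : ℝ) * (t w / 2 * w x ^ 2))) := by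
        rw [← Real.exp_add]
        congr 1
        ring
    _ ≤ 1 := by
        rw [Real.exp_le_one_iff]
        exact mul_nonpos_of_nonneg_of_nonpos Real.pi_pos.le (sub_nonpos.mpr h2)

/-! ### Weights -/

/-- a weight of sign type `S` -/
structure IsWtS (S : Finset (RP K)) (𝔟 𝔠 : FractionalIdeal (𝓞 K)⁰ K) (φ : K → ℂ) : Prop where
  hb : 𝔟 ≠ 0
  hc : 𝔠 ≠ 0
  le : 𝔠 ≤ 𝔟
  supp : ∀ x, x ∉ 𝔟 → φ x = 0
  per : ∀ x, ∀ c ∈ 𝔠, φ (x + c) = φ x
  unit : ∀ (v : (𝓞 K)ˣ) (x : K), φ (((v : 𝓞 K) : K) * x) = (sg S (v : K) : ℂ) * φ x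
  bdd : ∃ M : ℝ, ∀ x, ‖φ x‖ ≤ M

/-- the weighted theta function of sign type `S` -/
def ΘS (S : Finset (RP K)) (φ : K → ℂ) (t : InfinitePlace K → ℝ) : ℂ :=
  ∑' x : K, φ x * (ES S t x : ℂ)

/-- integrated over the torus -/
def FS (S : Finset (RP K)) (β : logSpace K → ℝ) (φ : K → ℂ) (x : ℝ) : ℂ :=
  ∫ y, ΘS S φ (tt x y) * (β y : ℂ)

/-- `(φ, φ')` is a pair of weights with theta inversion (same shape as `Ray.IsInv`: the factor
`∏ √t_w` in `ES` absorbs the change of weight; the power of `i` is in `φ'`). -/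
def IsInvS (S : Finset (RP K)) (𝔠 : FractionalIdeal (𝓞 K)⁰ K) (φ φ' : K → ℂ) : Prop :=
  ∀ t : InfinitePlace K → ℝ, (∀ w, 0 < t w) →
    ΘS S φ t = (((√|(discr K : ℝ)| * nF 𝔠 * ∏ w : InfinitePlace K, t w ^ ((w.mult : ℝ) / 2))⁻¹ : ℝ) :
      ℂ) * ΘS S φ' (fun w => (t w)⁻¹)

variable (K) in
/-- the Gamma factor -/
def gamS (S : Finset (RP K)) (s : ℂ) : ℂ :=
  Complex.Gammaℝ s ^ (nrRealPlaces K - S.card) * Complex.Gammaℝ (s + 1) ^ S.card *
    Complex.Gammaℂ s ^ nrComplexPlaces K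

/-! ### The analytic pieces -/

/-- (A) ThetaS.lean: theta inversion with weights and signs -/
def ThetaSStmt (K : Type u) [Field K] [NumberField K] : Prop :=
  ∀ (S : Finset (RP K)) (𝔟 𝔠 : FractionalIdeal (𝓞 K)⁰ K) (φ : K → ℂ), IsWtS S 𝔟 𝔠 φ →
    ∃ φ' : K → ℂ, IsWtS S (dualF 𝔠) (dualF 𝔟) φ' ∧ IsInvS S 𝔠 φ φ'

/-- (B) UnfoldS.lean: unfolding, pointwise in `x` -/
def UnfoldSStmt (K : Type u) [Field K] [NumberField K] : Prop :=
  ∀ S : Finset (RP K), S.Nonempty → ∀ β : logSpace K → ℝ, IsBeta β →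
    ∀ (𝔟 𝔠 : FractionalIdeal (𝓞 K)⁰ K) (φ : K → ℂ), IsWtS S 𝔟 𝔠 φ →
      ∀ (ι : Type u) (g : ι → K), IsGen 𝔟 g → ∀ x : ℝ, 0 < x →
        HasSum (fun i => φ (g i) * ((∫ y : logSpace K, ES S (tt x y) (g i) : ℝ) : ℂ)) (FS S β φ x)

/-- (B') UnfoldS.lean: the functional equation of the integrated theta function -/
def TorusSStmt (K : Type u) [Field K] [NumberField K] : Prop :=
  ∀ S : Finset (RP K), S.Nonempty → ∀ β : logSpace K → ℝ, IsBeta β →
    ∀ (𝔟 𝔠 : FractionalIdeal (𝓞 K)⁰ K) (φ φ' : K → ℂ),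
      IsWtS S 𝔟 𝔠 φ → IsWtS S (dualF 𝔠) (dualF 𝔟) φ' → IsInvS S 𝔠 φ φ' → ∀ x : ℝ, 0 < x →
        FS S β φ x⁻¹ = ((√|(discr K : ℝ)| * nF 𝔠 : ℝ) : ℂ)⁻¹ *
          (x : ℂ) ^ (Module.finrank ℚ K) * FS S β φ' x

/-- (C) DecayS.lean -/
def DecaySStmt (K : Type u) [Field K] [NumberField K] : Prop :=
  ∀ S : Finset (RP K), S.Nonempty → ∀ β : logSpace K → ℝ, IsBeta β →
    ∀ (𝔟 𝔠 : FractionalIdeal (𝓞 K)⁰ K) (φ : K → ℂ), IsWtS S 𝔟 𝔠 φ →
      LocallyIntegrableOn (FS S β φ) (Ioi 0) ∧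
      ∀ r : ℝ, (FS S β φ) =O[Filter.atTop] (fun x : ℝ => x ^ r)

/-- (D0) GammaS.lean -/
def GammaSStmt (K : Type u) [Field K] [NumberField K] : Prop :=
  ∀ S : Finset (RP K), ∃ c : ℝ, 0 < c ∧ ∀ a : K, a ≠ 0 → ∀ s : ℂ, 0 < s.re →
    IntegrableOn (fun p : ℝ × logSpace K =>
      (p.1 : ℂ) ^ ((Module.finrank ℚ K : ℂ) * s - 1) * (ES S (tt p.1 p.2) a : ℂ)) (Ioi 0 ×ˢ univ) ∧
    ∫ x in Ioi (0 : ℝ), ∫ y : logSpace K,
      (x : ℂ) ^ ((Module.finrank ℚ K : ℂ) * s - 1) * (ES S (tt x y) a : ℂ) =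
      c * gamS K S s * (sg S a : ℂ) * (((|Algebra.norm ℚ a| : ℚ) : ℂ)) ^ (-s)

/-- (D) MellinS.lean -/
def MellinSStmt (K : Type u) [Field K] [NumberField K] : Prop :=
  ∀ S : Finset (RP K), S.Nonempty → ∃ c : ℝ, 0 < c ∧ ∀ β : logSpace K → ℝ, IsBeta β →
    ∀ (𝔟 𝔠 : FractionalIdeal (𝓞 K)⁰ K) (φ : K → ℂ), IsWtS S 𝔟 𝔠 φ →
      ∀ (ι : Type u) (g : ι → K), IsGen 𝔟 g → ∀ s : ℂ, 1 < s.re →
        Summable (fun i => φ (g i) * (sg S (g i) : ℂ) *
          (((|Algebra.norm ℚ (g i)| : ℚ) : ℂ)) ^ (-s)) ∧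
        mellin (FS S β φ) ((Module.finrank ℚ K : ℂ) * s) =
          c * gamS K S s * ∑' i, φ (g i) * (sg S (g i) : ℂ) *
            (((|Algebra.norm ℚ (g i)| : ℚ) : ℂ)) ^ (-s)

/-- (E) EntireS.lean: **the output of the analytic part**. -/
def EntireSStmt (K : Type u) [Field K] [NumberField K] : Prop :=
  ∀ S : Finset (RP K), S.Nonempty →
    ∀ (𝔟 𝔠 : FractionalIdeal (𝓞 K)⁰ K) (φ : K → ℂ), IsWtS S 𝔟 𝔠 φ →
      ∃ A : ℂ → ℂ, Differentiable ℂ A ∧
        ∀ (ι : Type u) (g : ι → K), IsGen 𝔟 g → ∀ s : ℂ, 1 < s.re →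
          ∑' i, φ (g i) * (sg S (g i) : ℂ) * (((|Algebra.norm ℚ (g i)| : ℚ) : ℂ)) ^ (-s) = A s

/-! ### Narrow ray class characters -/

/-- Narrow ray class characters modulo `𝔪` (times all real places), as functions on the nonzero
integral ideals, extended by zero. -/
structure NRayChar (𝔪 : Ideal (𝓞 K)) (ψ : (Ideal (𝓞 K))⁰ →* ℂ) : Prop where
  norm_le : ∀ I, ‖ψ I‖ ≤ 1
  eq_zero : ∀ I : (Ideal (𝓞 K))⁰, ¬ IsCoprime (I : Ideal (𝓞 K)) 𝔪 → ψ I = 0
  cong : ∀ (I : (Ideal (𝓞 K))⁰) (a : 𝓞 K), (I : Ideal (𝓞 K)) = Ideal.span {a} → a - 1 ∈ 𝔪 →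
    (∀ w : RP K, 0 < em w (a : K)) → ψ I = 1

/-- (F) EntireN.lean: the `L`-function of a non-trivial narrow ray class character is entire -/
def EntireNStmt (K : Type u) [Field K] [NumberField K] : Prop :=
  ∀ (𝔪 : Ideal (𝓞 K)), 𝔪 ≠ ⊥ → ∀ (ψ : (Ideal (𝓞 K))⁰ →* ℂ), NRayChar 𝔪 ψ →
    (∃ I : (Ideal (𝓞 K))⁰, IsCoprime (I : Ideal (𝓞 K)) 𝔪 ∧ ψ I ≠ 1) →
      ∃ L : ℂ → ℂ, Differentiable ℂ L ∧ ∀ s : ℂ, 1 < s.re → L s = Ls ψ s

/-- (G) NonVanN.lean -/
def NonVanNStmt (K : Type u) [Field K] [NumberField K] : Prop :=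
  ∀ (𝔪 : Ideal (𝓞 K)), 𝔪 ≠ ⊥ → ∀ (ψ : (Ideal (𝓞 K))⁰ →* ℂ), NRayChar 𝔪 ψ →
    (∃ I : (Ideal (𝓞 K))⁰, IsCoprime (I : Ideal (𝓞 K)) 𝔪 ∧ ψ I ≠ 1) →
      ∃ L : ℂ → ℂ, Differentiable ℂ L ∧ (∀ s : ℂ, 1 < s.re → L s = Ls ψ s) ∧
        ∀ s : ℂ, 1 ≤ s.re → L s ≠ 0

/-! ### Narrow ray classes -/

/-- narrow equivalence of integral ideals prime to `𝔪` -/
def NRayEq (𝔪 : Ideal (𝓞 K)) (I J : (Ideal (𝓞 K))⁰) : Prop :=
  ∃ a b : 𝓞 K, a ≠ 0 ∧ b ≠ 0 ∧ IsCoprime (Ideal.span {a}) 𝔪 ∧ a - b ∈ 𝔪 ∧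
    (∀ w : RP K, 0 < em w (a : K) * em w (b : K)) ∧
    Ideal.span {a} * (I : Ideal (𝓞 K)) = Ideal.span {b} * (J : Ideal (𝓞 K))

/-- (H1) GroupN.lean: the narrow ray class group -/
def GroupNStmt (K : Type u) [Field K] [NumberField K] : Prop :=
  ∀ (𝔪 : Ideal (𝓞 K)), 𝔪 ≠ ⊥ → ∃ (G : Type u) (_ : CommGroup G) (_ : Finite G)
    (cl : Cop 𝔪 →* G), Function.Surjective cl ∧ ∀ I J : Cop 𝔪, cl I = cl J ↔ NRayEq 𝔪 I.1 J.1

/-- (H2) DensityN.lean: **the prime ideal theorem in narrow ray classes** -/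
def PrimesNStmt (K : Type u) [Field K] [NumberField K] : Prop :=
  ∀ (𝔪 : Ideal (𝓞 K)), 𝔪 ≠ ⊥ → ∀ J : (Ideal (𝓞 K))⁰, IsCoprime (J : Ideal (𝓞 K)) 𝔪 →
    {P : (Ideal (𝓞 K))⁰ | (P : Ideal (𝓞 K)).IsPrime ∧ NRayEq 𝔪 P J}.Infinite

end Fermat.Agent.Cor.RayN
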