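import Fermat.Agent.Corollaries.Ray.UnfoldW
import Fermat.Agent.Corollaries.RayN.Defs

/-!
# Theta functions with signs at real places: unfolding and inversion on the norm one torus

(B) `unfoldSStmt`, (B') `torusSStmt` of `RayN/Defs`.  The absolute convergence is that of the
unweighted case at the point `x / √2` (`abs_ES_le`).
-/

set_option autoImplicit false

noncomputable section

namespace Fermat.Agent.Cor.RayN

open NumberField NumberField.InfinitePlace NumberField.Units MeasureTheory Set Real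
open NumberField.Units.dirichletUnitTheorem
open Fermat.Agent.Classic.Zeta Fermat.Agent.Cor.Ray
open scoped nonZeroDivisors Classical ENNReal

universe u

variable {K : Type u} [Field K] [NumberField K]

/-! ### The comparison point -/

/-- `tt x y / 2 = tt (x / √2) y` -/
theorem tt_half (x : ℝ) (y : logSpace K) : (fun w => tt x y w / 2) = tt (x / √2) y := by
  funext w
  rw [tt_eq, tt_eq, mul_pow, mul_pow, div_pow, Real.sq_sqrt zero_le_two]
  ring

theorem div_sqrt_two_pos {x : ℝ} (hx : 0 < x) : 0 < x / √2 :=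
  div_pos hx (Real.sqrt_pos.mpr zero_lt_two)

theorem abs_ES_tt_le (S : Finset (RP K)) {x : ℝ} (hx : 0 < x) (y : logSpace K) (a : K) :
    |ES S (tt x y) a| ≤ E (tt (x / √2) y) a := by
  rw [← tt_half]
  exact abs_ES_le S (fun w => (tt_pos hx y w).le) a

theorem norm_ES_tt_le (S : Finset (RP K)) {x : ℝ} (hx : 0 < x) (y : logSpace K) (a : K) :
    ‖((ES S (tt x y) a : ℝ) : ℂ)‖ ≤ E (tt (x / √2) y) a := by
  rw [Complex.norm_real, Real.norm_eq_abs]
  exact abs_ES_tt_le S hx y a

theorem continuous_ES (S : Finset (RP K)) (x : ℝ) (a : K) :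
    Continuous fun y : logSpace K => ES S (tt x y) a := by
  unfold ES
  refine Continuous.mul (Continuous.mul ?_ continuous_const) (continuous_E x a)
  exact continuous_finsetProd _ fun w _ => Real.continuous_sqrt.comp (continuous_tt_right x w.1)

/-! ### Theta functions as sums over the fractional ideal -/

section

variable {S : Finset (RP K)} {𝔟 𝔠 : FractionalIdeal (𝓞 K)⁰ K} {φ : K → ℂ}

theorem IsWtS.summable_sub (h : IsWtS S 𝔟 𝔠 φ) {t : InfinitePlace K → ℝ} (ht : ∀ w, 0 < t w) :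
    Summable fun a : 𝔟 => φ a * (ES S t (a : K) : ℂ) := by
  obtain ⟨M, hM⟩ := h.bdd
  have ht2 : ∀ w, 0 < t w / 2 := fun w => half_pos (ht w)
  refine Summable.of_norm_bounded (g := fun a : 𝔟 => M * E (fun w => t w / 2) (a : K))
    ((sumE K 𝔟 _ ht2).mul_left M) fun a => ?_
  rw [norm_mul, Complex.norm_real, Real.norm_eq_abs]
  exact mul_le_mul (hM a) (abs_ES_le S (fun w => (ht w).le) a) (abs_nonneg _)
    ((norm_nonneg _).trans (hM a))

theorem IsWtS.theta_eq (h : IsWtS S 𝔟 𝔠 φ) (t : InfinitePlace K → ℝ) :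
    ΘS S φ t = ∑' a : 𝔟, φ a * (ES S t (a : K) : ℂ) := by
  unfold ΘS
  refine (tsum_subtype_eq_of_support_subset (s := {a : K | a ∈ 𝔟}) fun a ha => ?_).symm
  by_contra h0
  refine ha ?_
  change φ a * (ES S t a : ℂ) = 0
  rw [h.supp a h0, zero_mul]

theorem IsWtS.norm_theta_le (h : IsWtS S 𝔟 𝔠 φ) {M : ℝ} (hM : ∀ x, ‖φ x‖ ≤ M)
    {t : InfinitePlace K → ℝ} (ht : ∀ w, 0 < t w) : ‖ΘS S φ t‖ ≤ M * Θ 𝔟 (fun w => t w / 2) := by
  rw [h.theta_eq t]
  unfold Θ
  rw [← tsum_mul_left]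
  have ht2 : ∀ w, 0 < t w / 2 := fun w => half_pos (ht w)
  have h1 : Summable fun a : 𝔟 => M * E (fun w => t w / 2) (a : K) :=
    (sumE K 𝔟 _ ht2).mul_left M
  refine tsum_of_norm_bounded h1.hasSum fun a => ?_
  rw [norm_mul, Complex.norm_real, Real.norm_eq_abs]
  exact mul_le_mul (hM a) (abs_ES_le S (fun w => (ht w).le) a) (abs_nonneg _)
    ((norm_nonneg _).trans (hM a))

variable {ι : Type u} {g : ι → K}

/-- The theta function as a sum over the generators and the units. -/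
theorem IsWtS.theta_tt (h : IsWtS S 𝔟 𝔠 φ) (hS : S.Nonempty) (hg : IsGen 𝔟 g) {x : ℝ} (hx : 0 < x)
    (y : logSpace K) :
    ΘS S φ (tt x y) = ∑' p : ι × (𝓞 K)ˣ, φ (g p.1) * (ES S (tt x (y + tr p.2)) (g p.1) : ℂ) := by
  have hz0 : (0 : K) ∈ 𝔟 := 𝔟.1.zero_mem
  obtain ⟨z, hz⟩ : ∃ z : 𝔟, (z : K) = 0 := ⟨⟨0, hz0⟩, rfl⟩
  rw [h.theta_eq, tsum_split' (h.summable_sub (tt_pos hx y)) z (fun x : 𝔟 => (x : K) ≠ 0)
    (fun x => by rw [Ne, Ne, not_iff_not, Subtype.ext_iff, hz]), hz, ES_zero hS,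
    Complex.ofReal_zero, mul_zero, zero_add, ← hg.equiv.tsum_eq]
  refine tsum_congr fun p => ?_
  have h1 := sg_sq S (coe_ne_zero p.2)
  have h2 : (sg S ((p.2 : 𝓞 K) : K) : ℂ) * (sg S ((p.2 : 𝓞 K) : K) : ℂ) = 1 := by
    rw [← Complex.ofReal_mul, h1, Complex.ofReal_one]
  rw [hg.coe_equiv, h.unit, ES_mul, Complex.ofReal_mul]
  linear_combination (φ (g p.1) * (ES S (tt x (y + tr p.2)) (g p.1) : ℂ)) * h2

/-! ### Absolute convergence -/

variable {β β' : logSpace K → ℝ}

theorem integrable_ES_mul (S : Finset (RP K)) (hβ : IsBeta β) {x : ℝ} (hx : 0 < x) (i : ι)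
    (v : (𝓞 K)ˣ) : Integrable fun y : logSpace K => ES S (tt x (y + tr v)) (g i) * β y := by
  have hi := (trm_aux (g := g) hβ (div_sqrt_two_pos hx) (i, v)).2.2
  refine Integrable.mono' hi ?_ (Filter.Eventually.of_forall fun y => ?_)
  · exact (((continuous_ES S x (g i)).measurable.comp (measurable_add_const (tr v))).mul
      hβ.meas).aestronglyMeasurable
  · rw [norm_mul, Real.norm_eq_abs, Real.norm_of_nonneg (hβ.nonneg y)]
    exact mul_le_mul_of_nonneg_right (abs_ES_tt_le S hx _ _) (hβ.nonneg y)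

theorem integral_norm_ES_le (S : Finset (RP K)) (hβ : IsBeta β) {x : ℝ} (hx : 0 < x) (i : ι)
    (v : (𝓞 K)ˣ) : ∫ y : logSpace K, ‖ES S (tt x (y + tr v)) (g i) * β y‖ ≤
      trm β g (x / √2) (i, v) := by
  unfold trm
  refine integral_mono (integrable_ES_mul S hβ hx i v).norm
    (trm_aux (g := g) hβ (div_sqrt_two_pos hx) (i, v)).2.2 fun y => ?_
  simp only
  rw [norm_mul, Real.norm_eq_abs, Real.norm_of_nonneg (hβ.nonneg y)]
  exact mul_le_mul_of_nonneg_right (abs_ES_tt_le S hx _ _) (hβ.nonneg y)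

/-- translation -/
theorem integral_shift (f : logSpace K → ℝ) (β : logSpace K → ℝ) (v : (𝓞 K)ˣ) :
    ∫ y : logSpace K, f (y + tr v) * β y = ∫ y : logSpace K, f y * β (y - tr v) := by
  rw [← integral_add_right_eq_self (fun y => f y * β (y - tr v)) (tr v)]
  refine integral_congr_ae (Filter.Eventually.of_forall fun y => ?_)
  simp only
  rw [add_sub_cancel_right]

theorem hasSum_beta_sub (hβ : IsBeta β) (y : logSpace K) :
    HasSum (fun v : (𝓞 K)ˣ => β (y - tr v)) 1 := by
  have h := (Equiv.inv (𝓞 K)ˣ).hasSum_iff.mpr (hβ.hasSum y)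
  have e : (fun v : (𝓞 K)ˣ => β (y - tr v)) =
      (fun v : (𝓞 K)ˣ => β (y + logEmbedding K (Additive.ofMul v))) ∘ Equiv.inv (𝓞 K)ˣ := by
    funext v
    simp only [Function.comp_apply, Equiv.inv_apply]
    rw [ofMul_inv, map_neg, sub_eq_add_neg]
  rw [e]
  exact h

/-- unfolding over the units, with signs -/
theorem hasSum_ES (hβ : IsBeta β) (hg : IsGen 𝔟 g) {x : ℝ} (hx : 0 < x) (i : ι) :
    HasSum (fun v : (𝓞 K)ˣ => ∫ y : logSpace K, ES S (tt x (y + tr v)) (g i) * β y)
      (∫ y : logSpace K, ES S (tt x y) (g i)) := by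
  have e : ∀ v : (𝓞 K)ˣ, ∫ y : logSpace K, ES S (tt x (y + tr v)) (g i) * β y =
      ∫ y : logSpace K, ES S (tt x y) (g i) * β (y - tr v) := fun v =>
    integral_shift (fun y => ES S (tt x y) (g i)) β v
  have hint : ∀ v : (𝓞 K)ˣ, Integrable fun y : logSpace K =>
      ES S (tt x y) (g i) * β (y - tr v) := by
    intro v
    have h1 := (integrable_ES_mul (g := g) S hβ hx i v).comp_sub_right (tr v)
    refine h1.congr (Filter.Eventually.of_forall fun y => ?_)
    simp only
    rw [sub_add_cancel]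
  have hsum : Summable fun v : (𝓞 K)ˣ => ∫ y : logSpace K,
      ‖ES S (tt x y) (g i) * β (y - tr v)‖ := by
    refine Summable.of_nonneg_of_le (fun v => integral_nonneg fun y => norm_nonneg _) (fun v => ?_)
      (hasSum_trm hβ hg (div_sqrt_two_pos hx) i).summable
    refine le_trans (le_of_eq ?_) (integral_norm_ES_le (g := g) S hβ hx i v)
    rw [← integral_add_right_eq_self (fun y => ‖ES S (tt x y) (g i) * β (y - tr v)‖) (tr v)]
    refine integral_congr_ae (Filter.Eventually.of_forall fun y => ?_)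
    simp only
    rw [add_sub_cancel_right]
  have h1 := hasSum_integral_of_summable_integral_norm hint hsum
  simp only [← e] at h1
  have h2 : ∫ y : logSpace K, ∑' v : (𝓞 K)ˣ, ES S (tt x y) (g i) * β (y - tr v) =
      ∫ y : logSpace K, ES S (tt x y) (g i) := by
    refine integral_congr_ae (Filter.Eventually.of_forall fun y => ?_)
    simp only
    rw [tsum_mul_left, (hasSum_beta_sub hβ y).tsum_eq, mul_one]
  rwa [h2] at h1

/-! ### Unfolding -/

theorem IsWtS.hasSum_unfold (h : IsWtS S 𝔟 𝔠 φ) (hS : S.Nonempty) (hβ : IsBeta β)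
    (hg : IsGen 𝔟 g) {x : ℝ} (hx : 0 < x) :
    HasSum (fun i => φ (g i) * ((∫ y : logSpace K, ES S (tt x y) (g i) : ℝ) : ℂ))
      (FS S β φ x) := by
  have hcount := hg.countable
  obtain ⟨M, hM⟩ := h.bdd
  set Fp : ι × (𝓞 K)ˣ → logSpace K → ℂ := fun p y =>
    φ (g p.1) * ((ES S (tt x (y + tr p.2)) (g p.1) * β y : ℝ) : ℂ) with hFp
  have hint : ∀ p, Integrable (Fp p) := fun p =>
    ((integrable_ES_mul (g := g) S hβ hx p.1 p.2).ofReal).const_mul (φ (g p.1))
  have hval : ∀ p, ∫ y, Fp p y = φ (g p.1) *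
      ((∫ y : logSpace K, ES S (tt x (y + tr p.2)) (g p.1) * β y : ℝ) : ℂ) := by
    intro p
    rw [hFp]
    simp only
    rw [integral_const_mul, integral_complex_ofReal]
  have hnorm : ∀ p, ∫ y, ‖Fp p y‖ ≤ M * trm β g (x / √2) p := by
    intro p
    have e1 : ∫ y, ‖Fp p y‖ = ‖φ (g p.1)‖ *
        ∫ y : logSpace K, ‖ES S (tt x (y + tr p.2)) (g p.1) * β y‖ := by
      rw [← integral_const_mul]
      refine integral_congr_ae (Filter.Eventually.of_forall fun y => ?_)
      simp only [hFp]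
      rw [norm_mul, Complex.norm_real]
    rw [e1]
    exact mul_le_mul (hM _) (integral_norm_ES_le S hβ hx p.1 p.2)
      (integral_nonneg fun y => norm_nonneg _) ((norm_nonneg _).trans (hM (g p.1)))
  have hsum : Summable fun p => ∫ y, ‖Fp p y‖ :=
    Summable.of_nonneg_of_le (fun p => integral_nonneg fun y => norm_nonneg _) hnorm
      ((summable_trm hβ hg (div_sqrt_two_pos hx)).mul_left M)
  have h1 := hasSum_integral_of_summable_integral_norm hint hsum
  have h2 : ∫ y, ∑' p, Fp p y = FS S β φ x := by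
    unfold FS
    refine integral_congr_ae (Filter.Eventually.of_forall fun y => ?_)
    simp only
    rw [h.theta_tt hS hg hx y, ← tsum_mul_right]
    refine tsum_congr fun p => ?_
    rw [hFp]
    simp only
    rw [Complex.ofReal_mul, mul_assoc]
  rw [h2] at h1
  simp only [hval] at h1
  refine h1.prod_fiberwise fun i => ?_
  exact ((Complex.hasSum_ofReal.mpr (hasSum_ES (S := S) hβ hg hx i))).mul_left (φ (g i))

/-- Independence of the weight `β`. -/
theorem IsWtS.indep (h : IsWtS S 𝔟 𝔠 φ) (hS : S.Nonempty) (hβ : IsBeta β) (hβ' : IsBeta β')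
    {x : ℝ} (hx : 0 < x) : FS S β φ x = FS S β' φ x := by
  obtain ⟨ι, g, hg⟩ := exists_isGen h.hb
  exact (h.hasSum_unfold hS hβ hg hx).unique (h.hasSum_unfold hS hβ' hg hx)

/-- **The functional equation of the integrated theta function with signs.** -/
theorem FS_inv {φ' : K → ℂ} (hS : S.Nonempty) (hβ : IsBeta β)
    (h' : IsWtS S (dualF 𝔠) (dualF 𝔟) φ') (hI : IsInvS S 𝔠 φ φ') {x : ℝ} (hx : 0 < x) :
    FS S β φ x⁻¹ = ((√|(discr K : ℝ)| * nF 𝔠 : ℝ) : ℂ)⁻¹ * (x : ℂ) ^ (Module.finrank ℚ K) *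
      FS S β φ' x := by
  rw [h'.indep hS hβ hβ.neg hx]
  unfold FS
  rw [← integral_const_mul, ← integral_neg_eq_self]
  refine integral_congr_ae (Filter.Eventually.of_forall fun y => ?_)
  simp only
  have hx' : 0 < x⁻¹ := inv_pos.mpr hx
  rw [hI (tt x⁻¹ (-y)) (tt_pos hx' (-y)), tt_inv, inv_inv, neg_neg, prod_tt hx', inv_pow,
    mul_inv (√|(discr K : ℝ)| * nF 𝔠), inv_inv, Complex.ofReal_mul, Complex.ofReal_inv,
    Complex.ofReal_pow]
  ring

end

/-- **(B)** -/
theorem unfoldSStmt (K : Type u) [Field K] [NumberField K] : UnfoldSStmt K :=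
  fun _ hS _ hβ _ _ _ h _ _ hg _ hx => h.hasSum_unfold hS hβ hg hx

/-- **(B')** -/
theorem torusSStmt (K : Type u) [Field K] [NumberField K] : TorusSStmt K :=
  fun _ hS _ hβ _ _ _ _ _ h' hI _ hx => FS_inv hS hβ h' hI hx

end Fermat.Agent.Cor.RayN

end
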