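import Fermat.Agent.Classic.Zeta.Decay
import Fermat.Agent.Corollaries.RayN.UnfoldS

/-!
# Continuity and decay of the integrated theta functions with signs

(C) `decaySStmt` of `RayN/Defs`: `FS S β φ` is continuous on `(0, ∞)` and
`|FS S β φ x| ≤ M * (F β 𝔟 (x / √2) - B β)` decays exponentially.
-/

set_option autoImplicit false

noncomputable section

namespace Fermat.Agent.Cor.RayN

open NumberField NumberField.InfinitePlace NumberField.Units MeasureTheory Filter Set
open NumberField.Units.dirichletUnitTheorem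
open Fermat.Agent.Classic.Zeta Fermat.Agent.Cor.Ray
open scoped nonZeroDivisors Classical Topology

universe u

variable {K : Type u} [Field K] [NumberField K]

variable {S : Finset (RP K)} {𝔟 𝔠 : FractionalIdeal (𝓞 K)⁰ K} {φ : K → ℂ} {β : logSpace K → ℝ}

/-- The bound by the unweighted theta function without its constant term. -/
theorem IsWtS.norm_theta_le_sub (h : IsWtS S 𝔟 𝔠 φ) (hS : S.Nonempty) {M : ℝ}
    (hM : ∀ x, ‖φ x‖ ≤ M) {t : InfinitePlace K → ℝ} (ht : ∀ w, 0 < t w) :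
    ‖ΘS S φ t‖ ≤ M * (Θ 𝔟 (fun w => t w / 2) - 1) := by
  have ht2 : ∀ w, 0 < t w / 2 := fun w => half_pos (ht w)
  have hs : Summable fun a : 𝔟 => E (fun w => t w / 2) (a : K) := sumE K 𝔟 _ ht2
  have e2 : Θ 𝔟 (fun w => t w / 2) - 1 =
      ∑' a : 𝔟, if a = Decay.zr 𝔟 then 0 else E (fun w => t w / 2) (a : K) := by
    unfold Θ
    rw [hs.tsum_eq_add_tsum_ite (Decay.zr 𝔟), Decay.coe_zr, E_zero, add_sub_cancel_left]
  have hs2 : Summable fun a : 𝔟 => if a = Decay.zr 𝔟 then 0 else E (fun w => t w / 2) (a : K) := by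
    refine Summable.of_nonneg_of_le (fun a => ?_) (fun a => ?_) hs
    · split_ifs
      · exact le_rfl
      · exact (E_pos _ _).le
    · split_ifs
      · exact (E_pos _ _).le
      · exact le_rfl
  rw [h.theta_eq t, e2, ← tsum_mul_left]
  refine tsum_of_norm_bounded (hs2.mul_left M).hasSum fun a => ?_
  split_ifs with ha
  · rw [ha, Decay.coe_zr, ES_zero hS, Complex.ofReal_zero, mul_zero, norm_zero, mul_zero]
  · rw [norm_mul, Complex.norm_real, Real.norm_eq_abs]
    exact mul_le_mul (hM a) (abs_ES_le S (fun w => (ht w).le) a) (abs_nonneg _)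
      ((norm_nonneg _).trans (hM a))

theorem continuous_ES_left (S : Finset (RP K)) (x : K) :
    Continuous fun t : InfinitePlace K → ℝ => ES S t x := by
  unfold ES
  refine Continuous.mul (Continuous.mul ?_ continuous_const) (Decay.continuous_E x)
  exact continuous_finsetProd _ fun w _ => Real.continuous_sqrt.comp (continuous_apply w.1)

theorem IsWtS.continuousAt_theta (h : IsWtS S 𝔟 𝔠 φ) {t : InfinitePlace K → ℝ}
    (ht : ∀ w, 0 < t w) : ContinuousAt (ΘS S φ) t := by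
  obtain ⟨M, hM⟩ := h.bdd
  let c : InfinitePlace K → ℝ := fun w => t w / 2
  have hc : ∀ w, 0 < c w := fun w => half_pos (ht w)
  have hc2 : ∀ w, 0 < c w / 2 := fun w => half_pos (hc w)
  have hU : {s : InfinitePlace K → ℝ | ∀ w, c w ≤ s w} ∈ 𝓝 t := by
    have h1 : {s : InfinitePlace K → ℝ | ∀ w, c w ≤ s w} = Set.univ.pi fun w => Ici (c w) := by
      ext s; simp only [Set.mem_ofPred_eq, Set.mem_univ_pi, Set.mem_Ici]
    rw [h1]
    exact set_pi_mem_nhds finite_univ fun w _ => Ici_mem_nhds (half_lt_self (ht w))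
  have e : ΘS S φ = fun s => ∑' a : 𝔟, φ a * (ES S s (a : K) : ℂ) := funext fun s => h.theta_eq s
  have hcont : ContinuousOn (ΘS S φ) {s : InfinitePlace K → ℝ | ∀ w, c w ≤ s w} := by
    rw [e]
    refine continuousOn_tsum (u := fun x : 𝔟 => M * E (fun w => c w / 2) (x : K)) (fun x => ?_)
      ((sumE K 𝔟 _ hc2).mul_left M) fun x s hs => ?_
    · exact (continuous_const.mul
        (Complex.continuous_ofReal.comp (continuous_ES_left S (x : K)))).continuousOn
    · have hs' : ∀ w, c w ≤ s w := hs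
      rw [norm_mul, Complex.norm_real, Real.norm_eq_abs]
      refine mul_le_mul (hM x) ?_ (abs_nonneg _) ((norm_nonneg _).trans (hM x))
      refine (abs_ES_le S (fun w => (hc w).le.trans (hs' w)) (x : K)).trans
        (Decay.E_anti (fun w => ?_) _)
      have := hs' w
      linarith
  exact hcont.continuousAt hU

theorem IsWtS.continuous_theta_tt (h : IsWtS S 𝔟 𝔠 φ) {x : ℝ} (hx : 0 < x) :
    Continuous fun y : logSpace K => ΘS S φ (tt x y) := by
  refine continuous_iff_continuousAt.2 fun y => ?_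
  have h1 : ContinuousAt (ΘS S φ) (tt x y) := h.continuousAt_theta (Decay.tt_pos hx y)
  have h2 : Continuous fun y : logSpace K => tt (K := K) x y :=
    Decay.continuous_tt.comp (continuous_const.prodMk continuous_id)
  exact h1.comp h2.continuousAt

theorem IsWtS.continuousAt_theta_tt (h : IsWtS S 𝔟 𝔠 φ) {x : ℝ} (hx : 0 < x) (y : logSpace K) :
    ContinuousAt (fun x : ℝ => ΘS S φ (tt x y)) x := by
  have h1 : ContinuousAt (ΘS S φ) (tt x y) := h.continuousAt_theta (Decay.tt_pos hx y)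
  have h2 : Continuous fun x : ℝ => tt (K := K) x y :=
    Decay.continuous_tt.comp (continuous_id.prodMk continuous_const)
  exact ContinuousAt.comp (g := ΘS S φ) (f := fun x : ℝ => tt (K := K) x y) h1 h2.continuousAt

/-- A bound for the integrand. -/
theorem IsWtS.norm_integrand_le (h : IsWtS S 𝔟 𝔠 φ) (hβ : IsBeta β) {x₀ : ℝ} (hx₀ : 0 < x₀) :
    ∃ C : ℝ, ∀ x, x₀ ≤ x → ∀ y, ‖ΘS S φ (tt x y) * (β y : ℂ)‖ ≤ C * β y := by
  obtain ⟨M, hM⟩ := h.bdd
  have hx₀' := div_sqrt_two_pos hx₀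
  obtain ⟨C, hC⟩ := Decay.norm_le hβ 𝔟 hx₀'
  refine ⟨M * C, fun x hx y => ?_⟩
  have hx0 : 0 < x := hx₀.trans_le hx
  have hx0' := div_sqrt_two_pos hx0
  have hM0 : 0 ≤ M := (norm_nonneg _).trans (hM 0)
  have h1 := hC (x / √2) (div_le_div_of_nonneg_right hx (Real.sqrt_nonneg 2)) y
  rw [norm_mul, Real.norm_eq_abs, Real.norm_eq_abs, abs_of_nonneg (hβ.nonneg y),
    abs_of_nonneg (zero_le_one.trans (Decay.one_le_Θ 𝔟 (Decay.tt_pos hx0' y)))] at h1
  rw [norm_mul, Complex.norm_real, Real.norm_of_nonneg (hβ.nonneg y)]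
  have h2 := h.norm_theta_le hM (Decay.tt_pos hx0 y)
  rw [tt_half] at h2
  calc ‖ΘS S φ (tt x y)‖ * β y ≤ M * Θ 𝔟 (tt (x / √2) y) * β y :=
        mul_le_mul_of_nonneg_right h2 (hβ.nonneg y)
    _ = M * (Θ 𝔟 (tt (x / √2) y) * β y) := mul_assoc _ _ _
    _ ≤ M * (C * β y) := mul_le_mul_of_nonneg_left h1 hM0
    _ = M * C * β y := (mul_assoc _ _ _).symm

theorem aesm_beta (hβ : IsBeta β) : AEStronglyMeasurable fun y : logSpace K => (β y : ℂ) :=
  (Complex.measurable_ofReal.comp hβ.meas).aestronglyMeasurable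

theorem IsWtS.integrable_integrand (h : IsWtS S 𝔟 𝔠 φ) (hβ : IsBeta β) {x : ℝ} (hx : 0 < x) :
    Integrable fun y : logSpace K => ΘS S φ (tt x y) * (β y : ℂ) := by
  obtain ⟨C, hC⟩ := h.norm_integrand_le hβ hx
  exact ((Decay.integrable hβ).const_mul C).mono' ((h.continuous_theta_tt hx).aestronglyMeasurable.mul
    (aesm_beta hβ)) (Eventually.of_forall fun y => hC x le_rfl y)

theorem IsWtS.continuousAt_FS (h : IsWtS S 𝔟 𝔠 φ) (hβ : IsBeta β) {x : ℝ} (hx : 0 < x) :
    ContinuousAt (FS S β φ) x := by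
  obtain ⟨C, hC⟩ := h.norm_integrand_le hβ (half_pos hx)
  refine continuousAt_of_dominated (bound := fun y => C * β y) ?_ ?_
    ((Decay.integrable hβ).const_mul C) ?_
  · filter_upwards [Ioi_mem_nhds hx] with x' hx'
    exact (h.continuous_theta_tt hx').aestronglyMeasurable.mul (aesm_beta hβ)
  · filter_upwards [Ici_mem_nhds (half_lt_self hx)] with x' hx'
    exact Eventually.of_forall fun y => hC x' hx' y
  · exact Eventually.of_forall fun y => (h.continuousAt_theta_tt hx y).mul continuousAt_const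

/-- **`FS S β φ` is continuous on `(0, ∞)`.** -/
theorem IsWtS.continuousOn_FS (h : IsWtS S 𝔟 𝔠 φ) (hβ : IsBeta β) :
    ContinuousOn (FS S β φ) (Ioi 0) :=
  fun _ hx => (h.continuousAt_FS hβ hx).continuousWithinAt

theorem IsWtS.norm_FS_le (h : IsWtS S 𝔟 𝔠 φ) (hS : S.Nonempty) (hβ : IsBeta β) {M : ℝ}
    (hM : ∀ x, ‖φ x‖ ≤ M) {x : ℝ} (hx : 0 < x) :
    ‖FS S β φ x‖ ≤ M * (F β 𝔟 (x / √2) - B β) := by
  have hx' := div_sqrt_two_pos hx
  have hi : Integrable fun y : logSpace K => (Θ 𝔟 (tt (x / √2) y) - 1) * β y := by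
    refine ((Decay.integrable_F hβ 𝔟 hx').sub (Decay.integrable hβ)).congr
      (Eventually.of_forall fun y => ?_)
    simp only [Pi.sub_apply]
    ring
  unfold FS
  rw [Decay.F_sub hβ 𝔟 hx', ← integral_const_mul]
  refine norm_integral_le_of_norm_le (hi.const_mul M) (Eventually.of_forall fun y => ?_)
  rw [norm_mul, Complex.norm_real, Real.norm_of_nonneg (hβ.nonneg y), ← mul_assoc]
  have h2 := h.norm_theta_le_sub hS hM (Decay.tt_pos hx y)
  rw [tt_half] at h2
  exact mul_le_mul_of_nonneg_right h2 (hβ.nonneg y)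

/-- **Exponential decay of `FS S β φ`.** -/
theorem IsWtS.isBigO_FS_exp (h : IsWtS S 𝔟 𝔠 φ) (hS : S.Nonempty) (hβ : IsBeta β) :
    ∃ a : ℝ, 0 < a ∧ (FS S β φ) =O[atTop] fun x : ℝ => Real.exp (-a * x) := by
  obtain ⟨M, hM⟩ := h.bdd
  obtain ⟨A, a, x₀, hA, ha, hx₀, hF⟩ := Decay.exists_F_sub_le hβ 𝔟
  have h2 : (0 : ℝ) < √2 := Real.sqrt_pos.mpr zero_lt_two
  refine ⟨a / √2, div_pos ha h2, Asymptotics.IsBigO.of_bound (M * A) ?_⟩
  filter_upwards [eventually_ge_atTop (x₀ * √2)] with x hx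
  have hx1 : x₀ ≤ x / √2 := (le_div_iff₀ h2).mpr hx
  have hx0 : 0 < x := lt_of_lt_of_le (mul_pos (one_pos.trans_le hx₀) h2) hx
  have hM0 : 0 ≤ M := (norm_nonneg _).trans (hM 0)
  have h3 : -(a / √2) * x = -(a * (x / √2)) := by ring
  rw [Real.norm_eq_abs, abs_of_pos (Real.exp_pos _), mul_assoc, h3]
  exact (h.norm_FS_le hS hβ hM hx0).trans (mul_le_mul_of_nonneg_left (hF _ hx1) hM0)

/-- **Decay**: `FS S β φ = O(x ^ r)` at `∞`, for every `r`. -/
theorem IsWtS.isBigO_FS (h : IsWtS S 𝔟 𝔠 φ) (hS : S.Nonempty) (hβ : IsBeta β) (r : ℝ) :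
    (FS S β φ) =O[atTop] fun x : ℝ => x ^ r := by
  obtain ⟨a, ha, h1⟩ := h.isBigO_FS_exp hS hβ
  exact h1.trans (isLittleO_exp_neg_mul_rpow_atTop ha r).isBigO

/-- **(C)** -/
theorem decaySStmt (K : Type u) [Field K] [NumberField K] : DecaySStmt K :=
  fun _ hS _ hβ _ _ _ h => ⟨(h.continuousOn_FS hβ).locallyIntegrableOn measurableSet_Ioi,
    fun r => h.isBigO_FS hS hβ r⟩

end Fermat.Agent.Cor.RayN
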