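import Fermat.Agent.Corollaries.RayN.Defs
import Fermat.Agent.Corollaries.ZetaK.LFun

/-!
# Weighted zeta functions with signs: they are entire (RAYN (E))
-/

set_option autoImplicit false

noncomputable section

namespace Fermat.Agent.Cor.RayN

open NumberField NumberField.InfinitePlace NumberField.Units MeasureTheory Set
open NumberField.Units.dirichletUnitTheorem
open Fermat.Agent.Classic.Zeta Fermat.Agent.Cor.Ray
open scoped nonZeroDivisors Classical Real

universe u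

variable {K : Type u} [Field K] [NumberField K]

section pair

variable {S : Finset (RP K)} (hS : S.Nonempty) {β : logSpace K → ℝ} (hβ : IsBeta β)
  (hT : TorusSStmt K) (hD : DecaySStmt K)
  {𝔟 𝔠 : FractionalIdeal (𝓞 K)⁰ K} {φ φ' : K → ℂ} (hφ : IsWtS S 𝔟 𝔠 φ)
  (hφ' : IsWtS S (dualF 𝔠) (dualF 𝔟) φ') (hI : IsInvS S 𝔠 φ φ')

include hT in
/-- the functional equation pair of a weight with signs -/
def feS : WeakFEPair ℂ where
  f := FS S β φ
  g := FS S β φ'
  k := Module.finrank ℚ K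
  ε := (((√|(discr K : ℝ)| * nF 𝔠)⁻¹ : ℝ) : ℂ)
  f₀ := 0
  g₀ := 0
  hf_int := (hD S hS β hβ _ _ φ hφ).1
  hg_int := (hD S hS β hβ _ _ φ' hφ').1
  hk := finrank_pos' K
  hε := by
    rw [Complex.ofReal_ne_zero]
    exact inv_ne_zero (mul_ne_zero (Real.sqrt_ne_zero'.mpr (disc_pos K)) (nF_pos hφ.hc).ne')
  h_feq x hx := by
    have h := hT S hS β hβ _ _ φ φ' hφ hφ' hI x hx
    rw [one_div, h, Real.rpow_natCast, smul_eq_mul]
    push_cast
    ring
  hf_top r := by
    simp only [sub_zero]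
    exact (hD S hS β hβ _ _ φ hφ).2 r
  hg_top r := by
    simp only [sub_zero]
    exact (hD S hS β hβ _ _ φ' hφ').2 r

end pair

/-- the inverse of the gamma factor -/
def gSi (S : Finset (RP K)) (s : ℂ) : ℂ := (gamS K S s)⁻¹

theorem differentiable_gSi (S : Finset (RP K)) : Differentiable ℂ (gSi S) := by
  have h : gSi S = fun s => (Complex.Gammaℝ s)⁻¹ ^ (nrRealPlaces K - S.card) *
      (Complex.Gammaℝ (s + 1))⁻¹ ^ S.card * (Complex.Gammaℂ s)⁻¹ ^ nrComplexPlaces K := by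
    funext s
    rw [gSi, gamS, mul_inv, mul_inv, inv_pow, inv_pow, inv_pow]
  rw [h]
  have h1 : Differentiable ℂ fun s : ℂ => (Complex.Gammaℝ (s + 1))⁻¹ :=
    Complex.differentiable_Gammaℝ_inv.comp (differentiable_id.add_const 1)
  exact ((Complex.differentiable_Gammaℝ_inv.pow _).mul (h1.pow _)).mul
    (differentiable_inv_Gammaℂ'.pow _)

theorem gamS_ne_zero (S : Finset (RP K)) {s : ℂ} (hs : 0 < s.re) : gamS K S s ≠ 0 := by
  rw [gamS]
  have h1 : 0 < (s + 1).re := by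
    rw [Complex.add_re, Complex.one_re]
    linarith
  refine mul_ne_zero (mul_ne_zero (pow_ne_zero _ (Complex.Gammaℝ_ne_zero_of_re_pos hs))
    (pow_ne_zero _ (Complex.Gammaℝ_ne_zero_of_re_pos h1))) (pow_ne_zero _ ?_)
  rw [Complex.Gammaℂ_def]
  refine mul_ne_zero (mul_ne_zero two_ne_zero ?_) (Complex.Gamma_ne_zero_of_re_pos hs)
  rw [show (2 * (Real.pi : ℂ)) = ((2 * Real.pi : ℝ) : ℂ) by push_cast; ring,
    ofReal_cpow_eq_exp (by positivity)]
  exact Complex.exp_ne_zero _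

/-- **(E)**: the weighted zeta functions with signs are entire. -/
theorem entireSStmt_of (hA : ThetaSStmt K) (hT : TorusSStmt K) (hD : DecaySStmt K)
    (hM : MellinSStmt K) : EntireSStmt K := by
  intro S hS 𝔟 𝔠 φ hφ
  obtain ⟨β, hβ⟩ := (torusStmt (thetaStmt K)).1
  obtain ⟨c, hc, hM⟩ := hM S hS
  have hc' : (c : ℂ) ≠ 0 := by exact_mod_cast hc.ne'
  have hn : (0 : ℝ) < (Module.finrank ℚ K : ℝ) := finrank_pos' K
  obtain ⟨φ', hφ', hI⟩ := hA S 𝔟 𝔠 φ hφ
  set P : WeakFEPair ℂ := feS hS hβ hT hD hφ hφ' hI with hP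
  refine ⟨fun s => (c : ℂ)⁻¹ * (gSi S s * P.Λ₀ ((Module.finrank ℚ K : ℂ) * s)), ?_, ?_⟩
  · have h1 : Differentiable ℂ fun s : ℂ => P.Λ₀ ((Module.finrank ℚ K : ℂ) * s) :=
      P.differentiable_Λ₀.comp (differentiable_id.const_mul _)
    exact ((differentiable_gSi S).mul h1).const_mul _
  · intro ι g hg s hs
    have hgam : gamS K S s ≠ 0 := gamS_ne_zero S (zero_lt_one.trans hs)
    obtain ⟨-, hmel⟩ := hM β hβ 𝔟 𝔠 φ hφ ι g hg s hs
    have hk : P.k < ((Module.finrank ℚ K : ℂ) * s).re := by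
      change (Module.finrank ℚ K : ℝ) < _
      rw [← Complex.ofReal_natCast, Complex.re_ofReal_mul]
      nlinarith
    have h1 : mellin (fun x : ℝ => FS S β φ x - 0) ((Module.finrank ℚ K : ℂ) * s) =
        P.Λ ((Module.finrank ℚ K : ℂ) * s) := (P.hasMellin hk).2
    have h2 : P.Λ ((Module.finrank ℚ K : ℂ) * s) = P.Λ₀ ((Module.finrank ℚ K : ℂ) * s) -
        (1 / ((Module.finrank ℚ K : ℂ) * s)) • (0 : ℂ) -
        ((((√|(discr K : ℝ)| * nF 𝔠)⁻¹ : ℝ) : ℂ) /
          (((Module.finrank ℚ K : ℝ) : ℂ) - (Module.finrank ℚ K : ℂ) * s)) • (0 : ℂ) := rfl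
    simp only [sub_zero] at h1
    rw [smul_zero, smul_zero, sub_zero, sub_zero] at h2
    rw [h1, h2] at hmel
    beta_reduce
    rw [hmel, gSi]
    field_simp

end Fermat.Agent.Cor.RayN

end
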