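import Fermat.Agent.Corollaries.RayN.Defs
import Fermat.Agent.Classic.Zeta.Gamma

/-!
# The Gamma factor with signs

The integral over `(0, ∞) × logSpace K` of `x^{ns-1} ES S (tt x y) a`.
-/

set_option autoImplicit false
set_option linter.unusedSectionVars false

noncomputable section

open MeasureTheory Set Complex Module NumberField NumberField.InfinitePlace NumberField.Units
open NumberField.Units.dirichletUnitTheorem
open Fermat.Agent.Classic.Zeta
open scoped Real Classical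

namespace Fermat.Agent.Cor.RayN

universe u

variable {K : Type u} [Field K] [NumberField K]

/-! ## the integral over all coordinates -/

section Coord

variable {ι : Type*} [Fintype ι]

/-- the integrand on `ι → ℝ` -/
def kerD (a : ι → ℝ) (σ : ι → ℂ) (z : ι → ℝ) : ℂ := ∏ i, ker1 (a i) (σ i) (z i)

omit [Fintype ι] in
theorem integrable_kerD [Fintype ι] {a : ι → ℝ} (ha : ∀ i, 0 < a i) {σ : ι → ℂ}
    (hσ : ∀ i, 0 < (σ i).re) : Integrable (kerD a σ) :=
  Integrable.fintype_prod_dep (f := fun i z => ker1 (a i) (σ i) z) fun i =>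
    integrable_ker1 (ha i) (hσ i)

theorem integral_kerD {a : ι → ℝ} (ha : ∀ i, 0 < a i) {σ : ι → ℂ} (hσ : ∀ i, 0 < (σ i).re) :
    ∫ z, kerD a σ z = ∏ i, (1 / 2 * (a i : ℂ) ^ (-(σ i / 2)) * Complex.Gamma (σ i / 2)) := by
  have h := integral_fintype_prod_volume_eq_prod (fun (i : ι) (z : ℝ) => ker1 (a i) (σ i) z)
  exact h.trans (Finset.prod_congr rfl fun i _ => integral_ker1 (ha i) (hσ i))

theorem kerD_eq (a : ι → ℝ) (σ : ι → ℂ) (z : ι → ℝ) :
    kerD a σ z = cexp (∑ i, σ i * z i) * cexp (-(∑ i, a i * Real.exp (2 * z i) : ℝ)) := by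
  unfold kerD ker1
  rw [Finset.prod_mul_distrib, ← Complex.exp_sum, ← Complex.exp_sum]
  congr 2
  push_cast
  rw [Finset.sum_neg_distrib]

end Coord

/-! ## number fields -/

/-- `δ_w = 1` on `S`, `0` outside -/
def dl (S : Finset (RP K)) (w : InfinitePlace K) : ℂ :=
  if w ∈ S.map (Function.Embedding.subtype _) then 1 else 0

/-- the exponent at `w` -/
def sgm (S : Finset (RP K)) (s : ℂ) (w : InfinitePlace K) : ℂ := (w.mult : ℂ) * s + dl S w

theorem dl_re_nonneg (S : Finset (RP K)) (w : InfinitePlace K) : 0 ≤ (dl S w).re := by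
  unfold dl
  split_ifs <;> simp

theorem sgm_re_pos (S : Finset (RP K)) {s : ℂ} (hs : 0 < s.re) (w : InfinitePlace K) :
    0 < (sgm S s w).re := by
  have h1 : (sgm S s w).re = w.mult * s.re + (dl S w).re := by
    rw [sgm, Complex.add_re]
    congr 1
    have := Complex.re_ofReal_mul (w.mult : ℝ) s
    rw [← this]
    norm_cast
  rw [h1]
  have h2 : (0 : ℝ) < w.mult := by exact_mod_cast w.mult_pos
  have := dl_re_nonneg S w
  positivity

/-- the integrand in logarithmic coordinates -/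
def kerKS (S : Finset (RP K)) (s : ℂ) (x : K)
    (p : ℝ × ({w : InfinitePlace K // w ≠ w₀} → ℝ)) : ℂ :=
  (pS S x : ℂ) * kerD (fun w : InfinitePlace K => π * w.mult * w x ^ 2) (sgm S s) (lgt K w₀ p)

theorem sum_dl (S : Finset (RP K)) (z : InfinitePlace K → ℝ) :
    ∑ w : InfinitePlace K, dl S w * z w = ∑ w ∈ S, (z w.1 : ℂ) := by
  simp only [dl, ite_mul, one_mul, zero_mul]
  rw [Finset.sum_ite_mem, Finset.univ_inter, Finset.sum_map]
  rfl

/-- the local factor of `w ∈ S` -/
theorem locS {w : RP K} (s : ℂ) {x : K} (hx : x ≠ 0) :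
    1 / 2 * (((π * (w.1.mult : ℝ) * w.1 x ^ 2 : ℝ)) : ℂ) ^ (-((w.1.mult * s + 1) / 2)) *
      Complex.Gamma ((w.1.mult * s + 1) / 2) =
    1 / 2 * Gammaℝ (s + 1) * ((w.1 x : ℝ) : ℂ) ^ (-s) * ((w.1 x : ℝ) : ℂ)⁻¹ := by
  have hpos : 0 < w.1 x := w.1.pos_iff.mpr hx
  have h1 : (w.1.mult : ℝ) = 1 := by rw [mult, if_pos w.2, Nat.cast_one]
  have h1' : (w.1.mult : ℂ) = 1 := by rw [mult, if_pos w.2, Nat.cast_one]
  rw [h1, h1', mul_one, one_mul, ofReal_mul, mul_cpow_ofReal_nonneg Real.pi_pos.le (by positivity),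
    Gammaℝ_def]
  have h2 : ((w.1 x ^ 2 : ℝ) : ℂ) ^ (-((s + 1) / 2)) =
      ((w.1 x : ℝ) : ℂ) ^ (-s) * ((w.1 x : ℝ) : ℂ)⁻¹ := by
    have h3 := sq_cpow hpos 1 (s + 1)
    rw [Nat.cast_one, one_mul, pow_one] at h3
    rw [h3, neg_add, cpow_add _ _ (by exact_mod_cast hpos.ne'), cpow_neg_one]
  rw [h2, neg_div]
  ring

theorem mem_map_iff (S : Finset (RP K)) (w : RP K) :
    w.1 ∈ S.map (Function.Embedding.subtype _) ↔ w ∈ S := by
  rw [Finset.mem_map]
  constructor
  · rintro ⟨v, hv, h⟩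
    rwa [← Subtype.ext h]
  · intro h
    exact ⟨w, h, rfl⟩

/-- the product of the local factors -/
theorem prod_locGS (S : Finset (RP K)) (s : ℂ) :
    ∏ w : InfinitePlace K, (if w ∈ S.map (Function.Embedding.subtype _) then
      1 / 2 * Gammaℝ (s + 1) else locG w s) =
      (1 / 2) ^ nrRealPlaces K * (1 / 4) ^ nrComplexPlaces K * gamS K S s := by
  rw [← Fintype.prod_subtype_mul_prod_subtype (fun w : InfinitePlace K => w.IsReal)]
  have h1 : ∏ w : {w : InfinitePlace K // w.IsReal},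
      (if w.1 ∈ S.map (Function.Embedding.subtype _) then
        1 / 2 * Gammaℝ (s + 1) else locG w.1 s) =
      (1 / 2 * Gammaℝ (s + 1)) ^ S.card * (1 / 2 * Gammaℝ s) ^ (nrRealPlaces K - S.card) := by
    have h3 : ∀ w : {w : InfinitePlace K // w.IsReal},
        (if w.1 ∈ S.map (Function.Embedding.subtype _) then
          1 / 2 * Gammaℝ (s + 1) else locG w.1 s) =
        if w ∈ S then 1 / 2 * Gammaℝ (s + 1) else 1 / 2 * Gammaℝ s := by
      intro w
      rw [locG_real w.2]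
      simp only [mem_map_iff]
    rw [Finset.prod_congr rfl fun w _ => h3 w, Finset.prod_ite, Finset.prod_const,
      Finset.prod_const]
    congr 2
    · rw [Finset.filter_mem_eq_inter, Finset.univ_inter]
    · rw [Finset.filter_not, Finset.filter_mem_eq_inter, Finset.univ_inter,
        Finset.card_sdiff_of_subset (Finset.subset_univ _), Finset.card_univ, nrRealPlaces]
  have h2 : ∏ w : {w : InfinitePlace K // ¬ w.IsReal},
      (if w.1 ∈ S.map (Function.Embedding.subtype _) then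
        1 / 2 * Gammaℝ (s + 1) else locG w.1 s) =
      (1 / 4 * Gammaℂ s) ^ nrComplexPlaces K := by
    have h3 : ∀ w : {w : InfinitePlace K // ¬ w.IsReal},
        (if w.1 ∈ S.map (Function.Embedding.subtype _) then
          1 / 2 * Gammaℝ (s + 1) else locG w.1 s) = 1 / 4 * Gammaℂ s := by
      intro w
      rw [if_neg, locG_complex (not_isReal_iff_isComplex.mp w.2)]
      intro h
      obtain ⟨v, -, hv⟩ := Finset.mem_map.mp h
      exact w.2 (hv ▸ v.2)
    rw [Finset.prod_congr rfl fun w _ => h3 w,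
      Finset.prod_const, Finset.card_univ, nrComplexPlaces]
    congr 1
    exact Fintype.card_congr (Equiv.subtypeEquivRight fun w => not_isReal_iff_isComplex)
  have hcard : S.card ≤ nrRealPlaces K := by
    rw [nrRealPlaces]
    exact Finset.card_le_univ S
  obtain ⟨m, hm⟩ := Nat.exists_eq_add_of_le hcard
  rw [h1, h2, gamS, hm, Nat.add_sub_cancel_left, mul_pow, mul_pow, mul_pow, pow_add]
  ring

/-- the product over all places -/
theorem prod_cpowS (S : Finset (RP K)) {x : K} (hx : x ≠ 0) (s : ℂ) :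
    ∏ w : InfinitePlace K, (1 / 2 * (((π * w.mult * w x ^ 2 : ℝ)) : ℂ) ^ (-(sgm S s w / 2)) *
      Complex.Gamma (sgm S s w / 2)) =
      (1 / 2) ^ nrRealPlaces K * (1 / 4) ^ nrComplexPlaces K * gamS K S s *
        ((|(Algebra.norm ℚ x : ℝ)| : ℝ) : ℂ) ^ (-s) * ((|pS S x| : ℝ) : ℂ)⁻¹ := by
  have hpos : ∀ w : InfinitePlace K, 0 < w x := fun w => w.pos_iff.mpr hx
  have h1 : ((|pS S x| : ℝ) : ℂ)⁻¹ = ∏ w : InfinitePlace K,
      (if w ∈ S.map (Function.Embedding.subtype _) then ((w x : ℝ) : ℂ)⁻¹ else 1) := by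
    rw [Finset.prod_ite_mem, Finset.univ_inter, Finset.prod_map, abs_pS, ofReal_prod,
      Finset.prod_inv_distrib]
    rfl
  rw [h1, ← prod_pow_mult, finset_prod_cpow _ (fun w => pow_nonneg (hpos w).le _), ← prod_locGS,
    ← Finset.prod_mul_distrib, ← Finset.prod_mul_distrib]
  refine Finset.prod_congr rfl fun w _ => ?_
  by_cases hw : w ∈ S.map (Function.Embedding.subtype _)
  · obtain ⟨v, hv, rfl⟩ := Finset.mem_map.mp hw
    have hvS : v.1 ∈ S.map (Function.Embedding.subtype _) := (mem_map_iff S v).mpr hv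
    have h2 : sgm S s v.1 = v.1.mult * s + 1 := by rw [sgm, dl, if_pos hvS]
    have h3 : v.1.mult = 1 := by rw [mult, if_pos v.2]
    change 1 / 2 * (((π * v.1.mult * v.1 x ^ 2 : ℝ)) : ℂ) ^ (-(sgm S s v.1 / 2)) *
      Complex.Gamma (sgm S s v.1 / 2) = (if v.1 ∈ S.map (Function.Embedding.subtype _) then
        1 / 2 * Gammaℝ (s + 1) else locG v.1 s) * ((v.1 x ^ v.1.mult : ℝ) : ℂ) ^ (-s) *
        (if v.1 ∈ S.map (Function.Embedding.subtype _) then ((v.1 x : ℝ) : ℂ)⁻¹ else 1)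
    rw [h2, if_pos hvS, if_pos hvS, locS s hx, h3, pow_one]
  · have h2 : sgm S s w = w.mult * s := by rw [sgm, dl, if_neg hw, add_zero]
    rw [h2, if_neg hw, if_neg hw, mul_one, ← sq_cpow (hpos w), ofReal_mul,
      mul_cpow_ofReal_nonneg (by positivity) (by positivity), locG]
    ring

/-! ## the integral -/

theorem kerKS_eq (S : Finset (RP K)) (s : ℂ) (x : K)
    (p : ℝ × ({w : InfinitePlace K // w ≠ w₀} → ℝ)) :
    kerKS S s x p = (pS S x : ℂ) * ((∏ w ∈ S, Real.exp (lgt K w₀ p w.1) : ℝ) : ℂ) *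
      kerK w₀ s x p := by
  rw [kerKS, kerD_eq, kerK]
  have h1 : ∑ w : InfinitePlace K, sgm S s w * (lgt K w₀ p w : ℂ) =
      s * (Module.finrank ℚ K * p.1 : ℝ) + ∑ w ∈ S, (lgt K w₀ p w.1 : ℂ) := by
    have h2 : ∀ w : InfinitePlace K, sgm S s w * (lgt K w₀ p w : ℂ) =
        s * ((w.mult * lgt K w₀ p w : ℝ) : ℂ) + dl S w * (lgt K w₀ p w : ℂ) := by
      intro w
      rw [sgm]
      push_cast
      ring
    rw [Finset.sum_congr rfl fun w _ => h2 w, Finset.sum_add_distrib, sum_dl, ← Finset.mul_sum,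
      ← ofReal_sum]
    congr 3
    have h := sum_lt (n := fun w : InfinitePlace K => (w.mult : ℝ)) w₀
      (fun w => mult_pos' K w) p
    have h3 : ∑ w : InfinitePlace K, (w.mult : ℝ) = Module.finrank ℚ K := by
      have := sum_mult_eq (K := K)
      exact_mod_cast this
    rw [h3] at h
    rw [← h]
    refine Finset.sum_congr rfl fun w _ => ?_
    rw [lgt]
  have h4 : (∑ w : InfinitePlace K, π * w.mult * w x ^ 2 * Real.exp (2 * lgt K w₀ p w)) =
      π * qf w₀ x p := by
    rw [qf, Finset.mul_sum]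
    refine Finset.sum_congr rfl fun w _ => ?_
    rw [← Real.exp_nat_mul]
    push_cast
    ring
  rw [h1, h4, Complex.exp_add, ofReal_prod]
  have h5 : cexp (∑ w ∈ S, (lgt K w₀ p w.1 : ℂ)) = ∏ w ∈ S, ((Real.exp (lgt K w₀ p w.1) : ℝ) : ℂ) := by
    rw [Complex.exp_sum]
    exact Finset.prod_congr rfl fun w _ => by push_cast; rfl
  rw [h5]
  ring

/-- **The Gamma factor with signs.** -/
theorem exists_integral_kerKS (S : Finset (RP K)) : ∃ c : ℝ, 0 < c ∧
    ∀ x : K, x ≠ 0 → ∀ s : ℂ, 0 < s.re → Integrable (kerKS S s x) volume ∧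
      ∫ p : ℝ × ({w : InfinitePlace K // w ≠ w₀} → ℝ), kerKS S s x p =
        c * gamS K S s * (sg S x : ℂ) * ((|(Algebra.norm ℚ x : ℝ)| : ℝ) : ℂ) ^ (-s) := by
  obtain ⟨c, hc, h1, h2⟩ := exists_integral_lt (n := fun w : InfinitePlace K => (w.mult : ℝ)) w₀
    (fun w => mult_pos' K w)
  refine ⟨c * ((1 / 2) ^ nrRealPlaces K * (1 / 4) ^ nrComplexPlaces K), by positivity, ?_⟩
  intro x hx s hs
  have hpos : ∀ w : InfinitePlace K, 0 < π * w.mult * w x ^ 2 := fun w =>
    mul_pos (mul_pos Real.pi_pos (mult_pos' K w)) (pow_pos (w.pos_iff.mpr hx) 2)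
  have h3 := integrable_kerD hpos (sgm_re_pos S hs)
  have h4 := integral_kerD hpos (sgm_re_pos S hs)
  have h5 : kerKS S s x = fun p => (pS S x : ℂ) * kerD
      (fun w : InfinitePlace K => π * w.mult * w x ^ 2) (sgm S s)
      (lt (fun w : InfinitePlace K => (w.mult : ℝ)) w₀ p) := by
    funext p
    rw [kerKS]
    congr 2
  rw [h5]
  refine ⟨(h1 _ h3).const_mul _, ?_⟩
  rw [integral_const_mul, h2, h4, prod_cpowS S hx s]
  have h6 : (pS S x : ℂ) * ((|pS S x| : ℝ) : ℂ)⁻¹ = (sg S x : ℂ) := by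
    have h7 : ((|pS S x| : ℝ) : ℂ) ≠ 0 := by
      exact_mod_cast (abs_pos.mpr (pS_ne_zero S hx)).ne'
    rw [mul_inv_eq_iff_eq_mul₀ h7, ← ofReal_mul, sg_mul_abs]
  rw [← h6]
  push_cast
  ring

/-- the integrand on `(0, ∞) × logSpace K` -/
def kerXS (S : Finset (RP K)) (s : ℂ) (a : K) (p : ℝ × logSpace K) : ℂ :=
  (p.1 : ℂ) ^ ((Module.finrank ℚ K : ℂ) * s - 1) * (ES S (tt p.1 p.2) a : ℂ)

theorem exp_mul_kerXS (S : Finset (RP K)) (s : ℂ) (a : K) (v : ℝ) (y : logSpace K) :
    (Real.exp v : ℂ) * kerXS S s a (Real.exp v, y) = kerKS S s a (v, y) := by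
  have h1 : (∏ w ∈ S, √(tt (Real.exp v) y w.1)) = ∏ w ∈ S, Real.exp (lgt K w₀ (v, y) w.1) := by
    refine Finset.prod_congr rfl fun w _ => ?_
    rw [tt_exp, Real.sqrt_sq (Real.exp_pos _).le]
  rw [kerKS_eq, ← exp_mul_kerX, kerX, kerXS, ES, h1]
  push_cast
  ring

theorem continuousOn_kerXS (S : Finset (RP K)) (s : ℂ) (a : K) :
    ContinuousOn (kerXS S s a) (Ioi 0 ×ˢ univ) := by
  have hE : Continuous fun p : ℝ × logSpace K => ES S (tt p.1 p.2) a := by
    unfold ES
    refine Continuous.mul (Continuous.mul ?_ continuous_const) (continuous_E_tt a)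
    exact continuous_finsetProd _ fun w _ => (continuous_tt w.1).sqrt
  refine ContinuousOn.mul ?_ (continuous_ofReal.comp hE).continuousOn
  intro p hp
  refine ContinuousAt.continuousWithinAt ?_
  have h : ContinuousAt (fun z : ℂ => z ^ ((Module.finrank ℚ K : ℂ) * s - 1)) (p.1 : ℂ) :=
    continuousAt_cpow_const (Or.inl (by simpa using hp.1))
  exact ContinuousAt.comp (f := fun p : ℝ × logSpace K => (p.1 : ℂ)) h
    (continuous_ofReal.comp continuous_fst).continuousAt

/-- (D0) -/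
theorem gammaSStmt (K : Type u) [Field K] [NumberField K] : GammaSStmt K := by
  intro S
  obtain ⟨c, hc, h⟩ := exists_integral_kerKS (K := K) S
  refine ⟨c, hc, fun a ha s hs => ?_⟩
  obtain ⟨h1, h2⟩ := h a ha s hs
  have hm : AEStronglyMeasurable (kerXS S s a)
      ((volume : Measure (ℝ × logSpace K)).restrict (Ioi 0 ×ˢ univ)) :=
    (continuousOn_kerXS S s a).aestronglyMeasurable (measurableSet_Ioi.prod MeasurableSet.univ)
  have hr : (volume : Measure (ℝ × logSpace K)).restrict (Ioi 0 ×ˢ univ) =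
      ((volume : Measure ℝ).restrict (Ioi 0)).prod (volume : Measure (logSpace K)) := by
    rw [← Measure.restrict_univ (μ := (volume : Measure (logSpace K))), Measure.prod_restrict]
    rfl
  have hI : IntegrableOn (kerXS S s a) (Ioi 0 ×ˢ univ) := by
    refine ⟨hm, ?_⟩
    rw [HasFiniteIntegral, hr, lintegral_prod _ (by rw [← hr]; exact hm.enorm), ← image_exp,
      lintegral_image_eq_lintegral_abs_deriv_mul MeasurableSet.univ
        (fun x _ => (Real.hasDerivAt_exp x).hasDerivWithinAt) Real.exp_injective.injOn,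
      Measure.restrict_univ]
    have h3 : ∫⁻ p, ‖kerKS S s a p‖ₑ ∂(volume : Measure (ℝ × logSpace K)) < ⊤ := h1.2
    have h4 : ∫⁻ p, ‖kerKS S s a p‖ₑ ∂(volume : Measure (ℝ × logSpace K)) =
        ∫⁻ v : ℝ, ∫⁻ y : logSpace K, ‖kerKS S s a (v, y)‖ₑ :=
      lintegral_prod _ h1.1.enorm
    rw [h4] at h3
    refine lt_of_eq_of_lt (lintegral_congr fun v => ?_) h3
    rw [← lintegral_const_mul']
    · refine lintegral_congr fun y => ?_
      rw [← exp_mul_kerXS, enorm_mul, abs_of_pos (Real.exp_pos v)]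
      congr 1
      rw [← ofReal_norm, Complex.norm_real, Real.norm_of_nonneg (Real.exp_pos v).le]
    · exact ENNReal.ofReal_ne_top
  refine ⟨hI, ?_⟩
  have h5 : ∫ x in Ioi (0 : ℝ), ∫ y : logSpace K, kerXS S s a (x, y) =
      ∫ p : ℝ × logSpace K, kerKS S s a p := by
    have h6 : ∫ p : ℝ × logSpace K, kerKS S s a p =
        ∫ v : ℝ, ∫ y : logSpace K, kerKS S s a (v, y) := integral_prod _ h1
    rw [← image_exp, integral_image_eq_integral_abs_deriv_smul MeasurableSet.univ
      (fun x _ => (Real.hasDerivAt_exp x).hasDerivWithinAt) Real.exp_injective.injOn,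
      Measure.restrict_univ, h6]
    refine integral_congr_ae (Filter.Eventually.of_forall fun v => ?_)
    simp only
    rw [abs_of_pos (Real.exp_pos v), real_smul, ← integral_const_mul]
    refine integral_congr_ae (Filter.Eventually.of_forall fun y => ?_)
    exact exp_mul_kerXS S s a v y
  refine h5.trans (h2.trans ?_)
  norm_cast

end Fermat.Agent.Cor.RayN

end
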