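import Fermat.Agent.Corollaries.Ray.MellinW
import Fermat.Agent.Corollaries.RayN.UnfoldS
import Fermat.Agent.Corollaries.RayN.GammaS

/-!
# The Mellin transform of the theta functions with signs

`mellinSStmt`: for `1 < Re s` the Mellin transform of `FS S β φ` at `n s` is
`c * gamS K S s * ∑ φ(x) sg_S(x) |N x|^{-s}`, the sum over the non-zero elements of `𝔟` modulo
units.
-/

set_option autoImplicit false

noncomputable section

namespace Fermat.Agent.Cor.RayN

open NumberField NumberField.InfinitePlace NumberField.Units MeasureTheory Set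
open NumberField.Units.dirichletUnitTheorem
open Fermat.Agent.Classic.Zeta Fermat.Agent.Cor.Ray
open scoped nonZeroDivisors Classical Real

universe u

variable {K : Type u} [Field K] [NumberField K]

/-- the absolute value of `ES` -/
theorem sg_mul_ES (S : Finset (RP K)) (t : InfinitePlace K → ℝ) (a : K) :
    sg S a * ES S t a = |ES S t a| := by
  have h1 : sg S a * pS S a = |pS S a| := by
    unfold sg
    exact sign_mul_self (pS S a)
  rw [ES, abs_mul, abs_mul, abs_of_pos (E_pos t a),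
    abs_of_nonneg (Finset.prod_nonneg fun w _ => Real.sqrt_nonneg _), ← h1]
  ring

theorem sg_mul_abs_ES (S : Finset (RP K)) (t : InfinitePlace K → ℝ) {a : K} (ha : a ≠ 0) :
    sg S a * |ES S t a| = ES S t a := by
  rw [← sg_mul_ES, ← mul_assoc, sg_sq S ha, one_mul]

theorem measurable_ES_tt (S : Finset (RP K)) (a : K) :
    Measurable fun p : ℝ × logSpace K => ES S (tt p.1 p.2) a := by
  unfold ES
  refine Measurable.mul (Measurable.mul_const ?_ _) (Mel.measurable_E_tt a)
  exact Finset.measurable_fun_prod _ fun w _ => (Mel.measurable_tt w.1).sqrt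

/-- **The Mellin transform of the theta functions with signs**, from the unfolding. -/
theorem mellinSStmt_of (hU : UnfoldSStmt K) (hG : GammaSStmt K) : MellinSStmt K := by
  intro S hS
  obtain ⟨c, hc, hG⟩ := hG S
  obtain ⟨_, _, hM⟩ := mellinStmt_of' (torusStmt (thetaStmt K)) (decayStmt K) (gammaStmt K)
  refine ⟨c, hc, fun β hβ 𝔟 𝔠 φ hφ ι g hg s hs => ?_⟩
  have := Mel.gen_countable hg
  obtain ⟨M, hbd⟩ := hφ.bdd
  set n := Module.finrank ℚ K with hn
  have hsr : ((n : ℂ) * s).re = n * s.re := by simp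
  have hs0 : 0 < s.re := by linarith
  have h3 : (((n : ℂ) * s).re : ℂ) = (n : ℂ) * (s.re : ℂ) := by
    rw [hsr]
    push_cast
    ring
  have hσ : Summable fun i => (((|Algebra.norm ℚ (g i)| : ℚ) : ℂ)) ^ (-(s.re : ℂ)) :=
    (hM β hβ 𝔟 hφ.hb ι g hg (s.re : ℂ) (by rwa [Complex.ofReal_re])).1
  have hN : ∀ i, (0 : ℝ) < ((|Algebra.norm ℚ (g i)| : ℚ) : ℝ) := by
    intro i
    exact_mod_cast abs_pos.mpr (Algebra.norm_ne_zero_iff.mpr (hg.ne_zero i))
  have hNc : ∀ i, (((|Algebra.norm ℚ (g i)| : ℚ) : ℝ) : ℂ) = ((|Algebra.norm ℚ (g i)| : ℚ) : ℂ) :=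
    fun i => Complex.ofReal_ratCast _
  have hsg : ∀ i, (sg S (g i) : ℂ) * (sg S (g i) : ℂ) = 1 := fun i => by
    exact_mod_cast sg_sq S (hg.ne_zero i)
  have hbd' : ∀ i, ‖φ (g i) * (sg S (g i) : ℂ)‖ ≤ M := fun i => by
    rw [norm_mul, Complex.norm_real, Real.norm_eq_abs, abs_sg S (hg.ne_zero i), mul_one]
    exact hbd _
  have hsumm : Summable fun i => φ (g i) * (sg S (g i) : ℂ) *
      (((|Algebra.norm ℚ (g i)| : ℚ) : ℂ)) ^ (-s) := by
    refine Summable.of_norm (Summable.of_nonneg_of_le (fun i => norm_nonneg _) (fun i => ?_)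
      (hσ.norm.mul_left M))
    rw [norm_mul, ← hNc i, Complex.norm_cpow_eq_rpow_re_of_pos (hN i),
      Complex.norm_cpow_eq_rpow_re_of_pos (hN i)]
    simp only [Complex.neg_re, Complex.ofReal_re]
    exact mul_le_mul_of_nonneg_right (hbd' i) (Real.rpow_nonneg (hN i).le _)
  refine ⟨hsumm, ?_⟩
  -- the integrals of `|ES|`
  have hab : ∀ i (x : ℝ) (y : logSpace K), ((|ES S (tt x y) (g i)| : ℝ) : ℂ) =
      (sg S (g i) : ℂ) * (ES S (tt x y) (g i) : ℂ) := fun i x y => by
    rw [← sg_mul_ES, Complex.ofReal_mul]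
  have hint : ∀ (z : ℂ), 0 < z.re → ∀ i, ∫ x in Ioi (0 : ℝ), ∫ y : logSpace K,
      (x : ℂ) ^ ((n : ℂ) * z - 1) * ((|ES S (tt x y) (g i)| : ℝ) : ℂ) =
        c * gamS K S z * (((|Algebra.norm ℚ (g i)| : ℚ) : ℂ)) ^ (-z) := by
    intro z hz i
    have h4 : ∫ x in Ioi (0 : ℝ), ∫ y : logSpace K,
        (x : ℂ) ^ ((n : ℂ) * z - 1) * ((|ES S (tt x y) (g i)| : ℝ) : ℂ) =
        (sg S (g i) : ℂ) * ∫ x in Ioi (0 : ℝ), ∫ y : logSpace K,
          (x : ℂ) ^ ((n : ℂ) * z - 1) * (ES S (tt x y) (g i) : ℂ) := by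
      rw [← integral_const_mul]
      refine setIntegral_congr_fun measurableSet_Ioi fun x _ => ?_
      rw [← integral_const_mul]
      refine integral_congr_ae (Filter.Eventually.of_forall fun y => ?_)
      beta_reduce
      rw [hab]
      ring
    rw [h4, (hG (g i) (hg.ne_zero i) z hz).2]
    linear_combination (c * gamS K S z * (((|Algebra.norm ℚ (g i)| : ℚ) : ℂ)) ^ (-z)) * hsg i
  have hint2 : ∀ i (x : ℝ), φ (g i) * (sg S (g i) : ℂ) *
      ((∫ y : logSpace K, |ES S (tt x y) (g i)| : ℝ) : ℂ) =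
        φ (g i) * ((∫ y : logSpace K, ES S (tt x y) (g i) : ℝ) : ℂ) := by
    intro i x
    have h4 : ∫ y : logSpace K, |ES S (tt x y) (g i)| =
        sg S (g i) * ∫ y : logSpace K, ES S (tt x y) (g i) := by
      rw [← integral_const_mul]
      exact integral_congr_ae (Filter.Eventually.of_forall fun y => (sg_mul_ES S _ _).symm)
    rw [h4, Complex.ofReal_mul]
    linear_combination (φ (g i) * ((∫ y : logSpace K, ES S (tt x y) (g i) : ℝ) : ℂ)) * hsg i
  have key := mellinW_unfold (ν := volume) (k := fun i x y => |ES S (tt x y) (g i)|)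
    (fun i => (measurable_ES_tt S (g i)).abs) (fun i x y => abs_nonneg _)
    (φ := fun i => φ (g i) * (sg S (g i) : ℂ)) hbd' (f := FS S β φ)
    (fun x hx => by
      simpa only [hint2] using hU S hS β hβ 𝔟 𝔠 φ hφ ι g hg x hx) (s := (n : ℂ) * s)
    (fun i => by
      rw [h3, ← Measure.volume_eq_prod]
      have h5 := ((hG (g i) (hg.ne_zero i) (s.re : ℂ) (by rwa [Complex.ofReal_re])).1).const_mul
        (sg S (g i) : ℂ)
      refine h5.congr ?_
      refine Filter.Eventually.of_forall fun p => ?_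
      simp only [hab]
      ring)
    (by
      rw [h3]
      refine (hσ.mul_left ((c : ℂ) * gamS K S (s.re : ℂ))).congr fun i => ?_
      exact (hint (s.re : ℂ) (by rwa [Complex.ofReal_re]) i).symm)
  rw [← key.tsum_eq, ← tsum_mul_left]
  refine tsum_congr fun i => ?_
  rw [hint s hs0 i]
  ring

/-- (D) -/
theorem mellinSStmt (K : Type u) [Field K] [NumberField K] : MellinSStmt K :=
  mellinSStmt_of (unfoldSStmt K) (gammaSStmt K)

end Fermat.Agent.Cor.RayN

end
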