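import Fermat.Agent.Corollaries.RayN.Defs

/-!
# Elements `≡ 1` modulo an ideal with given signs at the real places
-/

set_option autoImplicit false
set_option linter.unusedSectionVars false

noncomputable section

open NumberField NumberField.InfinitePlace
open scoped Classical

namespace Fermat.Agent.Cor.RayN

universe u

variable {K : Type u} [Field K] [NumberField K]

theorem dist_toAbs (w : InfinitePlace K) (a x : K) :
    dist (WithAbs.toAbs w.1 a) (WithAbs.toAbs w.1 x) = w (a - x) := by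
  rw [dist_eq_norm, ← WithAbs.toAbs_sub, WithAbs.norm_toAbs_eq]
  rfl

/-- weak approximation: an element of `K` with given signs -/
theorem exists_sign_field (S : Finset (RP K)) :
    ∃ x : K, ∀ w : RP K, (w ∈ S → em w x < 0) ∧ (w ∉ S → 0 < em w x) := by
  have hd := InfinitePlace.denseRange_algebraMap_pi K
  rw [Metric.denseRange_iff] at hd
  obtain ⟨x, hx⟩ := hd (fun w => WithAbs.toAbs w.1
    (if w ∈ S.map (Function.Embedding.subtype _) then -1 else 1 : K)) (1 / 2) (by norm_num)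
  rw [dist_pi_lt_iff (by norm_num)] at hx
  refine ⟨x, fun w => ?_⟩
  have h1 := hx w.1
  have hmem : w.1 ∈ S.map (Function.Embedding.subtype _) ↔ w ∈ S := by
    rw [Finset.mem_map]
    constructor
    · rintro ⟨v, hv, h⟩
      rwa [← Subtype.ext h]
    · intro h
      exact ⟨w, h, rfl⟩
  simp only [hmem] at h1
  constructor
  · intro hw
    rw [if_pos hw] at h1
    have h2 : |em w (-1 - x)| < 1 / 2 := by
      rw [abs_em]
      exact (dist_toAbs w.1 (-1) x).symm.trans_lt h1
    rw [map_sub, map_neg, map_one, abs_lt] at h2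
    linarith [h2.2]
  · intro hw
    rw [if_neg hw] at h1
    have h2 : |em w (1 - x)| < 1 / 2 := by
      rw [abs_em]
      exact (dist_toAbs w.1 1 x).symm.trans_lt h1
    rw [map_sub, map_one, abs_lt] at h2
    linarith [h2.2]

/-- an integer of `K` with given signs -/
theorem exists_sign_int (S : Finset (RP K)) :
    ∃ x : 𝓞 K, ∀ w : RP K, (w ∈ S → em w (x : K) < 0) ∧ (w ∉ S → 0 < em w (x : K)) := by
  obtain ⟨x, hx⟩ := exists_sign_field S
  obtain ⟨a, b, hb, rfl⟩ := IsFractionRing.div_surjective (A := 𝓞 K) x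
  have hb0 : b ≠ 0 := nonZeroDivisors.ne_zero hb
  refine ⟨a * b, fun w => ?_⟩
  have hbw : em w (b : K) ≠ 0 := by
    rw [Ne, map_eq_zero]
    exact fun h => hb0 (by exact_mod_cast h)
  have h1 : em w ((a * b : 𝓞 K) : K) = em w ((algebraMap (𝓞 K) K a) / (algebraMap (𝓞 K) K b)) *
      em w (b : K) ^ 2 := by
    rw [map_div₀]
    push_cast
    rw [map_mul]
    change em w (a : K) * em w (b : K) = em w (a : K) / em w (b : K) * em w (b : K) ^ 2
    field_simp
  have h2 : 0 < em w (b : K) ^ 2 := by positivity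
  rw [h1]
  exact ⟨fun hw => mul_neg_of_neg_of_pos ((hx w).1 hw) h2, fun hw => mul_pos ((hx w).2 hw) h2⟩

/-- **elements `≡ 1` modulo `𝔪` with given signs** -/
theorem exists_sign {𝔪 : Ideal (𝓞 K)} (h𝔪 : 𝔪 ≠ ⊥) (S : Finset (RP K)) :
    ∃ a : 𝓞 K, a ≠ 0 ∧ a - 1 ∈ 𝔪 ∧
      ∀ w : RP K, (w ∈ S → em w (a : K) < 0) ∧ (w ∉ S → 0 < em w (a : K)) := by
  by_cases hR : Nonempty (RP K)
  · obtain ⟨w₁⟩ := hR
    obtain ⟨y, hy⟩ := exists_sign_int S
    have hy0 : ∀ w : RP K, em w (y : K) ≠ 0 := fun w => by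
      by_cases hw : w ∈ S
      · exact ((hy w).1 hw).ne
      · exact ((hy w).2 hw).ne'
    have hN : 0 < Ideal.absNorm 𝔪 :=
      Nat.pos_of_ne_zero fun h => h𝔪 (Ideal.absNorm_eq_zero_iff.mp h)
    obtain ⟨M, hM⟩ : ∃ M : ℕ, ∀ w : RP K, 1 < M * |em w (y : K)| := by
      have h1 : ∀ w : RP K, ∃ M : ℕ, 1 < M * |em w (y : K)| := fun w => by
        obtain ⟨n, hn⟩ := exists_nat_gt (|em w (y : K)|⁻¹)
        refine ⟨n, ?_⟩
        rwa [← inv_lt_iff_one_lt_mul₀ (abs_pos.mpr (hy0 w))] 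
      choose M hM using h1
      refine ⟨∑ w, M w, fun w => (hM w).trans_le ?_⟩
      refine mul_le_mul_of_nonneg_right ?_ (abs_nonneg _)
      exact_mod_cast Finset.single_le_sum (f := M) (fun _ _ => Nat.zero_le _) (Finset.mem_univ w)
    have hval : ∀ w : RP K, em w ((1 + (Ideal.absNorm 𝔪 * M : ℕ) * y : 𝓞 K) : K) =
        1 + Ideal.absNorm 𝔪 * (M * em w (y : K)) := fun w => by
      push_cast
      rw [map_add, map_one, map_mul, map_mul, map_natCast, map_natCast]
      ring
    have hN1 : (1 : ℝ) ≤ Ideal.absNorm 𝔪 := by exact_mod_cast hN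
    have hsgn : ∀ w : RP K,
        (w ∈ S → em w ((1 + (Ideal.absNorm 𝔪 * M : ℕ) * y : 𝓞 K) : K) < 0) ∧
        (w ∉ S → 0 < em w ((1 + (Ideal.absNorm 𝔪 * M : ℕ) * y : 𝓞 K) : K)) := fun w => by
      rw [hval]
      constructor
      · intro hw
        have h2 := hM w
        rw [abs_of_neg ((hy w).1 hw)] at h2
        nlinarith
      · intro hw
        have h2 := (hy w).2 hw
        positivity
    refine ⟨1 + (Ideal.absNorm 𝔪 * M : ℕ) * y, ?_, ?_, hsgn⟩
    · intro h0
      have h3 := hsgn w₁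
      rw [h0] at h3
      by_cases hw : w₁ ∈ S
      · have := h3.1 hw
        simp at this
      · have := h3.2 hw
        simp at this
    · rw [add_sub_cancel_left]
      refine 𝔪.mul_mem_right _ ?_
      push_cast
      exact 𝔪.mul_mem_right _ (Ideal.absNorm_mem 𝔪)
  · refine ⟨1, one_ne_zero, by rw [sub_self]; exact 𝔪.zero_mem, fun w => absurd ⟨w⟩ hR⟩

end Fermat.Agent.Cor.RayN

end
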