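import Fermat.Agent.Corollaries.RayN.DensityN
import Fermat.Agent.Corollaries.RayN.Signs

/-!
# Prime elements in arithmetic progressions with prescribed signs

`α` prime to `𝔪`, `T` a set of real places: the prime elements `π ≡ α` modulo `𝔪` which are
negative exactly at the places of `T`.
-/

set_option autoImplicit false
set_option linter.unusedSectionVars false

noncomputable section

open NumberField nonZeroDivisors Filter Topology
open scoped Classical

namespace Fermat.Agent.Cor.RayN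

open Fermat.Agent.ClassL Fermat.Agent.Cor.Ray

universe u

variable {K : Type u} [Field K] [NumberField K] {𝔪 : Ideal (𝓞 K)}

/-- an element `≡ α` with given signs -/
theorem exists_congr_sign (h𝔪 : 𝔪 ≠ ⊥) {α : 𝓞 K} (hα : IsCoprime (Ideal.span {α}) 𝔪)
    (T : Finset (RP K)) :
    ∃ β : 𝓞 K, β ≠ 0 ∧ IsCoprime (Ideal.span {β}) 𝔪 ∧ β - α ∈ 𝔪 ∧
      ∀ w : RP K, (w ∈ T → em w (β : K) < 0) ∧ (w ∉ T → 0 < em w (β : K)) := by
  by_cases h0 : α = 0
  · obtain ⟨a, ha0, ha1, hs⟩ := exists_sign h𝔪 T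
    have hco : IsCoprime (Ideal.span {a}) 𝔪 := isCoprime_span_iff.mpr ⟨1, by rwa [one_mul]⟩
    refine ⟨a, ha0, hco, ?_, hs⟩
    obtain ⟨b, hb⟩ := isCoprime_span_iff.mp hα
    rw [h0, mul_zero, zero_sub] at hb
    have h1 : (1 : 𝓞 K) ∈ 𝔪 := by
      have := 𝔪.neg_mem hb
      rwa [neg_neg] at this
    rw [h0, sub_zero]
    have := 𝔪.mul_mem_left a h1
    rwa [mul_one] at this
  · obtain ⟨a, ha0, ha1, hs⟩ := exists_sign h𝔪
      (Finset.univ.filter fun w : RP K => (w ∈ T ↔ 0 < em w (α : K)))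
    have hco : IsCoprime (Ideal.span {a}) 𝔪 := isCoprime_span_iff.mpr ⟨1, by rwa [one_mul]⟩
    refine ⟨α * a, mul_ne_zero h0 ha0, ?_, ?_, fun w => ?_⟩
    · rw [← Ideal.span_singleton_mul_span_singleton]
      exact hα.mul_left hco
    · have h1 : α * a - α = α * (a - 1) := by ring
      rw [h1]
      exact 𝔪.mul_mem_left _ ha1
    · have hmul : em w ((α * a : 𝓞 K) : K) = em w (α : K) * em w (a : K) := by
        push_cast
        rw [map_mul]
      have hαw := em_ne_zero h0 w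
      have h2 := hs w
      simp only [Finset.mem_filter, Finset.mem_univ, true_and] at h2
      rw [hmul]
      constructor
      · intro hw
        rcases lt_or_gt_of_ne hαw with h3 | h3
        · exact mul_neg_of_neg_of_pos h3 (h2.2 fun h => absurd (h.mp hw) (not_lt.mpr h3.le))
        · exact mul_neg_of_pos_of_neg h3 (h2.1 ⟨fun _ => h3, fun _ => hw⟩)
      · intro hw
        rcases lt_or_gt_of_ne hαw with h3 | h3
        · exact mul_pos_of_neg_of_neg h3
            (h2.1 ⟨fun h => absurd h hw, fun h => absurd h (not_lt.mpr h3.le)⟩)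
        · exact mul_pos h3 (h2.2 fun h => hw (h.mpr h3))

theorem same_sign_iff {T : Finset (RP K)} {β π : 𝓞 K}
    (hβ : ∀ w : RP K, (w ∈ T → em w (β : K) < 0) ∧ (w ∉ T → 0 < em w (β : K))) (w : RP K) :
    0 < em w (π : K) * em w (β : K) ↔
      (w ∈ T → em w (π : K) < 0) ∧ (w ∉ T → 0 < em w (π : K)) := by
  by_cases hw : w ∈ T
  · have h1 := (hβ w).1 hw
    constructor
    · intro h
      exact ⟨fun _ => neg_of_mul_pos_left h h1.le, fun h2 => absurd hw h2⟩
    · intro h
      exact mul_pos_of_neg_of_neg (h.1 hw) h1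
  · have h1 := (hβ w).2 hw
    constructor
    · intro h
      exact ⟨fun h2 => absurd h2 hw, fun _ => pos_of_mul_pos_left h h1.le⟩
    · intro h
      exact mul_pos (h.2 hw) h1

section Main

variable (hE : EntireNStmt K) (hG : GroupNStmt K) (h𝔪 : 𝔪 ≠ ⊥)

include hE hG h𝔪

/-- the density of the prime elements `≡ α` modulo `𝔪` which are negative exactly on `T` -/
theorem tendsto_card_signs {α : 𝓞 K} (hα : IsCoprime (Ideal.span {α}) 𝔪) (T : Finset (RP K)) :
    Tendsto (fun x : ℕ => (Nat.card {P : Pr K // nP P ≤ x ∧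
      ∃ π : 𝓞 K, π - α ∈ 𝔪 ∧
        (∀ w : RP K, (w ∈ T → em w (π : K) < 0) ∧ (w ∉ T → 0 < em w (π : K))) ∧
        ((P.1 : (Ideal (𝓞 K))⁰) : Ideal (𝓞 K)) = Ideal.span {π}} : ℝ) *
      Real.log x / x) atTop (𝓝 (nRayNumber 𝔪 : ℝ)⁻¹) := by
  obtain ⟨β, hβ0, hβ, hβα, hs⟩ := exists_congr_sign h𝔪 hα T
  refine (tendsto_card_generated_n hE hG h𝔪 hβ hβ0).congr fun x => ?_
  have h1 : ∀ π : 𝓞 K, π - β ∈ 𝔪 ↔ π - α ∈ 𝔪 := by
    intro π
    constructor
    · intro h
      have := 𝔪.add_mem h hβα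
      rwa [sub_add_sub_cancel] at this
    · intro h
      have := 𝔪.sub_mem h hβα
      rwa [sub_sub_sub_cancel_right] at this
  simp only [h1, same_sign_iff hs]

/-- infinitely many prime elements `≡ α` modulo `𝔪` which are negative exactly on `T`, no two of
them associated -/
theorem infinite_primes_signs {α : 𝓞 K} (hα : IsCoprime (Ideal.span {α}) 𝔪)
    (T : Finset (RP K)) :
    {P : Ideal (𝓞 K) | ∃ π : 𝓞 K, Prime π ∧ π - α ∈ 𝔪 ∧
      (∀ w : RP K, (w ∈ T → em w (π : K) < 0) ∧ (w ∉ T → 0 < em w (π : K))) ∧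
      P = Ideal.span {π}}.Infinite := by
  obtain ⟨β, hβ0, hβ, hβα, hs⟩ := exists_congr_sign h𝔪 hα T
  refine (infinite_primes_n hE hG h𝔪 hβ hβ0).mono ?_
  rintro P ⟨π, hp, h1, h2, h3⟩
  refine ⟨π, hp, ?_, fun w => (same_sign_iff hs w).mp (h2 w), h3⟩
  have := 𝔪.add_mem h1 hβα
  rwa [sub_add_sub_cancel] at this

end Main

end Fermat.Agent.Cor.RayN

end
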