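import Fermat.Agent.Corollaries.RayN.WeightN
import Fermat.Agent.Corollaries.Ray.Entire

/-!
# The `L`-function of a non-trivial narrow ray class character is entire

From the continuation of the weighted zeta functions with signs (`EntireSStmt`), and, for the
characters without ramification at infinity, from `Ray.EntireStmt`.
-/

set_option autoImplicit false
set_option linter.unusedSectionVars false

noncomputable section

namespace Fermat.Agent.Cor.RayN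

open NumberField NumberField.InfinitePlace
open Fermat.Agent.Classic.Zeta Fermat.Agent.Cor.Ray
open scoped nonZeroDivisors Classical

universe u

variable {K : Type u} [Field K] [NumberField K] {m : Ideal (𝓞 K)} {ψ : (Ideal (𝓞 K))⁰ →* ℂ}
  {S : Finset (RP K)}

theorem wN_gen (J : (Ideal (𝓞 K))⁰) (𝔞 : Cls (FractionalIdeal.mk0 K J)) :
    wN S m ψ (J : Ideal (𝓞 K)) (Classes.gen 𝔞 : K) * (sg S (Classes.gen 𝔞 : K) : ℂ) =
      ψ 𝔞.1 * ψ J := by
  have h1 := Classes.span_gen 𝔞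
  have h2 : (Classes.gen 𝔞 : K) ∈ ((J : Ideal (𝓞 K)) : FractionalIdeal (𝓞 K)⁰ K) :=
    Classes.gen_mem 𝔞
  obtain ⟨a, haJ, ha⟩ := mem_coeIdeal_iff'.mp h2
  have ha0 : a ≠ 0 := by
    rintro rfl
    exact (Classes.gen 𝔞).ne_zero (ha.symm.trans (map_zero (algebraMap (𝓞 K) K)))
  rw [← ha, wN_coe haJ, elN_of_ne ha0, mul_assoc, coe_sg_sq S ha0, mul_one, ← map_mul]
  congr 1
  refine Subtype.ext ?_
  rw [← ha, FractionalIdeal.coe_mk0, ← FractionalIdeal.coeIdeal_span_singleton,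
    ← FractionalIdeal.coeIdeal_mul, FractionalIdeal.coeIdeal_inj] at h1
  exact h1

theorem term_genN (J : (Ideal (𝓞 K))⁰) (𝔞 : Cls (FractionalIdeal.mk0 K J)) (s : ℂ) :
    wN S m ψ (J : Ideal (𝓞 K)) (Classes.gen 𝔞 : K) * (sg S (Classes.gen 𝔞 : K) : ℂ) *
      (((|Algebra.norm ℚ (Classes.gen 𝔞 : K)| : ℚ) : ℂ)) ^ (-s) =
    (ψ J * (Ideal.absNorm (J : Ideal (𝓞 K)) : ℂ) ^ (-s)) *
      (ψ 𝔞.1 * (Ideal.absNorm (𝔞.1 : Ideal (𝓞 K)) : ℂ) ^ (-s)) := by
  rw [wN_gen, Classes.abs_norm_gen, nF_mk0]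
  push_cast
  rw [Complex.natCast_mul_natCast_cpow]
  ring

theorem summable_LsN (h : NRayChar m ψ) {s : ℂ} (hs : 1 < s.re) :
    Summable fun I : (Ideal (𝓞 K))⁰ => ψ I * (Ideal.absNorm (I : Ideal (𝓞 K)) : ℂ) ^ (-s) := by
  refine Summable.of_norm_bounded (Classes.summable_nrm_ideals hs).norm fun I => ?_
  rw [norm_mul]
  exact mul_le_of_le_one_left (norm_nonneg _) (h.norm_le I)

theorem ne_zero_of_coprimeN (hm : m ≠ ⊥) (hS : HasS m ψ S)
    {I : (Ideal (𝓞 K))⁰} (hI : IsCoprime (I : Ideal (𝓞 K)) m) : ψ I ≠ 0 := by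
  obtain ⟨J, a, ha, hJ, hc, hIJ⟩ := exists_mul_eq_span hm hI
  obtain ⟨b, hb⟩ := isCoprime_span_iff.mp hc
  intro h0
  have h2 : ψ (sp a ha) = 0 := by
    have : sp a ha = I * J := Subtype.ext hIJ.symm
    rw [this, map_mul, h0, zero_mul]
  by_cases hb0 : b = 0
  · subst hb0
    have hmt : m = ⊤ := by
      rw [Ideal.eq_top_iff_one]
      have := m.neg_mem hb
      simpa using this
    have := hS a ha (by rw [hmt]; trivial)
    rw [h2] at this
    exact coe_sg_ne_zero S ha this.symm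
  · have e1 := hS _ (mul_ne_zero hb0 ha) hb
    rw [sp_mul hb0 ha, map_mul, h2, mul_zero] at e1
    exact coe_sg_ne_zero S (mul_ne_zero hb0 ha) e1.symm

theorem Ls_eq_sumN (hm : m ≠ ⊥) (h : NRayChar m ψ) (hS : HasS m ψ S) {s : ℂ} (hs : 1 < s.re) :
    Ls ψ s = ∑ C : ClassGroup (𝓞 K), (ψ (JC hm C))⁻¹ *
      (Ideal.absNorm (JC hm C : Ideal (𝓞 K)) : ℂ) ^ s *
        ∑' 𝔞 : Cls (FractionalIdeal.mk0 K (JC hm C)), wN S m ψ (JC hm C : Ideal (𝓞 K))
          (Classes.gen 𝔞 : K) * (sg S (Classes.gen 𝔞 : K) : ℂ) *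
            (((|Algebra.norm ℚ (Classes.gen 𝔞 : K)| : ℚ) : ℂ)) ^ (-s) := by
  let e : (Σ C : ClassGroup (𝓞 K), {𝔞 : (Ideal (𝓞 K))⁰ // ClassGroup.mk0 𝔞 = C}) ≃
      (Ideal (𝓞 K))⁰ := Equiv.sigmaFiberEquiv (fun I : (Ideal (𝓞 K))⁰ => ClassGroup.mk0 I)
  have hsum : Summable fun c => ψ (e c) * (Ideal.absNorm (e c : Ideal (𝓞 K)) : ℂ) ^ (-s) :=
    (e.summable_iff).mpr (summable_LsN h hs)
  rw [Ls, ← e.tsum_eq, Summable.tsum_sigma hsum, tsum_fintype]
  refine Finset.sum_congr rfl fun C _ => ?_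
  have h1 : ∀ 𝔞 : Cls (FractionalIdeal.mk0 K (JC hm C)), wN S m ψ (JC hm C : Ideal (𝓞 K))
      (Classes.gen 𝔞 : K) * (sg S (Classes.gen 𝔞 : K) : ℂ) *
        (((|Algebra.norm ℚ (Classes.gen 𝔞 : K)| : ℚ) : ℂ)) ^ (-s) =
      (ψ (JC hm C) * (Ideal.absNorm (JC hm C : Ideal (𝓞 K)) : ℂ) ^ (-s)) *
        (ψ 𝔞.1 * (Ideal.absNorm (𝔞.1 : Ideal (𝓞 K)) : ℂ) ^ (-s)) := fun 𝔞 => term_genN _ 𝔞 s
  rw [tsum_congr h1, tsum_mul_left, tsum_Cls hm]
  have h2 : ψ (JC hm C) ≠ 0 := ne_zero_of_coprimeN hm hS (JC_coprime hm C)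
  have h3 : (Ideal.absNorm (JC hm C : Ideal (𝓞 K)) : ℂ) ≠ 0 := by
    exact_mod_cast (Ideal.absNorm_pos_of_nonZeroDivisors (JC hm C)).ne'
  have h4 : (Ideal.absNorm (JC hm C : Ideal (𝓞 K)) : ℂ) ^ s ≠ 0 := by
    rw [Complex.cpow_ne_zero_iff]
    exact Or.inl h3
  rw [Complex.cpow_neg]
  change _ = _
  field_simp
  rfl

/-- the case with ramification at infinity: always entire -/
theorem exists_entire_of_S (hE : EntireSStmt K) (hm : m ≠ ⊥) (h : NRayChar m ψ)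
    (hS : HasS m ψ S) (hne : S.Nonempty) :
    ∃ L : ℂ → ℂ, Differentiable ℂ L ∧ ∀ s : ℂ, 1 < s.re → L s = Ls ψ s := by
  have hJ0 : ∀ C : ClassGroup (𝓞 K), (JC hm C : Ideal (𝓞 K)) ≠ ⊥ := fun C =>
    nonZeroDivisors.coe_ne_zero (JC hm C)
  have hex := fun C : ClassGroup (𝓞 K) => hE S hne _ _ _ (isWtS_wN hm h hS (hJ0 C))
  choose A hA hAs using hex
  have hNJ : ∀ C : ClassGroup (𝓞 K), (Ideal.absNorm (JC hm C : Ideal (𝓞 K)) : ℂ) ≠ 0 := fun C => by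
    exact_mod_cast (Ideal.absNorm_pos_of_nonZeroDivisors (JC hm C)).ne'
  refine ⟨fun s => ∑ C : ClassGroup (𝓞 K), (ψ (JC hm C))⁻¹ *
    (Ideal.absNorm (JC hm C : Ideal (𝓞 K)) : ℂ) ^ s * A C s, ?_, fun s hs => ?_⟩
  · refine Differentiable.fun_sum fun C _ => ?_
    exact ((differentiable_id.const_cpow (Or.inl (hNJ C))).const_mul _).mul (hA C)
  · rw [Ls_eq_sumN hm h hS hs]
    refine Finset.sum_congr rfl fun C _ => ?_
    rw [hAs C _ _ (isGen_gen (FractionalIdeal.mk0 K (JC hm C))) s hs]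

/-- **(F)** the `L`-function of a non-trivial narrow ray class character is entire. -/
theorem entireNStmt_of (hE : EntireSStmt K) (h0 : EntireStmt K) : EntireNStmt K := by
  intro m hm ψ h hq
  obtain ⟨S, hS⟩ := h.exists_S hm
  by_cases hne : S.Nonempty
  · exact exists_entire_of_S hE hm h hS hne
  · rw [Finset.not_nonempty_iff_eq_empty] at hne
    subst hne
    refine h0 m hm ψ ⟨h.norm_le, h.eq_zero, fun I a hI ha => ?_⟩ hq
    have ha0 : a ≠ 0 := by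
      rintro rfl
      rw [Ideal.span_singleton_eq_bot.mpr rfl] at hI
      exact nonZeroDivisors.coe_ne_zero I hI
    have h1 := hS a ha0 ha
    rw [sg_empty, Complex.ofReal_one] at h1
    rw [← h1]
    congr 1
    exact Subtype.ext hI

end Fermat.Agent.Cor.RayN
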