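import Fermat.Agent.Corollaries.RayN.Defs
import Fermat.Agent.Corollaries.Ray.Coprime

/-!
# The narrow ray class group

For a number field `K` and an ideal `𝔪 ≠ 0` of its ring of integers, the integral ideals prime to
`𝔪` modulo the relation `NRayEq 𝔪` (`(a) I = (b) J` with `a`, `b` nonzero, prime to `𝔪`,
`a ≡ b mod 𝔪` and `a`, `b` of the same sign at every real place) form a finite abelian group.

* `NRayEq.refl`, `NRayEq.symm`, `NRayEq.trans`, `NRayEq.mul` : `NRayEq` is a congruence;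
* `NRayClass 𝔪` : the quotient, a finite commutative group for `𝔪 ≠ ⊥`;
* `groupNStmt` : the summary `GroupNStmt` of `RayN/Defs.lean`.
-/

set_option autoImplicit false
set_option linter.unusedSectionVars false

noncomputable section

namespace Fermat.Agent.Cor.RayN

open NumberField Fermat.Agent.Cor.Ray
open scoped nonZeroDivisors

universe u

variable {K : Type u} [Field K] [NumberField K] {m : Ideal (𝓞 K)}

theorem em_mul (w : RP K) (a b : 𝓞 K) :
    em w ((a * b : 𝓞 K) : K) = em w (a : K) * em w (b : K) := by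
  have h : ((a * b : 𝓞 K) : K) = (a : K) * (b : K) := rfl
  rw [h, map_mul]

theorem em_one (w : RP K) : em w ((1 : 𝓞 K) : K) = 1 := by
  have h : ((1 : 𝓞 K) : K) = 1 := rfl
  rw [h, map_one]

theorem em_mul_pos {a b a' b' : 𝓞 K} {w : RP K} (h : 0 < em w (a : K) * em w (b : K))
    (h' : 0 < em w (a' : K) * em w (b' : K)) :
    0 < em w ((a * a' : 𝓞 K) : K) * em w ((b * b' : 𝓞 K) : K) := by
  rw [em_mul, em_mul, mul_mul_mul_comm]
  exact mul_pos h h'

theorem NRayEq.refl (I : (Ideal (𝓞 K))⁰) : NRayEq m I I :=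
  ⟨1, 1, one_ne_zero, one_ne_zero, by
    rw [isCoprime_span_iff]; exact ⟨1, by simp⟩, by simp, fun w => by simp, rfl⟩

theorem NRayEq.symm {I J : (Ideal (𝓞 K))⁰} (h : NRayEq m I J) : NRayEq m J I := by
  obtain ⟨a, b, ha, hb, hc, hab, hs, he⟩ := h
  refine ⟨b, a, hb, ha, ?_, ?_, fun w => by rw [mul_comm]; exact hs w, he.symm⟩
  · rw [isCoprime_span_iff] at hc ⊢
    obtain ⟨c, hc⟩ := hc
    refine ⟨c, ?_⟩
    have : c * b - 1 = (c * a - 1) - c * (a - b) := by ring
    rw [this]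
    exact m.sub_mem hc (m.mul_mem_left c hab)
  · rw [← neg_sub]; exact m.neg_mem hab

theorem NRayEq.trans {I J L : (Ideal (𝓞 K))⁰} (h : NRayEq m I J) (h' : NRayEq m J L) :
    NRayEq m I L := by
  obtain ⟨a, b, ha, hb, hc, hab, hs, he⟩ := h
  obtain ⟨a', b', ha', hb', hc', hab', hs', he'⟩ := h'
  refine ⟨a * a', b * b', mul_ne_zero ha ha', mul_ne_zero hb hb', ?_, ?_,
    fun w => em_mul_pos (hs w) (hs' w), ?_⟩
  · rw [← Ideal.span_singleton_mul_span_singleton]
    exact hc.mul_left hc'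
  · have : a * a' - b * b' = a' * (a - b) + b * (a' - b') := by ring
    rw [this]
    exact m.add_mem (m.mul_mem_left _ hab) (m.mul_mem_left _ hab')
  · rw [← Ideal.span_singleton_mul_span_singleton, ← Ideal.span_singleton_mul_span_singleton,
      mul_assoc, mul_left_comm, he, mul_left_comm, he', mul_assoc]

theorem NRayEq.mul {I J I' J' : (Ideal (𝓞 K))⁰} (h : NRayEq m I J) (h' : NRayEq m I' J') :
    NRayEq m (I * I') (J * J') := by
  obtain ⟨a, b, ha, hb, hc, hab, hs, he⟩ := h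
  obtain ⟨a', b', ha', hb', hc', hab', hs', he'⟩ := h'
  refine ⟨a * a', b * b', mul_ne_zero ha ha', mul_ne_zero hb hb', ?_, ?_,
    fun w => em_mul_pos (hs w) (hs' w), ?_⟩
  · rw [← Ideal.span_singleton_mul_span_singleton]
    exact hc.mul_left hc'
  · have : a * a' - b * b' = a' * (a - b) + b * (a' - b') := by ring
    rw [this]
    exact m.add_mem (m.mul_mem_left _ hab) (m.mul_mem_left _ hab')
  · rw [← Ideal.span_singleton_mul_span_singleton, ← Ideal.span_singleton_mul_span_singleton,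
      Submonoid.coe_mul, Submonoid.coe_mul, mul_mul_mul_comm, he, he', mul_mul_mul_comm]

/-- narrow equivalence implies equivalence -/
theorem NRayEq.rayEq {I J : (Ideal (𝓞 K))⁰} (h : NRayEq m I J) : RayEq m I J := by
  obtain ⟨a, b, ha, hb, hc, hab, _, he⟩ := h
  exact ⟨a, b, ha, hb, hc, hab, he⟩

variable (m) in
/-- `NRayEq` as a congruence on the ideals prime to `𝔪` -/
def nrayCon : Con (Cop m) where
  r I J := NRayEq m I.1 J.1
  iseqv := ⟨fun I => NRayEq.refl I.1, fun h => NRayEq.symm h, fun h h' => NRayEq.trans h h'⟩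
  mul' := fun h h' => NRayEq.mul h h'

variable (m) in
/-- the narrow ray classes modulo `𝔪` -/
def NRayClass : Type u := (nrayCon m).Quotient

instance : CommMonoid (NRayClass m) := inferInstanceAs (CommMonoid (nrayCon m).Quotient)

variable (m) in
/-- the class map -/
def nrayCl : Cop m →* NRayClass m := (nrayCon m).mk'

theorem nrayCl_surjective : Function.Surjective (nrayCl m) := Con.mk'_surjective

theorem nrayCl_eq_iff {I J : Cop m} : nrayCl m I = nrayCl m J ↔ NRayEq m I.1 J.1 :=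
  (nrayCon m).eq

/-- ideals generated by a totally positive `c ≡ 1` are narrowly equivalent to `1` -/
theorem nrayEq_one {J : (Ideal (𝓞 K))⁰} {c : 𝓞 K} (hc : c ≠ 0) (h1 : c - 1 ∈ m)
    (hs : ∀ w : RP K, 0 < em w (c : K)) (h : (J : Ideal (𝓞 K)) = Ideal.span {c}) :
    NRayEq m J 1 := by
  refine ⟨1, c, one_ne_zero, hc, isCoprime_span_iff.2 ⟨1, by simp⟩, ?_, fun w => ?_, ?_⟩
  · rw [← neg_sub]; exact m.neg_mem h1
  · rw [em_one, one_mul]
    exact hs w
  · rw [Submonoid.coe_one, h, mul_one, Ideal.span_singleton_one, Ideal.top_mul]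

/-- an ideal prime to `𝔪` divides a principal ideal with a generator `≡ 1` -/
theorem exists_mul_eq_span_one (hm : m ≠ ⊥) {I : (Ideal (𝓞 K))⁰}
    (hI : IsCoprime (I : Ideal (𝓞 K)) m) : ∃ (L : (Ideal (𝓞 K))⁰) (c : 𝓞 K), c ≠ 0 ∧
      IsCoprime (L : Ideal (𝓞 K)) m ∧ c - 1 ∈ m ∧
        (L : Ideal (𝓞 K)) * (I : Ideal (𝓞 K)) = Ideal.span {c} := by
  obtain ⟨J, a, ha, hJ, hca, hIJ⟩ := exists_mul_eq_span hm hI
  obtain ⟨b, hb0, hb⟩ : ∃ b : 𝓞 K, b ≠ 0 ∧ b * a - 1 ∈ m := by
    obtain ⟨c, hc⟩ := isCoprime_span_iff.1 hca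
    by_cases hc0 : c = 0
    · have h1 : (1 : 𝓞 K) ∈ m := by
        have h2 := m.neg_mem hc
        rw [hc0, zero_mul, zero_sub, neg_neg] at h2
        exact h2
      exact ⟨1, one_ne_zero, by rw [(Ideal.eq_top_iff_one m).2 h1]; exact Submodule.mem_top⟩
    · exact ⟨c, hc0, hc⟩
  have hspb : Ideal.span {b} ∈ (Ideal (𝓞 K))⁰ :=
    mem_nonZeroDivisors_of_ne_zero (by rwa [Ne, Ideal.zero_eq_bot, Ideal.span_singleton_eq_bot])
  have hcb : IsCoprime (Ideal.span {b}) m := isCoprime_span_iff.2 ⟨a, by rwa [mul_comm]⟩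
  refine ⟨J * ⟨Ideal.span {b}, hspb⟩, b * a, mul_ne_zero hb0 ha, ?_, hb, ?_⟩
  · rw [Submonoid.coe_mul]
    exact IsCoprime.mul_left hJ hcb
  · have key : ∀ A B C : Ideal (𝓞 K), A * B * C = B * (C * A) := fun A B C => by
      rw [mul_comm A B, mul_assoc, mul_comm A C]
    rw [Submonoid.coe_mul, ← Ideal.span_singleton_mul_span_singleton, ← hIJ]
    exact key _ _ _

/-- inverses exist, on the level of ideals -/
theorem exists_nrayEq_one (hm : m ≠ ⊥) {I : (Ideal (𝓞 K))⁰}
    (hI : IsCoprime (I : Ideal (𝓞 K)) m) :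
    ∃ L : (Ideal (𝓞 K))⁰, IsCoprime (L : Ideal (𝓞 K)) m ∧ NRayEq m (L * I) 1 := by
  obtain ⟨L, c, hc, hL, hc1, hLI⟩ := exists_mul_eq_span_one hm hI
  refine ⟨L * (L * I), ?_, nrayEq_one (c := c * c) (mul_ne_zero hc hc) ?_ (fun w => ?_) ?_⟩
  · rw [Submonoid.coe_mul, Submonoid.coe_mul]
    exact hL.mul_left (hL.mul_left hI)
  · have : c * c - 1 = (c + 1) * (c - 1) := by ring
    rw [this]
    exact m.mul_mem_left _ hc1
  · rw [em_mul]
    refine mul_self_pos.2 ((map_ne_zero (em w)).2 ?_)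
    rwa [Ne, RingOfIntegers.coe_eq_zero_iff]
  · have key : ∀ A B : Ideal (𝓞 K), A * (A * B) * B = (A * B) * (A * B) := fun A B => by
      rw [mul_assoc, mul_comm (A * B) B, ← mul_assoc]
    rw [Submonoid.coe_mul, Submonoid.coe_mul, Submonoid.coe_mul, key, hLI,
      Ideal.span_singleton_mul_span_singleton]

/-- inverses exist -/
theorem exists_mul_nrayCl_eq_one (hm : m ≠ ⊥) (x : NRayClass m) :
    ∃ y : NRayClass m, y * x = 1 := by
  obtain ⟨I, rfl⟩ := nrayCl_surjective x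
  obtain ⟨L, hL, h⟩ := exists_nrayEq_one hm I.2
  refine ⟨nrayCl m ⟨L, hL⟩, ?_⟩
  rw [← map_mul, ← map_one (nrayCl m)]
  exact nrayCl_eq_iff.2 h

variable (m) in
/-- the narrow ray class group modulo `𝔪 ≠ ⊥` -/
@[reducible] def nrayClassCommGroup (hm : m ≠ ⊥) : CommGroup (NRayClass m) :=
  { (inferInstance : CommMonoid (NRayClass m)) with
    inv := fun x => (exists_mul_nrayCl_eq_one hm x).choose
    inv_mul_cancel := fun x => (exists_mul_nrayCl_eq_one hm x).choose_spec }

theorem mul_pos_of_sign_eq {a b : ℝ} (ha : a ≠ 0) (h : SignType.sign a = SignType.sign b) :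
    0 < a * b := by
  rcases lt_or_gt_of_ne ha with h1 | h1
  · rw [sign_neg h1] at h
    exact mul_pos_of_neg_of_neg h1 (sign_eq_neg_one_iff.1 h.symm)
  · rw [sign_pos h1] at h
    exact mul_pos h1 (sign_eq_one_iff.1 h.symm)

/-- the three invariants of a narrow ray class: its ideal class, and a generator modulo `𝔪` and its
signs -/
theorem exists_ninvariant (hm : m ≠ ⊥) :
    ∃ f : Cop m → ClassGroup (𝓞 K) × (𝓞 K ⧸ m) × (RP K → SignType),
      ∀ I J : Cop m, f I = f J → NRayEq m I.1 J.1 := by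
  choose M hM hMm using fun C : ClassGroup (𝓞 K) => exists_coprime_mk0 (m := m) C⁻¹ hm
  have key : ∀ I : Cop m, ∃ x : 𝓞 K, x ≠ 0 ∧ IsCoprime (Ideal.span {x}) m ∧
      (I.1 : Ideal (𝓞 K)) * (M (ClassGroup.mk0 I.1) : Ideal (𝓞 K)) = Ideal.span {x} := by
    intro I
    have h1 : ClassGroup.mk0 (I.1 * M (ClassGroup.mk0 I.1)) = 1 := by
      rw [map_mul, hM, mul_inv_cancel]
    rw [ClassGroup.mk0_eq_one_iff (SetLike.coe_mem _)] at h1
    obtain ⟨x, hx⟩ := h1.principal
    have hx' : ((I.1 * M (ClassGroup.mk0 I.1) : (Ideal (𝓞 K))⁰) : Ideal (𝓞 K)) =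
      Ideal.span {x} := hx
    refine ⟨x, ?_, ?_, hx'⟩
    · rintro rfl
      rw [Ideal.span_singleton_eq_bot.mpr rfl] at hx'
      exact nonZeroDivisors.coe_ne_zero _ hx'
    · rw [← hx', Submonoid.coe_mul]
      exact IsCoprime.mul_left I.2 (hMm _)
  choose x hx0 hxm hx using key
  refine ⟨fun I => (ClassGroup.mk0 I.1, Ideal.Quotient.mk m (x I),
    fun w => SignType.sign (em w (x I : K))), fun I J h => ?_⟩
  simp only [Prod.mk.injEq] at h
  obtain ⟨h1, h2, h3⟩ := h
  rw [Ideal.Quotient.eq] at h2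
  refine ⟨x J, x I, hx0 J, hx0 I, hxm J, ?_, fun w => ?_, ?_⟩
  · rw [← neg_sub]; exact m.neg_mem h2
  · refine mul_pos_of_sign_eq ((map_ne_zero (em w)).2 ?_) (congrFun h3 w).symm
    rw [Ne, RingOfIntegers.coe_eq_zero_iff]
    exact hx0 J
  · have hI := hx I
    have hJ := hx J
    rw [← h1] at hJ
    have hM0 : (M (ClassGroup.mk0 I.1) : Ideal (𝓞 K)) ≠ 0 := nonZeroDivisors.coe_ne_zero _
    apply mul_right_cancel₀ hM0
    rw [mul_assoc, mul_assoc, hI, hJ, mul_comm]

theorem finite_nrayClass (hm : m ≠ ⊥) : Finite (NRayClass m) := by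
  obtain ⟨f, hf⟩ := exists_ninvariant hm
  have : Finite (𝓞 K ⧸ m) := Ideal.finiteQuotientOfFreeOfNeBot m hm
  have : Finite (RP K → SignType) := inferInstance
  choose s hs using nrayCl_surjective (m := m)
  refine Finite.of_injective (fun x => f (s x)) fun x y h => ?_
  rw [← hs x, ← hs y, nrayCl_eq_iff]
  exact hf _ _ h

/-- **The narrow ray class group**: the ideals prime to `𝔪`, modulo `NRayEq 𝔪`, form a finite
abelian group. -/
theorem groupNStmt (K : Type u) [Field K] [NumberField K] : GroupNStmt K := fun m hm =>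
  ⟨NRayClass m, nrayClassCommGroup m hm, finite_nrayClass hm, nrayCl m, nrayCl_surjective,
    fun _ _ => nrayCl_eq_iff⟩

end Fermat.Agent.Cor.RayN
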