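import Fermat.Agent.Corollaries.RayN.ThetaS
import Fermat.Agent.Corollaries.RayN.UnfoldS
import Fermat.Agent.Corollaries.RayN.DecayS
import Fermat.Agent.Corollaries.RayN.GammaS
import Fermat.Agent.Corollaries.RayN.MellinS
import Fermat.Agent.Corollaries.RayN.EntireS
import Fermat.Agent.Corollaries.RayN.EntireN
import Fermat.Agent.Corollaries.Ray.Hecke
import Fermat.Agent.Corollaries.RayN.GroupN
import Fermat.Agent.Corollaries.RayN.Dirichlet

/-!
# Hecke, Landau: narrow ray classes, Dirichlet's theorem with signs in every number field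

No hypotheses. `em w : K →+* ℝ` is the embedding at the real place `w`.
-/

set_option autoImplicit false

noncomputable section

open NumberField nonZeroDivisors Filter Topology

namespace Fermat.Agent.Cor.RayN

open Fermat.Agent.ClassL Fermat.Agent.Cor.Ray

universe u

/-- **Hecke**: the weighted zeta functions with signs are entire. -/
theorem entireSStmt (K : Type u) [Field K] [NumberField K] : EntireSStmt K :=
  entireSStmt_of (thetaSStmt K) (torusSStmt K) (decaySStmt K) (mellinSStmt K)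

/-- **Hecke**: the `L`-function of a non-trivial narrow ray class character is entire. -/
theorem entireNStmt (K : Type u) [Field K] [NumberField K] : EntireNStmt K :=
  entireNStmt_of (entireSStmt K) (entireStmt K)

/-- **Hecke**: it has no zero on `Re s ≥ 1`. -/
theorem nonVanNStmt (K : Type u) [Field K] [NumberField K] : NonVanNStmt K :=
  nonVanN (entireNStmt K)

variable {K : Type u} [Field K] [NumberField K] {𝔪 : Ideal (𝓞 K)}

/-- **Hecke's theorem** (1917, 1920), with all definitions unfolded. `ψ` is a completely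
multiplicative function on the nonzero ideals, zero exactly outside the ideals prime to `𝔪`, equal
to `1` on the principal ideals `(a)`, `a ≡ 1 mod 𝔪`, `a` positive at all real places, and not
identically `1` on the ideals prime to `𝔪`: its `L`-series extends to an entire function without
zeros on `Re s ≥ 1`. -/
theorem exists_entire_L_narrow (hm : 𝔪 ≠ ⊥) (ψ : (Ideal (𝓞 K))⁰ →* ℂ)
    (h1 : ∀ I, ‖ψ I‖ ≤ 1)
    (h2 : ∀ I : (Ideal (𝓞 K))⁰, ¬ IsCoprime (I : Ideal (𝓞 K)) 𝔪 → ψ I = 0)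
    (h3 : ∀ (I : (Ideal (𝓞 K))⁰) (a : 𝓞 K), (I : Ideal (𝓞 K)) = Ideal.span {a} → a - 1 ∈ 𝔪 →
      (∀ w : RP K, 0 < em w (a : K)) → ψ I = 1)
    (h4 : ∃ I : (Ideal (𝓞 K))⁰, IsCoprime (I : Ideal (𝓞 K)) 𝔪 ∧ ψ I ≠ 1) :
    ∃ L : ℂ → ℂ, Differentiable ℂ L ∧
      (∀ s : ℂ, 1 < s.re →
        L s = ∑' I : (Ideal (𝓞 K))⁰, ψ I * (Ideal.absNorm (I : Ideal (𝓞 K)) : ℂ) ^ (-s)) ∧
      ∀ s : ℂ, 1 ≤ s.re → L s ≠ 0 :=
  nonVanNStmt K 𝔪 hm ψ ⟨h1, h2, h3⟩ h4

/-- **The prime ideal theorem for narrow ray classes**: for every non-zero modulus `𝔪` and every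
ideal `J` prime to `𝔪`, the number of prime ideals `P` of norm at most `x` in the narrow ray class
of `J` modulo `𝔪` is asymptotic to `x / (h log x)`, `h` the number of narrow ray classes. -/
theorem prime_ideal_theorem_narrow (h𝔪 : 𝔪 ≠ ⊥) {J : (Ideal (𝓞 K))⁰}
    (hJ : IsCoprime (J : Ideal (𝓞 K)) 𝔪) :
    Tendsto (fun x : ℕ => (Nat.card {P : Pr K //
      Ideal.absNorm ((P.1 : (Ideal (𝓞 K))⁰) : Ideal (𝓞 K)) ≤ x ∧ NRayEq 𝔪 P.1 J} : ℝ) *
      Real.log x / x) atTop (𝓝 (1 / (nRayNumber 𝔪 : ℝ))) := by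
  rw [one_div]
  exact tendsto_card_nray (entireNStmt K) (groupNStmt K) h𝔪 hJ

/-- the number of narrow ray classes is finite and not zero -/
theorem nRayNumber_ne_zero (h𝔪 : 𝔪 ≠ ⊥) : nRayNumber 𝔪 ≠ 0 :=
  (nRayNumber_pos (entireNStmt K) (groupNStmt K) h𝔪).ne'

/-- **Every narrow ray class contains infinitely many prime ideals.** -/
theorem infinite_primes_in_narrow_ray_class (h𝔪 : 𝔪 ≠ ⊥) {J : (Ideal (𝓞 K))⁰}
    (hJ : IsCoprime (J : Ideal (𝓞 K)) 𝔪) :
    {P : (Ideal (𝓞 K))⁰ | (P : Ideal (𝓞 K)).IsPrime ∧ NRayEq 𝔪 P J}.Infinite :=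
  primesNStmt (entireNStmt K) (groupNStmt K) 𝔪 h𝔪 J hJ

/-- **Dirichlet's theorem on primes in arithmetic progressions, in every number field, with signs
and with the natural density**: if `α` is prime to `𝔪` and `T` is any set of real places, then the
number of prime ideals `(π)` of norm at most `x`, where `π ≡ α` modulo `𝔪` is negative exactly at
the places of `T`, is asymptotic to `x / (h log x)`, `h` the number of narrow ray classes. -/
theorem dirichlet_density_signs (h𝔪 : 𝔪 ≠ ⊥) {α : 𝓞 K} (hα : IsCoprime (Ideal.span {α}) 𝔪)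
    (T : Finset (RP K)) :
    Tendsto (fun x : ℕ => (Nat.card {P : Pr K //
      Ideal.absNorm ((P.1 : (Ideal (𝓞 K))⁰) : Ideal (𝓞 K)) ≤ x ∧
      ∃ π : 𝓞 K, π - α ∈ 𝔪 ∧
        (∀ w : RP K, (w ∈ T → em w (π : K) < 0) ∧ (w ∉ T → 0 < em w (π : K))) ∧
        ((P.1 : (Ideal (𝓞 K))⁰) : Ideal (𝓞 K)) = Ideal.span {π}} : ℝ) *
      Real.log x / x) atTop (𝓝 (1 / (nRayNumber 𝔪 : ℝ))) := by
  rw [one_div]
  exact tendsto_card_signs (entireNStmt K) (groupNStmt K) h𝔪 hα T

/-- **Dirichlet's theorem in every number field, with signs**: if `α` is prime to `𝔪` and `T` is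
any set of real places, there are infinitely many prime elements `π ≡ α` modulo `𝔪` which are
negative exactly at the places of `T`, no two of them associated. -/
theorem dirichlet_signs (h𝔪 : 𝔪 ≠ ⊥) {α : 𝓞 K} (hα : IsCoprime (Ideal.span {α}) 𝔪)
    (T : Finset (RP K)) :
    {P : Ideal (𝓞 K) | ∃ π : 𝓞 K, Prime π ∧ π - α ∈ 𝔪 ∧
      (∀ w : RP K, (w ∈ T → em w (π : K) < 0) ∧ (w ∉ T → 0 < em w (π : K))) ∧
      P = Ideal.span {π}}.Infinite :=
  infinite_primes_signs (entireNStmt K) (groupNStmt K) h𝔪 hα T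

end Fermat.Agent.Cor.RayN

end
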