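import Mathlib
import Fermat.Agent.LT.ThetaInv

/-!
# Gaussians times a product of coordinates and their Fourier transforms (piece (A0) of RAYN)

`gauT T e a v = (∏_{i ∈ T} v_i) exp(-π Σ a_i v_i²)`: its Fourier transform with respect to a form
with the diagonal entries `ε_i = ±1` is a multiple of `gauT T e a⁻¹`, with the factor
`∏_{i ∈ T} (-i ε_i / a_i)`.
-/

set_option autoImplicit false

noncomputable section

open MeasureTheory Set Filter TopologicalSpace Complex Module
open Fermat.Agent.LT.Poisson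
open scoped Real

namespace Fermat.Agent.Cor.RayN

/-! ### The first moment of a one-dimensional Gaussian -/

theorem integrable_mul_cexp {b : ℂ} (hb : 0 < b.re) (c : ℂ) :
    Integrable fun x : ℝ => (x : ℂ) * cexp (-b * (x : ℂ) ^ 2 + c * x) := by
  have h2 := (integrable_cexp_quadratic hb (c + 1) 0).norm.add
    (integrable_cexp_quadratic hb (c - 1) 0).norm
  refine Integrable.mono' h2 ?_ (Filter.Eventually.of_forall fun x => ?_)
  · exact Continuous.aestronglyMeasurable (by fun_prop)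
  · simp only [Pi.add_apply]
    have e1 : cexp (-b * (x : ℂ) ^ 2 + (c + 1) * x + 0) =
        cexp (-b * (x : ℂ) ^ 2 + c * x) * cexp x := by
      rw [← Complex.exp_add]
      congr 1
      ring
    have e2 : cexp (-b * (x : ℂ) ^ 2 + (c - 1) * x + 0) =
        cexp (-b * (x : ℂ) ^ 2 + c * x) * cexp (-x) := by
      rw [← Complex.exp_add]
      congr 1
      ring
    rw [e1, e2, norm_mul, norm_mul, norm_mul, ← mul_add, mul_comm]
    refine mul_le_mul_of_nonneg_left ?_ (norm_nonneg _)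
    rw [← Complex.ofReal_neg, Complex.norm_exp_ofReal, Complex.norm_exp_ofReal, Complex.norm_real,
      Real.norm_eq_abs]
    have h3 := Real.add_one_le_exp x
    have h4 := Real.add_one_le_exp (-x)
    have h5 := Real.exp_pos x
    have h6 := Real.exp_pos (-x)
    rcases abs_cases x with h | h <;> rw [h.1] <;> linarith

theorem integral_mul_cexp {b : ℂ} (hb : 0 < b.re) (c : ℂ) :
    ∫ x : ℝ, (x : ℂ) * cexp (-b * (x : ℂ) ^ 2 + c * x) =
      c / (2 * b) * ∫ x : ℝ, cexp (-b * (x : ℂ) ^ 2 + c * x) := by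
  have hb0 : b ≠ 0 := fun h => by simp [h] at hb
  have h1 := integrable_mul_cexp hb c
  have h2 : Integrable fun x : ℝ => cexp (-b * (x : ℂ) ^ 2 + c * x) := by
    simpa using integrable_cexp_quadratic hb c 0
  have hd : ∀ x : ℝ, HasDerivAt (fun x : ℝ => cexp (-b * (x : ℂ) ^ 2 + c * x))
      (c * cexp (-b * (x : ℂ) ^ 2 + c * x) -
        2 * b * ((x : ℂ) * cexp (-b * (x : ℂ) ^ 2 + c * x))) x := by
    intro x
    have e1 : HasDerivAt (fun z : ℂ => cexp (-b * z ^ 2 + c * z))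
        (cexp (-b * (x : ℂ) ^ 2 + c * x) * (-b * (2 * (x : ℂ)) + c)) (x : ℂ) := by
      have e2 : HasDerivAt (fun z : ℂ => -b * z ^ 2 + c * z) (-b * (2 * (x : ℂ)) + c) (x : ℂ) := by
        have := ((hasDerivAt_pow 2 (x : ℂ)).const_mul (-b)).add
          ((hasDerivAt_id (x : ℂ)).const_mul c)
        exact this.congr_deriv (by norm_num)
      exact e2.cexp
    have e3 := e1.comp_ofReal
    convert e3 using 1
    ring
  have h3 := integral_eq_zero_of_hasDerivAt_of_integrable hd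
    ((h2.const_mul c).sub (h1.const_mul (2 * b))) h2
  rw [integral_sub (h2.const_mul c) (h1.const_mul (2 * b)), integral_const_mul,
    integral_const_mul, sub_eq_zero] at h3
  rw [div_mul_eq_mul_div, h3, mul_div_cancel_left₀ _ (mul_ne_zero two_ne_zero hb0)]

variable {ι : Type*} [Fintype ι]

open scoped Classical in
/-- the moments of a Gaussian: one power of each coordinate in `T` -/
theorem integral_prod_mul_cexp (T : Finset ι) {b : ι → ℂ} (hb : ∀ i, 0 < (b i).re) (c : ι → ℂ) :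
    ∫ v : ι → ℝ, (∏ i ∈ T, (v i : ℂ)) * cexp (-∑ i, b i * (v i : ℂ) ^ 2 + ∑ i, c i * v i) =
      (∏ i ∈ T, c i / (2 * b i)) *
        ∏ i, (π / b i) ^ (1 / 2 : ℂ) * cexp (c i ^ 2 / (4 * b i)) := by
  have hT : ∀ f : ι → ℂ, ∏ i ∈ T, f i = ∏ i, if i ∈ T then f i else 1 := fun f => by
    rw [Finset.prod_ite_mem, Finset.univ_inter]
  have h1 : ∀ v : ι → ℝ, (∏ i ∈ T, (v i : ℂ)) *
      cexp (-∑ i, b i * (v i : ℂ) ^ 2 + ∑ i, c i * v i) =
      ∏ i, (if i ∈ T then (v i : ℂ) else 1) * cexp (-b i * (v i : ℂ) ^ 2 + c i * v i) := by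
    intro v
    rw [hT, Finset.prod_mul_distrib, ← Complex.exp_sum, Finset.sum_add_distrib,
      ← Finset.sum_neg_distrib]
    simp_rw [neg_mul]
  simp_rw [h1]
  rw [integral_fintype_prod_volume_eq_prod
    (f := fun i (x : ℝ) => (if i ∈ T then (x : ℂ) else 1) * cexp (-b i * (x : ℂ) ^ 2 + c i * x)),
    hT, ← Finset.prod_mul_distrib]
  refine Finset.prod_congr rfl fun i _ => ?_
  have h2 : ∫ x : ℝ, cexp (-b i * (x : ℂ) ^ 2 + c i * x) =
      (π / b i) ^ (1 / 2 : ℂ) * cexp (c i ^ 2 / (4 * b i)) := by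
    have : (-b i).re < 0 := by simpa using hb i
    convert! integral_cexp_quadratic this (c i) 0 using 1 <;> simp [div_neg]
  split_ifs with h
  · rw [integral_mul_cexp (hb i), h2]
  · simp_rw [one_mul]
    exact h2

variable {V : Type*} [NormedAddCommGroup V] [NormedSpace ℝ V]

/-- the Gaussian times the coordinates in `T` -/
def gauT (T : Finset ι) (e : Basis ι ℝ V) (a : ι → ℂ) (v : V) : ℂ :=
  (∏ i ∈ T, (e.repr v i : ℂ)) * gau e a v

theorem continuous_gauT (T : Finset ι) (e : Basis ι ℝ V) (a : ι → ℂ) :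
    Continuous (gauT T e a) := by
  have h : ∀ i, Continuous fun v => (e.repr v i : ℂ) := fun i =>
    Complex.continuous_ofReal.comp ((continuous_apply i).comp (cv e).symm.continuous)
  exact (continuous_finsetProd T fun i _ => h i).mul (continuous_gau e a)

theorem gauT_decay (T : Finset ι) (e : Basis ι ℝ V) {a : ι → ℂ} (ha : ∀ i, 0 < (a i).re)
    (k : ℕ) : ∃ C : ℝ, ∀ v, ‖gauT T e a v‖ ≤ C * (1 + ‖v‖) ^ (-(k : ℝ)) := by
  obtain ⟨C, hC⟩ := gau_decay e ha (k + T.card)
  set A : ℝ := ‖((cv e).symm : V →L[ℝ] (ι → ℝ))‖ with hA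
  have hA0 : 0 ≤ A := norm_nonneg _
  have hi : ∀ (v : V) (i : ι), |e.repr v i| ≤ A * (1 + ‖v‖) := by
    intro v i
    have h1 : |e.repr v i| ≤ ‖(cv e).symm v‖ := norm_le_pi_norm ((cv e).symm v) i
    have h2 : ‖(cv e).symm v‖ ≤ A * ‖v‖ := ((cv e).symm : V →L[ℝ] (ι → ℝ)).le_opNorm v
    nlinarith
  refine ⟨A ^ T.card * C, fun v => ?_⟩
  have hv : 0 < 1 + ‖v‖ := by positivity
  have h1 : ‖∏ i ∈ T, (e.repr v i : ℂ)‖ ≤ (A * (1 + ‖v‖)) ^ T.card := by
    rw [norm_prod]
    refine (Finset.prod_le_prod (fun _ _ => norm_nonneg _) fun i _ => ?_).trans_eq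
      (Finset.prod_const _)
    rw [Complex.norm_real]
    exact hi v i
  rw [gauT, norm_mul]
  refine (mul_le_mul h1 (hC v) (norm_nonneg _) (by positivity)).trans_eq ?_
  rw [mul_pow, Nat.cast_add, neg_add, Real.rpow_add hv, Real.rpow_neg hv.le (T.card : ℝ),
    Real.rpow_natCast]
  field_simp

section Fourier

variable [MeasurableSpace V] [BorelSpace V]

/-- **The Fourier transform of a Gaussian times a product of coordinates**, for a form which is
diagonal with entries `±1`. -/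
theorem fB_gauT (T : Finset ι) (μ : Measure V) [μ.IsAddHaarMeasure] {B : LinearMap.BilinForm ℝ V}
    (e : Basis ι ℝ V) {ε : ι → ℝ} (hε : ∀ i, ε i ^ 2 = 1)
    (hBe : ∀ w v, B w v = ∑ i, ε i * e.repr w i * e.repr v i)
    {a : ι → ℂ} (ha : ∀ i, 0 < (a i).re) (w : V) :
    fB μ B (gauT T e a) w = μ.real (parallelepiped e) * (∏ i, ((a i)⁻¹) ^ (1 / 2 : ℂ)) *
      (∏ i ∈ T, (-I * ε i * (a i)⁻¹)) * gauT T e (fun i => (a i)⁻¹) w := by
  classical
  have ha0 : ∀ i, a i ≠ 0 := fun i h => by simpa [h] using ha i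
  rw [fB, integral_cv μ e]
  have h1 : ∀ x : ι → ℝ, cexp (-(2 * π * I * (B w (cv e x) : ℝ))) * gauT T e a (cv e x) =
      (∏ i ∈ T, (x i : ℂ)) *
      cexp (-∑ i, (π * a i) * (x i : ℂ) ^ 2 + ∑ i, (-(2 * π * I * (ε i * e.repr w i : ℝ))) * x i) := by
    intro x
    rw [gauT, mul_left_comm, gau, ← Complex.exp_add, hBe]
    simp only [repr_cv]
    congr 2
    push_cast
    rw [Finset.mul_sum, Finset.mul_sum, ← Finset.sum_neg_distrib, add_comm, ← Finset.sum_neg_distrib]
    congr 1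
    · rw [← Finset.sum_neg_distrib]
      refine Finset.sum_congr rfl fun i _ => ?_
      ring
    · refine Finset.sum_congr rfl fun i _ => ?_
      ring
  have hπ : (π : ℂ) ≠ 0 := by exact_mod_cast Real.pi_ne_zero
  have h4 : ∏ i, ((π : ℂ) / (π * a i)) ^ (1 / 2 : ℂ) = ∏ i, ((a i)⁻¹) ^ (1 / 2 : ℂ) := by
    refine Finset.prod_congr rfl fun i _ => ?_
    congr 1
    field_simp
  have h5 : ∏ i, cexp ((-(2 * π * I * (ε i * e.repr w i : ℝ))) ^ 2 / (4 * (π * a i))) =
      gau e (fun i => (a i)⁻¹) w := by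
    rw [gau, ← Complex.exp_sum]
    congr 1
    rw [Finset.mul_sum, ← Finset.sum_neg_distrib]
    refine Finset.sum_congr rfl fun i _ => ?_
    have h2 : ((ε i : ℝ) : ℂ) ^ 2 = 1 := by exact_mod_cast hε i
    have h3 := ha0 i
    push_cast
    have : (-(2 * (π : ℂ) * I * (↑(ε i) * ↑((e.repr w) i)))) ^ 2 =
        4 * (π : ℂ) ^ 2 * I ^ 2 * ((ε i : ℝ) : ℂ) ^ 2 * (e.repr w i : ℂ) ^ 2 := by ring
    rw [this, h2, Complex.I_sq]
    field_simp
  have h6 : ∏ i ∈ T, (-(2 * π * I * (ε i * e.repr w i : ℝ))) / (2 * (π * a i)) =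
      (∏ i ∈ T, (-I * ε i * (a i)⁻¹)) * ∏ i ∈ T, (e.repr w i : ℂ) := by
    rw [← Finset.prod_mul_distrib]
    refine Finset.prod_congr rfl fun i _ => ?_
    have h3 := ha0 i
    push_cast
    field_simp
  simp_rw [h1]
  rw [integral_prod_mul_cexp T (fun i => by
    rw [Complex.re_ofReal_mul]
    exact mul_pos Real.pi_pos (ha i)), Finset.prod_mul_distrib, h4, h5, h6, Complex.real_smul,
    gauT]
  ring

end Fourier

end Fermat.Agent.Cor.RayN
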