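import Fermat.Agent.Corollaries.RayN.Defs
import Fermat.Agent.Corollaries.RayN.GauT
import Fermat.Agent.Corollaries.Ray.ThetaW

/-!
# Theta inversion with weights and signs (piece (A) of the block RAYN)

`K` any number field, `S` a set of real places, `φ` a weight of sign type `S`. The dual weight is
`φ'(y) = (-i)^|S| ∑_{r ∈ 𝔟 / 𝔠} φ(r) e(Tr (y r))` on `𝔠*`, `0` elsewhere.
-/

set_option autoImplicit false

noncomputable section

namespace Fermat.Agent.Cor.RayN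

open NumberField NumberField.InfinitePlace NumberField.mixedEmbedding Module MeasureTheory
open Fermat.Agent.LT.Poisson Fermat.Agent.Classic.Zeta Fermat.Agent.Cor.Ray
open scoped nonZeroDivisors Real

universe u

variable {K : Type u} [Field K] [NumberField K]

/-- the coordinates belonging to `S` -/
def cS (S : Finset (RP K)) : Finset (index K) := S.map Function.Embedding.inl

omit [NumberField K] in
theorem prod_cS (S : Finset (RP K)) (f : index K → ℂ) :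
    ∏ i ∈ cS S, f i = ∏ w ∈ S, f (Sum.inl w) := by
  rw [cS, Finset.prod_map]
  rfl

section Shift

open scoped Classical

variable {t : InfinitePlace K → ℝ}

theorem gauT_eq (S : Finset (RP K)) (t : InfinitePlace K → ℝ) (x : K) :
    gauT (cS S) (eK K) (wtK t) (mixedEmbedding K x) = ((pS S x : ℝ) : ℂ) * ((E t x : ℝ) : ℂ) := by
  rw [gauT, gau_eq, prod_cS, pS]
  push_cast
  congr 1
  refine Finset.prod_congr rfl fun w _ => ?_
  rw [eK_repr_inl, mixedEmbedding_apply_isReal]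
  rfl

theorem ES_coe (S : Finset (RP K)) (t : InfinitePlace K → ℝ) (x : K) :
    ((ES S t x : ℝ) : ℂ) = ((∏ w ∈ S, √(t w.1) : ℝ) : ℂ) *
      (((pS S x : ℝ) : ℂ) * ((E t x : ℝ) : ℂ)) := by
  rw [ES]
  push_cast
  ring

theorem exists_decayT (S : Finset (RP K)) (ht : ∀ w, 0 < t w) : ∃ C : ℝ, ∀ v : mixedSpace K,
    ‖gauT (cS S) (eK K) (wtK t) v‖ ≤ C * (1 + ‖v‖) ^ (-((finrank ℚ K + 1 : ℕ) : ℝ)) :=
  gauT_decay (cS S) (eK K) (wtK_re_pos ht) (finrank ℚ K + 1)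

/-- convergence of the shifted theta series. -/
theorem summable_shiftS (S : Finset (RP K)) (ht : ∀ w, 0 < t w)
    {𝔠 : FractionalIdeal (𝓞 K)⁰ K} (h𝔠 : 𝔠 ≠ 0) (r : K) :
    Summable fun x : 𝔠 => ((ES S t (r + (x : K)) : ℝ) : ℂ) := by
  obtain ⟨C, hC⟩ := exists_decayT (K := K) S ht
  have h1 := (isRealModel K).summable_of_decay (LK_eq (Units.mk0 𝔠 h𝔠)) lt_beta hC (jK K r)
  refine (h1.mul_left ((∏ w ∈ S, √(t w.1) : ℝ) : ℂ)).congr fun x => ?_
  rw [← map_add, jK_apply, gauT_eq, ← ES_coe]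

omit [NumberField K] in
/-- the constants of the Fourier transform -/
theorem prod_sqrt_mul (S : Finset (RP K)) (ht : ∀ w, 0 < t w) :
    ((∏ w ∈ S, √(t w.1) : ℝ) : ℂ) * ∏ w ∈ S, (-Complex.I * ((t w.1 : ℝ) : ℂ)⁻¹) =
      (-Complex.I) ^ S.card * ((∏ w ∈ S, √((t w.1)⁻¹) : ℝ) : ℂ) := by
  rw [← Finset.prod_const]
  push_cast
  rw [← Finset.prod_mul_distrib, ← Finset.prod_mul_distrib]
  refine Finset.prod_congr rfl fun w _ => ?_
  have h1 : √(t w.1) * (t w.1)⁻¹ = √((t w.1)⁻¹) := by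
    rw [Real.sqrt_inv]
    have h2 : √(t w.1) ≠ 0 := (Real.sqrt_pos.mpr (ht w.1)).ne'
    have h3 : √(t w.1) * √(t w.1) = t w.1 := Real.mul_self_sqrt (ht w.1).le
    rw [← div_eq_mul_inv, inv_eq_one_div, div_eq_div_iff (ht w.1).ne' h2, one_mul, h3]
  rw [← h1]
  push_cast
  ring

/-- **Shifted theta inversion.** -/
theorem hasSum_shiftS (S : Finset (RP K)) (ht : ∀ w, 0 < t w)
    {𝔠 : FractionalIdeal (𝓞 K)⁰ K} (h𝔠 : 𝔠 ≠ 0) (r : K) :
    HasSum (fun y : dualF 𝔠 => (cΘ 𝔠 t : ℂ) * ((-Complex.I) ^ S.card *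
      ((ES S (fun w => (t w)⁻¹) (y : K) : ℝ) : ℂ) * ch (y : K) r))
      (∑' x : 𝔠, ((ES S t (r + (x : K)) : ℝ) : ℂ)) := by
  set I : (FractionalIdeal (𝓞 K)⁰ K)ˣ := Units.mk0 𝔠 h𝔠 with hI
  have hI' : (I : FractionalIdeal (𝓞 K)⁰ K) = 𝔠 := rfl
  obtain ⟨C, hC⟩ := exists_decayT (K := K) S ht
  have ht' : ∀ w, 0 < (t w)⁻¹ := fun w => inv_pos.mpr (ht w)
  obtain ⟨C', hC'⟩ := exists_decayT (K := K) (t := fun w => (t w)⁻¹) S ht'
  have hB : ∀ y : K, fB volume (trB K) (gauT (cS S) (eK K) (wtK t)) (jK K y) =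
      (volume : Measure (mixedSpace K)).real (parallelepiped (eK K)) *
        (((∏ w : InfinitePlace K, t w ^ ((w.mult : ℝ) / 2))⁻¹ : ℝ) : ℂ) *
        (∏ w ∈ S, (-Complex.I * ((t w.1 : ℝ) : ℂ)⁻¹)) *
        (((pS S y : ℝ) : ℂ) * ((E (fun w => (t w)⁻¹) y : ℝ) : ℂ)) := by
    intro y
    rw [fB_gauT (cS S) volume (eK K) (sgnK_sq K) (trB_eq K) (wtK_re_pos ht), prod_wtK ht, wtK_inv,
      jK_apply, gauT_eq, prod_cS]
    congr 2
    refine Finset.prod_congr rfl fun w _ => ?_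
    simp [sgnK, wtK]
  have hs : Summable fun y : (Algebra.traceForm ℚ K).dualSubmodule (LK I) =>
      fB volume (trB K) (gauT (cS S) (eK K) (wtK t)) (jK K y) := by
    simp_rw [hB]
    have h1 := (isRealModel K).summable_dual_of_decay (LK_eq I) lt_beta hC' 0
    refine Summable.mul_left _ (h1.congr fun y => ?_)
    rw [zero_add, jK_apply, gauT_eq]
  have h := (isRealModel K).hasSum_poisson volume (LK_eq I) (continuous_gauT _ _ _) lt_beta hC hs
    (jK K r)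
  have hb : (isRealModel K).realBasis (basisOfFractionalIdeal K I) =
      fractionalIdealLatticeBasis K I := by
    apply Basis.eq_of_apply_eq
    intro i
    rw [IsRealModel.realBasis_apply, fractionalIdealLatticeBasis_apply, jK_apply]
  rw [hb] at h
  have h5 : ((∏ w ∈ S, √(t w.1) : ℝ) : ℂ) *
      ∑' x : LK I, gauT (cS S) (eK K) (wtK t) (jK K r + jK K x) =
      ∑' x : 𝔠, ((ES S t (r + (x : K)) : ℝ) : ℂ) := by
    rw [← tsum_mul_left]
    refine tsum_congr fun x => ?_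
    rw [← map_add, jK_apply, gauT_eq, ← ES_coe]
  have h7 := h.mul_left ((∏ w ∈ S, √(t w.1) : ℝ) : ℂ)
  rw [h5] at h7
  have h6 : HasSum (fun y : (Algebra.traceForm ℚ K).dualSubmodule (LK I) =>
      (cΘ 𝔠 t : ℂ) * ((-Complex.I) ^ S.card * ((ES S (fun w => (t w)⁻¹) (y : K) : ℝ) : ℂ) *
        ch (y : K) r))
      (∑' x : 𝔠, ((ES S t (r + (x : K)) : ℝ) : ℂ)) := by
    refine (congrArg (fun F => HasSum F _) (funext fun y => ?_)).mpr h7
    rw [hB, (isRealModel K).map, Algebra.traceForm_apply, ← hI', cΘ_eq, ch, ES_coe]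
    have h8 := prod_sqrt_mul S ht
    push_cast at h8 ⊢
    linear_combination (-(((volume : Measure (mixedSpace K)).real
        (parallelepiped (fractionalIdealLatticeBasis K I)) : ℂ)⁻¹ *
      ((volume : Measure (mixedSpace K)).real (parallelepiped (eK K)) *
        (∏ w : InfinitePlace K, ((t w ^ ((w.mult : ℝ) / 2) : ℝ) : ℂ))⁻¹) *
        (((pS S (y : K) : ℝ) : ℂ) * ((E (fun w => (t w)⁻¹) (y : K) : ℝ) : ℂ)) *
        Complex.exp (2 * π * Complex.I * ((Algebra.trace ℚ K ((y : K) * r) : ℚ) : ℂ)))) * h8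
  exact (Equiv.subtypeEquivRight (mem_dualSubmodule_iff I)).hasSum_iff.mp h6

end Shift

/-! ### The dual weight -/

section Dual

variable {S : Finset (RP K)} {𝔟 𝔠 : FractionalIdeal (𝓞 K)⁰ K}

/-- **The dual weight.** -/
def dwS (S : Finset (RP K)) (𝔠 : FractionalIdeal (𝓞 K)⁰ K) (φ : K → ℂ) (R : Finset K) (y : K) :
    ℂ :=
  (-Complex.I) ^ S.card * dw 𝔠 φ R y

theorem isWtS_dwS {φ : K → ℂ} (h : IsWtS S 𝔟 𝔠 φ) {R : Finset K} (hR : IsReps 𝔟 𝔠 R) :
    IsWtS S (dualF 𝔠) (dualF 𝔟) (dwS S 𝔠 φ R) where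
  hb := dualF_ne_zero h.hc
  hc := dualF_ne_zero h.hb
  le := dual_le h.hb h.hc h.le
  supp y hy := by rw [dwS, dw, if_neg hy, mul_zero]
  per y c hc := by
    have hle := dual_le h.hb h.hc h.le
    rw [dwS, dwS]
    congr 1
    by_cases hy : y ∈ dualF 𝔠
    · have hyc : y + c ∈ dualF 𝔠 := mem_add hy (hle hc)
      rw [dw, dw, if_pos hy, if_pos hyc]
      refine Finset.sum_congr rfl fun r hr => ?_
      rw [ch_add_left, ch_eq_one h.hb hc (hR.mem r hr), mul_one]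
    · have hyc : y + c ∉ dualF 𝔠 := fun h1 => hy (by
        have := mem_sub h1 (hle hc)
        rwa [add_sub_cancel_right] at this)
      rw [dw, dw, if_neg hy, if_neg hyc]
  unit v y := by
    have hv0 : ((v : 𝓞 K) : K) ≠ 0 := by simp
    have hv : (((v⁻¹ : (𝓞 K)ˣ) : 𝓞 K) : K) * ((v : 𝓞 K) : K) = 1 := by
      have h1 : (((v⁻¹ : (𝓞 K)ˣ) : 𝓞 K)) * ((v : 𝓞 K)) = 1 := by simp
      exact_mod_cast congrArg (algebraMap (𝓞 K) K) h1
    have hsg : ((sg S ((v : 𝓞 K) : K) : ℝ) : ℂ) * ((sg S ((v : 𝓞 K) : K) : ℝ) : ℂ) = 1 := by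
      exact_mod_cast sg_sq S hv0
    rw [dwS, dwS]
    by_cases hy : y ∈ dualF 𝔠
    · have hvy : ((v : 𝓞 K) : K) * y ∈ dualF 𝔠 := mem_smul _ hy
      have h1 := sum_reps hR (hR.unit_smul v) (g := fun x => φ x * ch y x) (fun x c hc => by
        rw [h.per x c hc, ch_add_right, ch_eq_one h.hc hy hc, mul_one])
      have h2 : dw 𝔠 φ R y = ((sg S ((v : 𝓞 K) : K) : ℝ) : ℂ) * dw 𝔠 φ R (((v : 𝓞 K) : K) * y) := by
        rw [dw, dw, if_pos hy, if_pos hvy, h1, Finset.sum_map, Finset.mul_sum]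
        refine Finset.sum_congr rfl fun r _ => ?_
        simp only [Function.Embedding.coeFn_mk]
        rw [h.unit, ch, ch, mul_comm ((v : 𝓞 K) : K) y, mul_assoc y, mul_assoc]
      rw [h2]
      linear_combination (-(-Complex.I) ^ S.card * dw 𝔠 φ R (((v : 𝓞 K) : K) * y)) * hsg
    · have hvy : ((v : 𝓞 K) : K) * y ∉ dualF 𝔠 := fun h1 => hy (by
        have := mem_smul ((v⁻¹ : (𝓞 K)ˣ) : 𝓞 K) h1
        rwa [← mul_assoc, hv, one_mul] at this)
      rw [dw, dw, if_neg hy, if_neg hvy, mul_zero, mul_zero]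
  bdd := by
    refine ⟨∑ r ∈ R, ‖φ r‖, fun y => ?_⟩
    rw [dwS, norm_mul, norm_pow, norm_neg, Complex.norm_I, one_pow, one_mul, dw]
    split_ifs
    · refine (norm_sum_le _ _).trans_eq (Finset.sum_congr rfl fun r _ => ?_)
      rw [norm_mul, norm_ch, mul_one]
    · rw [norm_zero]
      exact Finset.sum_nonneg fun r _ => norm_nonneg _

end Dual

/-! ### Theta inversion -/

section Inv

variable {S : Finset (RP K)} {𝔟 𝔠 : FractionalIdeal (𝓞 K)⁰ K} {t : InfinitePlace K → ℝ}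

/-- Decomposition of the weighted theta series into classes modulo `𝔠`. -/
theorem hasSum_ΘS (ht : ∀ w, 0 < t w) {φ : K → ℂ} (h : IsWtS S 𝔟 𝔠 φ) {R : Finset K}
    (hR : IsReps 𝔟 𝔠 R) : HasSum (fun x : K => φ x * ((ES S t x : ℝ) : ℂ))
      (∑ r ∈ R, φ r * ∑' x : 𝔠, ((ES S t (r + (x : K)) : ℝ) : ℂ)) := by
  classical
  have h1 : ∀ r ∈ R, HasSum (fun x : K => if x - r ∈ 𝔠 then φ r * ((ES S t x : ℝ) : ℂ) else 0)
      (φ r * ∑' x : 𝔠, ((ES S t (r + (x : K)) : ℝ) : ℂ)) := by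
    intro r _
    have hinj : Function.Injective fun x : 𝔠 => r + (x : K) := fun x y hxy =>
      Subtype.ext (add_left_cancel hxy)
    rw [← hinj.hasSum_iff]
    · have h3 := (summable_shiftS S ht h.hc r).hasSum.mul_left (φ r)
      have h4 : ((fun x : K => if x - r ∈ 𝔠 then φ r * ((ES S t x : ℝ) : ℂ) else 0) ∘
          fun x : 𝔠 => r + (x : K)) = fun x : 𝔠 => φ r * ((ES S t (r + (x : K)) : ℝ) : ℂ) := by
        funext x
        simp only [Function.comp_apply]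
        rw [if_pos]
        rw [add_sub_cancel_left]
        exact x.2
      rw [h4]
      exact h3
    · intro x hx
      rw [if_neg]
      exact fun hxr => hx ⟨⟨x - r, hxr⟩, by simp⟩
  convert hasSum_sum h1 using 1
  funext x
  by_cases hx : x ∈ 𝔟
  · obtain ⟨r, ⟨hr, hxr⟩, huniq⟩ := hR.ex x hx
    rw [Finset.sum_eq_single_of_mem r hr, if_pos hxr]
    · have h2 := h.per r (x - r) hxr
      rw [add_sub_cancel] at h2
      rw [h2]
    · intro s hs hsr
      rw [if_neg]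
      exact fun hxs => hsr (huniq s ⟨hs, hxs⟩)
  · rw [h.supp x hx, zero_mul, Finset.sum_eq_zero]
    intro r hr
    rw [if_neg]
    intro hxr
    have h2 := mem_add (hR.mem r hr) (h.le hxr)
    rw [add_sub_cancel] at h2
    exact hx h2

/-- **Theta inversion with weights and signs.** -/
theorem isInvS_dwS {φ : K → ℂ} (h : IsWtS S 𝔟 𝔠 φ) {R : Finset K} (hR : IsReps 𝔟 𝔠 R) :
    IsInvS S 𝔠 φ (dwS S 𝔠 φ R) := by
  classical
  intro t ht
  have h1 := (hasSum_ΘS ht h hR).tsum_eq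
  have h2 : HasSum (fun y : dualF 𝔠 => ∑ r ∈ R, φ r * ((cΘ 𝔠 t : ℂ) * ((-Complex.I) ^ S.card *
      ((ES S (fun w => (t w)⁻¹) (y : K) : ℝ) : ℂ) * ch (y : K) r)))
      (∑ r ∈ R, φ r * ∑' x : 𝔠, ((ES S t (r + (x : K)) : ℝ) : ℂ)) :=
    hasSum_sum fun r _ => (hasSum_shiftS S ht h.hc r).mul_left (φ r)
  have h3 : HasSum (fun y : K => (cΘ 𝔠 t : ℂ) *
      (dwS S 𝔠 φ R y * ((ES S (fun w => (t w)⁻¹) y : ℝ) : ℂ)))
      (∑ r ∈ R, φ r * ∑' x : 𝔠, ((ES S t (r + (x : K)) : ℝ) : ℂ)) := by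
    have hinj : Function.Injective fun y : dualF 𝔠 => (y : K) := Subtype.val_injective
    rw [← hinj.hasSum_iff]
    · convert h2 using 1
      funext y
      simp only [Function.comp_apply]
      rw [dwS, dw, if_pos y.2, Finset.mul_sum, Finset.sum_mul, Finset.mul_sum]
      refine Finset.sum_congr rfl fun r _ => ?_
      ring
    · intro y hy
      have hy' : y ∉ dualF 𝔠 := fun h4 => hy ⟨⟨y, h4⟩, rfl⟩
      rw [dwS, dw, if_neg hy', mul_zero, zero_mul, mul_zero]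
  rw [ΘS, h1, ← h3.tsum_eq, tsum_mul_left]
  rfl

end Inv

/-- **Piece (A).** -/
theorem thetaSStmt (K : Type u) [Field K] [NumberField K] : ThetaSStmt K := by
  intro S 𝔟 𝔠 φ h
  obtain ⟨R, hR⟩ := exists_reps (𝔟 := 𝔟) h.hc
  exact ⟨dwS S 𝔠 φ R, isWtS_dwS h hR, isInvS_dwS h hR⟩

end Fermat.Agent.Cor.RayN
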