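import Fermat.Agent.Corollaries.RayN.Final
import Fermat.Agent.Corollaries.Ray.FormsMain
import Fermat.Agent.Corollaries.Ray.BForm

/-!
# Indefinite binary quadratic forms: signs

* prime ideals of residue degree one in narrow ray classes;
* the sign of the norm in a quadratic field;
* a primitive form which is not negative definite takes positive values prime to a given number.
-/

set_option autoImplicit false

noncomputable section

open NumberField nonZeroDivisors Filter Topology Module QuadraticAlgebra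

namespace Fermat.Agent.Cor.RayN

open Fermat.Agent.ClassL Fermat.Agent.Cor.Ray

universe u

section General

variable {K : Type u} [Field K] [NumberField K] {𝔪 : Ideal (𝓞 K)}

open scoped Classical in
/-- **The prime ideal theorem for the prime ideals of residue degree one in a narrow ray class.** -/
theorem prime_ideal_theorem_narrow_deg_one (h𝔪 : 𝔪 ≠ ⊥) {J : (Ideal (𝓞 K))⁰}
    (hJ : IsCoprime (J : Ideal (𝓞 K)) 𝔪) :
    Tendsto (fun x : ℕ => (((prLe K x).filter fun P => NRayEq 𝔪 P.1 J ∧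
        (Ideal.absNorm (P.1 : Ideal (𝓞 K))).Prime).card : ℝ) * Real.log x / x) atTop
      (𝓝 (1 / (nRayNumber 𝔪 : ℝ))) := by
  refine qd_tendsto_of_bounded (A := finrank ℚ K) (B := finrank ℚ K) (fun x => ?_)
    (prime_ideal_theorem_narrow h𝔪 hJ)
  have h1 : Nat.card {P : Pr K // Ideal.absNorm ((P.1 : (Ideal (𝓞 K))⁰) : Ideal (𝓞 K)) ≤ x ∧
      NRayEq 𝔪 P.1 J} = ((prLe K x).filter fun P => NRayEq 𝔪 P.1 J).card := by
    rw [Nat.subtype_card]
    intro P
    rw [Finset.mem_filter, mem_prLe]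
  rw [h1]
  have h2 := Finset.card_filter_add_card_filter_not (s := (prLe K x).filter fun P =>
    NRayEq 𝔪 P.1 J) (fun P => (Ideal.absNorm (P.1 : Ideal (𝓞 K))).Prime)
  rw [Finset.filter_filter, Finset.filter_filter] at h2
  have h3 : ((prLe K x).filter fun P => NRayEq 𝔪 P.1 J ∧
      ¬ (Ideal.absNorm (P.1 : Ideal (𝓞 K))).Prime).card ≤ finrank ℚ K * (Nat.sqrt x + 1) := by
    refine (Finset.card_le_card fun P hP => ?_).trans (card_deg_two_le x)
    rw [Finset.mem_filter] at hP ⊢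
    exact ⟨hP.1, hP.2.2⟩
  rw [← h2, Nat.cast_add, add_sub_cancel_left, Nat.abs_cast]
  have h4 : (((prLe K x).filter fun P => NRayEq 𝔪 P.1 J ∧
      ¬ (Ideal.absNorm (P.1 : Ideal (𝓞 K))).Prime).card : ℝ) ≤
      (finrank ℚ K * (Nat.sqrt x + 1) : ℕ) := by exact_mod_cast h3
  refine h4.trans (le_of_eq ?_)
  push_cast
  ring

/-- **Every narrow ray class contains infinitely many prime ideals of residue degree one.** -/
theorem infinite_narrow_deg_one (h𝔪 : 𝔪 ≠ ⊥) {J : (Ideal (𝓞 K))⁰}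
    (hJ : IsCoprime (J : Ideal (𝓞 K)) 𝔪) :
    {P : Pr K | NRayEq 𝔪 P.1 J ∧ (Ideal.absNorm (P.1 : Ideal (𝓞 K))).Prime}.Infinite := by
  classical
  intro hfin
  have h1 := prime_ideal_theorem_narrow_deg_one h𝔪 hJ
  have h2 : Tendsto (fun _ : ℕ => (0 : ℝ)) atTop (𝓝 (1 / (nRayNumber 𝔪 : ℝ))) := by
    have h3 : ∀ x : ℕ, |(((prLe K x).filter fun P => NRayEq 𝔪 P.1 J ∧
        (Ideal.absNorm (P.1 : Ideal (𝓞 K))).Prime).card : ℝ) - 0| ≤
        0 * Nat.sqrt x + hfin.toFinset.card := by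
      intro x
      rw [sub_zero, Nat.abs_cast, zero_mul, zero_add]
      have h4 : ((prLe K x).filter fun P => NRayEq 𝔪 P.1 J ∧
          (Ideal.absNorm (P.1 : Ideal (𝓞 K))).Prime) ⊆ hfin.toFinset := by
        intro P hP
        rw [Set.Finite.mem_toFinset]
        exact (Finset.mem_filter.mp hP).2
      exact_mod_cast Finset.card_le_card h4
    have h5 := qd_tendsto_of_bounded (g := fun _ => 0) h3 h1
    refine h5.congr fun x => ?_
    rw [zero_mul, zero_div]
  have h3 := tendsto_nhds_unique h2 tendsto_const_nhds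
  have h4 : (nRayNumber 𝔪 : ℝ) ≠ 0 := by exact_mod_cast nRayNumber_ne_zero h𝔪
  exact one_div_ne_zero h4 h3

/-- the narrow ray class of the prime ideals `P` with `P A = (α)`, `α ≡ γ` modulo `𝔪` of the same
signs as `γ` -/
theorem exists_nray_rep (h𝔪 : 𝔪 ≠ ⊥) {A : (Ideal (𝓞 K))⁰}
    (hA : IsCoprime (A : Ideal (𝓞 K)) 𝔪) {γ : 𝓞 K} (hγ0 : γ ≠ 0)
    (hγ : IsCoprime (Ideal.span {γ}) 𝔪) :
    ∃ J : (Ideal (𝓞 K))⁰, IsCoprime (J : Ideal (𝓞 K)) 𝔪 ∧ ∀ P : (Ideal (𝓞 K))⁰, NRayEq 𝔪 P J →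
      ∃ α : 𝓞 K, (P : Ideal (𝓞 K)) * (A : Ideal (𝓞 K)) = Ideal.span {α} ∧ α - γ ∈ 𝔪 ∧
        ∀ w : RP K, 0 < em w (α : K) * em w (γ : K) := by
  obtain ⟨L, hL, hLA⟩ := exists_nrayEq_one h𝔪 hA
  have hs : Ideal.span {γ} ≠ 0 := by rwa [Ne, Ideal.zero_eq_bot, Ideal.span_singleton_eq_bot]
  let C : (Ideal (𝓞 K))⁰ := ⟨Ideal.span {γ}, mem_nonZeroDivisors_of_ne_zero hs⟩
  refine ⟨C * L, ?_, fun P hP => ?_⟩
  · rw [Submonoid.coe_mul]
    exact hγ.mul_left hL
  · have h1 : NRayEq 𝔪 (P * A) C := by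
      have h2 := hP.mul (NRayEq.refl A)
      have h3 := (NRayEq.refl (m := 𝔪) C).mul hLA
      rw [mul_one, ← mul_assoc] at h3
      exact h2.trans h3
    obtain ⟨π, h2, h3, h4⟩ := (nRayEq_span_iff hγ hγ0 (A := C) rfl (P * A)).mp h1
    exact ⟨π, by rw [← h4]; rfl, h2, h3⟩

end General

/-! ### The sign of the norm in a quadratic field -/

section Quadratic

variable {a b c : ℤ} [hF : Fact (∀ r : ℚ, r ^ 2 ≠ -((a : ℚ) * c) + -(b : ℚ) * r)]

omit hF in
variable (a b c) in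
/-- the real embedding `θ ↦ r` -/
def emQ (r : ℝ) (hr : r ^ 2 = -((a : ℝ) * c) + -(b : ℝ) * r) : QF a b c →+* ℝ where
  toFun z := (z.re : ℝ) + z.im * r
  map_one' := by simp
  map_zero' := by simp
  map_add' z w := by
    rw [re_add, im_add]
    push_cast
    ring
  map_mul' z w := by
    rw [re_mul, im_mul]
    push_cast
    linear_combination (-((z.im : ℝ) * w.im)) * hr

/-- it is the embedding of a real place -/
theorem exists_em_eq (r : ℝ) (hr : r ^ 2 = -((a : ℝ) * c) + -(b : ℝ) * r) :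
    ∃ w : RP (QF a b c), ∀ z : QF a b c, em w z = (z.re : ℝ) + z.im * r := by
  have h1 : ComplexEmbedding.IsReal (Complex.ofRealHom.comp (emQ a b c r hr)) := by
    rw [ComplexEmbedding.isReal_iff]
    ext z
    exact Complex.conj_ofReal _
  have hw : (InfinitePlace.mk (Complex.ofRealHom.comp (emQ a b c r hr))).IsReal :=
    InfinitePlace.isReal_mk_iff.mpr h1
  refine ⟨⟨_, hw⟩, fun z => ?_⟩
  have h2 : ((em ⟨_, hw⟩ z : ℝ) : ℂ) = ((emQ a b c r hr z : ℝ) : ℂ) := by
    rw [em, InfinitePlace.embedding_of_isReal_apply, InfinitePlace.embedding_mk_eq_of_isReal h1]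
    rfl
  exact Complex.ofReal_injective h2

theorem norm_coe (α : 𝓞 (QF a b c)) : ((Algebra.norm ℤ α : ℤ) : ℝ) =
    (((α : QF a b c).re : ℝ)) ^ 2 - b * (α : QF a b c).re * (α : QF a b c).im +
      a * c * ((α : QF a b c).im : ℝ) ^ 2 := by
  have h1 : ((Algebra.norm ℤ α : ℤ) : ℚ) = (α : QF a b c).re ^ 2 -
      b * (α : QF a b c).re * (α : QF a b c).im + a * c * (α : QF a b c).im ^ 2 := by
    have h2 : ∀ z : QF a b c, Algebra.norm ℚ z = QuadraticAlgebra.norm z := by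
      intro z
      rw [← QuadraticAlgebra.det_toLinearMap_eq_norm, Algebra.norm_apply]
      rfl
    rw [Algebra.coe_norm_int, h2, norm_def]
    ring
  have h3 := congrArg (fun q : ℚ => (q : ℝ)) h1
  push_cast at h3
  exact h3

/-- **the norm of a totally positive number is positive** -/
theorem norm_pos_of_em_pos {α : 𝓞 (QF a b c)} (h0 : α ≠ 0)
    (h : ∀ w : RP (QF a b c), 0 < em w (α : QF a b c)) : 0 < Algebra.norm ℤ α := by
  suffices h1 : (0 : ℝ) < ((Algebra.norm ℤ α : ℤ) : ℝ) by exact_mod_cast h1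
  rw [norm_coe]
  set x : ℝ := ((α : QF a b c).re : ℝ) with hx
  set y : ℝ := ((α : QF a b c).im : ℝ) with hy
  by_cases hD : (0 : ℝ) ≤ (b : ℝ) ^ 2 - 4 * a * c
  · have hs := Real.sq_sqrt hD
    set r : ℝ := √((b : ℝ) ^ 2 - 4 * a * c) with hr
    obtain ⟨w₁, h1⟩ := exists_em_eq (a := a) (b := b) (c := c) ((-b + r) / 2)
      (by linear_combination hs / 4)
    obtain ⟨w₂, h2⟩ := exists_em_eq (a := a) (b := b) (c := c) ((-b - r) / 2)
      (by linear_combination hs / 4)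
    have h3 := mul_pos (h w₁) (h w₂)
    rw [h1, h2] at h3
    have h4 : x ^ 2 - b * x * y + a * c * y ^ 2 =
        (x + y * ((-b + r) / 2)) * (x + y * ((-b - r) / 2)) := by
      linear_combination (y ^ 2 / 4) * hs
    rw [h4]
    exact h3
  · have hD' : (b : ℝ) ^ 2 - 4 * a * c < 0 := not_le.mp hD
    have h4 : x ^ 2 - b * x * y + a * c * y ^ 2 =
        (x - b * y / 2) ^ 2 + (-((b : ℝ) ^ 2 - 4 * a * c)) * y ^ 2 / 4 := by
      ring
    rw [h4]
    by_cases hy0 : y = 0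
    · have hx0 : x ≠ 0 := by
        intro hx0
        apply h0
        apply RingOfIntegers.ext
        have e1 : (α : QF a b c).re = 0 := Rat.cast_eq_zero.mp (hx.symm.trans hx0)
        have e2 : (α : QF a b c).im = 0 := Rat.cast_eq_zero.mp (hy.symm.trans hy0)
        ext
        · exact e1
        · exact e2
      rw [hy0]
      have : 0 < x ^ 2 := by positivity
      linarith
    · have h5 : 0 < y ^ 2 := by positivity
      have h6 : 0 < (-((b : ℝ) ^ 2 - 4 * a * c)) * y ^ 2 := mul_pos (by linarith) h5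
      have h7 := sq_nonneg (x - b * y / 2)
      linarith

theorem norm_mul_norm_pos {α β : 𝓞 (QF a b c)} (hα : α ≠ 0) (hβ : β ≠ 0)
    (h : ∀ w : RP (QF a b c), 0 < em w (α : QF a b c) * em w (β : QF a b c)) :
    0 < Algebra.norm ℤ α * Algebra.norm ℤ β := by
  rw [← map_mul]
  refine norm_pos_of_em_pos (mul_ne_zero hα hβ) fun w => ?_
  rw [em_mul]
  exact h w

end Quadratic

/-! ### Positive values of a form -/

/-- a form of non-square discriminant which is not negative definite takes a positive value -/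
theorem exists_qf_pos {a b c : ℤ} (hsq : ¬ IsSquare (b ^ 2 - 4 * a * c))
    (hpos : b ^ 2 - 4 * a * c < 0 → 0 < a) : ∃ s t : ℤ, 0 < qf a b c s t := by
  by_cases ha : 0 < a
  · exact ⟨1, 0, by simp only [qf]; linarith⟩
  · have hD : 0 ≤ b ^ 2 - 4 * a * c := not_lt.mp fun h => ha (hpos h)
    have hD0 : b ^ 2 - 4 * a * c ≠ 0 := fun h => hsq ⟨0, by rw [h]; ring⟩
    have ha0 : a ≠ 0 := by
      rintro rfl
      exact hsq ⟨b, by ring⟩
    have ha' : a < 0 := lt_of_le_of_ne (not_lt.mp ha) ha0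
    refine ⟨b, -2 * a, ?_⟩
    have h1 : qf a b c b (-2 * a) = (-a) * (b ^ 2 - 4 * a * c) := by
      simp only [qf]
      ring
    rw [h1]
    exact mul_pos (by linarith) (lt_of_le_of_ne hD hD0.symm)

/-- **positive values prime to a given number, in a residue class** -/
theorem exists_value_coprime_pos {a b c : ℤ}
    (hprim : ∀ q : ℕ, q.Prime → ¬ ((q : ℤ) ∣ a ∧ (q : ℤ) ∣ b ∧ (q : ℤ) ∣ c))
    (hsq : ¬ IsSquare (b ^ 2 - 4 * a * c)) (hpos : b ^ 2 - 4 * a * c < 0 → 0 < a)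
    {M : ℤ} (hM : M ≠ 0) {x₀ y₀ : ℤ} (h : IsCoprime (qf a b c x₀ y₀) M) (n : ℕ) (hn : n ≠ 0) :
    ∃ x y : ℤ, M ∣ x - x₀ ∧ M ∣ y - y₀ ∧ IsCoprime (qf a b c x y) (n * M) ∧
      0 < qf a b c x y := by
  obtain ⟨x₁, y₁, hx, hy, hco⟩ := exists_value_coprime hprim h n hn
  obtain ⟨s, t, hst⟩ := exists_qf_pos hsq hpos
  set T : ℤ := n * M with hT
  have hT0 : T ≠ 0 := mul_ne_zero (by exact_mod_cast hn) hM
  set B : ℤ := 2 * a * x₁ * s + b * (x₁ * t + y₁ * s) + 2 * c * y₁ * t with hB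
  set v : ℤ := qf a b c x₁ y₁ with hv
  set k : ℤ := |B| + |v| + 1 with hk
  have hkT : ∀ l : ℤ, qf a b c (x₁ + T * l * s) (y₁ + T * l * t) =
      v + l * T * B + (l * T) ^ 2 * qf a b c s t := by
    intro l
    rw [hv, hB]
    simp only [qf]
    ring
  -- choose the sign of `l` such that `l T > 0`
  obtain ⟨l, hl⟩ : ∃ l : ℤ, k ≤ l * T := by
    have h1 : 1 ≤ |T| := Int.one_le_abs hT0
    have hk0 : 0 ≤ k := by positivity
    rcases abs_cases T with ⟨h2, h3⟩ | ⟨h2, h3⟩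
    · exact ⟨k, by rw [h2] at h1; nlinarith⟩
    · exact ⟨-k, by rw [h2] at h1; nlinarith⟩
  refine ⟨x₁ + T * l * s, y₁ + T * l * t, ?_, ?_, ?_, ?_⟩
  · have h1 : x₁ + T * l * s - x₀ = (x₁ - x₀) + M * (n * l * s) := by rw [hT]; ring
    rw [h1]
    exact dvd_add hx (Dvd.intro _ rfl)
  · have h1 : y₁ + T * l * t - y₀ = (y₁ - y₀) + M * (n * l * t) := by rw [hT]; ring
    rw [h1]
    exact dvd_add hy (Dvd.intro _ rfl)
  · have h1 : qf a b c (x₁ + T * l * s) (y₁ + T * l * t) =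
        v + T * (l * B + l ^ 2 * T * qf a b c s t) := by
      rw [hkT]
      ring
    rw [h1]
    exact IsCoprime.add_mul_left_left hco _
  · rw [hkT]
    have h1 : (1 : ℤ) ≤ qf a b c s t := hst
    have h2 := neg_abs_le B
    have h3 := neg_abs_le v
    have h4 : |B| ≥ 0 := abs_nonneg B
    have h5 : |v| ≥ 0 := abs_nonneg v
    have h6 : (l * T) ^ 2 ≤ (l * T) ^ 2 * qf a b c s t := le_mul_of_one_le_right (sq_nonneg _) h1
    have h7 : 1 + |v| ≤ l * T + B := by linarith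
    have h8 : 1 + |v| ≤ l * T * (l * T + B) := by nlinarith
    nlinarith

/-- a primitive form which is not negative definite is properly equivalent to a form whose first
coefficient is positive and prime to `n` -/
theorem exists_eqv_coprime_pos {f : BForm} (hf : f.Prim) (hsq : ¬ IsSquare f.disc)
    (hpos : f.disc < 0 → 0 < f.a) {n : ℕ} (hn : 2 ≤ n) :
    ∃ g : BForm, f.Eqv g ∧ IsCoprime g.a n ∧ 0 < g.a := by
  obtain ⟨x, y, -, -, hco, hxy⟩ := exists_value_coprime_pos (a := f.a) (b := f.b) (c := f.c) hf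
    hsq hpos (M := 1) one_ne_zero (x₀ := 0) (y₀ := 0) isCoprime_one_right n (by omega)
  rw [mul_one] at hco
  obtain ⟨u, hu⟩ := Int.gcd_dvd_left (a := x) (b := y)
  obtain ⟨v, hv⟩ := Int.gcd_dvd_right (a := x) (b := y)
  set g : ℕ := Int.gcd x y with hg
  have hg0 : g ≠ 0 := by
    intro h0
    rw [h0, Nat.cast_zero, zero_mul] at hu hv
    rw [hu, hv, qf] at hxy
    norm_num at hxy
  have hval : qf f.a f.b f.c x y = (g : ℤ) ^ 2 * f.val u v := by
    conv_lhs => rw [hu, hv]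
    simp only [qf, BForm.val]
    ring
  rw [hval] at hco hxy
  have huv : IsCoprime u v := by
    have hbez := Int.gcd_eq_gcd_ab x y
    have hgz : (g : ℤ) ≠ 0 := by exact_mod_cast hg0
    refine ⟨Int.gcdA x y, Int.gcdB x y, mul_left_cancel₀ hgz ?_⟩
    rw [mul_one]
    conv_rhs => rw [hg, hbez]
    linear_combination (-Int.gcdA x y) * hu - (Int.gcdB x y) * hv
  obtain ⟨r, s, -, h1, h2⟩ := f.exists_eqv_of_isCoprime huv
  exact ⟨_, h1, by rw [h2]; exact hco.of_mul_left_right,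
    by rw [h2]; exact pos_of_mul_pos_right hxy (sq_nonneg _)⟩

end Fermat.Agent.Cor.RayN
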