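import Fermat.Agent.Corollaries.RayN.InfType

/-!
# The weights attached to a narrow ray class character
-/

set_option autoImplicit false
set_option linter.unusedSectionVars false

noncomputable section

namespace Fermat.Agent.Cor.RayN

open NumberField NumberField.InfinitePlace
open Fermat.Agent.Classic.Zeta Fermat.Agent.Cor.Ray
open scoped nonZeroDivisors Classical

universe u

variable {K : Type u} [Field K] [NumberField K] {m : Ideal (𝓞 K)} {ψ : (Ideal (𝓞 K))⁰ →* ℂ}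
  {S : Finset (RP K)}

/-- The character is of infinity type `S`. -/
def HasS (m : Ideal (𝓞 K)) (ψ : (Ideal (𝓞 K))⁰ →* ℂ) (S : Finset (RP K)) : Prop :=
  ∀ (a : 𝓞 K) (ha : a ≠ 0), a - 1 ∈ m → ψ (sp a ha) = (sg S (a : K) : ℂ)

/-- The function on elements attached to a narrow ray class character of infinity type `S`. -/
def elN (S : Finset (RP K)) (m : Ideal (𝓞 K)) (ψ : (Ideal (𝓞 K))⁰ →* ℂ) (x : 𝓞 K) : ℂ :=
  if hx : x = 0 then (if m = ⊤ then 1 else 0) else ψ (sp x hx) * (sg S (x : K) : ℂ)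

theorem elN_of_ne {x : 𝓞 K} (hx : x ≠ 0) : elN S m ψ x = ψ (sp x hx) * (sg S (x : K) : ℂ) :=
  dif_neg hx

theorem coe_sg_sq (S : Finset (RP K)) {a : 𝓞 K} (ha : a ≠ 0) :
    (sg S (a : K) : ℂ) * (sg S (a : K) : ℂ) = 1 := by
  exact_mod_cast sg_sq S (coe_ne_zeroF ha)

theorem coe_sg_ne_zero (S : Finset (RP K)) {a : 𝓞 K} (ha : a ≠ 0) : (sg S (a : K) : ℂ) ≠ 0 :=
  left_ne_zero_of_mul_eq_one (coe_sg_sq S ha)

theorem norm_coe_sg (S : Finset (RP K)) {a : 𝓞 K} (ha : a ≠ 0) : ‖(sg S (a : K) : ℂ)‖ = 1 := by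
  rw [Complex.norm_real, Real.norm_eq_abs, abs_sg S (coe_ne_zeroF ha)]

theorem coe_sg_mul (S : Finset (RP K)) (a b : 𝓞 K) :
    (sg S ((a * b : 𝓞 K) : K) : ℂ) = (sg S (a : K) : ℂ) * (sg S (b : K) : ℂ) := by
  rw [← Complex.ofReal_mul, ← sg_mul]
  rfl

theorem norm_elN_le (h : NRayChar m ψ) (x : 𝓞 K) : ‖elN S m ψ x‖ ≤ 1 := by
  by_cases hx : x = 0
  · rw [elN, dif_pos hx]
    split_ifs <;> simp
  · rw [elN_of_ne hx, norm_mul, norm_coe_sg S hx, mul_one]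
    exact h.norm_le _

theorem elN_mul_of_cong (hS : HasS m ψ S) {b x : 𝓞 K} (hb : b ≠ 0) (hx : x ≠ 0)
    (hbx : b * x - 1 ∈ m) : (ψ (sp b hb) * (sg S (b : K) : ℂ)) * elN S m ψ x = 1 := by
  have h1 := hS (b * x) (mul_ne_zero hb hx) hbx
  rw [sp_mul hb hx, map_mul, coe_sg_mul] at h1
  rw [elN_of_ne hx]
  calc ψ (sp b hb) * (sg S (b : K) : ℂ) * (ψ (sp x hx) * (sg S (x : K) : ℂ))
      = (ψ (sp b hb) * ψ (sp x hx)) * ((sg S (b : K) : ℂ) * (sg S (x : K) : ℂ)) := by ring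
    _ = 1 := by
      rw [h1]
      calc (sg S (b : K) : ℂ) * (sg S (x : K) : ℂ) * ((sg S (b : K) : ℂ) * (sg S (x : K) : ℂ))
          = ((sg S (b : K) : ℂ) * (sg S (b : K) : ℂ)) *
            ((sg S (x : K) : ℂ) * (sg S (x : K) : ℂ)) := by ring
        _ = 1 := by rw [coe_sg_sq S hb, coe_sg_sq S hx, one_mul]

theorem elN_add (h : NRayChar m ψ) (hS : HasS m ψ S) (x : 𝓞 K) {r : 𝓞 K} (hr : r ∈ m) :
    elN S m ψ (x + r) = elN S m ψ x := by
  by_cases hm : m = ⊤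
  · have h1 : ∀ y : 𝓞 K, elN S m ψ y = 1 := by
      intro y
      by_cases hy : y = 0
      · rw [elN, dif_pos hy, if_pos hm]
      · rw [elN_of_ne hy, hS y hy (by rw [hm]; trivial), coe_sg_sq S hy]
    rw [h1, h1]
  by_cases hc : IsCoprime (Ideal.span {x}) m
  · obtain ⟨b, hb⟩ := isCoprime_span_iff.mp hc
    have hb' : b * (x + r) - 1 ∈ m := by
      have : b * (x + r) - 1 = (b * x - 1) + b * r := by ring
      rw [this]
      exact m.add_mem hb (m.mul_mem_left _ hr)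
    have hne : ∀ y : 𝓞 K, b * y - 1 ∈ m → b ≠ 0 ∧ y ≠ 0 := by
      intro y hy
      constructor
      · rintro rfl
        apply hm
        rw [Ideal.eq_top_iff_one]
        have := m.neg_mem hy
        simpa using this
      · rintro rfl
        apply hm
        rw [Ideal.eq_top_iff_one]
        have := m.neg_mem hy
        simpa using this
    obtain ⟨hb0, hx0⟩ := hne x hb
    obtain ⟨-, hxr0⟩ := hne (x + r) hb'
    have e1 := elN_mul_of_cong hS hb0 hx0 hb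
    have e2 := elN_mul_of_cong hS hb0 hxr0 hb'
    exact mul_left_cancel₀ (left_ne_zero_of_mul_eq_one e1) (e2.trans e1.symm)
  · have hc' : ¬ IsCoprime (Ideal.span {x + r}) m := by
      intro h1
      apply hc
      rw [isCoprime_span_iff] at h1 ⊢
      obtain ⟨b, hb⟩ := h1
      refine ⟨b, ?_⟩
      have : b * x - 1 = (b * (x + r) - 1) - b * r := by ring
      rw [this]
      exact m.sub_mem hb (m.mul_mem_left _ hr)
    have h0 : ∀ y : 𝓞 K, ¬ IsCoprime (Ideal.span {y}) m → elN S m ψ y = 0 := by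
      intro y hy
      by_cases hy0 : y = 0
      · rw [elN, dif_pos hy0, if_neg hm]
      · have h7 : ψ (sp y hy0) = 0 := h.eq_zero _ hy
        rw [elN_of_ne hy0, h7, zero_mul]
    rw [h0 _ hc, h0 _ hc']

theorem elN_unit_mul (hS : HasS m ψ S) (v : (𝓞 K)ˣ) (x : 𝓞 K) :
    elN S m ψ ((v : 𝓞 K) * x) = (sg S ((v : 𝓞 K) : K) : ℂ) * elN S m ψ x := by
  have hv0 : (v : 𝓞 K) ≠ 0 := Units.ne_zero v
  by_cases hx : x = 0
  · rw [hx, mul_zero, elN, dif_pos rfl]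
    split_ifs with hm
    · have h1 := hS v hv0 (by rw [hm]; trivial)
      have h2 : sp (v : 𝓞 K) hv0 = 1 := by
        apply Subtype.ext
        change Ideal.span {(v : 𝓞 K)} = 1
        rw [Ideal.one_eq_top, Ideal.span_singleton_eq_top]
        exact v.isUnit
      rw [h2, map_one] at h1
      rw [← h1, mul_one]
    · rw [mul_zero]
  · rw [elN_of_ne hx, elN_of_ne (mul_ne_zero hv0 hx), coe_sg_mul]
    have h1 : sp ((v : 𝓞 K) * x) (mul_ne_zero hv0 hx) = sp x hx :=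
      Subtype.ext (Ideal.span_singleton_mul_left_unit v.isUnit x)
    rw [h1]
    ring

/-- the weight on `K` -/
def wN (S : Finset (RP K)) (m : Ideal (𝓞 K)) (ψ : (Ideal (𝓞 K))⁰ →* ℂ) (J : Ideal (𝓞 K))
    (x : K) : ℂ :=
  if h : ∃ a ∈ J, (a : K) = x then elN S m ψ h.choose else 0

theorem wN_coe {J : Ideal (𝓞 K)} {a : 𝓞 K} (ha : a ∈ J) : wN S m ψ J (a : K) = elN S m ψ a := by
  have h : ∃ b ∈ J, (b : K) = (a : K) := ⟨a, ha, rfl⟩
  rw [wN, dif_pos h]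
  congr 1
  exact RingOfIntegers.ext h.choose_spec.2

theorem wN_of_notMem {J : Ideal (𝓞 K)} {x : K} (hx : x ∉ (J : FractionalIdeal (𝓞 K)⁰ K)) :
    wN S m ψ J x = 0 := by
  rw [wN, dif_neg]
  rintro ⟨a, ha, rfl⟩
  exact hx (FractionalIdeal.mem_coeIdeal_of_mem _ ha)

theorem wN_per (h : NRayChar m ψ) (hS : HasS m ψ S) {J : Ideal (𝓞 K)} (x : K) {c : 𝓞 K}
    (hcJ : c ∈ J) (hcm : c ∈ m) : wN S m ψ J (x + (c : K)) = wN S m ψ J x := by
  by_cases hx : ∃ a ∈ J, (a : K) = x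
  · obtain ⟨a, ha, rfl⟩ := hx
    have h1 : (a : K) + (c : K) = ((a + c : 𝓞 K) : K) := (map_add (algebraMap (𝓞 K) K) a c).symm
    rw [h1, wN_coe (J.add_mem ha hcJ), elN_add h hS a hcm, wN_coe ha]
  · rw [wN_of_notMem, wN_of_notMem]
    · rwa [mem_coeIdeal_iff']
    · rw [mem_coeIdeal_iff']
      rintro ⟨b, hb, hbx⟩
      refine hx ⟨b - c, J.sub_mem hb hcJ, ?_⟩
      have h1 : ((b - c : 𝓞 K) : K) = (b : K) - (c : K) := map_sub (algebraMap (𝓞 K) K) b c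
      rw [h1, hbx, add_sub_cancel_right]

theorem wN_unit (hS : HasS m ψ S) {J : Ideal (𝓞 K)} (v : (𝓞 K)ˣ) (x : K) :
    wN S m ψ J (((v : 𝓞 K) : K) * x) = (sg S ((v : 𝓞 K) : K) : ℂ) * wN S m ψ J x := by
  by_cases hx : ∃ a ∈ J, (a : K) = x
  · obtain ⟨a, ha, rfl⟩ := hx
    have h1 : ((v : 𝓞 K) : K) * (a : K) = (((v : 𝓞 K) * a : 𝓞 K) : K) :=
      (map_mul (algebraMap (𝓞 K) K) _ a).symm
    rw [h1, wN_coe (J.mul_mem_left _ ha), elN_unit_mul hS, wN_coe ha]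
  · rw [wN_of_notMem, wN_of_notMem, mul_zero]
    · rwa [mem_coeIdeal_iff']
    · rw [mem_coeIdeal_iff']
      rintro ⟨b, hb, hbx⟩
      refine hx ⟨((v⁻¹ : (𝓞 K)ˣ) : 𝓞 K) * b, J.mul_mem_left _ hb, ?_⟩
      have h1 : ((((v⁻¹ : (𝓞 K)ˣ) : 𝓞 K) * b : 𝓞 K) : K) =
        (((v⁻¹ : (𝓞 K)ˣ) : 𝓞 K) : K) * (b : K) := map_mul (algebraMap (𝓞 K) K) _ b
      have h3 : (((v⁻¹ : (𝓞 K)ˣ) : 𝓞 K) : K) * ((v : 𝓞 K) : K) = 1 := by
        rw [← map_mul, Units.inv_mul, map_one]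
      rw [h1, hbx, ← mul_assoc, h3, one_mul]

theorem norm_wN_le (h : NRayChar m ψ) {J : Ideal (𝓞 K)} (x : K) : ‖wN S m ψ J x‖ ≤ 1 := by
  by_cases hx : ∃ a ∈ J, (a : K) = x
  · obtain ⟨a, ha, rfl⟩ := hx
    rw [wN_coe ha]
    exact norm_elN_le h a
  · rw [wN_of_notMem (by rwa [mem_coeIdeal_iff']), norm_zero]
    exact zero_le_one

theorem isWtS_wN (hm : m ≠ ⊥) (h : NRayChar m ψ) (hS : HasS m ψ S) {J : Ideal (𝓞 K)}
    (hJ : J ≠ ⊥) :
    IsWtS S (J : FractionalIdeal (𝓞 K)⁰ K) ((J * m : Ideal (𝓞 K)) : FractionalIdeal (𝓞 K)⁰ K)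
      (wN S m ψ J) where
  hb := FractionalIdeal.coeIdeal_ne_zero.mpr hJ
  hc := FractionalIdeal.coeIdeal_ne_zero.mpr (mul_ne_zero hJ hm)
  le := (FractionalIdeal.coeIdeal_le_coeIdeal K).mpr Ideal.mul_le_left
  supp x hx := wN_of_notMem hx
  per x c hc := by
    obtain ⟨c', hc', rfl⟩ := mem_coeIdeal_iff'.mp hc
    exact wN_per h hS x (Ideal.mul_le_left hc') (Ideal.mul_le_right hc')
  unit v x := wN_unit hS v x
  bdd := ⟨1, norm_wN_le h⟩

end Fermat.Agent.Cor.RayN
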