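import Fermat.Agent.Corollaries.RayN.Dirichlet
import Fermat.Agent.Corollaries.RayN.GroupN
import Fermat.Agent.Corollaries.RayN.WeightN
import Fermat.Agent.Corollaries.Ray.Density
import Fermat.Agent.Corollaries.Ray.Group

/-!
# The narrow ray class number formula

`h⁺_𝔪 · #im(𝓞ˣ → (𝓞/𝔪)ˣ × {±1}^{r₁}) = h · #(𝓞/𝔪)ˣ · 2^{r₁}`.
-/

set_option autoImplicit false
set_option linter.unusedSectionVars false

noncomputable section

namespace Fermat.Agent.Cor.RayN

open NumberField NumberField.InfinitePlace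
open Fermat.Agent.Classic.Zeta Fermat.Agent.Cor.Ray
open scoped nonZeroDivisors Classical

universe u

/-! ### Counting -/

theorem card_mul_of_exact {A G H U : Type*} [CommGroup A] [CommGroup G] [CommGroup H] [Group U]
    [Finite A] [Finite G] (η : U →* A) (f : A →* G) (q : G →* H) (hq : Function.Surjective q)
    (h1 : q.ker = f.range) (h2 : f.ker = η.range) :
    Nat.card G * Nat.card η.range = Nat.card H * Nat.card A := by
  have e1 : Nat.card G = Nat.card H * Nat.card f.range := by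
    rw [Subgroup.card_eq_card_quotient_mul_card_subgroup q.ker, h1,
      ← Nat.card_congr (QuotientGroup.quotientKerEquivOfSurjective q hq).toEquiv, h1]
  have e2 : Nat.card A = Nat.card f.range * Nat.card η.range := by
    rw [Subgroup.card_eq_card_quotient_mul_card_subgroup f.ker, h2,
      ← Nat.card_congr (QuotientGroup.quotientKerEquivRange f).toEquiv, h2]
  rw [e1, e2, mul_assoc]

variable {K : Type u} [Field K] [NumberField K] {m : Ideal (𝓞 K)}

/-! ### Signs -/

/-- the signs at the real places, as units of `ℤ` -/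
def sU (a : 𝓞 K) (w : RP K) : ℤˣ := if em w (a : K) < 0 then -1 else 1

theorem sU_eq_iff {a b : 𝓞 K} (ha : a ≠ 0) (hb : b ≠ 0) (w : RP K) :
    sU a w = sU b w ↔ 0 < em w (a : K) * em w (b : K) := by
  have ha' := em_ne_zero ha w
  have hb' := em_ne_zero hb w
  unfold sU
  rcases lt_or_gt_of_ne ha' with h | h <;> rcases lt_or_gt_of_ne hb' with h' | h'
  · rw [if_pos h, if_pos h']
    exact ⟨fun _ => mul_pos_of_neg_of_neg h h', fun _ => rfl⟩
  · rw [if_pos h, if_neg (not_lt.mpr h'.le)]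
    exact ⟨fun h0 => absurd h0 (by decide), fun h0 => absurd h0
      (not_lt.mpr (mul_neg_of_neg_of_pos h h').le)⟩
  · rw [if_neg (not_lt.mpr h.le), if_pos h']
    exact ⟨fun h0 => absurd h0 (by decide), fun h0 => absurd h0
      (not_lt.mpr (mul_neg_of_pos_of_neg h h').le)⟩
  · rw [if_neg (not_lt.mpr h.le), if_neg (not_lt.mpr h'.le)]
    exact ⟨fun _ => mul_pos h h', fun _ => rfl⟩

theorem sU_mul {a b : 𝓞 K} (ha : a ≠ 0) (hb : b ≠ 0) : sU (a * b) = sU a * sU b := by
  funext w
  have ha' := em_ne_zero ha w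
  have hb' := em_ne_zero hb w
  rw [Pi.mul_apply]
  unfold sU
  rw [em_mul]
  rcases lt_or_gt_of_ne ha' with h | h <;> rcases lt_or_gt_of_ne hb' with h' | h'
  · rw [if_pos h, if_pos h', if_neg (not_lt.mpr (mul_pos_of_neg_of_neg h h').le)]
    rfl
  · rw [if_pos h, if_neg (not_lt.mpr h'.le), if_pos (mul_neg_of_neg_of_pos h h'), mul_one]
  · rw [if_neg (not_lt.mpr h.le), if_pos h', if_pos (mul_neg_of_pos_of_neg h h'), one_mul]
  · rw [if_neg (not_lt.mpr h.le), if_neg (not_lt.mpr h'.le),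
      if_neg (not_lt.mpr (mul_pos h h').le), mul_one]

theorem sU_one : sU (1 : 𝓞 K) = 1 := by
  funext w
  unfold sU
  rw [em_one, if_neg (by norm_num)]
  rfl

variable (m) in
/-- residues and signs of the units -/
def unitsMap : (𝓞 K)ˣ →* (𝓞 K ⧸ m)ˣ × (RP K → ℤˣ) :=
  (Units.map (Ideal.Quotient.mk m : 𝓞 K →* 𝓞 K ⧸ m)).prod
    { toFun := fun v => sU (v : 𝓞 K)
      map_one' := sU_one
      map_mul' := fun v v' => sU_mul (Units.ne_zero v) (Units.ne_zero v') }

/-! ### Lifting residues and signs -/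

/-- an integer with given residue and signs -/
theorem exists_lift (hm : m ≠ ⊥) (p : (𝓞 K ⧸ m)ˣ × (RP K → ℤˣ)) : ∃ a : 𝓞 K, a ≠ 0 ∧
    IsCoprime (Ideal.span {a}) m ∧ Ideal.Quotient.mk m a = (p.1 : 𝓞 K ⧸ m) ∧ sU a = p.2 := by
  obtain ⟨α, hα⟩ := Ideal.Quotient.mk_surjective (p.1 : 𝓞 K ⧸ m)
  obtain ⟨β, hβ⟩ := Ideal.Quotient.mk_surjective ((p.1⁻¹ : (𝓞 K ⧸ m)ˣ) : 𝓞 K ⧸ m)
  have hco : IsCoprime (Ideal.span {α}) m := by
    refine isCoprime_span_iff.mpr ⟨β, ?_⟩
    rw [← Ideal.Quotient.mk_eq_mk_iff_sub_mem, map_mul, hα, hβ, Units.inv_mul, map_one]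
  obtain ⟨a, ha0, hac, hαa, hs⟩ := exists_congr_sign hm hco
    (Finset.univ.filter fun w : RP K => p.2 w = -1)
  refine ⟨a, ha0, hac, ?_, funext fun w => ?_⟩
  · rw [← hα, Ideal.Quotient.mk_eq_mk_iff_sub_mem]
    exact hαa
  · have h1 := hs w
    simp only [Finset.mem_filter, Finset.mem_univ, true_and] at h1
    rcases Int.units_eq_one_or (p.2 w) with h | h
    · have h2 : 0 < em w (a : K) := h1.2 (by rw [h]; decide)
      rw [h, sU, if_neg (not_lt.mpr h2.le)]
    · have h2 : em w (a : K) < 0 := h1.1 h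
      rw [h, sU, if_pos h2]

/-- integers with the same residue and the same signs generate equivalent ideals -/
theorem nRayEq_sp {a b : 𝓞 K} (ha : a ≠ 0) (hb : b ≠ 0) (hac : IsCoprime (Ideal.span {a}) m)
    (hab : Ideal.Quotient.mk m a = Ideal.Quotient.mk m b) (hs : sU a = sU b) :
    NRayEq m (sp b hb) (sp a ha) := by
  refine ⟨a, b, ha, hb, hac, ?_, fun w => ?_, ?_⟩
  · rwa [← Ideal.Quotient.mk_eq_mk_iff_sub_mem]
  · exact (sU_eq_iff ha hb w).mp (congrFun hs w)
  · exact mul_comm _ _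

/-- equivalent ideals are in the same ideal class -/
theorem mk0_eq_of_nRayEq {I J : (Ideal (𝓞 K))⁰} (h : NRayEq m I J) :
    ClassGroup.mk0 I = ClassGroup.mk0 J := by
  obtain ⟨a, b, ha, hb, -, -, -, he⟩ := h
  rw [ClassGroup.mk0_eq_mk0_iff]
  exact ⟨a, b, ha, hb, he⟩

/-- **The narrow ray class number formula.** -/
theorem nRayNumber_mul (hm : m ≠ ⊥) : nRayNumber m * Nat.card (unitsMap m).range =
    classNumber K * (Nat.card (𝓞 K ⧸ m)ˣ * 2 ^ nrRealPlaces K) := by
  have hfin : Finite (𝓞 K ⧸ m) := m.finiteQuotientOfFreeOfNeBot hm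
  have hfu : Finite (𝓞 K ⧸ m)ˣ := inferInstance
  obtain ⟨G, hGc, hGf, cl, hsurj, hcl⟩ := groupNStmt K m hm
  rw [← natCard_eq_nRayNumber cl hsurj hcl]
  -- the map from residues and signs
  choose L hL0 hLc hLr hLs using exists_lift (K := K) hm
  let f : (𝓞 K ⧸ m)ˣ × (RP K → ℤˣ) →* G :=
    { toFun := fun p => cl ⟨sp (L p) (hL0 p), hLc p⟩
      map_one' := by
        rw [← map_one cl, hcl]
        have h1 : sp (1 : 𝓞 K) one_ne_zero = 1 := by
          apply Subtype.ext
          change Ideal.span {(1 : 𝓞 K)} = 1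
          rw [Ideal.span_singleton_one, Ideal.one_eq_top]
        have h2 : NRayEq m (sp (L 1) (hL0 1)) (sp (1 : 𝓞 K) one_ne_zero) := by
          refine nRayEq_sp one_ne_zero (hL0 1) (isCoprime_span_iff.mpr ⟨1, by simp⟩) ?_ ?_
          · rw [hLr 1, map_one]
            rfl
          · rw [hLs 1, sU_one]
            rfl
        rw [h1] at h2
        exact h2
      map_mul' := fun p p' => by
        rw [← map_mul, hcl]
        have h2 : NRayEq m (sp (L (p * p')) (hL0 _))
            (sp (L p * L p') (mul_ne_zero (hL0 p) (hL0 p'))) := by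
          refine nRayEq_sp _ _ ?_ ?_ ?_
          · rw [← Ideal.span_singleton_mul_span_singleton]
            exact (hLc p).mul_left (hLc p')
          · rw [map_mul, hLr, hLr, hLr, Prod.fst_mul, Units.val_mul]
          · rw [sU_mul (hL0 p) (hL0 p'), hLs, hLs, hLs, Prod.snd_mul]
        rw [sp_mul (hL0 p) (hL0 p')] at h2
        exact h2 }
  -- the map to the class group
  let σ : G → Cop m := Function.surjInv hsurj
  have hσ : ∀ g, cl (σ g) = g := Function.surjInv_eq hsurj
  have hmk : ∀ I J : Cop m, cl I = cl J → ClassGroup.mk0 I.1 = ClassGroup.mk0 J.1 :=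
    fun I J h => mk0_eq_of_nRayEq ((hcl I J).mp h)
  let q : G →* ClassGroup (𝓞 K) :=
    { toFun := fun g => ClassGroup.mk0 (σ g).1
      map_one' := by
        rw [hmk (σ 1) 1 (by rw [hσ, map_one]), Submonoid.coe_one, map_one]
      map_mul' := fun g g' => by
        rw [hmk (σ (g * g')) (σ g * σ g') (by rw [hσ, map_mul, hσ, hσ]), Submonoid.coe_mul,
          map_mul] }
  have hq : Function.Surjective q := fun C => by
    obtain ⟨I, hIC, hI⟩ := exists_coprime_mk0 (m := m) C hm
    exact ⟨cl ⟨I, hI⟩, by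
      rw [← hIC]
      exact hmk _ _ (hσ _)⟩
  have h1 : q.ker = f.range := by
    ext g
    rw [MonoidHom.mem_ker, MonoidHom.mem_range]
    constructor
    · intro hg
      have hg' : ClassGroup.mk0 (σ g).1 = 1 := hg
      rw [ClassGroup.mk0_eq_one_iff (SetLike.coe_mem (σ g).1)] at hg'
      obtain ⟨a, ha⟩ := hg'.principal
      have ha' : ((σ g).1 : Ideal (𝓞 K)) = Ideal.span {a} := ha
      have ha0 : a ≠ 0 := by
        rintro rfl
        rw [Ideal.span_singleton_eq_bot.mpr rfl] at ha'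
        exact nonZeroDivisors.coe_ne_zero _ ha'
      have hac : IsCoprime (Ideal.span {a}) m := by
        rw [← ha']
        exact (σ g).2
      obtain ⟨b, hb⟩ := isCoprime_span_iff.mp hac
      have hbu : Ideal.Quotient.mk m a * Ideal.Quotient.mk m b = 1 := by
        rw [← map_mul, ← map_one (Ideal.Quotient.mk m), Ideal.Quotient.mk_eq_mk_iff_sub_mem,
          mul_comm]
        exact hb
      refine ⟨(Units.mkOfMulEqOne _ _ hbu, sU a), ?_⟩
      rw [← hσ g]
      refine (hcl _ _).mpr ?_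
      have h3 : NRayEq m (sp (L (Units.mkOfMulEqOne _ _ hbu, sU a)) (hL0 _)) (sp a ha0) :=
        nRayEq_sp ha0 (hL0 _) hac (by rw [hLr]; rfl) (by rw [hLs])
      have h4 : sp a ha0 = (σ g).1 := Subtype.ext ha'.symm
      rw [h4] at h3
      exact h3
    · rintro ⟨p, rfl⟩
      change ClassGroup.mk0 (σ (f p)).1 = 1
      rw [hmk (σ (f p)) ⟨sp (L p) (hL0 p), hLc p⟩ (hσ _),
        ClassGroup.mk0_eq_one_iff (SetLike.coe_mem _)]
      exact ⟨L p, rfl⟩
  have h2 : f.ker = (unitsMap m).range := by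
    ext p
    rw [MonoidHom.mem_ker, MonoidHom.mem_range]
    have hf : f p = 1 ↔ NRayEq m 1 (sp (L p) (hL0 p)) := by
      constructor
      · intro h
        exact ((hcl _ _).mp (h.trans (map_one cl).symm)).symm
      · intro h
        exact (((hcl 1 ⟨sp (L p) (hL0 p), hLc p⟩).mpr h).symm.trans (map_one cl))
    rw [hf, nRayEq_span_iff (hLc p) (hL0 p) rfl]
    constructor
    · rintro ⟨π, hπ, hs, he⟩
      have hu : IsUnit π := by
        rw [← Ideal.span_singleton_eq_top, ← he]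
        exact Ideal.one_eq_top
      refine ⟨hu.unit, Prod.ext (Units.ext ?_) ?_⟩
      · change Ideal.Quotient.mk m π = _
        rw [← hLr p, Ideal.Quotient.mk_eq_mk_iff_sub_mem]
        exact hπ
      · change sU π = _
        rw [← hLs p]
        exact funext fun w => (sU_eq_iff hu.ne_zero (hL0 p) w).mpr (hs w)
    · rintro ⟨v, rfl⟩
      refine ⟨(v : 𝓞 K), ?_, fun w => ?_, ?_⟩
      · rw [← Ideal.Quotient.mk_eq_mk_iff_sub_mem, hLr]
        rfl
      · rw [← sU_eq_iff (Units.ne_zero v) (hL0 _), hLs]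
        rfl
      · rw [Ideal.span_singleton_eq_top.mpr v.isUnit]
        exact Ideal.one_eq_top
  have key := card_mul_of_exact (unitsMap m) f q hq h1 h2
  rw [key, Nat.card_prod, Nat.card_fun, Nat.card_eq_fintype_card (α := ℤˣ),
    Nat.card_eq_fintype_card (α := RP K), Nat.card_eq_fintype_card (α := ClassGroup (𝓞 K))]
  rfl

/-! ### Without signs -/

/-- integers with the same residue generate equivalent ideals -/
theorem rayEq_sp {a b : 𝓞 K} (ha : a ≠ 0) (hb : b ≠ 0) (hac : IsCoprime (Ideal.span {a}) m)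
    (hab : Ideal.Quotient.mk m a = Ideal.Quotient.mk m b) : RayEq m (sp b hb) (sp a ha) := by
  refine ⟨a, b, ha, hb, hac, ?_, ?_⟩
  · rwa [← Ideal.Quotient.mk_eq_mk_iff_sub_mem]
  · exact mul_comm _ _

theorem mk0_eq_of_rayEq {I J : (Ideal (𝓞 K))⁰} (h : RayEq m I J) :
    ClassGroup.mk0 I = ClassGroup.mk0 J := by
  obtain ⟨a, b, ha, hb, -, -, he⟩ := h
  rw [ClassGroup.mk0_eq_mk0_iff]
  exact ⟨a, b, ha, hb, he⟩

variable (m) in
/-- residues of the units -/
def unitsMapW : (𝓞 K)ˣ →* (𝓞 K ⧸ m)ˣ := Units.map (Ideal.Quotient.mk m : 𝓞 K →* 𝓞 K ⧸ m)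

/-- **The ray class number formula.** -/
theorem rayNumber_mul (hm : m ≠ ⊥) : rayNumber m * Nat.card (unitsMapW m).range =
    classNumber K * Nat.card (𝓞 K ⧸ m)ˣ := by
  have hfin : Finite (𝓞 K ⧸ m) := m.finiteQuotientOfFreeOfNeBot hm
  have hfu : Finite (𝓞 K ⧸ m)ˣ := inferInstance
  obtain ⟨G, hGc, hGf, cl, hsurj, hcl⟩ := groupStmt K m hm
  rw [← natCard_eq_rayNumber cl hsurj hcl]
  have hex : ∀ p : (𝓞 K ⧸ m)ˣ, ∃ a : 𝓞 K, a ≠ 0 ∧
      IsCoprime (Ideal.span {a}) m ∧ Ideal.Quotient.mk m a = (p : 𝓞 K ⧸ m) := fun p => by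
    obtain ⟨a, h0, h1, h2, -⟩ := exists_lift (K := K) hm (p, 1)
    exact ⟨a, h0, h1, h2⟩
  choose L hL0 hLc hLr using hex
  let f : (𝓞 K ⧸ m)ˣ →* G :=
    { toFun := fun p => cl ⟨sp (L p) (hL0 p), hLc p⟩
      map_one' := by
        rw [← map_one cl, hcl]
        have h1 : sp (1 : 𝓞 K) one_ne_zero = 1 := by
          apply Subtype.ext
          change Ideal.span {(1 : 𝓞 K)} = 1
          rw [Ideal.span_singleton_one, Ideal.one_eq_top]
        have h2 : RayEq m (sp (L 1) (hL0 1)) (sp (1 : 𝓞 K) one_ne_zero) := by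
          refine rayEq_sp one_ne_zero (hL0 1) (isCoprime_span_iff.mpr ⟨1, by simp⟩) ?_
          rw [hLr 1, map_one]
          rfl
        rw [h1] at h2
        exact h2
      map_mul' := fun p p' => by
        rw [← map_mul, hcl]
        have h2 : RayEq m (sp (L (p * p')) (hL0 _))
            (sp (L p * L p') (mul_ne_zero (hL0 p) (hL0 p'))) := by
          refine rayEq_sp _ _ ?_ ?_
          · rw [← Ideal.span_singleton_mul_span_singleton]
            exact (hLc p).mul_left (hLc p')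
          · rw [map_mul, hLr, hLr, hLr, Units.val_mul]
        rw [sp_mul (hL0 p) (hL0 p')] at h2
        exact h2 }
  let σ : G → Cop m := Function.surjInv hsurj
  have hσ : ∀ g, cl (σ g) = g := Function.surjInv_eq hsurj
  have hmk : ∀ I J : Cop m, cl I = cl J → ClassGroup.mk0 I.1 = ClassGroup.mk0 J.1 :=
    fun I J h => mk0_eq_of_rayEq ((hcl I J).mp h)
  let q : G →* ClassGroup (𝓞 K) :=
    { toFun := fun g => ClassGroup.mk0 (σ g).1
      map_one' := by
        rw [hmk (σ 1) 1 (by rw [hσ, map_one]), Submonoid.coe_one, map_one]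
      map_mul' := fun g g' => by
        rw [hmk (σ (g * g')) (σ g * σ g') (by rw [hσ, map_mul, hσ, hσ]), Submonoid.coe_mul,
          map_mul] }
  have hq : Function.Surjective q := fun C => by
    obtain ⟨I, hIC, hI⟩ := exists_coprime_mk0 (m := m) C hm
    exact ⟨cl ⟨I, hI⟩, by
      rw [← hIC]
      exact hmk _ _ (hσ _)⟩
  have h1 : q.ker = f.range := by
    ext g
    rw [MonoidHom.mem_ker, MonoidHom.mem_range]
    constructor
    · intro hg
      have hg' : ClassGroup.mk0 (σ g).1 = 1 := hg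
      rw [ClassGroup.mk0_eq_one_iff (SetLike.coe_mem (σ g).1)] at hg'
      obtain ⟨a, ha⟩ := hg'.principal
      have ha' : ((σ g).1 : Ideal (𝓞 K)) = Ideal.span {a} := ha
      have ha0 : a ≠ 0 := by
        rintro rfl
        rw [Ideal.span_singleton_eq_bot.mpr rfl] at ha'
        exact nonZeroDivisors.coe_ne_zero _ ha'
      have hac : IsCoprime (Ideal.span {a}) m := by
        rw [← ha']
        exact (σ g).2
      obtain ⟨b, hb⟩ := isCoprime_span_iff.mp hac
      have hbu : Ideal.Quotient.mk m a * Ideal.Quotient.mk m b = 1 := by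
        rw [← map_mul, ← map_one (Ideal.Quotient.mk m), Ideal.Quotient.mk_eq_mk_iff_sub_mem,
          mul_comm]
        exact hb
      refine ⟨Units.mkOfMulEqOne _ _ hbu, ?_⟩
      rw [← hσ g]
      refine (hcl _ _).mpr ?_
      have h3 : RayEq m (sp (L (Units.mkOfMulEqOne _ _ hbu)) (hL0 _)) (sp a ha0) :=
        rayEq_sp ha0 (hL0 _) hac (by rw [hLr]; rfl)
      have h4 : sp a ha0 = (σ g).1 := Subtype.ext ha'.symm
      rw [h4] at h3
      exact h3
    · rintro ⟨p, rfl⟩
      change ClassGroup.mk0 (σ (f p)).1 = 1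
      rw [hmk (σ (f p)) ⟨sp (L p) (hL0 p), hLc p⟩ (hσ _),
        ClassGroup.mk0_eq_one_iff (SetLike.coe_mem _)]
      exact ⟨L p, rfl⟩
  have h2 : f.ker = (unitsMapW m).range := by
    ext p
    rw [MonoidHom.mem_ker, MonoidHom.mem_range]
    have hf : f p = 1 ↔ RayEq m 1 (sp (L p) (hL0 p)) := by
      constructor
      · intro h
        exact ((hcl _ _).mp (h.trans (map_one cl).symm)).symm
      · intro h
        exact (((hcl 1 ⟨sp (L p) (hL0 p), hLc p⟩).mpr h).symm.trans (map_one cl))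
    rw [hf, rayEq_span_iff (hLc p) (hL0 p) rfl]
    constructor
    · rintro ⟨π, hπ, he⟩
      have hu : IsUnit π := by
        rw [← Ideal.span_singleton_eq_top, ← he]
        exact Ideal.one_eq_top
      refine ⟨hu.unit, Units.ext ?_⟩
      change Ideal.Quotient.mk m π = _
      rw [← hLr p, Ideal.Quotient.mk_eq_mk_iff_sub_mem]
      exact hπ
    · rintro ⟨v, rfl⟩
      refine ⟨(v : 𝓞 K), ?_, ?_⟩
      · rw [← Ideal.Quotient.mk_eq_mk_iff_sub_mem, hLr]
        rfl
      · rw [Ideal.span_singleton_eq_top.mpr v.isUnit]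
        exact Ideal.one_eq_top
  have key := card_mul_of_exact (unitsMapW m) f q hq h1 h2
  rw [key, Nat.card_eq_fintype_card (α := ClassGroup (𝓞 K))]
  rfl

end Fermat.Agent.Cor.RayN
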