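import Fermat.Agent.Corollaries.RayN.FormSign

/-!
# Primes represented by binary quadratic forms, definite or indefinite (Weber, Meyer)

Let `f = a x² + b x y + c y²` be a primitive form whose discriminant `D` is not a square, positive
definite if `D < 0`. Then `f` represents infinitely many primes, at points `(x, y)` of every
residue class modulo `M` where the value is prime to `M`.
-/

set_option autoImplicit false

open NumberField QuadraticAlgebra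
open scoped nonZeroDivisors

namespace Fermat.Agent.Cor.RayN

open Fermat.Agent.ClassL Fermat.Agent.Cor.Ray

section Order

variable {a b c : ℤ} [hF : Fact (∀ r : ℚ, r ^ 2 ≠ -((a : ℚ) * c) + -(b : ℚ) * r)]

/-- the case of a first coefficient positive and prime to everything, and `(x₀, y₀) = (d, 0)` -/
theorem exists_prime_coprime_n (hD0 : b ^ 2 - 4 * a * c ≠ 0) {M : ℤ}
    (hM : M ≠ 0) (hcop : IsCoprime a (2 * (b ^ 2 - 4 * a * c) * M)) (ha : 0 < a) {d : ℤ}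
    (hd0 : d ≠ 0) (hd : IsCoprime d (2 * (b ^ 2 - 4 * a * c) * M)) (B : ℕ) :
    ∃ p : ℕ, p.Prime ∧ B < p ∧ ∃ x y : ℤ, M ∣ x - d ∧ M ∣ y ∧
      a * x ^ 2 + b * x * y + c * y ^ 2 = p := by
  set T : ℤ := 2 * (b ^ 2 - 4 * a * c) * M with hT
  have hT0 : T ≠ 0 := mul_ne_zero (mul_ne_zero two_ne_zero hD0) hM
  have hcop2 : IsCoprime a (2 * (b ^ 2 - 4 * a * c)) := IsCoprime.of_mul_right_left hcop
  have hcopM : IsCoprime a M := IsCoprime.of_mul_right_right hcop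
  have h𝔪 : Ideal.span {((T : ℤ) : 𝓞 (QF a b c))} ≠ ⊥ := by
    rw [Ne, Ideal.span_singleton_eq_bot]
    exact_mod_cast hT0
  have hbot : idealQ a b c ≠ ⊥ := by
    intro h
    have h1 := absNorm_idealQ' hcop2
    rw [h, Ideal.absNorm_bot] at h1
    exact ha.ne' (Int.natAbs_eq_zero.mp h1.symm)
  let A : (Ideal (𝓞 (QF a b c)))⁰ := ⟨idealQ a b c, mem_nonZeroDivisors_of_ne_zero hbot⟩
  have hA : IsCoprime (A : Ideal (𝓞 (QF a b c))) (Ideal.span {((T : ℤ) : 𝓞 (QF a b c))}) := by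
    have h1 := isCoprime_span_intCast (a := a) (b := b) (c := c) hcop
    rw [Ideal.isCoprime_iff_sup_eq] at h1 ⊢
    refine top_le_iff.mp (h1.symm.le.trans (sup_le_sup_right ?_ _))
    rw [Ideal.span_singleton_le_iff_mem]
    exact Ideal.subset_span (Set.mem_insert _ _)
  have hγ0 : ((d * a : ℤ) : 𝓞 (QF a b c)) ≠ 0 := by
    exact_mod_cast mul_ne_zero hd0 ha.ne'
  obtain ⟨J, hJ, hJP⟩ := exists_nray_rep h𝔪 hA hγ0
    (isCoprime_span_intCast (a := a) (b := b) (c := c) (hd.mul_left hcop))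
  -- a prime ideal of degree one of large norm
  have hfin : {P : ClassL.Pr (QF a b c) |
      Ideal.absNorm (P.1 : Ideal (𝓞 (QF a b c))) ≤ B}.Finite :=
    (Ideal.finite_setOfPred_absNorm_le₀ (S := 𝓞 (QF a b c)) B).preimage
      (f := fun P : ClassL.Pr (QF a b c) => P.1) Subtype.val_injective.injOn
  obtain ⟨P, ⟨hPJ, hPp⟩, hPB⟩ := ((infinite_narrow_deg_one h𝔪 hJ).sdiff hfin).nonempty
  have hPB' : B < Ideal.absNorm (P.1 : Ideal (𝓞 (QF a b c))) := not_le.mp hPB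
  obtain ⟨α, hα, hαγ, hsg⟩ := hJP P.1 hPJ
  refine ⟨_, hPp, hPB', ?_⟩
  -- the coordinates of `α`
  obtain ⟨z, hz⟩ := Ideal.mem_span_singleton'.mp hαγ
  obtain ⟨x', y', hxy⟩ := exists_comb_mul z
  have h1 : α = ((d * a + M * x' : ℤ) : 𝓞 (QF a b c)) +
      ((M * y' : ℤ) : 𝓞 (QF a b c)) * thetaQ a b c := by
    have h2 : ((T : ℤ) : 𝓞 (QF a b c)) =
        ((2 * (b ^ 2 - 4 * a * c) : ℤ) : 𝓞 (QF a b c)) * ((M : ℤ) : 𝓞 (QF a b c)) := by
      rw [hT, Int.cast_mul]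
    rw [h2] at hz
    push_cast
    push_cast at hz hxy
    linear_combination -hz + (M : 𝓞 (QF a b c)) * hxy
  have hαA : α ∈ idealQ a b c := by
    have h2 : α ∈ (P.1 : Ideal (𝓞 (QF a b c))) * (A : Ideal (𝓞 (QF a b c))) := by
      rw [hα]
      exact Ideal.mem_span_singleton_self α
    have h3 : (P.1 : Ideal (𝓞 (QF a b c))) * (A : Ideal (𝓞 (QF a b c))) ≤
      (A : Ideal (𝓞 (QF a b c))) := Ideal.mul_le_right
    exact h3 h2
  rw [h1] at hαA
  have h2 : a ∣ d * a + M * x' := dvd_of_comb_mem hcop2 hαA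
  obtain ⟨w, hw⟩ : a ∣ x' := by
    have h3 : a ∣ M * x' := (dvd_add_right (Dvd.intro_left d rfl)).mp h2
    exact hcopM.dvd_of_dvd_mul_left h3
  have h3 : α = (((d + M * w) * a : ℤ) : 𝓞 (QF a b c)) +
      ((M * y' : ℤ) : 𝓞 (QF a b c)) * thetaQ a b c := by
    rw [h1, hw]
    push_cast
    ring
  have h4 : (Algebra.norm ℤ α).natAbs =
      Ideal.absNorm (P.1 : Ideal (𝓞 (QF a b c))) * a.natAbs := by
    rw [← Ideal.absNorm_span_singleton, ← hα, map_mul, ← absNorm_idealQ' hcop2]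
  -- the sign of the norm
  have hα0 : α ≠ 0 := by
    intro h0
    rw [h0, Algebra.norm_zero, Int.natAbs_zero] at h4
    exact mul_ne_zero hPp.ne_zero (Int.natAbs_ne_zero.mpr ha.ne') h4.symm
  have hNγ : 0 < Algebra.norm ℤ ((d * a : ℤ) : 𝓞 (QF a b c)) := by
    have e1 : ((d * a : ℤ) : 𝓞 (QF a b c)) =
        ((d * a : ℤ) : 𝓞 (QF a b c)) + ((0 : ℤ) : 𝓞 (QF a b c)) * thetaQ a b c := by
      push_cast
      ring
    rw [e1, norm_comb]
    have e2 : 0 < a ^ 2 * d ^ 2 := by positivity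
    linarith
  have h6 : 0 < Algebra.norm ℤ α := by
    have h7 := norm_mul_norm_pos hα0 hγ0 hsg
    exact pos_of_mul_pos_left h7 hNγ.le
  have h7 : a * (a * (d + M * w) ^ 2 - b * (d + M * w) * (M * y') + c * (M * y') ^ 2) =
      a * (Ideal.absNorm (P.1 : Ideal (𝓞 (QF a b c))) : ℤ) := by
    rw [← norm_comb, ← h3, ← Int.natAbs_of_nonneg h6.le, h4, Nat.cast_mul,
      Int.natAbs_of_nonneg ha.le, mul_comm]
  refine ⟨d + M * w, -(M * y'), ⟨w, by ring⟩, ⟨-y', by ring⟩, ?_⟩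
  rw [← mul_left_cancel₀ ha.ne' h7]
  ring

end Order

/-- **Weber, Meyer** -/
theorem exists_prime_form_n {a b c : ℤ}
    (hprim : ∀ q : ℕ, q.Prime → ¬ ((q : ℤ) ∣ a ∧ (q : ℤ) ∣ b ∧ (q : ℤ) ∣ c))
    (hsq : ¬ IsSquare (b ^ 2 - 4 * a * c)) (hpos : b ^ 2 - 4 * a * c < 0 → 0 < a)
    {M : ℤ} (hM : M ≠ 0) {x₀ y₀ : ℤ} (h : IsCoprime (qf a b c x₀ y₀) M) (B : ℕ) :
    ∃ p : ℕ, p.Prime ∧ B < p ∧ ∃ x y : ℤ, M ∣ x - x₀ ∧ M ∣ y - y₀ ∧ qf a b c x y = p := by
  set D : ℤ := b ^ 2 - 4 * a * c with hD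
  have hD0 : D ≠ 0 := by
    intro h0
    exact hsq ⟨0, by rw [h0]; ring⟩
  -- a point whose value is positive and prime to `2 D M`
  obtain ⟨x₁, y₁, hx, hy, hco, hvpos⟩ := exists_value_coprime_pos hprim hsq hpos hM h
    (2 * D).natAbs (Int.natAbs_ne_zero.mpr (mul_ne_zero two_ne_zero hD0))
  have hco' : IsCoprime (qf a b c x₁ y₁) (2 * D * M) := by
    rcases Int.natAbs_eq (2 * D) with h1 | h1
    · rwa [← h1] at hco
    · rw [h1]
      have h2 : -(((2 * D).natAbs : ℕ) : ℤ) * M = -((((2 * D).natAbs : ℕ) : ℤ) * M) := by ring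
      rw [h2]
      exact hco.neg_right
  set T : ℤ := 2 * D * M with hT
  have hval : qf a b c x₁ y₁ ≠ 0 := hvpos.ne'
  -- the primitive vector
  obtain ⟨u, v, d, r, s, hx₁, hy₁, hdet⟩ : ∃ u v d r s : ℤ, x₁ = d * u ∧ y₁ = d * v ∧
      u * s - v * r = 1 := by
    have hne : x₁ ≠ 0 ∨ y₁ ≠ 0 := by
      by_contra hcon
      push Not at hcon
      apply hval
      rw [qf, hcon.1, hcon.2]
      ring
    obtain ⟨u, hu⟩ := Int.gcd_dvd_left (a := x₁) (b := y₁)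
    obtain ⟨v, hv⟩ := Int.gcd_dvd_right (a := x₁) (b := y₁)
    have hg : ((Int.gcd x₁ y₁ : ℕ) : ℤ) ≠ 0 := by
      rw [Ne, Int.natCast_eq_zero, Int.gcd_eq_zero_iff, not_and_or]
      exact hne
    have hbez := Int.gcd_eq_gcd_ab x₁ y₁
    refine ⟨u, v, (Int.gcd x₁ y₁ : ℕ), -Int.gcdB x₁ y₁, Int.gcdA x₁ y₁, hu, hv, ?_⟩
    refine mul_left_cancel₀ hg ?_
    rw [mul_one]
    conv_rhs => rw [hbez]
    linear_combination (-Int.gcdA x₁ y₁) * hu - (Int.gcdB x₁ y₁) * hv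
  -- the equivalent form
  set a' : ℤ := qf a b c u v with ha'
  set b' : ℤ := 2 * a * u * r + b * (u * s + v * r) + 2 * c * v * s with hb'
  set c' : ℤ := qf a b c r s with hc'
  have hdisc : b' ^ 2 - 4 * a' * c' = D := by
    have h1 : b' ^ 2 - 4 * a' * c' = D * (u * s - v * r) ^ 2 := by
      rw [hb', ha', hc', hD, qf, qf]
      ring
    rw [h1, hdet]
    ring
  have hval2 : qf a b c x₁ y₁ = d ^ 2 * a' := by
    rw [ha', qf, qf, hx₁, hy₁]
    ring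
  have ha'T : IsCoprime a' T := by
    rw [hval2] at hco'
    exact hco'.of_mul_left_right
  have hdT : IsCoprime d T := by
    rw [hval2, pow_two, mul_assoc] at hco'
    exact hco'.of_mul_left_left
  have ha'0 : 0 < a' := by
    rw [hval2] at hvpos
    exact pos_of_mul_pos_right hvpos (sq_nonneg _)
  have hd0 : d ≠ 0 := by
    intro h0
    exact hval (by rw [hval2, h0]; ring)
  have : Fact (∀ r : ℚ, r ^ 2 ≠ -((a' : ℚ) * c') + -(b' : ℚ) * r) :=
    fact_of_not_isSquare (by rw [hdisc]; exact hsq)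
  obtain ⟨p, hp, hB, X, Y, hX, hY, hXY⟩ := exists_prime_coprime_n (a := a') (b := b') (c := c')
    (by rw [hdisc]; exact hD0) hM (by rw [hdisc]; exact ha'T) ha'0 hd0
    (by rw [hdisc]; exact hdT) B
  refine ⟨p, hp, hB, u * X + r * Y, v * X + s * Y, ?_, ?_, ?_⟩
  · have h1 : u * X + r * Y - x₀ = u * (X - d) + (r * Y + (x₁ - x₀)) := by rw [hx₁]; ring
    rw [h1]
    exact dvd_add (Dvd.dvd.mul_left hX _) (dvd_add (Dvd.dvd.mul_left hY _) hx)
  · have h1 : v * X + s * Y - y₀ = v * (X - d) + (s * Y + (y₁ - y₀)) := by rw [hy₁]; ring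
    rw [h1]
    exact dvd_add (Dvd.dvd.mul_left hX _) (dvd_add (Dvd.dvd.mul_left hY _) hy)
  · rw [← hXY]
    rw [hb', ha', hc', qf, qf, qf]
    ring

/-! ### The theorems -/

/-- **Weber 1882, Meyer 1888, for all binary quadratic forms.** Let `a x² + b x y + c y²` be a
primitive form whose discriminant is not a square, positive definite if the discriminant is
negative. If its value at `(x₀, y₀)` is prime to `M ≠ 0`, then it represents infinitely many primes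
at points `(x, y) ≡ (x₀, y₀)` modulo `M`. -/
theorem infinite_primes_qf {a b c : ℤ}
    (hprim : ∀ q : ℕ, q.Prime → ¬ ((q : ℤ) ∣ a ∧ (q : ℤ) ∣ b ∧ (q : ℤ) ∣ c))
    (hsq : ¬ IsSquare (b ^ 2 - 4 * a * c)) (hpos : b ^ 2 - 4 * a * c < 0 → 0 < a)
    {M : ℤ} (hM : M ≠ 0) {x₀ y₀ : ℤ}
    (h : IsCoprime (a * x₀ ^ 2 + b * x₀ * y₀ + c * y₀ ^ 2) M) :
    {p : ℕ | p.Prime ∧ ∃ x y : ℤ, M ∣ x - x₀ ∧ M ∣ y - y₀ ∧
      a * x ^ 2 + b * x * y + c * y ^ 2 = p}.Infinite := by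
  refine Set.infinite_of_forall_exists_gt fun B => ?_
  obtain ⟨p, hp, hB, hxy⟩ := exists_prime_form_n hprim hsq hpos hM h B
  exact ⟨p, ⟨hp, hxy⟩, hB⟩

/-- **Every primitive indefinite binary quadratic form of non-square discriminant represents
infinitely many primes** (and, applied to `-f`, infinitely many negatives of primes). -/
theorem infinite_primes_indefinite {a b c : ℤ}
    (hprim : ∀ q : ℕ, q.Prime → ¬ ((q : ℤ) ∣ a ∧ (q : ℤ) ∣ b ∧ (q : ℤ) ∣ c))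
    (hsq : ¬ IsSquare (b ^ 2 - 4 * a * c)) (hpos : 0 < b ^ 2 - 4 * a * c) :
    {p : ℕ | p.Prime ∧ ∃ x y : ℤ, a * x ^ 2 + b * x * y + c * y ^ 2 = p}.Infinite := by
  refine (infinite_primes_qf hprim hsq (fun h => absurd hpos (not_lt.mpr h.le)) one_ne_zero
    (x₀ := 0) (y₀ := 0) isCoprime_one_right).mono ?_
  rintro p ⟨hp, x, y, -, -, hxy⟩
  exact ⟨hp, x, y, hxy⟩

/-- **Meyer 1888, for all binary quadratic forms**: the primes of an arithmetic progression which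
are represented by a primitive form. -/
theorem infinite_primes_qf_modEq {a b c : ℤ}
    (hprim : ∀ q : ℕ, q.Prime → ¬ ((q : ℤ) ∣ a ∧ (q : ℤ) ∣ b ∧ (q : ℤ) ∣ c))
    (hsq : ¬ IsSquare (b ^ 2 - 4 * a * c)) (hpos : b ^ 2 - 4 * a * c < 0 → 0 < a)
    {M : ℤ} (hM : M ≠ 0) {r : ℤ} (hr : IsCoprime r M) {x₀ y₀ : ℤ}
    (h : a * x₀ ^ 2 + b * x₀ * y₀ + c * y₀ ^ 2 ≡ r [ZMOD M]) :
    {p : ℕ | p.Prime ∧ (p : ℤ) ≡ r [ZMOD M] ∧
      ∃ x y : ℤ, a * x ^ 2 + b * x * y + c * y ^ 2 = p}.Infinite := by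
  have h0 : IsCoprime (a * x₀ ^ 2 + b * x₀ * y₀ + c * y₀ ^ 2) M := by
    obtain ⟨w, hw⟩ := h.symm.dvd
    have h1 : a * x₀ ^ 2 + b * x₀ * y₀ + c * y₀ ^ 2 = r + M * w := by linear_combination hw
    rw [h1]
    exact IsCoprime.add_mul_left_left hr w
  refine (infinite_primes_qf hprim hsq hpos hM h0).mono ?_
  rintro p ⟨hp, x, y, hx, hy, hxy⟩
  refine ⟨hp, ?_, x, y, hxy⟩
  refine Int.ModEq.trans ?_ h
  rw [← hxy]
  exact ((Int.modEq_iff_dvd.mpr (qf_congr (a := a) (b := b) (c := c) hx hy)).symm)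

/-- **Infinitely many primes `x² - n y²`**, for every `n` which is not a square. -/
theorem infinite_primes_sq_sub_mul {n : ℕ} (hn : ¬ IsSquare n) :
    {p : ℕ | p.Prime ∧ ∃ x y : ℕ, (p : ℤ) = x ^ 2 - n * y ^ 2}.Infinite := by
  have hsq : ¬ IsSquare ((0 : ℤ) ^ 2 - 4 * 1 * (-n)) := by
    rintro ⟨t, ht⟩
    have h1 : (4 : ℤ) * n = t ^ 2 := by linear_combination ht
    have h2 : (2 : ℤ) ∣ t := by
      have h3 : (2 : ℤ) ∣ t ^ 2 := ⟨2 * n, by linear_combination -h1⟩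
      exact Int.prime_two.dvd_of_dvd_pow h3
    obtain ⟨k, rfl⟩ := h2
    refine hn ⟨k.natAbs, ?_⟩
    have h3 : (n : ℤ) = k * k := by linarith
    have h4 : (n : ℤ) = ((k.natAbs * k.natAbs : ℕ) : ℤ) := by
      rw [h3, Nat.cast_mul, Int.natAbs_mul_self']
    exact_mod_cast h4
  have hn0 : n ≠ 0 := by
    rintro rfl
    exact hn ⟨0, rfl⟩
  refine (infinite_primes_indefinite (a := 1) (b := 0) (c := -n) ?_ hsq (by
    have : (0 : ℤ) < n := by exact_mod_cast Nat.pos_of_ne_zero hn0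
    linarith)).mono ?_
  · rintro q hq ⟨h1, -, -⟩
    have h2 : q ∣ 1 := by exact_mod_cast h1
    exact hq.one_lt.ne' (Nat.dvd_one.mp h2)
  · rintro p ⟨hp, x, y, hxy⟩
    refine ⟨hp, x.natAbs, y.natAbs, ?_⟩
    rw [Int.natAbs_sq, Int.natAbs_sq, ← hxy]
    ring

end Fermat.Agent.Cor.RayN
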