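import Fermat.Agent.Corollaries.Ray.Weight
import Fermat.Agent.Corollaries.RayN.Defs

/-!
# Elements congruent to one with prescribed signs

* `exists_signs`: in every nonzero ideal there is an element whose real embeddings have prescribed
  signs and are large;
* `NRayChar.exists_S`: the restriction of a narrow ray class character to the principal ideals `(a)`,
  `a ≡ 1 mod m`, is a sign character.
-/

set_option autoImplicit false
set_option linter.unusedSectionVars false

noncomputable section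

namespace Fermat.Agent.Cor.RayN

open NumberField NumberField.InfinitePlace NumberField.mixedEmbedding
open Fermat.Agent.Classic.Zeta Fermat.Agent.Cor.Ray
open scoped nonZeroDivisors Classical

universe u

variable {K : Type u} [Field K] [NumberField K] {m : Ideal (𝓞 K)}

/-- **Approximation**: elements of a nonzero ideal close to a given point of `∏_{w real} ℝ`. -/
theorem exists_close (hm : m ≠ ⊥) : ∃ C : ℝ, ∀ v : RP K → ℝ, ∃ a ∈ m, ∀ w : RP K,
    |em w (a : K) - v w| ≤ C := by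
  let I : (FractionalIdeal (𝓞 K)⁰ K)ˣ :=
    Units.mk0 (m : FractionalIdeal (𝓞 K)⁰ K) (FractionalIdeal.coeIdeal_ne_zero.mpr hm)
  let b := fractionalIdealLatticeBasis K I
  refine ⟨∑ i, ‖b i‖, fun v => ?_⟩
  let p : mixedSpace K := (v, 0)
  have h1 : ((ZSpan.floor b p : mixedSpace K)) ∈ Submodule.span ℤ (Set.range b) :=
    (ZSpan.floor b p).2
  rw [mem_span_fractionalIdealLatticeBasis] at h1
  obtain ⟨x, hx, hxp⟩ := h1
  obtain ⟨a, ha, rfl⟩ := (mem_coeIdeal_iff' (J := m)).mp hx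
  refine ⟨a, ha, fun w => ?_⟩
  have h2 : ‖ZSpan.fract b p‖ ≤ ∑ i, ‖b i‖ := ZSpan.norm_fract_le b p
  have h3 : ZSpan.fract b p = p - mixedEmbedding K (a : K) := by
    rw [ZSpan.fract_apply, ← hxp]
  have h4 : (p - mixedEmbedding K (a : K)).1 w = v w - em w (a : K) := by
    rw [Prod.fst_sub, Pi.sub_apply, mixedEmbedding_apply_isReal]
    rfl
  rw [abs_sub_comm, ← h4, ← h3, ← Real.norm_eq_abs]
  exact ((norm_le_pi_norm _ w).trans (norm_fst_le _)).trans h2

/-- elements congruent to `1` with prescribed signs -/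
theorem exists_signs (hm : m ≠ ⊥) (ε : RP K → ℝ) (hε : ∀ w, ε w = 1 ∨ ε w = -1) :
    ∃ a : 𝓞 K, a ≠ 0 ∧ a - 1 ∈ m ∧ ∀ w : RP K, 0 < ε w * em w (a : K) := by
  by_cases hne : Nonempty (RP K)
  · obtain ⟨C, hC⟩ := exists_close (K := K) hm
    obtain ⟨a, ha, h⟩ := hC fun w => ε w * (|C| + 2)
    have key : ∀ w : RP K, 0 < ε w * em w ((a + 1 : 𝓞 K) : K) := fun w => by
      have h1 : em w ((a + 1 : 𝓞 K) : K) = em w (a : K) + 1 := by
        rw [← map_one (em w), ← map_add]
        rfl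
      have h2 := abs_le.mp (h w)
      have h3 := le_abs_self C
      have h4 := abs_nonneg C
      rw [h1]
      rcases hε w with h5 | h5 <;> rw [h5] at h2 ⊢ <;> nlinarith
    refine ⟨a + 1, ?_, by rwa [add_sub_cancel_right], key⟩
    obtain ⟨w⟩ := hne
    intro h0
    have h1 := key w
    rw [h0] at h1
    have h2 : em w ((0 : 𝓞 K) : K) = 0 := by
      rw [show ((0 : 𝓞 K) : K) = 0 from rfl, map_zero]
    rw [h2, mul_zero] at h1
    exact lt_irrefl _ h1
  · exact ⟨1, one_ne_zero, by rw [sub_self]; exact m.zero_mem, fun w => (hne ⟨w⟩).elim⟩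

variable {ψ : (Ideal (𝓞 K))⁰ →* ℂ}

theorem NRayChar.cong' (h : NRayChar m ψ) {a : 𝓞 K} (ha : a ≠ 0) (h1 : a - 1 ∈ m)
    (h2 : ∀ w : RP K, 0 < em w (a : K)) : ψ (sp a ha) = 1 := h.cong _ a rfl h1 h2

theorem em_ne_zeroF (w : RP K) {a : 𝓞 K} (ha : a ≠ 0) : em w (a : K) ≠ 0 := by
  rw [Ne, map_eq_zero]
  exact fun h => ha (RingOfIntegers.ext h)

theorem em_mulF (w : RP K) (a b : 𝓞 K) :
    em w ((a * b : 𝓞 K) : K) = em w (a : K) * em w (b : K) := by
  rw [← map_mul]
  rfl

theorem coe_ne_zeroF {a : 𝓞 K} (ha : a ≠ 0) : (a : K) ≠ 0 := fun h =>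
  ha (RingOfIntegers.ext h)

/-- `1 + m` is multiplicative -/
theorem mul_sub_one_memF {a b : 𝓞 K} (ha : a - 1 ∈ m) (hb : b - 1 ∈ m) : a * b - 1 ∈ m := by
  have : a * b - 1 = a * (b - 1) + (a - 1) := by ring
  rw [this]
  exact m.add_mem (m.mul_mem_left _ hb) ha

theorem prod_sub_one_memF {ι : Type*} (T : Finset ι) (f : ι → 𝓞 K) (hf : ∀ i, f i - 1 ∈ m) :
    (∏ i ∈ T, f i) - 1 ∈ m := by
  induction T using Finset.induction_on with
  | empty => rw [Finset.prod_empty, sub_self]; exact m.zero_mem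
  | insert i T hi ih =>
    rw [Finset.prod_insert hi]
    exact mul_sub_one_memF (hf i) ih

theorem sp_congr {a b : 𝓞 K} (h : a = b) (ha : a ≠ 0) (hb : b ≠ 0) : sp a ha = sp b hb := by
  subst h; rfl

theorem psi_sp_prod {ι : Type*} (T : Finset ι) (f : ι → 𝓞 K) (hf : ∀ i, f i ≠ 0)
    (h : ∏ i ∈ T, f i ≠ 0) : ψ (sp (∏ i ∈ T, f i) h) = ∏ i ∈ T, ψ (sp (f i) (hf i)) := by
  induction T using Finset.induction_on with
  | empty =>
    have h1 : sp (∏ i ∈ (∅ : Finset ι), f i) h = 1 := by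
      apply Subtype.ext
      change Ideal.span {∏ i ∈ (∅ : Finset ι), f i} = 1
      rw [Finset.prod_empty, Ideal.span_singleton_one, Ideal.one_eq_top]
    rw [h1, map_one]
    exact Finset.prod_empty.symm
  | insert i T hi ih =>
    have h1 : ∏ i ∈ T, f i ≠ 0 := by
      intro h0
      rw [Finset.prod_insert hi, h0, mul_zero] at h
      exact h rfl
    have h2 : ∏ j ∈ insert i T, ψ (sp (f j) (hf j)) =
        ψ (sp (f i) (hf i)) * ∏ j ∈ T, ψ (sp (f j) (hf j)) := Finset.prod_insert hi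
    rw [h2, ← ih h1, ← map_mul, ← sp_mul (hf i) h1]
    exact congrArg ψ (sp_congr (Finset.prod_insert hi) _ _)

omit [NumberField K] in
theorem sg_eq_prod (S : Finset (RP K)) {x : K} (hx : x ≠ 0) :
    sg S x = ∏ w ∈ S, if em w x < 0 then (-1 : ℝ) else 1 := by
  induction S using Finset.induction_on with
  | empty => rw [sg_empty, Finset.prod_empty]
  | insert w S hw ih =>
    have h1 : pS (insert w S) x = em w x * pS S x := Finset.prod_insert hw
    rw [Finset.prod_insert hw, ← ih, sg, sg, h1, sign_mul, SignType.coe_mul]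
    congr 1
    by_cases h2 : em w x < 0
    · rw [if_pos h2, sign_neg h2, SignType.coe_neg_one]
    · have h3 : 0 < em w x := lt_of_le_of_ne (not_lt.mp h2) ((map_ne_zero (em w)).mpr hx).symm
      rw [if_neg h2, sign_pos h3, SignType.coe_one]

/-- **The infinity type**: on the principal ideals `(a)`, `a ≡ 1 mod m`, a narrow ray class
character is the sign character of a set of real places. -/
theorem NRayChar.exists_S (hm : m ≠ ⊥) (h : NRayChar m ψ) : ∃ S : Finset (RP K),
    ∀ (a : 𝓞 K) (ha : a ≠ 0), a - 1 ∈ m → ψ (sp a ha) = (sg S (a : K) : ℂ) := by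
  have hex : ∀ w : RP K, ∃ a : 𝓞 K, a ≠ 0 ∧ a - 1 ∈ m ∧
      ∀ w' : RP K, 0 < (if w' = w then (-1 : ℝ) else 1) * em w' (a : K) := fun w =>
    exists_signs hm _ fun w' => by split_ifs <;> simp
  choose A hA0 hA1 hA using hex
  have hAw : ∀ w, em w (A w : K) < 0 := fun w => by
    have := hA w w
    rw [if_pos rfl] at this
    linarith
  have hAw' : ∀ w w', w' ≠ w → 0 < em w' (A w : K) := fun w w' hw => by
    have := hA w w'
    rwa [if_neg hw, one_mul] at this
  -- the squares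
  have hsq : ∀ (a : 𝓞 K) (ha : a ≠ 0), a - 1 ∈ m → ψ (sp a ha) * ψ (sp a ha) = 1 := by
    intro a ha h1
    rw [← map_mul, ← sp_mul ha ha]
    refine h.cong' _ (mul_sub_one_memF h1 h1) fun w => ?_
    rw [em_mulF]
    exact mul_self_pos.mpr (em_ne_zeroF w ha)
  have hval : ∀ (a : 𝓞 K) (ha : a ≠ 0), a - 1 ∈ m → ψ (sp a ha) = 1 ∨ ψ (sp a ha) = -1 :=
    fun a ha h1 => mul_self_eq_one_iff.mp (hsq a ha h1)
  let S : Finset (RP K) := Finset.univ.filter fun w => ψ (sp (A w) (hA0 w)) = -1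
  refine ⟨S, fun a ha h1 => ?_⟩
  let T : Finset (RP K) := Finset.univ.filter fun w => em w (a : K) < 0
  have hP0 : ∏ w ∈ T, A w ≠ 0 := Finset.prod_ne_zero_iff.mpr fun w _ => hA0 w
  have hP1 : (∏ w ∈ T, A w) - 1 ∈ m := prod_sub_one_memF T A hA1
  have hem : ∀ w : RP K, em w ((∏ w' ∈ T, A w' : 𝓞 K) : K) = ∏ w' ∈ T, em w (A w' : K) := fun w =>
    map_prod ((em w).comp (algebraMap (𝓞 K) K)) _ _
  have hpos : ∀ w : RP K, 0 < em w ((a * ∏ w' ∈ T, A w' : 𝓞 K) : K) := by
    intro w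
    rw [em_mulF, hem]
    by_cases hw : w ∈ T
    · rw [← Finset.mul_prod_erase T _ hw]
      have e1 : em w (a : K) < 0 := (Finset.mem_filter.mp hw).2
      have e2 : 0 < ∏ w' ∈ T.erase w, em w (A w' : K) := Finset.prod_pos fun w' hw' =>
        hAw' w' w (Finset.ne_of_mem_erase hw').symm
      rw [← mul_assoc]
      exact mul_pos (mul_pos_of_neg_of_neg e1 (hAw w)) e2
    · have e1 : 0 < em w (a : K) := by
        refine lt_of_le_of_ne (not_lt.mp fun h0 => hw ?_) (em_ne_zeroF w ha).symm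
        exact Finset.mem_filter.mpr ⟨Finset.mem_univ _, h0⟩
      refine mul_pos e1 (Finset.prod_pos fun w' hw' => hAw' w' w ?_)
      rintro rfl
      exact hw hw'
  have e1 : ψ (sp a ha) * ψ (sp _ hP0) = 1 := by
    rw [← map_mul, ← sp_mul ha hP0]
    exact h.cong' _ (mul_sub_one_memF h1 hP1) hpos
  have e2 : ψ (sp _ hP0) = ∏ w ∈ T, ψ (sp (A w) (hA0 w)) := psi_sp_prod T A hA0 hP0
  have e3 : ∏ w ∈ T, ψ (sp (A w) (hA0 w)) = (sg S (a : K) : ℂ) := by
    have f1 : ∀ w : RP K, ψ (sp (A w) (hA0 w)) = if w ∈ S then (-1 : ℂ) else 1 := by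
      intro w
      by_cases hw : ψ (sp (A w) (hA0 w)) = -1
      · have h6 : w ∈ S := Finset.mem_filter.mpr ⟨Finset.mem_univ w, hw⟩
        rw [if_pos h6, hw]
      · have h6 : w ∉ S := fun h5 => hw (Finset.mem_filter.mp h5).2
        rw [if_neg h6]
        exact (hval (A w) (hA0 w) (hA1 w)).resolve_right hw
    have f2 : (sg S (a : K) : ℂ) = ∏ w ∈ S, if w ∈ T then (-1 : ℂ) else 1 := by
      rw [sg_eq_prod S (coe_ne_zeroF ha)]
      push_cast
      refine Finset.prod_congr rfl fun w _ => ?_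
      by_cases hw : em w (a : K) < 0
      · have h6 : w ∈ T := Finset.mem_filter.mpr ⟨Finset.mem_univ w, hw⟩
        rw [if_pos hw, if_pos h6]
        norm_num
      · have h6 : w ∉ T := fun h5 => hw (Finset.mem_filter.mp h5).2
        rw [if_neg hw, if_neg h6]
        norm_num
    rw [f2, Finset.prod_congr rfl fun w _ => f1 w, Finset.prod_ite_mem, Finset.prod_ite_mem,
      Finset.inter_comm]
  have e4 : (sg S (a : K) : ℂ) * (sg S (a : K) : ℂ) = 1 := by
    exact_mod_cast sg_sq S (coe_ne_zeroF ha)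
  rw [e2, e3] at e1
  exact mul_right_cancel₀ (left_ne_zero_of_mul_eq_one e4) (e1.trans e4.symm)

end Fermat.Agent.Cor.RayN
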