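import Fermat.Agent.Corollaries.RayN.FormClassN

/-!
# Gauss's composition of binary quadratic forms

`D` any discriminant which is not a square. The proper equivalence classes of primitive forms of
discriminant `D` (positive definite if `D < 0`) form a commutative group, characterised by
`[(a, B, a' C)] [(a', B, a C)] = [(a a', B, C)]` (united forms).
-/

set_option autoImplicit false

noncomputable section

open NumberField QuadraticAlgebra
open scoped nonZeroDivisors Pointwise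

namespace Fermat.Agent.Cor.RayN

open Fermat.Agent.Cor.Ray

theorem eq_of_val_eq {f g : BForm} (h : ∀ x y : ℤ, f.val x y = g.val x y) : f = g := by
  have h1 := h 1 0
  have h2 := h 0 1
  have h3 := h 1 1
  simp only [BForm.val] at h1 h2 h3
  refine BForm.ext ?_ ?_ ?_ <;> linarith

/-! ### United representatives -/

theorem exists_bezout {a a' B : ℤ}
    (h : ∀ q : ℕ, q.Prime → ¬ ((q : ℤ) ∣ a ∧ (q : ℤ) ∣ a' ∧ (q : ℤ) ∣ B)) :
    ∃ x y z : ℤ, x * a + y * a' + z * B = 1 := by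
  have h1 : Int.gcd (Int.gcd a a') B = 1 := by
    by_contra hne
    obtain ⟨q, hq, hd⟩ := Nat.exists_prime_and_dvd hne
    have h2 : (q : ℤ) ∣ (Int.gcd (Int.gcd a a') B : ℤ) := by exact_mod_cast hd
    have h3 := h2.trans (Int.gcd_dvd_left (a := (Int.gcd a a' : ℤ)) (b := B))
    exact h q hq ⟨h3.trans (Int.gcd_dvd_left (a := a) (b := a')),
      h3.trans (Int.gcd_dvd_right (a := a) (b := a')),
      h2.trans (Int.gcd_dvd_right (a := (Int.gcd a a' : ℤ)) (b := B))⟩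
  have h2 := Int.gcd_eq_gcd_ab a a'
  have h3 := Int.gcd_eq_gcd_ab (Int.gcd a a') B
  rw [h1] at h3
  refine ⟨Int.gcdA a a' * Int.gcdA (Int.gcd a a') B, Int.gcdB a a' * Int.gcdA (Int.gcd a a') B,
    Int.gcdB (Int.gcd a a') B, ?_⟩
  push_cast at h3
  linear_combination (-Int.gcdA (Int.gcd a a') B) * h2 - h3

/-- **two primitive forms of the same discriminant are properly equivalent to united forms** -/
theorem exists_united {f g : BForm} (hg : g.Prim) (hfa : f.a ≠ 0) (hfg : f.disc = g.disc) :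
    ∃ a' B C : ℤ, f.Eqv ⟨f.a, B, a' * C⟩ ∧ g.Eqv ⟨a', B, f.a * C⟩ ∧ IsCoprime a' f.a := by
  have hN : 2 ≤ (2 * f.a).natAbs := by omega
  obtain ⟨g₁, hgg₁, hco⟩ := exists_eqv_coprime hg hN
  have hco' : IsCoprime g₁.a (2 * f.a) := by
    rcases Int.natAbs_eq (2 * f.a) with h | h
    · rwa [← h] at hco
    · rw [h]
      exact hco.neg_right
  have hcoa : IsCoprime g₁.a f.a := hco'.of_mul_right_right
  have hd : g₁.disc = f.disc := by rw [hgg₁.disc_eq, hfg]
  have hg₁a : g₁.a ≠ 0 := by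
    intro h0
    rw [h0, isCoprime_zero_left] at hco'
    have h2 : IsUnit (2 : ℤ) := isUnit_of_mul_isUnit_left hco'
    rcases Int.isUnit_iff.mp h2 with h3 | h3 <;> omega
  obtain ⟨w, hw⟩ : (2 : ℤ) ∣ g₁.b - f.b := by
    have h1 : (2 : ℤ) ∣ (g₁.b - f.b) ^ 2 := by
      refine ⟨f.b ^ 2 - f.b * g₁.b + 2 * (g₁.a * g₁.c - f.a * f.c), ?_⟩
      simp only [BForm.disc] at hd
      linear_combination hd
    exact Int.prime_two.dvd_of_dvd_pow h1
  obtain ⟨x, y, hxy⟩ := hcoa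
  have hf₂ : f.Eqv (f.subst 1 (y * w) 0 1) := ⟨1, y * w, 0, 1, by ring, rfl⟩
  have hg₂ : g₁.Eqv (g₁.subst 1 (-(x * w)) 0 1) := ⟨1, -(x * w), 0, 1, by ring, rfl⟩
  set f₂ := f.subst 1 (y * w) 0 1 with hf₂'
  set g₂ := g₁.subst 1 (-(x * w)) 0 1 with hg₂'
  have a1 : f₂.a = f.a := by rw [hf₂']; simp only [BForm.subst, BForm.val]; ring
  have a2 : g₂.a = g₁.a := by rw [hg₂']; simp only [BForm.subst, BForm.val]; ring
  have b1 : f₂.b = f.b + 2 * f.a * (y * w) := by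
    rw [hf₂']; simp only [BForm.subst]; ring
  have b2 : g₂.b = g₁.b - 2 * g₁.a * (x * w) := by
    rw [hg₂']; simp only [BForm.subst]; ring
  have b3 : g₂.b = f₂.b := by
    rw [b1, b2]
    linear_combination hw - 2 * w * hxy
  have hdisc : f₂.disc = g₂.disc := by rw [hf₂.disc_eq, hg₂.disc_eq, hd]
  have hac : f.a * f₂.c = g₁.a * g₂.c := by
    simp only [BForm.disc] at hdisc
    rw [b3, a1, a2] at hdisc
    linarith
  obtain ⟨C, hC⟩ : g₁.a ∣ f₂.c := by
    have h1 : g₁.a ∣ f.a * f₂.c := ⟨g₂.c, hac⟩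
    exact (show IsCoprime g₁.a f.a from ⟨x, y, hxy⟩).dvd_of_dvd_mul_left h1
  have hC' : g₂.c = f.a * C := by
    rw [hC] at hac
    refine mul_left_cancel₀ hg₁a ?_
    linear_combination -hac
  refine ⟨g₁.a, f₂.b, C, ?_, ?_, ⟨x, y, hxy⟩⟩
  · have h1 : f₂ = ⟨f.a, f₂.b, g₁.a * C⟩ := BForm.ext a1 rfl hC
    rw [← h1]
    exact hf₂
  · have h1 : g₂ = ⟨g₁.a, f₂.b, f.a * C⟩ := BForm.ext a2 b3 hC'
    rw [← h1]
    exact hgg₁.trans hg₂

/-- the conditions of `FormSetN` -/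
def MemN (D : ℤ) (f : BForm) : Prop := f.Prim ∧ f.disc = D ∧ (D < 0 → 0 < f.a)

/-- the class of a form -/
def cls {D : ℤ} (f : BForm) (h : MemN D f) : Quotient (formSetoidN D) :=
  Quotient.mk (formSetoidN D) ⟨f, h⟩

theorem cls_eq_iff {D : ℤ} {f g : BForm} {hf : MemN D f} {hg : MemN D g} :
    cls f hf = cls g hg ↔ f.Eqv g :=
  Quotient.eq (r := formSetoidN D)

theorem exists_cls {D : ℤ} (x : Quotient (formSetoidN D)) :
    ∃ (f : BForm) (h : MemN D f), cls f h = x := by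
  obtain ⟨f, rfl⟩ := Quotient.exists_rep x
  exact ⟨f.1, f.2, rfl⟩

theorem MemN.of_eqv {D : ℤ} {f g : BForm} (h : MemN D f) (hfg : f.Eqv g) : MemN D g :=
  ⟨hfg.prim h.1, by rw [hfg.disc_eq, h.2.1], fun hD =>
    hfg.a_pos (h.2.2 hD) (by rw [h.2.1]; exact hD)⟩

/-- the composite of united forms -/
theorem MemN.comp {D a a' B C : ℤ} (hf : MemN D ⟨a, B, a' * C⟩) (hg : MemN D ⟨a', B, a * C⟩) :
    MemN D ⟨a * a', B, C⟩ := by
  refine ⟨?_, ?_, fun hD => mul_pos (hf.2.2 hD) (hg.2.2 hD)⟩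
  · rintro q hq ⟨h1, h2, h3⟩
    rcases (Nat.prime_iff_prime_int.mp hq).dvd_or_dvd h1 with h4 | h4
    · exact hf.1 q hq ⟨h4, h2, Dvd.dvd.mul_left h3 _⟩
    · exact hg.1 q hq ⟨h4, h2, Dvd.dvd.mul_left h3 _⟩
  · rw [← hf.2.1]
    simp only [BForm.disc]
    ring

theorem MemN.bezout {D a a' B C : ℤ} (hf : MemN D ⟨a, B, a' * C⟩) :
    ∃ x y z : ℤ, x * a + y * a' + z * B = 1 :=
  exists_bezout fun q hq h => hf.1 q hq ⟨h.1, h.2.2, Dvd.dvd.mul_right h.2.1 _⟩

/-- any two classes contain united forms -/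
theorem exists_united_cls {D : ℤ} (hsq : ¬ IsSquare D) (x y : Quotient (formSetoidN D)) :
    ∃ (a a' B C : ℤ) (hf : MemN D ⟨a, B, a' * C⟩) (hg : MemN D ⟨a', B, a * C⟩),
      cls _ hf = x ∧ cls _ hg = y := by
  obtain ⟨f, hf, rfl⟩ := exists_cls x
  obtain ⟨g, hg, rfl⟩ := exists_cls y
  have hfa : f.a ≠ 0 := by
    intro h0
    refine hsq ⟨f.b, ?_⟩
    rw [← hf.2.1, BForm.disc, h0]
    ring
  obtain ⟨a', B, C, h1, h2, -⟩ := exists_united hg.1 hfa (hf.2.1.trans hg.2.1.symm)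
  exact ⟨f.a, a', B, C, hf.of_eqv h1, hg.of_eqv h2, cls_eq_iff.mpr h1.symm,
    cls_eq_iff.mpr h2.symm⟩

section Field

variable {e n : ℤ} [hF : Fact (∀ r : ℚ, r ^ 2 ≠ -(((1 : ℤ) : ℚ) * n) + -(e : ℚ) * r)]

variable (e n) in
/-- the lattice `ℤ a + ℤ θ_f` -/
def latF (f : BForm) : Submodule ℤ (𝓞 (QF 1 e n)) :=
  Submodule.span ℤ {(f.a : 𝓞 (QF 1 e n)), thF e n f}

theorem mem_latF {f : BForm} {α : 𝓞 (QF 1 e n)} : α ∈ latF e n f ↔
    ∃ x y : ℤ, α = ((x * f.a : ℤ) : 𝓞 (QF 1 e n)) + y * thF e n f := by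
  rw [latF, Submodule.mem_span_pair]
  constructor
  · rintro ⟨x, y, rfl⟩
    exact ⟨x, y, by rw [zsmul_eq_mul, zsmul_eq_mul]; push_cast; ring⟩
  · rintro ⟨x, y, rfl⟩
    exact ⟨x, y, by rw [zsmul_eq_mul, zsmul_eq_mul]; push_cast; ring⟩

theorem mem_span_mul_latF {f : BForm} {l α : 𝓞 (QF 1 e n)} :
    α ∈ Submodule.span ℤ {l} * latF e n f ↔
      ∃ x y : ℤ, α = l * (((x * f.a : ℤ) : 𝓞 (QF 1 e n)) + y * thF e n f) := by
  rw [Submodule.mem_span_singleton_mul]
  constructor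
  · rintro ⟨z, hz, rfl⟩
    obtain ⟨x, y, rfl⟩ := mem_latF.mp hz
    exact ⟨x, y, rfl⟩
  · rintro ⟨x, y, rfl⟩
    exact ⟨_, mem_latF.mpr ⟨x, y, rfl⟩, rfl⟩

/-! ### United forms -/

/-- **the product of the lattices of united forms** -/
theorem latF_mul_latF {a a' B C : ℤ} (hD : B ^ 2 - 4 * (a * a') * C = e ^ 2 - 4 * 1 * n)
    (h1 : ∃ x y z : ℤ, x * a + y * a' + z * B = 1) :
    latF e n ⟨a, B, a' * C⟩ * latF e n ⟨a', B, a * C⟩ = latF e n ⟨a * a', B, C⟩ := by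
  obtain ⟨x, y, z, hxyz⟩ := h1
  set θ : 𝓞 (QF 1 e n) := thF e n ⟨a * a', B, C⟩ with hθ
  have hsq : θ * θ = -(((a * a' : ℤ) : 𝓞 (QF 1 e n)) * C) - (B : 𝓞 (QF 1 e n)) * θ :=
    thF_sq (f := ⟨a * a', B, C⟩) hD
  push_cast at hsq
  have h' : (x : 𝓞 (QF 1 e n)) * a + y * a' + z * B = 1 := by
    exact_mod_cast congrArg (Int.cast : ℤ → 𝓞 (QF 1 e n)) hxyz
  have e1 : latF e n ⟨a, B, a' * C⟩ = Submodule.span ℤ {(a : 𝓞 (QF 1 e n)), θ} := rfl
  have e2 : latF e n ⟨a', B, a * C⟩ = Submodule.span ℤ {(a' : 𝓞 (QF 1 e n)), θ} := rfl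
  rw [e1, e2, Submodule.span_mul_span]
  refine le_antisymm ?_ ?_
  · rw [Submodule.span_le]
    rintro w ⟨s, hs, t, ht, rfl⟩
    rcases hs with rfl | rfl <;> rcases ht with rfl | rfl
    · exact mem_latF.mpr ⟨1, 0, by push_cast; ring⟩
    · exact mem_latF.mpr ⟨0, a, by push_cast; ring⟩
    · exact mem_latF.mpr ⟨0, a', by push_cast; ring⟩
    · refine mem_latF.mpr ⟨-C, -B, ?_⟩
      show θ * θ = _
      rw [hsq]
      push_cast
      ring
  · rw [latF, Submodule.span_le]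
    have m1 : (a : 𝓞 (QF 1 e n)) * a' ∈ Submodule.span ℤ
        (({(a : 𝓞 (QF 1 e n)), θ} : Set (𝓞 (QF 1 e n))) * {(a' : 𝓞 (QF 1 e n)), θ}) :=
      Submodule.subset_span (Set.mul_mem_mul (by simp) (by simp))
    have m2 : (a : 𝓞 (QF 1 e n)) * θ ∈ Submodule.span ℤ
        (({(a : 𝓞 (QF 1 e n)), θ} : Set (𝓞 (QF 1 e n))) * {(a' : 𝓞 (QF 1 e n)), θ}) :=
      Submodule.subset_span (Set.mul_mem_mul (by simp) (by simp))
    have m3 : θ * (a' : 𝓞 (QF 1 e n)) ∈ Submodule.span ℤ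
        (({(a : 𝓞 (QF 1 e n)), θ} : Set (𝓞 (QF 1 e n))) * {(a' : 𝓞 (QF 1 e n)), θ}) :=
      Submodule.subset_span (Set.mul_mem_mul (by simp) (by simp))
    have m4 : θ * θ ∈ Submodule.span ℤ
        (({(a : 𝓞 (QF 1 e n)), θ} : Set (𝓞 (QF 1 e n))) * {(a' : 𝓞 (QF 1 e n)), θ}) :=
      Submodule.subset_span (Set.mul_mem_mul (by simp) (by simp))
    have key : ∀ N : Submodule ℤ (𝓞 (QF 1 e n)), (a : 𝓞 (QF 1 e n)) * a' ∈ N →
        (a : 𝓞 (QF 1 e n)) * θ ∈ N → θ * (a' : 𝓞 (QF 1 e n)) ∈ N → θ * θ ∈ N → θ ∈ N := by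
      intro N m1 m2 m3 m4
      have h2 : θ = x • ((a : 𝓞 (QF 1 e n)) * θ) + y • (θ * (a' : 𝓞 (QF 1 e n))) +
          (-z) • (θ * θ) + (-(z * C)) • ((a : 𝓞 (QF 1 e n)) * a') := by
        simp only [zsmul_eq_mul]
        push_cast
        linear_combination (-θ) * h' + (z : 𝓞 (QF 1 e n)) * hsq
      have h3 := N.add_mem (N.add_mem (N.add_mem (N.smul_mem x m2) (N.smul_mem y m3))
        (N.smul_mem (-z) m4)) (N.smul_mem (-(z * C)) m1)
      rwa [← h2] at h3
    rintro w (rfl | rfl)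
    · show ((a * a' : ℤ) : 𝓞 (QF 1 e n)) ∈ _
      push_cast
      exact m1
    · exact key _ m1 m2 m3 m4

/-! ### Equivalence and homothety -/

theorem thF_subst {f : BForm} (hf : f.disc = e ^ 2 - 4 * 1 * n) {u r v s : ℤ}
    (hdet : u * s - r * v = 1) : thF e n (f.subst u r v s) = thF e n f -
      ((f.a * u * r + f.b * r * v + f.c * v * s : ℤ) : 𝓞 (QF 1 e n)) := by
  have hgd : (f.subst u r v s).disc = e ^ 2 - 4 * 1 * n := by
    rw [BForm.disc_subst, hf, hdet]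
    ring
  have hk : kF e (f.subst u r v s) = kF e f - (f.a * u * r + f.b * r * v + f.c * v * s) := by
    have h1 := two_mul_kF hf
    have h2 := two_mul_kF hgd
    have h3 : (f.subst u r v s).b = 2 * f.a * u * r + f.b * (u * s + r * v) + 2 * f.c * v * s := rfl
    have h4 : (2 : ℤ) * kF e (f.subst u r v s) =
        2 * (kF e f - (f.a * u * r + f.b * r * v + f.c * v * s)) := by
      rw [h3] at h2
      linear_combination h2 - h1 - f.b * hdet
    exact mul_left_cancel₀ two_ne_zero h4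
  rw [thF, thF, hk]
  push_cast
  ring

/-- equivalent forms have homothetic lattices -/
theorem span_mul_latF {f : BForm} (hf : f.disc = e ^ 2 - 4 * 1 * n) {u r v s : ℤ}
    (hdet : u * s - r * v = 1) :
    Submodule.span ℤ {((f.subst u r v s).a : 𝓞 (QF 1 e n))} * latF e n f =
      Submodule.span ℤ {((u * f.a : ℤ) : 𝓞 (QF 1 e n)) - v * thF e n f} *
        latF e n (f.subst u r v s) := by
  have hsq := thF_sq (n := n) hf
  have hθ := thF_subst (n := n) hf hdet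
  have hdet' : (u : 𝓞 (QF 1 e n)) * s - r * v = 1 := by
    exact_mod_cast congrArg (Int.cast : ℤ → 𝓞 (QF 1 e n)) hdet
  set g := f.subst u r v s with hg
  have hga : (g.a : 𝓞 (QF 1 e n)) = (f.a : 𝓞 (QF 1 e n)) * u ^ 2 + f.b * u * v + f.c * v ^ 2 := by
    have : g.a = f.a * u ^ 2 + f.b * u * v + f.c * v ^ 2 := rfl
    rw [this]
    push_cast
    ring
  push_cast at hθ
  have E1 : (g.a : 𝓞 (QF 1 e n)) * f.a = (((u * f.a : ℤ) : 𝓞 (QF 1 e n)) - v * thF e n f) *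
      (s * g.a + v * thF e n g) := by
    rw [hga, hθ]
    push_cast
    linear_combination (v : 𝓞 (QF 1 e n)) ^ 2 * hsq - (u * f.a - v * thF e n f) *
      (f.a * u + f.b * v : 𝓞 (QF 1 e n)) * hdet'
  have E2 : (g.a : 𝓞 (QF 1 e n)) * thF e n f =
      (((u * f.a : ℤ) : 𝓞 (QF 1 e n)) - v * thF e n f) * (r * g.a + u * thF e n g) := by
    rw [hga, hθ]
    push_cast
    linear_combination ((u : 𝓞 (QF 1 e n)) * v) * hsq + (u * f.a - v * thF e n f) *
      (f.c * v : 𝓞 (QF 1 e n)) * hdet'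
  ext α
  rw [mem_span_mul_latF, mem_span_mul_latF]
  constructor
  · rintro ⟨x, y, rfl⟩
    refine ⟨x * s + y * r, x * v + y * u, ?_⟩
    push_cast
    push_cast at E1 E2
    linear_combination (x : 𝓞 (QF 1 e n)) * E1 + (y : 𝓞 (QF 1 e n)) * E2
  · rintro ⟨x, y, rfl⟩
    refine ⟨x * u - y * r, -(x * v) + y * s, ?_⟩
    push_cast
    push_cast at E1 E2
    linear_combination (-((y : 𝓞 (QF 1 e n)) * (u * f.a - v * thF e n f) * thF e n g)) * hdet' -
      ((y : 𝓞 (QF 1 e n)) * s) * E2 + ((y : 𝓞 (QF 1 e n)) * r) * E1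

omit hF in
theorem ne_zero_of_disc {f : BForm} (hsq : ¬ IsSquare (e ^ 2 - 4 * 1 * n))
    (hf : f.disc = e ^ 2 - 4 * 1 * n) : f.a ≠ 0 := by
  intro h0
  refine hsq ⟨f.b, ?_⟩
  rw [← hf, BForm.disc, h0]
  ring

/-- the determinant of the change of basis -/
theorem det_rel {f g : BForm} (hf : f.disc = e ^ 2 - 4 * 1 * n) (hg : g.disc = e ^ 2 - 4 * 1 * n)
    (hfa : f.a ≠ 0) (hga : g.a ≠ 0) {l m : 𝓞 (QF 1 e n)} (hl : l ≠ 0) (hm : m ≠ 0)
    {p q r s : ℤ}
    (h1 : l * f.a = m * (((p * g.a : ℤ) : 𝓞 (QF 1 e n)) + r * thF e n g))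
    (h2 : l * thF e n f = m * (((q * g.a : ℤ) : 𝓞 (QF 1 e n)) + s * thF e n g)) :
    Algebra.norm ℤ l * f.a = Algebra.norm ℤ m * g.a * (p * s - q * r) := by
  -- the relation without `l` and `m`
  have h3 : (f.a : 𝓞 (QF 1 e n)) * (((q * g.a : ℤ) : 𝓞 (QF 1 e n)) + s * thF e n g) =
      thF e n f * (((p * g.a : ℤ) : 𝓞 (QF 1 e n)) + r * thF e n g) := by
    refine mul_left_cancel₀ (mul_ne_zero hl hm) ?_
    linear_combination (l * thF e n f) * h1 - (l * (f.a : 𝓞 (QF 1 e n))) * h2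
  -- coordinates
  have h4 : ((f.a * q * g.a + f.a * s * kF e g : ℤ) : 𝓞 (QF 1 e n)) +
      ((f.a * s : ℤ) : 𝓞 (QF 1 e n)) * thetaQ 1 e n =
      ((kF e f * (p * g.a + r * kF e g) - r * n : ℤ) : 𝓞 (QF 1 e n)) +
      ((p * g.a + r * kF e g + r * kF e f - e * r : ℤ) : 𝓞 (QF 1 e n)) * thetaQ 1 e n := by
    simp only [thF] at h3
    push_cast at h3 ⊢
    linear_combination h3 + (r : 𝓞 (QF 1 e n)) * th_sq (e := e) (n := n)
  obtain ⟨c1, c2⟩ := comb_inj h4
  have h5 : g.a * (f.a * (p * s - q * r)) = g.a * g.val p (-r) := by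
    have hk := kF_rel hg
    have hk2 := two_mul_kF hg
    simp only [BForm.val]
    have e1 : g.a * (f.a * (p * s - q * r)) = (p * g.a + r * kF e g) ^ 2 -
        e * r * (p * g.a + r * kF e g) + r ^ 2 * n := by
      linear_combination (p * g.a + r * kF e g) * c2 - r * c1
    rw [e1]
    linear_combination r ^ 2 * hk + (g.a * p * r) * hk2
  have h6 := mul_left_cancel₀ hga h5
  -- norms
  have h7 : Algebra.norm ℤ l * (f.a * f.a) =
      Algebra.norm ℤ m * (g.a * g.val p (-r)) := by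
    rw [← norm_comb_thF hg p r, ← map_mul, ← h1, map_mul]
    congr 1
    have h8 := norm_comb_thF hf 1 0
    rw [one_mul, Int.cast_zero, zero_mul, add_zero] at h8
    rw [h8]
    simp only [BForm.val]
    ring
  rw [← h6] at h7
  refine mul_left_cancel₀ hfa ?_
  linear_combination h7

/-- **homothetic lattices with the same orientation come from properly equivalent forms** -/
theorem eqv_of_span_mul {f g : BForm} (hf : f.disc = e ^ 2 - 4 * 1 * n)
    (hg : g.disc = e ^ 2 - 4 * 1 * n) (hfa : f.a ≠ 0) (hga : g.a ≠ 0)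
    {l m : 𝓞 (QF 1 e n)} (hl : l ≠ 0) (hm : m ≠ 0)
    (h : Submodule.span ℤ {l} * latF e n f = Submodule.span ℤ {m} * latF e n g)
    (hpos : 0 < Algebra.norm ℤ l * f.a * (Algebra.norm ℤ m * g.a)) : f.Eqv g := by
  have mem1 : ∀ {f : BForm} {l : 𝓞 (QF 1 e n)},
      l * f.a ∈ Submodule.span ℤ {l} * latF e n f := fun {f l} =>
    mem_span_mul_latF.mpr ⟨1, 0, by push_cast; ring⟩
  have mem2 : ∀ {f : BForm} {l : 𝓞 (QF 1 e n)},
      l * thF e n f ∈ Submodule.span ℤ {l} * latF e n f := fun {f l} =>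
    mem_span_mul_latF.mpr ⟨0, 1, by push_cast; ring⟩
  obtain ⟨p, r, h1⟩ := mem_span_mul_latF.mp (h ▸ (mem1 (f := f) (l := l)))
  obtain ⟨q, s, h2⟩ := mem_span_mul_latF.mp (h ▸ (mem2 (f := f) (l := l)))
  obtain ⟨p', r', h1'⟩ := mem_span_mul_latF.mp (h ▸ (mem1 (f := g) (l := m)))
  obtain ⟨q', s', h2'⟩ := mem_span_mul_latF.mp (h ▸ (mem2 (f := g) (l := m)))
  have d1 := det_rel hf hg hfa hga hl hm h1 h2
  have d2 := det_rel hg hf hga hfa hm hl h1' h2'
  set d : ℤ := p * s - q * r with hd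
  set d' : ℤ := p' * s' - q' * r' with hd'
  set A : ℤ := Algebra.norm ℤ l * f.a with hA
  set B : ℤ := Algebra.norm ℤ m * g.a with hB
  have hB0 : B ≠ 0 := by
    rintro h0
    rw [h0, mul_zero] at hpos
    exact lt_irrefl _ hpos
  have hdd : d * d' = 1 := by
    refine mul_left_cancel₀ hB0 ?_
    rw [mul_one, ← mul_assoc, ← d1, ← d2]
  have hd1 : d = 1 := by
    rcases Int.eq_one_or_neg_one_of_mul_eq_one hdd with h3 | h3
    · exact h3
    · exfalso
      rw [d1, h3] at hpos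
      have := mul_self_nonneg B
      linarith
  -- the forms
  have hval : ∀ x y : ℤ, f.val x y = (g.subst p (-q) (-r) s).val x y := by
    intro x y
    rw [BForm.val_subst]
    have e1 := norm_comb_thF (n := n) hf x (-y)
    have e2 := norm_comb_thF (n := n) hg (x * p - y * q) (x * r - y * s)
    have e3 : l * (((x * f.a : ℤ) : 𝓞 (QF 1 e n)) + ((-y : ℤ) : 𝓞 (QF 1 e n)) * thF e n f) =
        m * ((((x * p - y * q) * g.a : ℤ) : 𝓞 (QF 1 e n)) +
          ((x * r - y * s : ℤ) : 𝓞 (QF 1 e n)) * thF e n g) := by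
      push_cast at h1 h2 ⊢
      linear_combination (x : 𝓞 (QF 1 e n)) * h1 - (y : 𝓞 (QF 1 e n)) * h2
    have e4 := congrArg (Algebra.norm ℤ) e3
    rw [map_mul, map_mul, e1, e2, neg_neg, ← mul_assoc, ← mul_assoc, ← hA, ← hB, d1, hd1,
      mul_one] at e4
    have e5 := mul_left_cancel₀ hB0 e4
    rw [e5]
    congr 1 <;> ring
  have hfg := eq_of_val_eq hval
  exact BForm.Eqv.symm ⟨p, -q, -r, s, by rw [hd] at hd1; linarith, hfg.symm⟩

/-! ### Homothety classes of oriented lattices -/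

variable (e n) in
/-- homothety of oriented lattices -/
def homCon : Con (Submodule ℤ (𝓞 (QF 1 e n)) × ℤ⁰) where
  r A B := ∃ l m : 𝓞 (QF 1 e n), l ≠ 0 ∧ m ≠ 0 ∧
    Submodule.span ℤ {l} * A.1 = Submodule.span ℤ {m} * B.1 ∧
    0 < Algebra.norm ℤ l * (A.2 : ℤ) * (Algebra.norm ℤ m * (B.2 : ℤ))
  iseqv := by
    refine ⟨fun A => ⟨1, 1, one_ne_zero, one_ne_zero, rfl, ?_⟩, ?_, ?_⟩
    · rw [map_one, one_mul]
      have := nonZeroDivisors.coe_ne_zero A.2
      exact mul_self_pos.mpr this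
    · rintro A B ⟨l, m, hl, hm, h1, h2⟩
      exact ⟨m, l, hm, hl, h1.symm, by rw [mul_comm]; exact h2⟩
    · rintro A B C ⟨l, m, hl, hm, h1, h2⟩ ⟨l', m', hl', hm', h1', h2'⟩
      refine ⟨l' * l, m * m', mul_ne_zero hl' hl, mul_ne_zero hm hm', ?_, ?_⟩
      · have s1 : ∀ x y : 𝓞 (QF 1 e n), (Submodule.span ℤ {x * y} : Submodule ℤ (𝓞 (QF 1 e n))) =
            Submodule.span ℤ {x} * Submodule.span ℤ {y} := fun x y => by
          rw [Submodule.span_mul_span, Set.singleton_mul_singleton]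
        rw [s1, s1, mul_assoc, h1, mul_left_comm, h1', ← mul_assoc]
      · rw [map_mul, map_mul]
        have h3 := mul_pos h2 h2'
        have h4 : Algebra.norm ℤ l * (A.2 : ℤ) * (Algebra.norm ℤ m * (B.2 : ℤ)) *
            (Algebra.norm ℤ l' * (B.2 : ℤ) * (Algebra.norm ℤ m' * (C.2 : ℤ))) =
            (B.2 : ℤ) ^ 2 * (Algebra.norm ℤ l' * Algebra.norm ℤ l * (A.2 : ℤ) *
              (Algebra.norm ℤ m * Algebra.norm ℤ m' * (C.2 : ℤ))) := by ring
        rw [h4] at h3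
        exact pos_of_mul_pos_right h3 (sq_nonneg _)
  mul' := by
    rintro A B A' B' ⟨l, m, hl, hm, h1, h2⟩ ⟨l', m', hl', hm', h1', h2'⟩
    refine ⟨l * l', m * m', mul_ne_zero hl hl', mul_ne_zero hm hm', ?_, ?_⟩
    · have s1 : ∀ x y : 𝓞 (QF 1 e n), (Submodule.span ℤ {x * y} : Submodule ℤ (𝓞 (QF 1 e n))) =
          Submodule.span ℤ {x} * Submodule.span ℤ {y} := fun x y => by
        rw [Submodule.span_mul_span, Set.singleton_mul_singleton]
      rw [s1, s1, Prod.fst_mul, Prod.fst_mul, mul_mul_mul_comm, h1, h1', mul_mul_mul_comm]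
    · rw [map_mul, map_mul, Prod.snd_mul, Prod.snd_mul, Submonoid.coe_mul, Submonoid.coe_mul]
      have h3 := mul_pos h2 h2'
      refine h3.trans_le (le_of_eq ?_)
      ring

/-- the class of the lattice of a form -/
def phiF (f : BForm) (hf : f.a ≠ 0) : (homCon e n).Quotient :=
  ((latF e n f, ⟨f.a, mem_nonZeroDivisors_of_ne_zero hf⟩) :
    Submodule ℤ (𝓞 (QF 1 e n)) × ℤ⁰)

theorem phiF_eq_iff {f g : BForm} (hf : f.disc = e ^ 2 - 4 * 1 * n)
    (hg : g.disc = e ^ 2 - 4 * 1 * n) (hfa : f.a ≠ 0) (hga : g.a ≠ 0) :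
    (phiF f hfa : (homCon e n).Quotient) = phiF g hga ↔ f.Eqv g := by
  rw [phiF, phiF, Con.eq]
  constructor
  · rintro ⟨l, m, hl, hm, h1, h2⟩
    exact eqv_of_span_mul hf hg hfa hga hl hm h1 h2
  · rintro ⟨u, r, v, s, hdet, rfl⟩
    have hl0 : ((u * f.a : ℤ) : 𝓞 (QF 1 e n)) - v * thF e n f ≠ 0 := by
      intro h0
      have h1 : ((u * f.a : ℤ) : 𝓞 (QF 1 e n)) + ((-v : ℤ) : 𝓞 (QF 1 e n)) * thF e n f =
          ((0 : ℤ) : 𝓞 (QF 1 e n)) + ((0 : ℤ) : 𝓞 (QF 1 e n)) * thF e n f := by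
        push_cast at h0 ⊢
        linear_combination h0
      obtain ⟨h2, h3⟩ := comb_thF_inj f h1
      have h4 : u = 0 := by
        rcases mul_eq_zero.mp h2 with h | h
        · exact h
        · exact absurd h hfa
      rw [h4, show v = 0 by linarith] at hdet
      norm_num at hdet
    refine ⟨(((f.subst u r v s).a : ℤ) : 𝓞 (QF 1 e n)),
      ((u * f.a : ℤ) : 𝓞 (QF 1 e n)) - v * thF e n f, by exact_mod_cast hga, hl0,
      span_mul_latF hf hdet, ?_⟩
    have h1 : ((u * f.a : ℤ) : 𝓞 (QF 1 e n)) - v * thF e n f =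
        ((u * f.a : ℤ) : 𝓞 (QF 1 e n)) + ((-v : ℤ) : 𝓞 (QF 1 e n)) * thF e n f := by
      push_cast
      ring
    have h2 := norm_intCast_pos (e := e) (n := n) hga
    have h3 : f.val u v = (f.subst u r v s).a := rfl
    show 0 < Algebra.norm ℤ (((f.subst u r v s).a : ℤ) : 𝓞 (QF 1 e n)) * f.a *
      (Algebra.norm ℤ (((u * f.a : ℤ) : 𝓞 (QF 1 e n)) - v * thF e n f) * (f.subst u r v s).a)
    rw [h1, norm_comb_thF hf, neg_neg, h3]
    have h4 : Algebra.norm ℤ (((f.subst u r v s).a : ℤ) : 𝓞 (QF 1 e n)) * f.a *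
        (f.a * (f.subst u r v s).a * (f.subst u r v s).a) =
        Algebra.norm ℤ (((f.subst u r v s).a : ℤ) : 𝓞 (QF 1 e n)) *
          (f.a * (f.subst u r v s).a) ^ 2 := by ring
    rw [h4]
    have h5 : f.a * (f.subst u r v s).a ≠ 0 := mul_ne_zero hfa hga
    positivity

/-- united forms -/
theorem phiF_mul_phiF {a a' B C : ℤ} (hD : B ^ 2 - 4 * (a * a') * C = e ^ 2 - 4 * 1 * n)
    (h1 : ∃ x y z : ℤ, x * a + y * a' + z * B = 1) (ha : a ≠ 0) (ha' : a' ≠ 0) :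
    (phiF (⟨a, B, a' * C⟩ : BForm) ha : (homCon e n).Quotient) *
      phiF (⟨a', B, a * C⟩ : BForm) ha' =
      phiF (⟨a * a', B, C⟩ : BForm) (mul_ne_zero ha ha') := by
  rw [phiF, phiF, phiF, ← Con.coe_mul]
  congr 1
  exact Prod.ext (latF_mul_latF hD h1) (Subtype.ext rfl)

/-! ### The group -/

section Group

variable (hsq : ¬ IsSquare (e ^ 2 - 4 * 1 * n))

/-- the class of the lattice -/
def toPhi (x : Quotient (formSetoidN (e ^ 2 - 4 * 1 * n))) : (homCon e n).Quotient :=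
  Quotient.lift (s := formSetoidN (e ^ 2 - 4 * 1 * n))
    (fun f => phiF f.1 (ne_zero_of_disc hsq f.2.2.1))
    (fun f g h => (phiF_eq_iff f.2.2.1 g.2.2.1 _ _).mpr h) x

theorem toPhi_cls {f : BForm} (h : MemN (e ^ 2 - 4 * 1 * n) f) :
    toPhi hsq (cls f h) = phiF f (ne_zero_of_disc hsq h.2.1) := rfl

theorem toPhi_injective : Function.Injective (toPhi hsq) := by
  intro x y h
  obtain ⟨f, hf, rfl⟩ := exists_cls x
  obtain ⟨g, hg, rfl⟩ := exists_cls y
  rw [toPhi_cls, toPhi_cls, phiF_eq_iff hf.2.1 hg.2.1] at h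
  exact cls_eq_iff.mpr h

theorem toPhi_mul {a a' B C : ℤ} (hf : MemN (e ^ 2 - 4 * 1 * n) ⟨a, B, a' * C⟩)
    (hg : MemN (e ^ 2 - 4 * 1 * n) ⟨a', B, a * C⟩) :
    toPhi hsq (cls _ hf) * toPhi hsq (cls _ hg) = toPhi hsq (cls _ (hf.comp hg)) := by
  rw [toPhi_cls, toPhi_cls, toPhi_cls]
  exact phiF_mul_phiF (hf.comp hg).2.1 hf.bezout _ _

theorem exists_mul_toPhi (x y : Quotient (formSetoidN (e ^ 2 - 4 * 1 * n))) :
    ∃ z, toPhi hsq z = toPhi hsq x * toPhi hsq y := by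
  obtain ⟨a, a', B, C, hf, hg, rfl, rfl⟩ := exists_united_cls hsq x y
  exact ⟨_, (toPhi_mul hsq hf hg).symm⟩

omit hF in
theorem memN_principal : MemN (e ^ 2 - 4 * 1 * n) ⟨1, e, n⟩ := by
  refine ⟨?_, rfl, fun _ => one_pos⟩
  rintro q hq ⟨h, -, -⟩
  exact (Nat.prime_iff_prime_int.mp hq).not_isUnit (isUnit_of_dvd_one h)

omit hF in
theorem principal_eqv {b c : ℤ} (h : b ^ 2 - 4 * 1 * c = e ^ 2 - 4 * 1 * n) :
    (⟨1, e, n⟩ : BForm).Eqv ⟨1, b, c⟩ := by
  have h1 := two_mul_kF (f := ⟨1, b, c⟩) h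
  refine BForm.eqv_of_b_congr rfl one_ne_zero h.symm (t := -kF e ⟨1, b, c⟩) ?_
  show b = e + 2 * 1 * -kF e ⟨1, b, c⟩
  simp only at h1
  linear_combination h1

theorem one_mul_toPhi (x : Quotient (formSetoidN (e ^ 2 - 4 * 1 * n))) :
    toPhi hsq (cls _ memN_principal) * toPhi hsq x = toPhi hsq x := by
  obtain ⟨f, hf, rfl⟩ := exists_cls x
  have h1 : (⟨1, e, n⟩ : BForm).Eqv ⟨1, f.b, f.a * f.c⟩ :=
    principal_eqv (by rw [← hf.2.1, BForm.disc]; ring)
  have h2 : MemN (e ^ 2 - 4 * 1 * n) ⟨f.a, f.b, 1 * f.c⟩ := by rw [one_mul]; exact hf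
  have h3 := toPhi_mul hsq (memN_principal.of_eqv h1) h2
  have h4 : cls _ (memN_principal.of_eqv h1) = cls ⟨1, e, n⟩ (memN_principal (e := e) (n := n)) :=
    cls_eq_iff.mpr h1.symm
  have h5 : cls _ h2 = cls f hf := cls_eq_iff.mpr (by rw [one_mul]; exact BForm.Eqv.refl _)
  have h6 : cls _ ((memN_principal.of_eqv h1).comp h2) = cls f hf :=
    cls_eq_iff.mpr (by rw [one_mul]; exact BForm.Eqv.refl _)
  rw [h4, h5, h6] at h3
  exact h3

omit hF in
theorem MemN.op {D : ℤ} {f : BForm} (h : MemN D f) : MemN D f.op :=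
  ⟨h.1.op, by rw [BForm.disc_op]; exact h.2.1, h.2.2⟩

theorem swap_eqv (f : BForm) : f.Eqv ⟨f.c, -f.b, f.a⟩ := by
  refine ⟨0, -1, 1, 0, by ring, ?_⟩
  ext <;> simp only [BForm.subst, BForm.val] <;> ring

theorem op_mul_toPhi {f : BForm} (hf : MemN (e ^ 2 - 4 * 1 * n) f) :
    toPhi hsq (cls _ hf.op) * toPhi hsq (cls f hf) = toPhi hsq (cls _ memN_principal) := by
  have h1 : f.op.Eqv ⟨f.c, f.b, f.a * 1⟩ := by
    have := swap_eqv f.op
    simp only [BForm.op, neg_neg] at this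
    rw [mul_one]
    exact this
  have h2 : MemN (e ^ 2 - 4 * 1 * n) ⟨f.a, f.b, f.c * 1⟩ := by rw [mul_one f.c]; exact hf
  have h3 := toPhi_mul hsq (hf.op.of_eqv h1) h2
  have h4 : cls _ (hf.op.of_eqv h1) = cls f.op hf.op := cls_eq_iff.mpr h1.symm
  have h5 : cls _ h2 = cls f hf := cls_eq_iff.mpr (by rw [mul_one f.c]; exact BForm.Eqv.refl _)
  have h6 : cls _ ((hf.op.of_eqv h1).comp h2) = cls _ (memN_principal (e := e) (n := n)) := by
    refine cls_eq_iff.mpr ?_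
    have h7 : (⟨1, e, n⟩ : BForm).Eqv ⟨1, -f.b, f.c * f.a⟩ :=
      principal_eqv (by rw [← hf.2.1, BForm.disc]; ring)
    exact (swap_eqv ⟨f.c * f.a, f.b, 1⟩).trans h7.symm
  rw [h4, h5, h6] at h3
  exact h3

theorem exists_inv_toPhi (x : Quotient (formSetoidN (e ^ 2 - 4 * 1 * n))) :
    ∃ y, toPhi hsq y * toPhi hsq x = toPhi hsq (cls _ memN_principal) := by
  obtain ⟨f, hf, rfl⟩ := exists_cls x
  exact ⟨_, op_mul_toPhi hsq hf⟩

theorem q_assoc (x y z : (homCon e n).Quotient) : x * y * z = x * (y * z) := mul_assoc x y z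

theorem q_comm (x y : (homCon e n).Quotient) : x * y = y * x := mul_comm x y

/-- **the group of the classes of forms** -/
@[reducible] def formGroup : CommGroup (Quotient (formSetoidN (e ^ 2 - 4 * 1 * n))) where
  mul x y := (exists_mul_toPhi hsq x y).choose
  mul_assoc x y z := by
    refine toPhi_injective hsq ?_
    have h := fun x y => (exists_mul_toPhi hsq x y).choose_spec
    exact (h _ _).trans (((congrArg (· * toPhi hsq z) (h x y)).trans (q_assoc _ _ _)).trans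
      ((congrArg (toPhi hsq x * ·) (h y z)).symm.trans (h _ _).symm))
  one := cls _ memN_principal
  one_mul x := by
    refine toPhi_injective hsq ?_
    exact (exists_mul_toPhi hsq _ x).choose_spec.trans (one_mul_toPhi hsq x)
  mul_one x := by
    refine toPhi_injective hsq ?_
    exact (exists_mul_toPhi hsq x _).choose_spec.trans
      ((q_comm _ _).trans (one_mul_toPhi hsq x))
  inv x := (exists_inv_toPhi hsq x).choose
  inv_mul_cancel x := by
    refine toPhi_injective hsq ?_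
    exact (exists_mul_toPhi hsq _ x).choose_spec.trans (exists_inv_toPhi hsq x).choose_spec
  mul_comm x y := by
    refine toPhi_injective hsq ?_
    exact (exists_mul_toPhi hsq x y).choose_spec.trans
      ((q_comm _ _).trans (exists_mul_toPhi hsq y x).choose_spec.symm)

end Group

end Field

/-- **Gauss's composition of binary quadratic forms** (Disq. Arith. 234-249; in Dirichlet's form).
Let `D` be a discriminant which is not a square. The proper equivalence classes of the primitive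
forms of discriminant `D` (positive definite if `D < 0`) form a commutative group in which
`[(a, B, a' C)] [(a', B, a C)] = [(a a', B, C)]` for all united forms, the class of the principal
form is the unit element and the class of `(a, -b, c)` is the inverse of the class of `(a, b, c)`. -/
theorem gauss_composition {D : ℤ} (hsq : ¬ IsSquare D) (hD : D % 4 = 0 ∨ D % 4 = 1) :
    ∃ _ : CommGroup (Quotient (formSetoidN D)),
      (∀ (a a' B C : ℤ) (hf : MemN D ⟨a, B, a' * C⟩) (hg : MemN D ⟨a', B, a * C⟩),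
        cls _ hf * cls _ hg = cls _ (hf.comp hg)) ∧
      (∀ (f : BForm) (hf : MemN D f), (cls f hf)⁻¹ = cls f.op hf.op) ∧
      (∀ (b c : ℤ) (h : MemN D ⟨1, b, c⟩), cls _ h = 1) := by
  obtain ⟨e, n, hen⟩ : ∃ e n : ℤ, D = e ^ 2 - 4 * 1 * n := by
    rcases hD with h | h
    · exact ⟨0, -(D / 4), by omega⟩
    · exact ⟨1, -(D / 4), by omega⟩
  subst hen
  have : Fact (∀ r : ℚ, r ^ 2 ≠ -(((1 : ℤ) : ℚ) * n) + -(e : ℚ) * r) := fact_of_not_isSquare hsq
  let inst := formGroup hsq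
  have hmul : ∀ x y : Quotient (formSetoidN (e ^ 2 - 4 * 1 * n)),
      toPhi hsq (x * y) = toPhi hsq x * toPhi hsq y := fun x y =>
    (exists_mul_toPhi hsq x y).choose_spec
  refine ⟨inst, fun a a' B C hf hg => ?_, fun f hf => ?_, fun b c h => ?_⟩
  · exact toPhi_injective hsq ((hmul _ _).trans (toPhi_mul hsq hf hg))
  · refine inv_eq_of_mul_eq_one_left ?_
    exact toPhi_injective hsq ((hmul _ _).trans (op_mul_toPhi hsq hf))
  · exact cls_eq_iff.mpr (principal_eqv h.2.1).symm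

/-- **Uniqueness of the composition**: it is determined by its values on united forms. -/
theorem composition_unique {D : ℤ} (hsq : ¬ IsSquare D)
    (m m' : Quotient (formSetoidN D) → Quotient (formSetoidN D) → Quotient (formSetoidN D))
    (hm : ∀ (a a' B C : ℤ) (hf : MemN D ⟨a, B, a' * C⟩) (hg : MemN D ⟨a', B, a * C⟩),
      m (cls _ hf) (cls _ hg) = cls _ (hf.comp hg))
    (hm' : ∀ (a a' B C : ℤ) (hf : MemN D ⟨a, B, a' * C⟩) (hg : MemN D ⟨a', B, a * C⟩),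
      m' (cls _ hf) (cls _ hg) = cls _ (hf.comp hg)) : m = m' := by
  funext x y
  obtain ⟨a, a', B, C, hf, hg, rfl, rfl⟩ := exists_united_cls hsq x y
  rw [hm, hm']

/-- a composite represents the products of the represented numbers (the bilinear substitution) -/
theorem val_mul_val (a a' B C x y x' y' : ℤ) :
    (⟨a, B, a' * C⟩ : BForm).val x y * (⟨a', B, a * C⟩ : BForm).val x' y' =
      (⟨a * a', B, C⟩ : BForm).val (x * x' - C * y * y') (a * x * y' + a' * x' * y + B * y * y') := by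
  simp only [BForm.val]
  ring

end Fermat.Agent.Cor.RayN
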