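import Fermat.Agent.Corollaries.RayN.FormDensityN
import Fermat.Agent.Corollaries.Ray.River
import Fermat.Agent.Corollaries.Ray.ClassNum

/-!
# Class numbers of indefinite forms by enumeration, explicit densities

`h⁺(D)`, `D > 0` not a square, is the number of cycles of river forms. It is computed by `decide`
from a list of the cycles. Densities of the primes `x² - 2y²`, `x² - 3y²`, `x² - 34y²`, `x² - 79y²`.
-/

set_option autoImplicit false

open Filter Topology

namespace Fermat.Agent.Cor.RayN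

open Fermat.Agent.Cor.Ray Fermat.Agent.Cor.Ray.BForm

/-- the form with the coefficients `a` and `b - B` of discriminant `D` -/
def rivOf (D B a b : ℕ) : BForm := ⟨a, b - B, (((b : ℤ) - B) ^ 2 - D) / (4 * a)⟩

/-- `L` is the list of the cycles of river forms of discriminant `D`, with their lengths -/
def Cert (D B : ℕ) (L : List (BForm × ℕ)) : Prop :=
  (∀ x ∈ L, x.1.Riv ∧ x.1.disc = D ∧ Int.gcd x.1.a (Int.gcd x.1.b x.1.c) = 1 ∧ 0 < x.2 ∧
    BForm.nxt^[x.2] x.1 = x.1) ∧
  L.Pairwise (fun x y => y.1 ∉ orb x.2 x.1) ∧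
  ∀ a ∈ List.range (D + 1), ∀ b ∈ List.range (2 * B + 1),
    0 < a → 4 * (rivOf D B a b).a * (rivOf D B a b).c = (rivOf D B a b).b ^ 2 - D →
      (rivOf D B a b).c < 0 →
      Int.gcd (rivOf D B a b).a (Int.gcd (rivOf D B a b).b (rivOf D B a b).c) = 1 →
        ∃ x ∈ L, rivOf D B a b ∈ orb x.2 x.1

instance (D B : ℕ) (L : List (BForm × ℕ)) : Decidable (Cert D B L) :=
  inferInstanceAs (Decidable (_ ∧ _ ∧ _))

/-- **the class number of indefinite forms by enumeration of the cycles.** -/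
theorem nFormClassNumber_eq_length {D B : ℕ} (hD : 0 < D) (hsq : ¬ IsSquare (D : ℤ))
    (hB : D < (B + 1) ^ 2) (L : List (BForm × ℕ)) (h : Cert D B L) :
    nFormClassNumber D = L.length := by
  obtain ⟨h1, h2, h3⟩ := h
  have hD' : (0 : ℤ) < D := by exact_mod_cast hD
  let φ : Fin L.length → Quotient (formSetoidN D) := fun i =>
    Quotient.mk (formSetoidN D) ⟨(L.get i).1, prim_iff.mpr (h1 _ (L.get_mem i)).2.2.1,
      (h1 _ (L.get_mem i)).2.1, fun hlt => absurd hlt (not_lt.mpr hD'.le)⟩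
  have hφ : Function.Bijective φ := by
    constructor
    · -- two different cycles are not equivalent
      have key : ∀ i j : Fin L.length, i < j → ¬ (L.get i).1.Eqv (L.get j).1 := by
        intro i j hij heqv
        obtain ⟨a1, a2, -, a4, a5⟩ := h1 _ (L.get_mem i)
        obtain ⟨b1, -, -, b4, b5⟩ := h1 _ (L.get_mem j)
        have h4 := List.pairwise_iff_get.mp h2 i j hij
        have h5 := (a1.eqv_iff_iterate b1 (by rw [a2]; exact hsq)).mp heqv
        obtain ⟨k, hk⟩ : ∃ k, BForm.nxt^[k] (L.get i).1 = (L.get j).1 := by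
          rcases h5 with h5 | ⟨k, hk⟩
          · exact h5
          · exact exists_iterate_symm b4 b5 hk
        apply h4
        rw [← hk]
        exact iterate_mem_orb a4 a5 k
      intro i j hij
      have heqv : (L.get i).1.Eqv (L.get j).1 := Quotient.exact hij
      rcases lt_trichotomy i j with h4 | h4 | h4
      · exact absurd heqv (key i j h4)
      · exact h4
      · exact absurd heqv.symm (key j i h4)
    · intro x
      obtain ⟨⟨f, hfp, hfd, -⟩, rfl⟩ := Quotient.exists_rep x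
      obtain ⟨g, hfg, hg⟩ := exists_riv (f := f) (by rw [hfd]; exact hD') (by rw [hfd]; exact hsq)
      have hgd : g.disc = D := by rw [hfg.disc_eq, hfd]
      have hgp : g.Prim := hfg.prim hfp
      have hgd' : g.b ^ 2 - 4 * g.a * g.c = D := hgd
      have hac : 0 < -(g.a * g.c) := by
        have := mul_pos hg.1 (neg_pos.mpr hg.2)
        linarith
      have hb2 : g.b ^ 2 < ((B : ℤ) + 1) ^ 2 := by
        have h4 : (D : ℤ) < ((B : ℤ) + 1) ^ 2 := by exact_mod_cast hB
        nlinarith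
      have hb : |g.b| < (B : ℤ) + 1 := abs_lt_of_sq_lt_sq hb2 (by positivity)
      rw [abs_lt] at hb
      have haD : g.a ≤ D := by
        have h4 : g.a ≤ -(g.a * g.c) := by
          have h5 : 1 ≤ -g.c := by linarith [hg.2]
          nlinarith [hg.1]
        nlinarith [sq_nonneg g.b]
      have ha1 : ((g.a.toNat : ℕ) : ℤ) = g.a := Int.toNat_of_nonneg hg.1.le
      have hb1 : (((g.b + B).toNat : ℕ) : ℤ) = g.b + B := Int.toNat_of_nonneg (by linarith)
      have hriv : rivOf D B g.a.toNat (g.b + B).toNat = g := by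
        apply BForm.ext
        · exact ha1
        · show ((((g.b + B).toNat : ℕ) : ℤ) - B) = g.b
          rw [hb1]
          ring
        · show (((((g.b + B).toNat : ℕ) : ℤ) - B) ^ 2 - D) / (4 * ((g.a.toNat : ℕ) : ℤ)) = g.c
          rw [ha1, hb1, add_sub_cancel_right]
          have h4 : g.b ^ 2 - D = g.c * (4 * g.a) := by linear_combination hgd'
          rw [h4]
          exact Int.mul_ediv_cancel _ (by linarith [hg.1])
      have h4 := h3 g.a.toNat (by
        rw [List.mem_range]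
        have : ((g.a.toNat : ℕ) : ℤ) < D + 1 := by rw [ha1]; linarith
        exact_mod_cast this) (g.b + B).toNat (by
        rw [List.mem_range]
        have : (((g.b + B).toNat : ℕ) : ℤ) < 2 * B + 1 := by rw [hb1]; linarith
        exact_mod_cast this)
      rw [hriv] at h4
      obtain ⟨x, hx, hxg⟩ := h4 (by
        have : (0 : ℤ) < (g.a.toNat : ℕ) := by rw [ha1]; exact hg.1
        exact_mod_cast this) (by linear_combination -hgd') hg.2 (prim_iff.mp hgp)
      obtain ⟨i, hi⟩ := List.mem_iff_get.mp hx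
      obtain ⟨k, -, hk⟩ := mem_orb.mp hxg
      refine ⟨i, Quotient.sound ?_⟩
      have h5 : (L.get i).1.Eqv f := by
        rw [hi]
        exact (by rw [← hk]; exact eqv_iterate_nxt x.1 k : x.1.Eqv g).trans hfg.symm
      exact h5
  rw [nFormClassNumber, ← Nat.card_congr (Equiv.ofBijective φ hφ), Nat.card_eq_fintype_card,
    Fintype.card_fin]

/-- **The density of the primes `x² - n y²`**, `n` not a square, from the list of the cycles of
discriminant `4n`. -/
theorem density_sq_sub_mul_cert (n B : ℕ) (hn : 0 < n) (hsq : ¬ IsSquare n)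
    (hsq' : ¬ IsSquare ((4 * n : ℕ) : ℤ)) (hB : 4 * n < (B + 1) ^ 2) (L : List (BForm × ℕ))
    (h : Cert (4 * n) B L) :
    Tendsto (fun x : ℕ => (Nat.card {p : ℕ // p ≤ x ∧ p.Prime ∧
        ∃ u v : ℤ, u ^ 2 - n * v ^ 2 = p} : ℝ) * Real.log x / x) atTop
      (𝓝 (1 / (2 * L.length))) := by
  have h1 := density_sq_sub_mul hsq
  have h2 := nFormClassNumber_eq_length (by omega) hsq' hB L h
  have h3 : (4 * (n : ℤ)) = ((4 * n : ℕ) : ℤ) := by push_cast; ring
  rw [h3, h2] at h1
  exact h1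

/-! ### Values -/

theorem nFormClassNumber_5 : nFormClassNumber 5 = 1 :=
  nFormClassNumber_eq_length (D := 5) (B := 2) (by norm_num) (by decide +kernel) (by norm_num)
    [(⟨1, -1, -1⟩, 2)] (by decide +kernel)

theorem nFormClassNumber_8 : nFormClassNumber 8 = 1 :=
  nFormClassNumber_eq_length (D := 8) (B := 2) (by norm_num) (by decide +kernel) (by norm_num)
    [(⟨1, 0, -2⟩, 4)] (by decide +kernel)

theorem nFormClassNumber_12 : nFormClassNumber 12 = 2 :=
  nFormClassNumber_eq_length (D := 12) (B := 3) (by norm_num) (by decide +kernel) (by norm_num)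
    [(⟨1, 0, -3⟩, 3), (⟨2, -2, -1⟩, 3)] (by decide +kernel)

theorem nFormClassNumber_40 : nFormClassNumber 40 = 2 :=
  nFormClassNumber_eq_length (D := 40) (B := 6) (by norm_num) (by decide +kernel) (by norm_num)
    [(⟨1, 0, -10⟩, 12), (⟨2, 0, -5⟩, 8)] (by decide +kernel)

theorem nFormClassNumber_136 : nFormClassNumber 136 = 4 :=
  nFormClassNumber_eq_length (D := 136) (B := 11) (by norm_num) (by decide +kernel) (by norm_num)
    [(⟨1, 0, -34⟩, 16), (⟨3, -2, -11⟩, 10), (⟨3, 2, -11⟩, 10), (⟨9, -8, -2⟩, 16)]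
    (by decide +kernel)

theorem nFormClassNumber_316 : nFormClassNumber 316 = 6 :=
  nFormClassNumber_eq_length (D := 316) (B := 17) (by norm_num) (by decide +kernel) (by norm_num)
    [(⟨1, 0, -79⟩, 25), (⟨3, -2, -26⟩, 13), (⟨3, 2, -26⟩, 13), (⟨5, -4, -15⟩, 13),
      (⟨5, 4, -15⟩, 13), (⟨15, -14, -2⟩, 25)] (by decide +kernel)

/-! ### Densities -/

/-- The primes `x² - 2 y²` have density `1/2`. -/
theorem density_sub_2 : Tendsto (fun x : ℕ => (Nat.card {p : ℕ // p ≤ x ∧ p.Prime ∧
      ∃ u v : ℤ, u ^ 2 - 2 * v ^ 2 = p} : ℝ) * Real.log x / x) atTop (𝓝 (1 / 2)) := by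
  have h := density_sq_sub_mul_cert 2 2 (by norm_num) (by decide +kernel) (by decide +kernel)
    (by norm_num) [(⟨1, 0, -2⟩, 4)] (by decide +kernel)
  norm_num at h ⊢
  exact h

/-- The primes `x² - 3 y²` have density `1/4`. -/
theorem density_sub_3 : Tendsto (fun x : ℕ => (Nat.card {p : ℕ // p ≤ x ∧ p.Prime ∧
      ∃ u v : ℤ, u ^ 2 - 3 * v ^ 2 = p} : ℝ) * Real.log x / x) atTop (𝓝 (1 / 4)) := by
  have h := density_sq_sub_mul_cert 3 3 (by norm_num) (by decide +kernel) (by decide +kernel)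
    (by norm_num) [(⟨1, 0, -3⟩, 3), (⟨2, -2, -1⟩, 3)] (by decide +kernel)
  norm_num at h ⊢
  exact h

/-- The primes `x² - 34 y²` have density `1/8`. -/
theorem density_sub_34 : Tendsto (fun x : ℕ => (Nat.card {p : ℕ // p ≤ x ∧ p.Prime ∧
      ∃ u v : ℤ, u ^ 2 - 34 * v ^ 2 = p} : ℝ) * Real.log x / x) atTop (𝓝 (1 / 8)) := by
  have h := density_sq_sub_mul_cert 34 11 (by norm_num) (by decide +kernel) (by decide +kernel)
    (by norm_num) [(⟨1, 0, -34⟩, 16), (⟨3, -2, -11⟩, 10), (⟨3, 2, -11⟩, 10), (⟨9, -8, -2⟩, 16)]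
    (by decide +kernel)
  norm_num at h ⊢
  exact h

/-- The primes `x² - 79 y²` have density `1/12` (the class number of `ℚ(√79)` is `3`). -/
theorem density_sub_79 : Tendsto (fun x : ℕ => (Nat.card {p : ℕ // p ≤ x ∧ p.Prime ∧
      ∃ u v : ℤ, u ^ 2 - 79 * v ^ 2 = p} : ℝ) * Real.log x / x) atTop (𝓝 (1 / 12)) := by
  have h := density_sq_sub_mul_cert 79 17 (by norm_num) (by decide +kernel) (by decide +kernel)
    (by norm_num) [(⟨1, 0, -79⟩, 25), (⟨3, -2, -26⟩, 13), (⟨3, 2, -26⟩, 13), (⟨5, -4, -15⟩, 13),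
      (⟨5, 4, -15⟩, 13), (⟨15, -14, -2⟩, 25)] (by decide +kernel)
  norm_num at h ⊢
  exact h

end Fermat.Agent.Cor.RayN
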