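import Fermat.Agent.Corollaries.RayN.ComposeCl
import Fermat.Agent.Corollaries.RayN.FormTableN

/-!
# The class number of a real quadratic field and indefinite forms

`K` real quadratic, `D = discr K`. The number `h⁺(D)` of proper equivalence classes of forms of
discriminant `D` is the class number of `K` if `K` has a unit of norm `-1`, and twice the class
number otherwise. Class numbers of real quadratic fields by `decide`.
-/

set_option autoImplicit false

noncomputable section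

open NumberField QuadraticAlgebra
open scoped nonZeroDivisors Pointwise

namespace Fermat.Agent.Cor.RayN

open Fermat.Agent.Cor.Ray

/-- the negative of the principal form (with the sign of `b` unchanged) -/
theorem memN_neg {D b c : ℤ} (hpos : 0 < D) (h : b ^ 2 - 4 * c = D) : MemN D ⟨-1, b, -c⟩ := by
  refine ⟨?_, ?_, fun h => absurd hpos (not_lt.mpr h.le)⟩
  · rintro q hq ⟨h1, -, -⟩
    exact (Nat.prime_iff_prime_int.mp hq).not_isUnit
      (isUnit_of_dvd_one ((dvd_neg).mp h1))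
  · rw [← h, BForm.disc]
    ring

section Field

variable {e n : ℤ} [hF : Fact (∀ r : ℚ, r ^ 2 ≠ -(((1 : ℤ) : ℚ) * n) + -(e : ℚ) * r)]

/-- the lattice of `(1, b, c)` and of `(-1, b, -c)` is the ring of integers -/
theorem mem_latF_of_sq (hD : IsFundDiscr (e ^ 2 - 4 * 1 * n)) {f : BForm}
    (hf : f.a ^ 2 = 1) (z : 𝓞 (QF 1 e n)) : z ∈ latF e n f := by
  obtain ⟨x, y, hz⟩ := exists_comb_thF f (exists_comb hD z : z ∈ ordO e n)
  rw [mem_latF]
  refine ⟨x * f.a, y, ?_⟩
  rw [hz, mul_assoc, ← sq, hf, mul_one]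

variable (hsq : ¬ IsSquare (e ^ 2 - 4 * 1 * n))

/-- the classes of forms whose ideal is principal -/
theorem exists_gen (hD : IsFundDiscr (e ^ 2 - 4 * 1 * n))
    {x : Quotient (formSetoidN (e ^ 2 - 4 * 1 * n))} (hx : toCl hsq x = 1) :
    ∃ (f : BForm) (hf : MemN (e ^ 2 - 4 * 1 * n) f) (α : 𝓞 (QF 1 e n)), x = cls f hf ∧ 0 < f.a ∧
      α ≠ 0 ∧ ∀ z, z ∈ latF e n f ↔ ∃ w, z = α * w := by
  obtain ⟨f, hf, rfl⟩ := exists_cls x
  have hD0 : e ^ 2 - 4 * 1 * n ≠ 0 := fun h => hsq ⟨0, by rw [h]; ring⟩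
  have h2 : 2 ≤ (2 * (e ^ 2 - 4 * 1 * n)).natAbs := by omega
  obtain ⟨f₁, hff₁, hco, hf₁a⟩ := exists_eqv_coprime_pos hf.1 (by rw [hf.2.1]; exact hsq)
    (by rw [hf.2.1]; exact hf.2.2) h2
  have hco' : IsCoprime f₁.a (2 * (e ^ 2 - 4 * 1 * n)) := by
    rcases Int.natAbs_eq (2 * (e ^ 2 - 4 * 1 * n)) with h | h
    · rwa [← h] at hco
    · rw [h]
      exact hco.neg_right
  have hf₁ : MemN (e ^ 2 - 4 * 1 * n) f₁ := hf.of_eqv hff₁
  have hcl : cls f hf = cls f₁ hf₁ := cls_eq_iff.mpr hff₁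
  rw [hcl, toCl_cls, clI, ClassGroup.mk0_eq_one_iff] at hx
  obtain ⟨α, hα⟩ := hx.principal
  have hα' : idF e n f₁ = Ideal.span {α} := hα
  refine ⟨f₁, hf₁, α, hcl, hf₁a, ?_, fun z => ?_⟩
  · rintro rfl
    apply idF_ne_bot' (e := e) (n := n) hf₁a.ne'
    rw [hα', Ideal.span_singleton_eq_bot]
  · have h3 : z ∈ latF e n f₁ ↔ z ∈ idF e n f₁ := by
      rw [mem_latF]
      constructor
      · rintro ⟨x, y, rfl⟩
        refine (idF e n f₁).add_mem ?_ ((idF e n f₁).mul_mem_left _ (thF_mem_idF f₁))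
        rw [Int.cast_mul]
        exact (idF e n f₁).mul_mem_left _ (a_mem_idF f₁)
      · intro h
        exact exists_of_mem_idF hf₁.2.1 hco' (exists_comb hD z) h
    rw [h3, hα', Ideal.mem_span_singleton']
    exact ⟨fun ⟨w, hw⟩ => ⟨w, hw.symm.trans (mul_comm w α)⟩,
      fun ⟨w, hw⟩ => ⟨w, (mul_comm w α).trans hw.symm⟩⟩

/-- two forms whose lattices are `α 𝓞` and `𝓞` -/
theorem eqv_of_gen (hD : IsFundDiscr (e ^ 2 - 4 * 1 * n)) {f g : BForm}
    (hf : f.disc = e ^ 2 - 4 * 1 * n) (hg : g.disc = e ^ 2 - 4 * 1 * n) (hfa : f.a ≠ 0)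
    (hga : g.a ^ 2 = 1) {α : 𝓞 (QF 1 e n)} (hα : α ≠ 0)
    (h : ∀ z, z ∈ latF e n f ↔ ∃ w, z = α * w) (hpos : 0 < f.a * (Algebra.norm ℤ α * g.a)) :
    f.Eqv g := by
  have hga0 : g.a ≠ 0 := by
    intro h0
    rw [h0] at hga
    norm_num at hga
  refine eqv_of_span_mul hf hg hfa hga0 (l := 1) (m := α) one_ne_zero hα ?_
    (by rw [map_one, one_mul]; exact hpos)
  have h3 : (Submodule.span ℤ {(1 : 𝓞 (QF 1 e n))} : Submodule ℤ (𝓞 (QF 1 e n))) = 1 :=
    Submodule.one_eq_span.symm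
  rw [h3, one_mul]
  ext z
  rw [h, Submodule.mem_span_singleton_mul]
  exact ⟨fun ⟨w, hw⟩ => ⟨w, mem_latF_of_sq hD hga w, hw.symm⟩, fun ⟨w, _, hw⟩ => ⟨w, hw.symm⟩⟩

theorem norm_ne_zero' {α : 𝓞 (QF 1 e n)} (hα : α ≠ 0) : Algebra.norm ℤ α ≠ 0 := by
  intro h0
  have h1 : Ideal.absNorm (Ideal.span {α}) = 0 := by
    rw [Ideal.absNorm_span_singleton, h0, Int.natAbs_zero]
  rw [Ideal.absNorm_eq_zero_iff, Ideal.span_singleton_eq_bot] at h1
  exact hα h1

/-- **the kernel** of the map to the ideal classes -/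
theorem toCl_eq_one_iff (hD : IsFundDiscr (e ^ 2 - 4 * 1 * n)) (hpos : 0 < e ^ 2 - 4 * 1 * n)
    {b c : ℤ} (hbc : b ^ 2 - 4 * c = e ^ 2 - 4 * 1 * n)
    (x : Quotient (formSetoidN (e ^ 2 - 4 * 1 * n))) :
    toCl hsq x = 1 ↔ x = cls _ memN_principal ∨ x = cls _ (memN_neg hpos hbc) := by
  constructor
  · intro hx
    obtain ⟨f, hf, α, rfl, hfa, hα, hlat⟩ := exists_gen hsq hD hx
    rcases lt_or_gt_of_ne (norm_ne_zero' hα) with h | h
    · right
      refine cls_eq_iff.mpr (eqv_of_gen hD hf.2.1 (memN_neg hpos hbc).2.1 hfa.ne' (by norm_num) hα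
        hlat ?_)
      exact mul_pos hfa (by linarith)
    · left
      refine cls_eq_iff.mpr (eqv_of_gen hD hf.2.1 memN_principal.2.1 hfa.ne' (by norm_num) hα
        hlat ?_)
      exact mul_pos hfa (by linarith)
  · have key : ∀ {f : BForm} (hf : MemN (e ^ 2 - 4 * 1 * n) f), f.a ^ 2 = 1 →
        toCl hsq (cls f hf) = 1 := by
      intro f hf ha
      rw [toCl_cls, clI, ClassGroup.mk0_eq_one_iff]
      have h1 : idF e n f = ⊤ := by
        rw [Ideal.eq_top_iff_one]
        have h2 := (idF e n f).mul_mem_left (f.a : 𝓞 (QF 1 e n)) (a_mem_idF f)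
        have h3 : (f.a : 𝓞 (QF 1 e n)) * f.a = 1 := by
          rw [← sq]
          exact_mod_cast congrArg (Int.cast : ℤ → 𝓞 (QF 1 e n)) ha
        rwa [h3] at h2
      show (idF e n f).IsPrincipal
      rw [h1]
      exact top_isPrincipal
    rintro (rfl | rfl)
    · exact key _ (by norm_num)
    · exact key _ (by norm_num)

/-- a unit of norm `-1` -/
theorem exists_unit_iff (hD : IsFundDiscr (e ^ 2 - 4 * 1 * n)) {b c : ℤ}
    (hbc : b ^ 2 - 4 * c = e ^ 2 - 4 * 1 * n) :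
    (⟨1, b, c⟩ : BForm).Eqv ⟨-1, b, -c⟩ ↔
      ∃ u : (𝓞 (QF 1 e n))ˣ, Algebra.norm ℤ (u : 𝓞 (QF 1 e n)) = -1 := by
  have hd1 : (⟨1, b, c⟩ : BForm).disc = e ^ 2 - 4 * 1 * n := by
    rw [← hbc, BForm.disc]
    ring
  have hd2 : (⟨-1, b, -c⟩ : BForm).disc = e ^ 2 - 4 * 1 * n := by
    rw [← hbc, BForm.disc]
    ring
  constructor
  · intro h
    obtain ⟨x, y, hxy⟩ := h.exists_val (x := 1) (y := 0)
    have h1 : (⟨1, b, c⟩ : BForm).val x y = -1 := by
      rw [hxy]
      simp only [BForm.val]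
      ring
    have h2 := norm_comb_thF (n := n) hd1 x (-y)
    rw [neg_neg, h1, one_mul] at h2
    set α : 𝓞 (QF 1 e n) := ((x * 1 : ℤ) : 𝓞 (QF 1 e n)) +
      ((-y : ℤ) : 𝓞 (QF 1 e n)) * thF e n ⟨1, b, c⟩ with hα
    have h3 : IsUnit α := by
      rw [← Ideal.span_singleton_eq_top, ← Ideal.absNorm_eq_one_iff, Ideal.absNorm_span_singleton,
        h2]
      rfl
    obtain ⟨u, hu⟩ := h3
    exact ⟨u, by rw [hu]; exact h2⟩
  · rintro ⟨u, hu⟩
    refine eqv_of_gen hD hd1 hd2 one_ne_zero (by norm_num) (α := (u : 𝓞 (QF 1 e n))) u.ne_zero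
      (fun z => ⟨fun _ => ⟨(u⁻¹ : (𝓞 (QF 1 e n))ˣ) * z, by rw [Units.mul_inv_cancel_left]⟩,
        fun _ => mem_latF_of_sq hD (by norm_num) z⟩) ?_
    rw [hu]
    norm_num

/-- the number of classes of forms and the number of ideal classes -/
theorem card_eq_mul_card (hD : IsFundDiscr (e ^ 2 - 4 * 1 * n)) (hpos : 0 < e ^ 2 - 4 * 1 * n) :
    nFormClassNumber (e ^ 2 - 4 * 1 * n) =
      Set.ncard {cls _ memN_principal, cls _ (memN_neg (b := e) (c := n) hpos (by ring))} *
        Nat.card (ClassGroup (𝓞 (QF 1 e n))) := by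
  have hsq := hD.not_isSquare
  have hmod : (e ^ 2 - 4 * 1 * n) % 4 = 0 ∨ (e ^ 2 - 4 * 1 * n) % 4 = 1 := by
    rcases Int.even_or_odd e with ⟨k, hk⟩ | ⟨k, hk⟩
    · left
      rw [hk]
      ring_nf
      omega
    · right
      rw [hk]
      ring_nf
      omega
  obtain ⟨inst, hmul, -, hone⟩ := gauss_composition hsq hmod
  let κ : Quotient (formSetoidN (e ^ 2 - 4 * 1 * n)) →* ClassGroup (𝓞 (QF 1 e n)) :=
    { toFun := toCl hsq
      map_one' := by
        have h1 : (1 : Quotient (formSetoidN (e ^ 2 - 4 * 1 * n))) * 1 = 1 := one_mul 1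
        obtain ⟨a, a', B, C, hf, hg, h3, h4⟩ := exists_united_cls hsq
          (1 : Quotient (formSetoidN (e ^ 2 - 4 * 1 * n))) 1
        have h5 := toCl_mul hsq hf hg
        rw [← hmul a a' B C hf hg, h3, h4, h1] at h5
        exact (mul_eq_left.mp h5.symm)
      map_mul' := by
        intro x y
        obtain ⟨a, a', B, C, hf, hg, rfl, rfl⟩ := exists_united_cls hsq x y
        rw [hmul a a' B C hf hg]
        exact toCl_mul hsq hf hg }
  have hκ : Function.Surjective κ := toCl_surjective hsq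
  have hker : (κ.ker : Set (Quotient (formSetoidN (e ^ 2 - 4 * 1 * n)))) =
      {cls _ memN_principal, cls _ (memN_neg (b := e) (c := n) hpos (by ring))} := by
    ext x
    rw [SetLike.mem_coe, MonoidHom.mem_ker]
    exact toCl_eq_one_iff hsq hD hpos (b := e) (c := n) (by ring) x
  have h1 := Subgroup.card_mul_index κ.ker
  rw [Subgroup.index_ker, MonoidHom.range_eq_top.mpr hκ, Subgroup.card_top] at h1
  rw [nFormClassNumber, ← h1, ← hker]
  rfl

end Field

section Main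

variable {K : Type*} [Field K] [NumberField K]

/-- **Units of norm `-1` and forms.** Let `b² - 4c = discr K`. The principal form `x² + b x y + c y²`
is properly equivalent to `-x² + b x y - c y²` if and only if `K` has a unit of norm `-1`. -/
theorem eqv_neg_iff_exists_unit (h2 : Module.finrank ℚ K = 2) {b c : ℤ}
    (hbc : b ^ 2 - 4 * c = discr K) :
    (⟨1, b, c⟩ : BForm).Eqv ⟨-1, b, -c⟩ ↔ ∃ u : (𝓞 K)ˣ, Algebra.norm ℤ (u : 𝓞 K) = -1 := by
  obtain ⟨e, n, hF, hd, ⟨φ⟩⟩ := Bin.exists_ringEquiv_discr (K := K) h2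
  have hd' : discr K = e ^ 2 - 4 * 1 * n := by rw [hd]; ring
  have hD : IsFundDiscr (e ^ 2 - 4 * 1 * n) := hd' ▸ Bin.isFundDiscr_discr h2
  rw [exists_unit_iff hD (hbc.trans hd')]
  let ψ : 𝓞 (QF 1 e n) ≃+* 𝓞 K := RingOfIntegers.mapRingEquiv φ
  have hn : ∀ x, Algebra.norm ℤ (ψ x) = Algebra.norm ℤ x := fun x =>
    Algebra.norm_eq_of_algEquiv ψ.toIntAlgEquiv x
  constructor
  · rintro ⟨u, hu⟩
    exact ⟨Units.map (ψ : 𝓞 (QF 1 e n) →* 𝓞 K) u, (hn u).trans hu⟩
  · rintro ⟨u, hu⟩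
    refine ⟨Units.map (ψ.symm : 𝓞 K →* 𝓞 (QF 1 e n)) u, ?_⟩
    rw [← hn]
    show Algebra.norm ℤ (ψ (ψ.symm (u : 𝓞 K))) = -1
    rw [RingEquiv.apply_symm_apply, hu]

theorem nFormClassNumber_eq_aux (h2 : Module.finrank ℚ K = 2) (hpos : 0 < discr K) :
    ((∃ u : (𝓞 K)ˣ, Algebra.norm ℤ (u : 𝓞 K) = -1) →
      nFormClassNumber (discr K) = classNumber K) ∧
    ((¬ ∃ u : (𝓞 K)ˣ, Algebra.norm ℤ (u : 𝓞 K) = -1) →
      nFormClassNumber (discr K) = 2 * classNumber K) := by
  obtain ⟨e, n, hF, hd, ⟨φ⟩⟩ := Bin.exists_ringEquiv_discr (K := K) h2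
  have hd' : discr K = e ^ 2 - 4 * 1 * n := by rw [hd]; ring
  have hD : IsFundDiscr (e ^ 2 - 4 * 1 * n) := hd' ▸ Bin.isFundDiscr_discr h2
  have hu := eqv_neg_iff_exists_unit h2 hd.symm
  have hcl : Nat.card (ClassGroup (𝓞 (QF 1 e n))) = classNumber K := by
    rw [classNumber, ← Nat.card_eq_fintype_card]
    exact Nat.card_congr (ClassGroup.mulEquiv (RingOfIntegers.mapRingEquiv φ)).toEquiv
  rw [hd'] at hpos ⊢
  have h1 := card_eq_mul_card hD hpos
  rw [hcl] at h1
  have h3 : cls _ memN_principal = cls _ (memN_neg (b := e) (c := n) hpos (by ring)) ↔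
      (⟨1, e, n⟩ : BForm).Eqv ⟨-1, e, -n⟩ := cls_eq_iff
  rw [← hu, ← h3]
  constructor
  · intro h4
    rw [h1, ← h4, Set.pair_eq_singleton, Set.ncard_singleton, one_mul]
  · intro h4
    rw [h1, Set.ncard_pair h4]

/-- **The class number of a real quadratic field and indefinite forms, I.** If the real quadratic
field `K` has a unit of norm `-1`, its class number is the number of proper equivalence classes of
primitive forms of discriminant `discr K`. -/
theorem nFormClassNumber_eq_classNumber (h2 : Module.finrank ℚ K = 2) (hpos : 0 < discr K)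
    (hu : ∃ u : (𝓞 K)ˣ, Algebra.norm ℤ (u : 𝓞 K) = -1) :
    nFormClassNumber (discr K) = classNumber K :=
  (nFormClassNumber_eq_aux h2 hpos).1 hu

/-- **The class number of a real quadratic field and indefinite forms, II.** If the real quadratic
field `K` has no unit of norm `-1`, its class number is half the number of proper equivalence
classes of primitive forms of discriminant `discr K`. -/
theorem nFormClassNumber_eq_two_mul_classNumber (h2 : Module.finrank ℚ K = 2) (hpos : 0 < discr K)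
    (hu : ¬ ∃ u : (𝓞 K)ˣ, Algebra.norm ℤ (u : 𝓞 K) = -1) :
    nFormClassNumber (discr K) = 2 * classNumber K :=
  (nFormClassNumber_eq_aux h2 hpos).2 hu

/-- decision of the existence of a unit of norm `-1` by the principal cycle -/
theorem eqv_neg_iff_mem_orb {b c : ℤ} (hc : c < 0) (hsq : ¬ IsSquare (b ^ 2 - 4 * c)) {N : ℕ}
    (hN : 0 < N) (hper : BForm.nxt^[N] (⟨1, b, c⟩ : BForm) = ⟨1, b, c⟩) :
    (⟨1, b, c⟩ : BForm).Eqv ⟨-1, b, -c⟩ ↔ (⟨-c, -b, -1⟩ : BForm) ∈ BForm.orb N ⟨1, b, c⟩ := by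
  have h1 : (⟨1, b, c⟩ : BForm).Riv := ⟨one_pos, hc⟩
  have h2 : (⟨-c, -b, -1⟩ : BForm).Riv := ⟨neg_pos.mpr hc, by norm_num⟩
  have h3 : ¬ IsSquare (⟨1, b, c⟩ : BForm).disc := by
    have : (⟨1, b, c⟩ : BForm).disc = b ^ 2 - 4 * c := by
      simp only [BForm.disc]
      ring
    rw [this]
    exact hsq
  have h4 : (⟨-1, b, -c⟩ : BForm).Eqv ⟨-c, -b, -1⟩ := by
    refine ⟨0, -1, 1, 0, by ring, ?_⟩
    ext <;> simp only [BForm.subst, BForm.val] <;> ring
  rw [← h1.eqv_iff_mem_orb h2 h3 hN hper]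
  exact ⟨fun h => h.trans h4, fun h => h.trans h4.symm⟩

/-- **The class number of a real quadratic field by enumeration of the cycles.** -/
theorem classNumber_eq_of_cert (h2 : Module.finrank ℚ K = 2) {D B : ℕ} (hd : discr K = D)
    (hD : 0 < D) (hB : D < (B + 1) ^ 2) (L : List (BForm × ℕ)) (h : Cert D B L) {b c : ℤ}
    (hbc : b ^ 2 - 4 * c = D) (hc : c < 0) {N : ℕ} (hN : 0 < N)
    (hper : BForm.nxt^[N] (⟨1, b, c⟩ : BForm) = ⟨1, b, c⟩) :
    L.length = (if (⟨-c, -b, -1⟩ : BForm) ∈ BForm.orb N ⟨1, b, c⟩ then 1 else 2) *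
      classNumber K := by
  have hsq : ¬ IsSquare (D : ℤ) := by
    rw [← hd]
    exact (Bin.isFundDiscr_discr h2).not_isSquare
  have hpos : 0 < discr K := by
    rw [hd]
    exact_mod_cast hD
  have h3 := nFormClassNumber_eq_length hD hsq hB L h
  have h4 := eqv_neg_iff_exists_unit h2 (hbc.trans hd.symm)
  rw [eqv_neg_iff_mem_orb hc (by rw [hbc]; exact hsq) hN hper] at h4
  rw [← h3, ← hd]
  split_ifs with h5
  · rw [one_mul, nFormClassNumber_eq_classNumber h2 hpos (h4.mp h5)]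
  · exact nFormClassNumber_eq_two_mul_classNumber h2 hpos fun h6 => h5 (h4.mpr h6)

/-! ### Values -/

/-- `ℚ(√5)` has class number one. -/
theorem classNumber_of_discr_5 (h2 : Module.finrank ℚ K = 2) (hd : discr K = 5) :
    classNumber K = 1 := by
  have h := classNumber_eq_of_cert h2 (D := 5) (B := 2) (by exact_mod_cast hd) (by norm_num)
    (by norm_num) [(⟨1, -1, -1⟩, 2)] (by decide +kernel) (b := -1) (c := -1) (by norm_num)
    (by norm_num) (N := 2) (by norm_num) (by decide +kernel)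
  rw [if_pos (by decide +kernel), one_mul] at h
  exact h.symm

/-- `ℚ(√3)` has class number one. -/
theorem classNumber_of_discr_12 (h2 : Module.finrank ℚ K = 2) (hd : discr K = 12) :
    classNumber K = 1 := by
  have h := classNumber_eq_of_cert h2 (D := 12) (B := 3) (by exact_mod_cast hd) (by norm_num)
    (by norm_num) [(⟨1, 0, -3⟩, 3), (⟨2, -2, -1⟩, 3)] (by decide +kernel) (b := 0) (c := -3)
    (by norm_num) (by norm_num) (N := 3) (by norm_num) (by decide +kernel)
  rw [if_neg (by decide +kernel)] at h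
  have h1 : 2 = 2 * classNumber K := h
  omega

/-- `ℚ(√10)` has class number two. -/
theorem classNumber_of_discr_40 (h2 : Module.finrank ℚ K = 2) (hd : discr K = 40) :
    classNumber K = 2 := by
  have h := classNumber_eq_of_cert h2 (D := 40) (B := 6) (by exact_mod_cast hd) (by norm_num)
    (by norm_num) [(⟨1, 0, -10⟩, 12), (⟨2, 0, -5⟩, 8)] (by decide +kernel) (b := 0) (c := -10)
    (by norm_num) (by norm_num) (N := 12) (by norm_num) (by decide +kernel)
  rw [if_pos (by decide +kernel), one_mul] at h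
  exact h.symm

/-- `ℚ(√34)` has class number two (and no unit of norm `-1`). -/
theorem classNumber_of_discr_136 (h2 : Module.finrank ℚ K = 2) (hd : discr K = 136) :
    classNumber K = 2 := by
  have h := classNumber_eq_of_cert h2 (D := 136) (B := 11) (by exact_mod_cast hd) (by norm_num)
    (by norm_num) [(⟨1, 0, -34⟩, 16), (⟨3, -2, -11⟩, 10), (⟨3, 2, -11⟩, 10), (⟨9, -8, -2⟩, 16)]
    (by decide +kernel) (b := 0) (c := -34) (by norm_num) (by norm_num) (N := 16) (by norm_num)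
    (by decide +kernel)
  rw [if_neg (by decide +kernel)] at h
  have h1 : 4 = 2 * classNumber K := h
  omega

/-- `ℚ(√79)` has class number three. -/
theorem classNumber_of_discr_316 (h2 : Module.finrank ℚ K = 2) (hd : discr K = 316) :
    classNumber K = 3 := by
  have h := classNumber_eq_of_cert h2 (D := 316) (B := 17) (by exact_mod_cast hd) (by norm_num)
    (by norm_num) [(⟨1, 0, -79⟩, 25), (⟨3, -2, -26⟩, 13), (⟨3, 2, -26⟩, 13), (⟨5, -4, -15⟩, 13),
      (⟨5, 4, -15⟩, 13), (⟨15, -14, -2⟩, 25)] (by decide +kernel) (b := 0) (c := -79)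
    (by norm_num) (by norm_num) (N := 25) (by norm_num) (by decide +kernel)
  rw [if_neg (by decide +kernel)] at h
  have h1 : 6 = 2 * classNumber K := h
  omega

/-- the discriminant of `ℚ(√m)`, `m ≡ 2, 3 mod 4` squarefree, is `4 m` -/
theorem discr_eq_four_mul (h2 : Module.finrank ℚ K = 2) {m : ℤ} (hm : m % 4 = 2 ∨ m % 4 = 3)
    (hsf : Squarefree m) {x : K} (hx : x ^ 2 = (m : K)) : discr K = 4 * m := by
  refine Bin.discr_eq_of_sq h2 (δ := 2 * x) (Or.inr ⟨m, rfl, hm, hsf⟩) ?_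
  rw [mul_pow, hx]
  push_cast
  ring

/-- **The class number of `ℚ(√10)` is `2`.** -/
theorem classNumber_sqrt_10 (h2 : Module.finrank ℚ K = 2) {x : K} (hx : x ^ 2 = 10) :
    classNumber K = 2 := by
  refine classNumber_of_discr_40 h2 ?_
  have h := discr_eq_four_mul h2 (m := 10) (by norm_num)
    (Int.squarefree_natAbs.mp (by decide +kernel)) (x := x) (by exact_mod_cast hx)
  rw [h]
  norm_num

/-- **The class number of `ℚ(√34)` is `2`.** -/
theorem classNumber_sqrt_34 (h2 : Module.finrank ℚ K = 2) {x : K} (hx : x ^ 2 = 34) :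
    classNumber K = 2 := by
  refine classNumber_of_discr_136 h2 ?_
  have h := discr_eq_four_mul h2 (m := 34) (by norm_num)
    (Int.squarefree_natAbs.mp (by decide +kernel)) (x := x) (by exact_mod_cast hx)
  rw [h]
  norm_num

/-- **The class number of `ℚ(√79)` is `3`.** -/
theorem classNumber_sqrt_79 (h2 : Module.finrank ℚ K = 2) {x : K} (hx : x ^ 2 = 79) :
    classNumber K = 3 := by
  refine classNumber_of_discr_316 h2 ?_
  have h := discr_eq_four_mul h2 (m := 79) (by norm_num)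
    (Int.squarefree_natAbs.mp (by decide +kernel)) (x := x) (by exact_mod_cast hx)
  rw [h]
  norm_num

end Main

end Fermat.Agent.Cor.RayN
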