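import Fermat.Agent.Corollaries.RayN.NonVanN
import Fermat.Agent.Corollaries.Ray.Density

/-!
# Prime ideals in narrow ray classes, prime elements in arithmetic progressions with given signs

From the continuation of the L-functions of narrow ray class characters (`EntireNStmt`) and the
finiteness of the narrow ray class group (`GroupNStmt`): the prime ideals are equidistributed in the
narrow ray classes modulo `𝔪` (natural density); in particular for `α ≠ 0` prime to `𝔪` there are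
infinitely many prime elements `π ≡ α` modulo `𝔪` with the signs of `α` at the real places.
-/

set_option autoImplicit false
set_option linter.unusedSectionVars false

noncomputable section

open NumberField nonZeroDivisors Complex Filter Topology

open scoped Classical

namespace Fermat.Agent.Cor.RayN

open Fermat.Agent.ClassL Fermat.Agent.Classic.Zeta Fermat.Agent.Cor.Ray

universe u

variable {K : Type u} [Field K] [NumberField K] {𝔪 : Ideal (𝓞 K)}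

/-- the number of narrow ray classes modulo `𝔪` -/
def nRayNumber (𝔪 : Ideal (𝓞 K)) : ℕ := Nat.card (Quot fun I J : Cop 𝔪 => NRayEq 𝔪 I.1 J.1)

section Ext

variable {G : Type u} [CommGroup G] (cl : Cop 𝔪 →* G)

theorem cl0_eq_iff_n (hcl : ∀ I J : Cop 𝔪, cl I = cl J ↔ NRayEq 𝔪 I.1 J.1) {J : (Ideal (𝓞 K))⁰}
    (hJ : J ∈ Cop 𝔪) (I : (Ideal (𝓞 K))⁰) :
    cl0 cl I = (cl ⟨J, hJ⟩ : WithZero G) ↔ IsCoprime (I : Ideal (𝓞 K)) 𝔪 ∧ NRayEq 𝔪 I J := by
  constructor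
  · intro h
    have hI : I ∈ Cop 𝔪 := by
      by_contra h2
      rw [(cl0_eq_zero_iff cl).mpr h2] at h
      exact WithZero.coe_ne_zero h.symm
    rw [cl0_pos cl hI, WithZero.coe_inj] at h
    exact ⟨hI, (hcl ⟨I, hI⟩ ⟨J, hJ⟩).mp h⟩
  · rintro ⟨hI, h⟩
    rw [cl0_pos cl hI, WithZero.coe_inj]
    exact (hcl ⟨I, hI⟩ ⟨J, hJ⟩).mpr h

variable [Finite G]

theorem nRayChar_psi (hcl : ∀ I J : Cop 𝔪, cl I = cl J ↔ NRayEq 𝔪 I.1 J.1) (χ : G →* ℂˣ) :
    NRayChar 𝔪 (Psi.psi (cl0 cl) χ) where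
  norm_le := (Psi.isUnitary_psi (cl0 cl) χ).le
  eq_zero I hI := by
    rw [Psi.psi, MonoidHom.comp_apply, (cl0_eq_zero_iff cl).mpr hI, Psi.chi0_zero]
  cong I a ha ha1 hpos := by
    have ha0 : a ≠ 0 := by
      rintro rfl
      rw [Ideal.span_singleton_eq_bot.mpr rfl] at ha
      exact nonZeroDivisors.coe_ne_zero I ha
    have hco : IsCoprime (Ideal.span {a}) 𝔪 :=
      isCoprime_span_iff.mpr ⟨1, by rwa [one_mul]⟩
    have hI : I ∈ Cop 𝔪 := by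
      rw [mem_Cop, ha]
      exact hco
    have h1 : cl ⟨I, hI⟩ = cl 1 := by
      rw [hcl]
      refine ⟨1, a, one_ne_zero, ha0, ?_, ?_, fun w => ?_, ?_⟩
      · rw [Ideal.span_singleton_one, ← Ideal.one_eq_top]
        exact isCoprime_one_left
      · rw [← neg_sub]
        exact 𝔪.neg_mem ha1
      · have e1 : ((1 : 𝓞 K) : K) = 1 := rfl
        rw [e1, map_one, one_mul]
        exact hpos w
      · rw [Ideal.span_singleton_one, ha]
        change ⊤ * Ideal.span {a} = Ideal.span {a} * (((1 : Cop 𝔪) : (Ideal (𝓞 K))⁰) : Ideal (𝓞 K))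
        rw [Submonoid.coe_one, Submonoid.coe_one, mul_one, ← Ideal.one_eq_top, one_mul]
    rw [Psi.psi, MonoidHom.comp_apply, cl0_pos cl hI, h1, map_one, Psi.chi0_coe, map_one,
      Units.val_one]

theorem nRayChar_psi_nontrivial (hsurj : Function.Surjective cl) {χ : G →* ℂˣ} (hχ : χ ≠ 1) :
    ∃ I : (Ideal (𝓞 K))⁰, IsCoprime (I : Ideal (𝓞 K)) 𝔪 ∧ Psi.psi (cl0 cl) χ I ≠ 1 := by
  obtain ⟨g, hg⟩ : ∃ g, χ g ≠ 1 := by
    by_contra h
    push Not at h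
    exact hχ (MonoidHom.ext h)
  obtain ⟨⟨I, hI⟩, rfl⟩ := hsurj g
  refine ⟨I, hI, fun h => hg ?_⟩
  rw [Psi.psi, MonoidHom.comp_apply, cl0_pos cl hI, Psi.chi0_coe] at h
  exact Units.ext h

theorem exists_LN (hE : EntireNStmt K) (h𝔪 : 𝔪 ≠ ⊥) (hsurj : Function.Surjective cl)
    (hcl : ∀ I J : Cop 𝔪, cl I = cl J ↔ NRayEq 𝔪 I.1 J.1) :
    ∃ L : (G →* ℂˣ) → ℂ → ℂ, (∀ χ, χ ≠ 1 → Differentiable ℂ (L χ)) ∧
      ∀ χ, χ ≠ 1 → ∀ s : ℂ, 1 < s.re → L χ s = Psi.Lp (Psi.psi (cl0 cl) χ) s := by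
  have h : ∀ χ : G →* ℂˣ, ∃ L : ℂ → ℂ, χ ≠ 1 → Differentiable ℂ L ∧
      ∀ s : ℂ, 1 < s.re → L s = Ray.Ls (Psi.psi (cl0 cl) χ) s := by
    intro χ
    by_cases hχ : χ = 1
    · exact ⟨0, fun h => absurd hχ h⟩
    · obtain ⟨L, h1, h2⟩ := hE 𝔪 h𝔪 _ (nRayChar_psi cl hcl χ) (nRayChar_psi_nontrivial cl hsurj hχ)
      exact ⟨L, fun _ => ⟨h1, h2⟩⟩
  choose L hL using h
  exact ⟨L, fun χ hχ => (hL χ hχ).1, fun χ hχ => (hL χ hχ).2⟩

omit [Finite G] in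
theorem natCard_eq_nRayNumber (hsurj : Function.Surjective cl)
    (hcl : ∀ I J : Cop 𝔪, cl I = cl J ↔ NRayEq 𝔪 I.1 J.1) : Nat.card G = nRayNumber 𝔪 := by
  refine (Nat.card_congr (Equiv.ofBijective
    (Quot.lift cl fun I J h => (hcl I J).mpr h) ⟨?_, ?_⟩)).symm
  · rintro ⟨I⟩ ⟨J⟩ h
    exact Quot.sound ((hcl I J).mp h)
  · intro g
    obtain ⟨I, rfl⟩ := hsurj g
    exact ⟨Quot.mk _ I, rfl⟩

end Ext

/-! ### Ray classes and congruences -/

theorem NRayEq.coprime {I J : (Ideal (𝓞 K))⁰} (h : NRayEq 𝔪 I J)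
    (hJ : IsCoprime (J : Ideal (𝓞 K)) 𝔪) : IsCoprime (I : Ideal (𝓞 K)) 𝔪 := by
  obtain ⟨a, b, -, -, hco, hab, -, h⟩ := h
  obtain ⟨c, hc⟩ := isCoprime_span_iff.mp hco
  have hb : IsCoprime (Ideal.span {b}) 𝔪 := by
    refine isCoprime_span_iff.mpr ⟨c, ?_⟩
    have h1 : c * b - 1 = (c * a - 1) - c * (a - b) := by ring
    rw [h1]
    exact 𝔪.sub_mem hc (𝔪.mul_mem_left c hab)
  have h2 : IsCoprime (Ideal.span {a} * (I : Ideal (𝓞 K))) 𝔪 := by
    rw [h]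
    exact hb.mul_left hJ
  exact h2.of_mul_left_right

theorem em_ne_zero {a : 𝓞 K} (ha : a ≠ 0) (w : RP K) : em w (a : K) ≠ 0 := by
  rw [Ne, map_eq_zero]
  exact fun h => ha (by exact_mod_cast h)

theorem nRayEq_span_iff {α : 𝓞 K} (hα : IsCoprime (Ideal.span {α}) 𝔪) (hα0 : α ≠ 0)
    {A : (Ideal (𝓞 K))⁰} (hA : (A : Ideal (𝓞 K)) = Ideal.span {α}) (P : (Ideal (𝓞 K))⁰) :
    NRayEq 𝔪 P A ↔ ∃ π : 𝓞 K, π - α ∈ 𝔪 ∧ (∀ w : RP K, 0 < em w (π : K) * em w (α : K)) ∧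
      (P : Ideal (𝓞 K)) = Ideal.span {π} := by
  constructor
  · rintro ⟨a, b, ha0, hb0, hco, hab, hs, h⟩
    rw [hA, Ideal.span_singleton_mul_span_singleton] at h
    have h1 : Ideal.span {b * α} ≤ Ideal.span {a} := by
      rw [← h]
      exact Ideal.mul_le_left (I := Ideal.span {a}) (J := (P : Ideal (𝓞 K)))
    obtain ⟨π, hπ⟩ := Ideal.span_singleton_le_span_singleton.mp h1
    refine ⟨π, ?_, fun w => ?_, ?_⟩
    · obtain ⟨c, hc⟩ := isCoprime_span_iff.mp hco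
      have h3 : π - α = c * ((b - a) * α) - (c * a - 1) * (π - α) := by
        linear_combination (-c) * hπ
      rw [h3]
      refine 𝔪.sub_mem (𝔪.mul_mem_left _ (𝔪.mul_mem_right _ ?_)) (𝔪.mul_mem_right _ hc)
      rw [← neg_sub]
      exact 𝔪.neg_mem hab
    · have h4 : em w (b : K) * em w (α : K) = em w (a : K) * em w (π : K) := by
        have h5 : ((b * α : 𝓞 K) : K) = ((a * π : 𝓞 K) : K) := congrArg _ hπ
        push_cast at h5
        rw [← map_mul (em w) (b : K) (α : K), h5, map_mul]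
      have h6 := hs w
      have ha' : em w (a : K) ≠ 0 := em_ne_zero ha0 w
      have hα' : em w (α : K) ≠ 0 := em_ne_zero hα0 w
      have h7 : em w (a : K) ^ 2 * (em w (π : K) * em w (α : K)) =
          em w (a : K) * em w (b : K) * em w (α : K) ^ 2 := by
        linear_combination (-(em w (a : K) * em w (α : K))) * h4
      have h8 : 0 < em w (a : K) ^ 2 * (em w (π : K) * em w (α : K)) := by
        rw [h7]
        exact mul_pos h6 (by positivity)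
      exact pos_of_mul_pos_right h8 (sq_nonneg _)
    · rw [hπ, ← Ideal.span_singleton_mul_span_singleton] at h
      refine mul_left_cancel₀ ?_ h
      rw [Ideal.zero_eq_bot, Ne, Ideal.span_singleton_eq_bot]
      exact ha0
  · rintro ⟨π, hπ, hs, hP⟩
    refine ⟨α, π, hα0, ?_, hα, ?_, fun w => ?_, ?_⟩
    · rintro rfl
      rw [Ideal.span_singleton_eq_bot.mpr rfl] at hP
      exact nonZeroDivisors.coe_ne_zero P hP
    · rw [← neg_sub]
      exact 𝔪.neg_mem hπ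
    · rw [mul_comm]
      exact hs w
    · rw [hA, hP, mul_comm]

/-! ### The theorems -/

section Main

variable (hE : EntireNStmt K) (hG : GroupNStmt K) (h𝔪 : 𝔪 ≠ ⊥)

include hE hG h𝔪

/-- **The prime ideal theorem for narrow ray classes.** -/
theorem tendsto_card_nray {J : (Ideal (𝓞 K))⁰} (hJ : IsCoprime (J : Ideal (𝓞 K)) 𝔪) :
    Tendsto (fun x : ℕ => (Nat.card {P : Pr K // nP P ≤ x ∧ NRayEq 𝔪 P.1 J} : ℝ) *
      Real.log x / x) atTop (𝓝 (nRayNumber 𝔪 : ℝ)⁻¹) := by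
  obtain ⟨G, _, _, cl, hsurj, hcl⟩ := hG 𝔪 h𝔪
  obtain ⟨L, hd, hL⟩ := exists_LN cl hE h𝔪 hsurj hcl
  have key := Psi.tendsto_card_group (finite_cl0 cl h𝔪) hd hL (cl ⟨J, hJ⟩)
  rw [natCard_eq_nRayNumber cl hsurj hcl] at key
  refine key.congr fun x => ?_
  have h1 : ∀ P : Pr K, (cl0 cl P.1 = (cl ⟨J, hJ⟩ : WithZero G)) ↔ NRayEq 𝔪 P.1 J := fun P => by
    rw [cl0_eq_iff_n cl hcl hJ]
    exact ⟨fun h => h.2, fun h => ⟨h.coprime hJ, h⟩⟩
  simp only [h1]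

theorem nRayNumber_pos : 0 < nRayNumber 𝔪 := by
  obtain ⟨G, _, _, cl, hsurj, hcl⟩ := hG 𝔪 h𝔪
  rw [← natCard_eq_nRayNumber cl hsurj hcl]
  exact Nat.card_pos

theorem infinite_nray {J : (Ideal (𝓞 K))⁰} (hJ : IsCoprime (J : Ideal (𝓞 K)) 𝔪) :
    {P : Pr K | NRayEq 𝔪 P.1 J}.Infinite := by
  obtain ⟨G, _, _, cl, hsurj, hcl⟩ := hG 𝔪 h𝔪
  obtain ⟨L, hd, hL⟩ := exists_LN cl hE h𝔪 hsurj hcl
  refine (Psi.infinite_primes_group (finite_cl0 cl h𝔪) hd hL (cl ⟨J, hJ⟩)).mono fun P hP => ?_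
  exact ((cl0_eq_iff_n cl hcl hJ P.1).mp hP).2

omit h𝔪 in
/-- (H2) -/
theorem primesNStmt : PrimesNStmt K := by
  intro 𝔪 h𝔪 J hJ
  refine ((infinite_nray hE hG h𝔪 hJ).image (f := fun P : Pr K => P.1)
    Subtype.val_injective.injOn).mono ?_
  rintro _ ⟨P, hP, rfl⟩
  exact ⟨Ideal.isPrime_of_prime P.2, hP⟩

/-- **Prime elements in an arithmetic progression, with given signs**, natural density: the prime
ideals which are generated by an element `≡ α` modulo `𝔪` with the signs of `α`. -/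
theorem tendsto_card_generated_n {α : 𝓞 K} (hα : IsCoprime (Ideal.span {α}) 𝔪) (hα0 : α ≠ 0) :
    Tendsto (fun x : ℕ => (Nat.card {P : Pr K // nP P ≤ x ∧
      ∃ π : 𝓞 K, π - α ∈ 𝔪 ∧ (∀ w : RP K, 0 < em w (π : K) * em w (α : K)) ∧
        ((P.1 : (Ideal (𝓞 K))⁰) : Ideal (𝓞 K)) = Ideal.span {π}} : ℝ) *
      Real.log x / x) atTop (𝓝 (nRayNumber 𝔪 : ℝ)⁻¹) := by
  have hmem : Ideal.span {α} ∈ (Ideal (𝓞 K))⁰ := by
    refine mem_nonZeroDivisors_of_ne_zero ?_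
    rw [Ideal.zero_eq_bot, Ne, Ideal.span_singleton_eq_bot]
    exact hα0
  refine (tendsto_card_nray hE hG h𝔪 (J := ⟨Ideal.span {α}, hmem⟩) hα).congr fun x => ?_
  have h1 : ∀ P : Pr K, NRayEq 𝔪 P.1 ⟨Ideal.span {α}, hmem⟩ ↔ ∃ π : 𝓞 K, π - α ∈ 𝔪 ∧
      (∀ w : RP K, 0 < em w (π : K) * em w (α : K)) ∧
      ((P.1 : (Ideal (𝓞 K))⁰) : Ideal (𝓞 K)) = Ideal.span {π} :=
    fun P => nRayEq_span_iff hα hα0 rfl P.1
  simp only [h1]

/-- infinitely many prime elements `π ≡ α` modulo `𝔪` with the signs of `α` at the real places, no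
two of them associated. -/
theorem infinite_primes_n {α : 𝓞 K} (hα : IsCoprime (Ideal.span {α}) 𝔪) (hα0 : α ≠ 0) :
    {P : Ideal (𝓞 K) | ∃ π : 𝓞 K, Prime π ∧ π - α ∈ 𝔪 ∧
      (∀ w : RP K, 0 < em w (π : K) * em w (α : K)) ∧ P = Ideal.span {π}}.Infinite := by
  have hmem : Ideal.span {α} ∈ (Ideal (𝓞 K))⁰ := by
    refine mem_nonZeroDivisors_of_ne_zero ?_
    rw [Ideal.zero_eq_bot, Ne, Ideal.span_singleton_eq_bot]
    exact hα0
  have h0 := infinite_nray hE hG h𝔪 (J := ⟨Ideal.span {α}, hmem⟩) hα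
  refine (h0.image (f := fun P : Pr K => ((P.1 : (Ideal (𝓞 K))⁰) : Ideal (𝓞 K))) ?_).mono ?_
  · intro P _ Q _ h
    exact Subtype.ext (Subtype.ext h)
  · rintro _ ⟨P, hP, rfl⟩
    obtain ⟨π, hπ, hs, hPπ⟩ := (nRayEq_span_iff hα hα0 rfl P.1).mp hP
    refine ⟨π, ?_, hπ, hs, hPπ⟩
    have hπ0 : π ≠ 0 := by
      rintro rfl
      rw [Ideal.span_singleton_eq_bot.mpr rfl] at hPπ
      exact nonZeroDivisors.coe_ne_zero _ hPπ
    rw [← Ideal.span_singleton_prime hπ0, ← hPπ]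
    exact Ideal.isPrime_of_prime P.2

end Main

end Fermat.Agent.Cor.RayN

end
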