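import Fermat.Agent.Corollaries.RayN.FormSign
import Fermat.Agent.Corollaries.Ray.FormClass

/-!
# The narrow form class number as the index of a subgroup of the narrow ray class group

`D` any non-square discriminant, `G` = narrow ray class group modulo `2D` of `K = ℚ(√D)`, `H` =
classes of the ideals `(α)`, `α` in the order of discriminant `D` of positive norm. The proper
equivalence classes of primitive forms of discriminant `D` (positive definite ones if `D < 0`)
correspond to `G / H`.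
-/

set_option autoImplicit false

noncomputable section

open NumberField QuadraticAlgebra
open scoped nonZeroDivisors

namespace Fermat.Agent.Cor.RayN

open Fermat.Agent.ClassL Fermat.Agent.Cor.Ray

/-! ### The form class number -/

/-- primitive forms of discriminant `D`, the positive definite ones if `D < 0` -/
def FormSetN (D : ℤ) : Type := {f : BForm // f.Prim ∧ f.disc = D ∧ (D < 0 → 0 < f.a)}

/-- proper equivalence -/
def formSetoidN (D : ℤ) : Setoid (FormSetN D) where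
  r f g := f.1.Eqv g.1
  iseqv := ⟨fun f => BForm.Eqv.refl f.1, fun h => h.symm, fun h h' => h.trans h'⟩

/-- **the (narrow) form class number** `h⁺(D)`: the number of proper equivalence classes of
primitive binary quadratic forms of discriminant `D` (positive definite if `D < 0`) -/
def nFormClassNumber (D : ℤ) : ℕ := Nat.card (Quotient (formSetoidN D))

/-- for negative discriminants it is the class number of positive definite forms -/
theorem nFormClassNumber_eq_of_neg {D : ℤ} (hD : D < 0) :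
    nFormClassNumber D = formClassNumber D := by
  let e : FormSetN D ≃ FormSet D :=
    { toFun := fun f => ⟨f.1, f.2.1, f.2.2.1, f.2.2.2 hD⟩
      invFun := fun f => ⟨f.1, f.2.1, f.2.2.1, fun _ => f.2.2.2⟩
      left_inv := fun _ => rfl
      right_inv := fun _ => rfl }
  exact Nat.card_congr (Quotient.congr e fun _ _ => Iff.rfl)

section Field

variable {e n : ℤ} [hF : Fact (∀ r : ℚ, r ^ 2 ≠ -(((1 : ℤ) : ℚ) * n) + -(e : ℚ) * r)]

/-- **the prime ideals `P` such that `P (a, θ_f)` is generated by an element of positive norm of the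
order.** -/
theorem rel_iff_n {f : BForm} (hf : f.disc = e ^ 2 - 4 * 1 * n)
    (ha : 0 < f.a) (hcop : IsCoprime f.a (2 * (e ^ 2 - 4 * 1 * n)))
    {P : Ideal (𝓞 (QF 1 e n))} {p : ℕ} (hp : p.Prime) (hP : Ideal.absNorm P = p) :
    (∃ α ∈ ordO e n, 0 < Algebra.norm ℤ α ∧ P * idF e n f = Ideal.span {α}) ↔
      ∃ u r v s : ℤ, u * s - r * v = 1 ∧ (f.subst u r v s).a = p ∧
        P = idF e n (f.subst u r v s).op := by
  constructor
  · rintro ⟨α, hα, hNα, hPα⟩
    have hαf : α ∈ idF e n f := by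
      have h1 : α ∈ P * idF e n f := by
        rw [hPα]
        exact Ideal.mem_span_singleton_self α
      have h2 : P * idF e n f ≤ idF e n f := Ideal.mul_le_right
      exact h2 h1
    obtain ⟨x, y, rfl⟩ := exists_of_mem_idF hf hcop hα hαf
    have hN : (f.a * f.val x (-y)).natAbs = p * f.a.natAbs := by
      rw [← norm_comb_thF hf, ← Ideal.absNorm_span_singleton, ← hPα, map_mul, hP,
        absNorm_idF hf hcop]
    rw [Int.natAbs_mul, mul_comm] at hN
    have h1 := Nat.eq_of_mul_eq_mul_right (Int.natAbs_pos.mpr ha.ne') hN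
    have h2 : f.val x (-y) = p := by
      rw [norm_comb_thF hf] at hNα
      have h3 : 0 < f.val x (-y) := pos_of_mul_pos_right hNα ha.le
      rw [← h1]
      exact (Int.natAbs_of_nonneg h3.le).symm
    obtain ⟨r, s, hdet, -, hga⟩ := f.exists_eqv_of_isCoprime (BForm.isCoprime_of_val_prime hp h2)
    refine ⟨x, r, -y, s, hdet, by rw [hga, h2], ?_⟩
    have h3 := idF_mul_idF_op hf hcop hdet
    have h4 : ((x * f.a : ℤ) : 𝓞 (QF 1 e n)) - ((-y : ℤ) : 𝓞 (QF 1 e n)) * thF e n f =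
        ((x * f.a : ℤ) : 𝓞 (QF 1 e n)) + y * thF e n f := by
      push_cast
      ring
    rw [h4, ← hPα, mul_comm P] at h3
    exact (mul_left_cancel₀ (idF_ne_bot hf hcop ha.ne') h3).symm
  · rintro ⟨u, r, v, s, hdet, hga, rfl⟩
    refine ⟨((u * f.a : ℤ) : 𝓞 (QF 1 e n)) - v * thF e n f, ?_, ?_, ?_⟩
    · exact (ordO e n).sub_mem (intCast_mem _ _) ((ordO e n).mul_mem (intCast_mem _ _)
        (thF_mem_ordO f))
    · have h1 : ((u * f.a : ℤ) : 𝓞 (QF 1 e n)) - v * thF e n f =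
          ((u * f.a : ℤ) : 𝓞 (QF 1 e n)) + ((-v : ℤ) : 𝓞 (QF 1 e n)) * thF e n f := by
        push_cast
        ring
      have h2 : f.val u v = p := hga
      rw [h1, norm_comb_thF hf, neg_neg, h2]
      exact mul_pos ha (by exact_mod_cast hp.pos)
    · exact (mul_comm _ _).trans (idF_mul_idF_op hf hcop hdet)

theorem norm_intCast_pos {m : ℤ} (hm : m ≠ 0) :
    0 < Algebra.norm ℤ ((m : ℤ) : 𝓞 (QF 1 e n)) := by
  have e1 : ((m : ℤ) : 𝓞 (QF 1 e n)) =
      ((m * 1 : ℤ) : 𝓞 (QF 1 e n)) + ((0 : ℤ) : 𝓞 (QF 1 e n)) * thetaQ 1 e n := by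
    push_cast
    ring
  rw [e1, norm_comb]
  have e2 : 0 < m ^ 2 := by positivity
  linarith

section Group

variable {G : Type} [CommGroup G] [Finite G] (cl : Cop (mod2D e n) →* G)

/-- the classes of the ideals `(α)`, `α` in the order, of positive norm -/
def subHN : Subgroup G where
  carrier := {g | ∃ (I : Cop (mod2D e n)) (α : 𝓞 (QF 1 e n)), α ∈ ordO e n ∧
    0 < Algebra.norm ℤ α ∧
    ((I.1 : (Ideal (𝓞 (QF 1 e n)))⁰) : Ideal (𝓞 (QF 1 e n))) = Ideal.span {α} ∧ cl I = g}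
  mul_mem' := by
    rintro _ _ ⟨I, α, hα, hNα, hI, rfl⟩ ⟨J, β, hβ, hNβ, hJ, rfl⟩
    refine ⟨I * J, α * β, (ordO e n).mul_mem hα hβ, ?_, ?_, map_mul _ _ _⟩
    · rw [map_mul]
      exact mul_pos hNα hNβ
    · rw [← Ideal.span_singleton_mul_span_singleton, ← hI, ← hJ]
      rfl
  one_mem' := ⟨1, 1, (ordO e n).one_mem, by rw [map_one]; exact one_pos, by
    rw [Ideal.span_singleton_one, ← Ideal.one_eq_top]; rfl, map_one _⟩
  inv_mem' := by
    rintro _ ⟨I, α, hα, hNα, hI, rfl⟩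
    have h0 : 0 < Nat.card G := Nat.card_pos
    refine ⟨I ^ (Nat.card G - 1), α ^ (Nat.card G - 1), (ordO e n).pow_mem hα _, ?_, ?_, ?_⟩
    · rw [map_pow]
      exact pow_pos hNα _
    · rw [← Ideal.span_singleton_pow, ← hI]
      rfl
    · rw [map_pow, eq_inv_iff_mul_eq_one, ← pow_succ, Nat.sub_add_cancel h0, pow_card_eq_one']

variable (hcl : ∀ I J : Cop (mod2D e n), cl I = cl J ↔ NRayEq (mod2D e n) I.1 J.1)

include hcl in
theorem mem_subHN_iff (I : Cop (mod2D e n)) : cl I ∈ subHN cl ↔ ∃ α ∈ ordO e n,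
    0 < Algebra.norm ℤ α ∧
    ((I.1 : (Ideal (𝓞 (QF 1 e n)))⁰) : Ideal (𝓞 (QF 1 e n))) = Ideal.span {α} := by
  constructor
  · rintro ⟨J, β, hβ, hNβ, hJ, hcJ⟩
    obtain ⟨a, b, ha, hb, hco, hab, hsg, hIJ⟩ := (hcl I J).mp hcJ.symm
    rw [hJ, Ideal.span_singleton_mul_span_singleton] at hIJ
    have h1 : b * β ∈ Ideal.span {a} := by
      have h2 : b * β ∈ Ideal.span {a} * ((I.1 : (Ideal (𝓞 (QF 1 e n)))⁰) :
          Ideal (𝓞 (QF 1 e n))) := by
        rw [hIJ]
        exact Ideal.mem_span_singleton_self _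
      have h3 : Ideal.span {a} * ((I.1 : (Ideal (𝓞 (QF 1 e n)))⁰) :
          Ideal (𝓞 (QF 1 e n))) ≤ Ideal.span {a} := Ideal.mul_le_left
      exact h3 h2
    obtain ⟨α, hα⟩ := Ideal.mem_span_singleton'.mp h1
    refine ⟨α, two_disc_mul_mem' hβ ?_, ?_, ?_⟩
    · obtain ⟨c, hc⟩ := isCoprime_span_iff.mp hco
      have h4 : α - β = -(c * a - 1) * (α - β) + c * (-(a - b) * β) := by
        linear_combination c * hα
      rw [h4]
      exact (mod2D e n).add_mem ((mod2D e n).mul_mem_right _ ((mod2D e n).neg_mem hc))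
        ((mod2D e n).mul_mem_left _ ((mod2D e n).mul_mem_right _ ((mod2D e n).neg_mem hab)))
    · have h4 := norm_mul_norm_pos ha hb hsg
      have h5 : Algebra.norm ℤ α * Algebra.norm ℤ a = Algebra.norm ℤ b * Algebra.norm ℤ β := by
        rw [← map_mul, ← map_mul, hα]
      have h6 : Algebra.norm ℤ a ^ 2 * Algebra.norm ℤ α =
          Algebra.norm ℤ a * Algebra.norm ℤ b * Algebra.norm ℤ β := by
        linear_combination (Algebra.norm ℤ a) * h5
      have h7 : 0 < Algebra.norm ℤ a ^ 2 * Algebra.norm ℤ α := by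
        rw [h6]
        exact mul_pos h4 hNβ
      exact pos_of_mul_pos_right h7 (sq_nonneg _)
    · have h4 : Ideal.span {a} * ((I.1 : (Ideal (𝓞 (QF 1 e n)))⁰) : Ideal (𝓞 (QF 1 e n))) =
          Ideal.span {a} * Ideal.span {α} := by
        rw [hIJ, Ideal.span_singleton_mul_span_singleton, ← hα, mul_comm a]
      have hsa : Ideal.span {a} ≠ 0 := by rwa [Ne, Ideal.zero_eq_bot, Ideal.span_singleton_eq_bot]
      exact mul_left_cancel₀ hsa h4
  · rintro ⟨α, hα, hNα, hI⟩
    exact ⟨I, α, hα, hNα, hI, rfl⟩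

include hcl in
/-- Lemma A -/
theorem mul_mem_subHN_iff (P : P1 e n) {f : BForm} (hf : f.disc = e ^ 2 - 4 * 1 * n)
    (hcop : IsCoprime f.a (2 * (e ^ 2 - 4 * 1 * n))) (ha : 0 < f.a) :
    cl P.cop * cl (copF hf hcop ha.ne') ∈ subHN cl ↔ ∃ u r v s : ℤ, u * s - r * v = 1 ∧
      (f.subst u r v s).a = P.nm ∧ P.id = idF e n (f.subst u r v s).op := by
  rw [← map_mul, mem_subHN_iff cl hcl]
  exact rel_iff_n hf ha hcop P.2.1 rfl

include hcl in
/-- a form and its opposite have inverse classes modulo `H` -/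
theorem cop_mul_cop_op_mem_n {f : BForm} (hf : f.disc = e ^ 2 - 4 * 1 * n)
    (hcop : IsCoprime f.a (2 * (e ^ 2 - 4 * 1 * n))) (ha : f.a ≠ 0)
    (hf' : f.op.disc = e ^ 2 - 4 * 1 * n) (hcop' : IsCoprime f.op.a (2 * (e ^ 2 - 4 * 1 * n)))
    (ha' : f.op.a ≠ 0) : cl (copF hf hcop ha) * cl (copF hf' hcop' ha') ∈ subHN cl := by
  rw [← map_mul, mem_subHN_iff cl hcl]
  exact ⟨(f.a : 𝓞 (QF 1 e n)), intCast_mem _ _, norm_intCast_pos ha, idF_mul_idF_op_self hf hcop⟩

include hcl in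
/-- Lemma B -/
theorem mk_eq_mk_iff_n (P Q : P1 e n) :
    (QuotientGroup.mk (cl P.cop) : G ⧸ subHN cl) = QuotientGroup.mk (cl Q.cop) ↔
      P.form.Eqv Q.form := by
  have hQd : Q.form.op.disc = e ^ 2 - 4 * 1 * n := by rw [BForm.disc_op, Q.form_disc]
  have hQc : IsCoprime Q.form.op.a (2 * (e ^ 2 - 4 * 1 * n)) := Q.form_cop
  have hQa : 0 < Q.form.op.a := Q.form_a_pos
  have h1 := cop_mul_cop_op_mem_n cl hcl Q.form_disc Q.form_cop Q.form_a_pos.ne' hQd hQc hQa.ne'
  have h2 : cl (copF Q.form_disc Q.form_cop Q.form_a_pos.ne') = cl Q.cop := by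
    congr 1
    apply Subtype.ext
    apply Subtype.ext
    exact Q.idF_form
  rw [h2] at h1
  rw [mk_eq_mk_iff_mul (subHN cl) h1, mul_mem_subHN_iff cl hcl P hQd hQc hQa]
  constructor
  · rintro ⟨u, r, v, s, hdet, hga, hP⟩
    have hg : Q.form.op.Eqv (Q.form.op.subst u r v s) := ⟨u, r, v, s, hdet, rfl⟩
    have hgd : (Q.form.op.subst u r v s).op.disc = e ^ 2 - 4 * 1 * n := by
      rw [BForm.disc_op, hg.disc_eq, hQd]
    have h5 : P.form.Eqv (Q.form.op.subst u r v s).op := by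
      refine eqv_of_idF_eq P.form_disc hgd P.form_cop ?_ P.form_a_pos.ne' ?_
      · rw [P.form_a, ← hga]
        rfl
      · rw [P.idF_form, hP]
    have h6 := hg.op
    rw [BForm.op_op] at h6
    exact h5.trans h6.symm
  · intro h
    obtain ⟨u, r, v, s, hdet, hg⟩ := h.op.symm
    refine ⟨u, r, v, s, hdet, ?_, ?_⟩
    · rw [hg, ← P.form_a]
      rfl
    · rw [hg, BForm.op_op, P.idF_form]

omit [Finite G] in
include hcl in
/-- every class of `G` contains a prime ideal of degree one -/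
theorem exists_P1_n (hsurj : Function.Surjective cl) (hD0 : e ^ 2 - 4 * 1 * n ≠ 0) (g : G) :
    ∃ P : P1 e n, cl P.cop = g := by
  obtain ⟨J, rfl⟩ := hsurj g
  obtain ⟨P, hPJ, hPp⟩ := (infinite_narrow_deg_one (mod2D_ne_bot hD0) J.2).nonempty
  exact ⟨⟨P, hPp, hPJ.coprime J.2⟩, (hcl _ _).mpr hPJ⟩

include hcl in
/-- **the form class number is the index of `H` in the narrow ray class group.** -/
theorem card_quotient_eq_n (hsurj : Function.Surjective cl)
    (hsq : ¬ IsSquare (e ^ 2 - 4 * 1 * n)) :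
    Nat.card (G ⧸ subHN cl) = nFormClassNumber (e ^ 2 - 4 * 1 * n) := by
  have hD0 : e ^ 2 - 4 * 1 * n ≠ 0 := fun h => hsq ⟨0, by rw [h]; ring⟩
  let φ : P1 e n → G ⧸ subHN cl := fun P => QuotientGroup.mk (cl P.cop)
  let ψ : P1 e n → Quotient (formSetoidN (e ^ 2 - 4 * 1 * n)) := fun P =>
    Quotient.mk _ ⟨P.form, P.form_prim, P.form_disc, fun _ => P.form_a_pos⟩
  have hφ : Function.Surjective φ := by
    intro x
    obtain ⟨g, rfl⟩ := QuotientGroup.mk_surjective x
    obtain ⟨P, hP⟩ := exists_P1_n cl hcl hsurj hD0 g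
    exact ⟨P, by simp only [φ]; rw [hP]⟩
  have hψ : Function.Surjective ψ := by
    intro x
    obtain ⟨⟨f, hfp, hfd, hfa⟩, rfl⟩ := Quotient.exists_rep x
    have h2 : 2 ≤ (2 * (e ^ 2 - 4 * 1 * n)).natAbs := by omega
    obtain ⟨f₁, hff₁, hco, hfpos⟩ := exists_eqv_coprime_pos hfp (by rw [hfd]; exact hsq)
      (by rw [hfd]; exact hfa) h2
    have hco' : IsCoprime f₁.a (2 * (e ^ 2 - 4 * 1 * n)) := by
      rcases Int.natAbs_eq (2 * (e ^ 2 - 4 * 1 * n)) with h | h
      · rwa [← h] at hco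
      · rw [h]
        exact hco.neg_right
    have hf₁d : f₁.op.disc = e ^ 2 - 4 * 1 * n := by rw [BForm.disc_op, hff₁.disc_eq, hfd]
    have hf₁a : 0 < f₁.op.a := hfpos
    have hf₁c : IsCoprime f₁.op.a (2 * (e ^ 2 - 4 * 1 * n)) := hco'
    obtain ⟨P, hP⟩ := exists_P1_n cl hcl hsurj hD0 (cl (copF hf₁d hf₁c hf₁a.ne'))⁻¹
    have h3 : cl P.cop * cl (copF hf₁d hf₁c hf₁a.ne') ∈ subHN cl := by
      rw [hP, inv_mul_cancel]
      exact (subHN cl).one_mem
    obtain ⟨u, r, v, s, hdet, hga, hPi⟩ := (mul_mem_subHN_iff cl hcl P hf₁d hf₁c hf₁a).mp h3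
    have hg : f₁.op.Eqv (f₁.op.subst u r v s) := ⟨u, r, v, s, hdet, rfl⟩
    have hgd : (f₁.op.subst u r v s).op.disc = e ^ 2 - 4 * 1 * n := by
      rw [BForm.disc_op, hg.disc_eq, hf₁d]
    have h5 : P.form.Eqv (f₁.op.subst u r v s).op := by
      refine eqv_of_idF_eq P.form_disc hgd P.form_cop ?_ P.form_a_pos.ne' ?_
      · rw [P.form_a, ← hga]
        rfl
      · rw [P.idF_form, hPi]
    have h6 := hg.op
    rw [BForm.op_op] at h6
    refine ⟨P, Quotient.sound ?_⟩
    exact (h5.trans h6.symm).trans hff₁.symm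
  have hker : Setoid.ker φ = Setoid.ker ψ := by
    ext P Q
    rw [Setoid.ker_def, Setoid.ker_def]
    refine (mk_eq_mk_iff_n cl hcl P Q).trans ?_
    exact (Quotient.eq (r := formSetoidN (e ^ 2 - 4 * 1 * n))
      (x := ⟨P.form, P.form_prim, P.form_disc, fun _ => P.form_a_pos⟩)
      (y := ⟨Q.form, Q.form_prim, Q.form_disc, fun _ => Q.form_a_pos⟩)).symm
  rw [nFormClassNumber, ← Nat.card_congr (Setoid.quotientKerEquivOfSurjective φ hφ), hker,
    Nat.card_congr (Setoid.quotientKerEquivOfSurjective ψ hψ)]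

end Group

end Field

/-- **Finiteness of the class number**: there are finitely many proper classes of primitive forms
of a non-square discriminant. -/
theorem nFormClassNumber_ne_zero {D : ℤ} (hsq : ¬ IsSquare D) (h : D % 4 = 0 ∨ D % 4 = 1) :
    nFormClassNumber D ≠ 0 := by
  obtain ⟨e, n, hen⟩ : ∃ e n : ℤ, e ^ 2 - 4 * 1 * n = D := by
    rcases h with h | h
    · exact ⟨0, -(D / 4), by omega⟩
    · exact ⟨1, -(D / 4), by omega⟩
  have hsq' : ¬ IsSquare (e ^ 2 - 4 * 1 * n) := by rw [hen]; exact hsq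
  have : Fact (∀ r : ℚ, r ^ 2 ≠ -(((1 : ℤ) : ℚ) * n) + -(e : ℚ) * r) := fact_of_not_isSquare hsq'
  obtain ⟨G, _, _, cl, hsurj, hcl⟩ := groupNStmt (QF 1 e n) (mod2D e n)
    (mod2D_ne_bot fun h => hsq' ⟨0, by rw [h]; ring⟩)
  rw [← hen, ← card_quotient_eq_n cl hcl hsurj hsq']
  exact Nat.card_pos.ne'

/-- **Finiteness of the class number** (Lagrange, Gauss), indefinite forms included. -/
theorem finite_form_classes {D : ℤ} (hsq : ¬ IsSquare D) : Finite (Quotient (formSetoidN D)) := by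
  by_cases h : D % 4 = 0 ∨ D % 4 = 1
  · exact Nat.finite_of_card_ne_zero (nFormClassNumber_ne_zero hsq h)
  · have : IsEmpty (Quotient (formSetoidN D)) := by
      refine ⟨fun x => ?_⟩
      obtain ⟨⟨f, -, hfd, -⟩, rfl⟩ := Quotient.exists_rep x
      apply h
      rw [← hfd, BForm.disc]
      have h1 : (f.b ^ 2 - 4 * f.a * f.c) % 4 = f.b ^ 2 % 4 := by
        have h2 : f.b ^ 2 - 4 * f.a * f.c = f.b ^ 2 + 4 * (-(f.a * f.c)) := by ring
        rw [h2, Int.add_mul_emod_self_left]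
      rw [h1]
      rcases Int.even_or_odd f.b with ⟨k, hk⟩ | ⟨k, hk⟩
      · left
        rw [hk]
        ring_nf
        omega
      · right
        rw [hk]
        ring_nf
        omega
    infer_instance

end Fermat.Agent.Cor.RayN
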