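import Fermat.Agent.Corollaries.RayN.FormClassN
import Fermat.Agent.Corollaries.Ray.FormDensity

/-!
# The natural density of the primes represented by a binary quadratic form, definite or indefinite

`f` a primitive binary quadratic form of non-square discriminant `D`, positive definite if `D < 0`,
`h⁺(D)` the number of proper equivalence classes of such forms: the primes represented by `f` have
the natural density `1 / 2h⁺(D)` if `f` is properly equivalent to its opposite `(a, -b, c)`, and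
`1 / h⁺(D)` otherwise (Weber, de la Vallée-Poussin, Landau).
-/

set_option autoImplicit false

noncomputable section

open NumberField QuadraticAlgebra Filter Topology
open scoped nonZeroDivisors

namespace Fermat.Agent.Cor.RayN

open Fermat.Agent.ClassL Fermat.Agent.Cor.Ray

theorem ne_zero_of_not_isSquare {D : ℤ} (h : ¬ IsSquare D) : D ≠ 0 :=
  fun h0 => h ⟨0, by rw [h0]; ring⟩

section Field

variable {e n : ℤ} [hF : Fact (∀ r : ℚ, r ^ 2 ≠ -(((1 : ℤ) : ℚ) * n) + -(e : ℚ) * r)]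

section Group

variable {G : Type} [CommGroup G] [Finite G] (cl : Cop (mod2D e n) →* G)

open scoped Classical in
/-- the prime ideals of degree one and norm `≤ x` whose class lies in `c⁻¹ H` -/
def setDN (c : G) (x : ℕ) : Finset (Pr (QF 1 e n)) :=
  (prLe (QF 1 e n) x).filter fun P => (Ideal.absNorm (P.1 : Ideal (𝓞 (QF 1 e n)))).Prime ∧
    ∃ h : IsCoprime (P.1 : Ideal (𝓞 (QF 1 e n))) (mod2D e n), cl ⟨P.1, h⟩ * c ∈ subHN cl

theorem mem_setDN {c : G} {x : ℕ} {P : Pr (QF 1 e n)} : P ∈ setDN cl c x ↔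
    Ideal.absNorm (P.1 : Ideal (𝓞 (QF 1 e n))) ≤ x ∧
      (Ideal.absNorm (P.1 : Ideal (𝓞 (QF 1 e n)))).Prime ∧
      ∃ h : IsCoprime (P.1 : Ideal (𝓞 (QF 1 e n))) (mod2D e n), cl ⟨P.1, h⟩ * c ∈ subHN cl := by
  classical
  rw [setDN, Finset.mem_filter, mem_prLe]

variable (hcl : ∀ I J : Cop (mod2D e n), cl I = cl J ↔ NRayEq (mod2D e n) I.1 J.1)
variable (hsq : ¬ IsSquare (e ^ 2 - 4 * 1 * n))

include hcl hsq in
theorem tendsto_setDN (hsurj : Function.Surjective cl) (c : G) :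
    Tendsto (fun x : ℕ => ((setDN cl c x).card : ℝ) * Real.log x / x) atTop
      (𝓝 (1 / (nFormClassNumber (e ^ 2 - 4 * 1 * n) : ℝ))) := by
  classical
  have : Fintype G := Fintype.ofFinite G
  choose J hJ using hsurj
  set S : Finset G := Finset.univ.filter fun g => g * c ∈ subHN cl with hS
  -- the decomposition
  have hcard : ∀ x : ℕ, (setDN cl c x).card = ∑ g ∈ S, ((prLe (QF 1 e n) x).filter fun P =>
      NRayEq (mod2D e n) P.1 (J g).1 ∧
        (Ideal.absNorm (P.1 : Ideal (𝓞 (QF 1 e n)))).Prime).card := by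
    intro x
    rw [← Finset.card_biUnion]
    · congr 1
      ext P
      rw [mem_setDN, Finset.mem_biUnion]
      constructor
      · rintro ⟨h1, h2, h3, h4⟩
        refine ⟨cl ⟨P.1, h3⟩, ?_, ?_⟩
        · rw [hS, Finset.mem_filter]
          exact ⟨Finset.mem_univ _, h4⟩
        · rw [Finset.mem_filter, mem_prLe]
          exact ⟨h1, (hcl ⟨P.1, h3⟩ _).mp (hJ _).symm, h2⟩
      · rintro ⟨g, hg, hP⟩
        rw [Finset.mem_filter, mem_prLe] at hP
        obtain ⟨h1, h2, h3⟩ := hP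
        have h4 : IsCoprime (P.1 : Ideal (𝓞 (QF 1 e n))) (mod2D e n) := h2.coprime (J g).2
        refine ⟨h1, h3, h4, ?_⟩
        rw [(hcl ⟨P.1, h4⟩ (J g)).mpr h2, hJ]
        exact (Finset.mem_filter.mp hg).2
    · intro g _ g' _ hne
      rw [Function.onFun, Finset.disjoint_left]
      intro P hP hP'
      rw [Finset.mem_filter] at hP hP'
      have h4 : IsCoprime (P.1 : Ideal (𝓞 (QF 1 e n))) (mod2D e n) := hP.2.1.coprime (J g).2
      have h5 := (hcl ⟨P.1, h4⟩ (J g)).mpr hP.2.1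
      have h6 := (hcl ⟨P.1, h4⟩ (J g')).mpr hP'.2.1
      rw [hJ] at h5 h6
      exact hne (h5.symm.trans h6)
  have hlim : Tendsto (fun x : ℕ => ∑ g ∈ S, (((prLe (QF 1 e n) x).filter fun P =>
      NRayEq (mod2D e n) P.1 (J g).1 ∧
        (Ideal.absNorm (P.1 : Ideal (𝓞 (QF 1 e n)))).Prime).card : ℝ) * Real.log x / x) atTop
      (𝓝 (∑ _g ∈ S, 1 / (nRayNumber (mod2D e n) : ℝ))) :=
    tendsto_finsetSum S fun g _ =>
      prime_ideal_theorem_narrow_deg_one (mod2D_ne_bot (ne_zero_of_not_isSquare hsq)) (J g).2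
  -- the limit
  have hSc : S.card = Nat.card (subHN cl) := by
    have e1 : {g : G // g * c ∈ subHN cl} ≃ subHN cl :=
      { toFun := fun g => ⟨g.1 * c, g.2⟩
        invFun := fun h => ⟨h.1 * c⁻¹, by rw [inv_mul_cancel_right]; exact h.2⟩
        left_inv := fun g => Subtype.ext (mul_inv_cancel_right _ _)
        right_inv := fun h => Subtype.ext (inv_mul_cancel_right _ _) }
    rw [← Nat.card_congr e1, Nat.subtype_card]
    intro g
    rw [hS, Finset.mem_filter]
    exact ⟨fun h => h.2, fun h => ⟨Finset.mem_univ _, h⟩⟩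
  have hG : (nRayNumber (mod2D e n) : ℝ) =
      (nFormClassNumber (e ^ 2 - 4 * 1 * n) : ℝ) * Nat.card (subHN cl) := by
    rw [← card_quotient_eq_n cl hcl (fun g => ⟨J g, hJ g⟩) hsq,
      ← natCard_eq_nRayNumber cl (fun g => ⟨J g, hJ g⟩) hcl,
      Subgroup.card_eq_card_quotient_mul_card_subgroup (subHN cl)]
    push_cast
    rfl
  have hH0 : (Nat.card (subHN cl) : ℝ) ≠ 0 := by
    have : 0 < Nat.card (subHN cl) := Nat.card_pos
    exact_mod_cast this.ne'
  have hval : ∑ _g ∈ S, 1 / (nRayNumber (mod2D e n) : ℝ) =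
      1 / (nFormClassNumber (e ^ 2 - 4 * 1 * n) : ℝ) := by
    rw [Finset.sum_const, nsmul_eq_mul, hSc, hG]
    rw [mul_one_div, div_mul_cancel_right₀ hH0, one_div]
  rw [hval] at hlim
  refine hlim.congr fun x => ?_
  rw [hcard x]
  push_cast
  rw [Finset.sum_mul, Finset.sum_div]

/-! ### The fibres -/

include hcl in
/-- the prime ideals of norm `p` in the class of `f` -/
theorem card_fiber_form_n {f : BForm} (hf : f.disc = e ^ 2 - 4 * 1 * n)
    (hcop : IsCoprime f.a (2 * (e ^ 2 - 4 * 1 * n))) (ha : 0 < f.a) {p : ℕ} (hp : p.Prime)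
    (hp2 : IsCoprime (p : ℤ) (2 * (e ^ 2 - 4 * 1 * n))) (hex : ∃ u v : ℤ, f.val u v = p)
    {F : Finset (Pr (QF 1 e n))}
    (hFm : ∀ P : Pr (QF 1 e n), P ∈ F ↔ Ideal.absNorm (P.1 : Ideal (𝓞 (QF 1 e n))) = p ∧
      ∃ h : IsCoprime (P.1 : Ideal (𝓞 (QF 1 e n))) (mod2D e n),
        cl ⟨P.1, h⟩ * cl (copF hf hcop ha.ne') ∈ subHN cl) :
    F.card = wF f := by
  classical
  obtain ⟨u, v, huv⟩ := hex
  obtain ⟨r, s, hdet, hfg, hga⟩ := f.exists_eqv_of_isCoprime
    (BForm.isCoprime_of_val_prime hp huv)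
  set g := f.subst u r v s with hg
  rw [huv] at hga
  have hgd : g.disc = e ^ 2 - 4 * 1 * n := by rw [hfg.disc_eq, hf]
  have hgc : IsCoprime g.a (2 * (e ^ 2 - 4 * 1 * n)) := by rw [hga]; exact hp2
  have hga0 : g.a ≠ 0 := by rw [hga]; exact_mod_cast hp.ne_zero
  have hgd' : g.op.disc = e ^ 2 - 4 * 1 * n := by rw [BForm.disc_op, hgd]
  have hgc' : IsCoprime g.op.a (2 * (e ^ 2 - 4 * 1 * n)) := hgc
  have hga0' : g.op.a ≠ 0 := hga0
  -- the two prime ideals
  have key : ∀ q : BForm, q.disc = e ^ 2 - 4 * 1 * n → q.a = p →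
      ∃ Q : Pr (QF 1 e n), (Q.1 : Ideal (𝓞 (QF 1 e n))) = idF e n q ∧
        Ideal.absNorm (Q.1 : Ideal (𝓞 (QF 1 e n))) = p ∧
        IsCoprime (Q.1 : Ideal (𝓞 (QF 1 e n))) (mod2D e n) := by
    intro q hqd hqa
    have hqc : IsCoprime q.a (2 * (e ^ 2 - 4 * 1 * n)) := by rw [hqa]; exact hp2
    have hN : Ideal.absNorm (idF e n q) = p := by rw [absNorm_idF hqd hqc, hqa]; simp
    have h0 : idF e n q ≠ ⊥ := idF_ne_bot hqd hqc (by rw [hqa]; exact_mod_cast hp.ne_zero)
    have hpr : (idF e n q).IsPrime := Ideal.isPrime_of_irreducible_absNorm (by rw [hN]; exact hp)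
    exact ⟨⟨⟨_, mem_nonZeroDivisors_of_ne_zero h0⟩, Ideal.prime_of_isPrime h0 hpr⟩, rfl, hN,
      isCoprime_idF hqc⟩
  obtain ⟨P₀, hP₀, hP₀N, hP₀c⟩ := key g.op hgd' hga
  obtain ⟨Q₀, hQ₀, hQ₀N, hQ₀c⟩ := key g hgd hga
  have hne : P₀ ≠ Q₀ := by
    rintro rfl
    have h1 : idF e n g.op = idF e n g := hP₀.symm.trans hQ₀
    have h2 : ((g.b : ℤ) : 𝓞 (QF 1 e n)) ∈ idF e n g := by
      have h3 : ((g.b : ℤ) : 𝓞 (QF 1 e n)) = thF e n g.op - thF e n g := by
        rw [thF, thF]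
        have h4 := two_mul_kF hgd
        have h5 := two_mul_kF hgd'
        have h6 : kF e g.op - kF e g = g.b := by
          have h7 : g.op.b = -g.b := rfl
          rw [h7] at h5
          linarith
        rw [← h6]
        push_cast
        ring
      rw [h3]
      exact (idF e n g).sub_mem (h1 ▸ thF_mem_idF g.op) (thF_mem_idF g)
    have h3 : g.a ∣ g.b := (intCast_mem_idF hgd hgc).mp h2
    have h4 : g.a ∣ 2 * (e ^ 2 - 4 * 1 * n) := by
      rw [← hgd, BForm.disc]
      exact Dvd.dvd.mul_left (dvd_sub (h3.trans (dvd_pow_self _ two_ne_zero))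
        (Dvd.intro_left _ (by ring : 4 * g.c * g.a = 4 * g.a * g.c))) 2
    have h5 : IsUnit g.a := hgc.isUnit_of_dvd' dvd_rfl h4
    rw [hga] at h5
    exact (Nat.prime_iff_prime_int.mp hp).not_isUnit h5
  -- all prime ideals of norm `p`
  have hall : ∀ R : Pr (QF 1 e n), Ideal.absNorm (R.1 : Ideal (𝓞 (QF 1 e n))) = p →
      R = P₀ ∨ R = Q₀ := by
    intro R hR
    have h4 : (R.1 : Ideal (𝓞 (QF 1 e n))) ∣
        (Q₀.1 : Ideal (𝓞 (QF 1 e n))) * (P₀.1 : Ideal (𝓞 (QF 1 e n))) := by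
      rw [hQ₀, hP₀, idF_mul_idF_op_self hgd hgc, hga]
      refine Ideal.dvd_span_singleton.mpr ?_
      have := Ideal.absNorm_mem (R.1 : Ideal (𝓞 (QF 1 e n)))
      rw [hR] at this
      exact_mod_cast this
    rcases R.2.dvd_or_dvd h4 with h | h
    · right
      refine pr_dvd_pr ?_
      rw [nonZeroDivisors_dvd_iff_dvd_coe]
      exact h
    · left
      refine pr_dvd_pr ?_
      rw [nonZeroDivisors_dvd_iff_dvd_coe]
      exact h
  -- membership in terms of forms
  have hmem : ∀ (R : Pr (QF 1 e n)) (hR : Ideal.absNorm (R.1 : Ideal (𝓞 (QF 1 e n))) = p)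
      (hRc : IsCoprime (R.1 : Ideal (𝓞 (QF 1 e n))) (mod2D e n)),
      R ∈ F ↔ ∃ u r v s : ℤ, u * s - r * v = 1 ∧ (f.subst u r v s).a = p ∧
        (R.1 : Ideal (𝓞 (QF 1 e n))) = idF e n (f.subst u r v s).op := by
    intro R hR hRc
    have h1 := mul_mem_subHN_iff cl hcl ⟨R, by rw [hR]; exact hp, hRc⟩ hf hcop ha
    rw [hFm]
    constructor
    · rintro ⟨-, h2, h3⟩
      obtain ⟨u, r, v, s, e1, e2, e3⟩ := h1.mp h3
      refine ⟨u, r, v, s, e1, ?_, e3⟩
      rw [e2]
      exact congrArg (Nat.cast : ℕ → ℤ) hR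
    · rintro ⟨u, r, v, s, e1, e2, e3⟩
      refine ⟨hR, hRc, h1.mpr ⟨u, r, v, s, e1, ?_, e3⟩⟩
      rw [e2]
      exact congrArg (Nat.cast : ℕ → ℤ) hR.symm
  have hP₀F : P₀ ∈ F := (hmem P₀ hP₀N hP₀c).mpr ⟨u, r, v, s, hdet, hga, hP₀⟩
  have hQ₀F : Q₀ ∈ F ↔ f.Eqv f.op := by
    rw [hmem Q₀ hQ₀N hQ₀c]
    constructor
    · rintro ⟨u', r', v', s', e1, e2, e3⟩
      have h1 : f.Eqv (f.subst u' r' v' s') := ⟨u', r', v', s', e1, rfl⟩
      have h2 : g.Eqv (f.subst u' r' v' s').op := by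
        refine eqv_of_idF_eq hgd ?_ hgc ?_ hga0 ?_
        · rw [BForm.disc_op, h1.disc_eq, hf]
        · rw [hga, ← e2]
          rfl
        · rw [← hQ₀, e3]
      exact (hfg.trans h2).trans h1.op.symm
    · intro h
      obtain ⟨u', r', v', s', e1, e2⟩ := h.trans hfg.op
      refine ⟨u', r', v', s', e1, ?_, ?_⟩
      · rw [e2]
        exact hga
      · rw [e2, BForm.op_op, hQ₀]
  have hsub : F ⊆ {P₀, Q₀} := by
    intro R hR
    rw [Finset.mem_insert, Finset.mem_singleton]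
    exact hall R ((hFm R).mp hR).1
  by_cases hC : f.Eqv f.op
  · have hFe : F = {P₀, Q₀} := by
      refine Finset.Subset.antisymm hsub fun R hR => ?_
      rw [Finset.mem_insert, Finset.mem_singleton] at hR
      rcases hR with rfl | rfl
      · exact hP₀F
      · exact hQ₀F.mpr hC
    rw [hFe, Finset.card_pair hne, wF, if_pos hC]
  · have hFe : F = {P₀} := by
      refine Finset.Subset.antisymm (fun R hR => ?_) fun R hR => ?_
      · have h3 := hsub hR
        rw [Finset.mem_insert, Finset.mem_singleton] at h3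
        rw [Finset.mem_singleton]
        rcases h3 with h3 | h3
        · exact h3
        · exact absurd (hQ₀F.mp (h3 ▸ hR)) hC
      · rw [Finset.mem_singleton] at hR
        rw [hR]
        exact hP₀F
    rw [hFe, Finset.card_singleton, wF, if_neg hC]

end Group

/-- the case of a first coefficient prime to `2D`, in a fixed field -/
theorem density_form_coprime_n (hsq : ¬ IsSquare (e ^ 2 - 4 * 1 * n)) {f : BForm}
    (hf : f.disc = e ^ 2 - 4 * 1 * n) (hcop : IsCoprime f.a (2 * (e ^ 2 - 4 * 1 * n)))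
    (ha : 0 < f.a) :
    Tendsto (fun x : ℕ => (Nat.card {p : ℕ // p ≤ x ∧ p.Prime ∧ ∃ u v : ℤ, f.val u v = p} : ℝ) *
      Real.log x / x) atTop
      (𝓝 (1 / (wF f * nFormClassNumber (e ^ 2 - 4 * 1 * n)))) := by
  classical
  obtain ⟨G, _, _, cl, hsurj, hcl⟩ :=
    groupNStmt (QF 1 e n) (mod2D e n) (mod2D_ne_bot (ne_zero_of_not_isSquare hsq))
  set c : G := cl (copF hf hcop ha.ne') with hc
  set R : ℕ → Finset ℕ := fun x => (Finset.range (x + 1)).filter fun p => p.Prime ∧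
    ∃ u v : ℤ, f.val u v = p with hRdef
  have hR : ∀ x p, p ∈ R x ↔ p ≤ x ∧ p.Prime ∧ ∃ u v : ℤ, f.val u v = p := by
    intro x p
    rw [hRdef, Finset.mem_filter, Finset.mem_range, Nat.lt_succ_iff]
  have hcard : ∀ x : ℕ, Nat.card {p : ℕ // p ≤ x ∧ p.Prime ∧ ∃ u v : ℤ, f.val u v = p} =
      (R x).card := by
    intro x
    rw [Nat.subtype_card]
    intro p
    exact hR x p
  suffices hmain : Tendsto (fun x : ℕ => ((R x).card : ℝ) * Real.log x / x) atTop
      (𝓝 (1 / (wF f * nFormClassNumber (e ^ 2 - 4 * 1 * n)))) by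
    refine hmain.congr fun x => ?_
    rw [hcard x]
  set w : ℕ := wF f with hw
  have hw0 : (w : ℝ) ≠ 0 := by exact_mod_cast (wF_pos f).ne'
  set T : ℕ := (2 * (e ^ 2 - 4 * 1 * n)).natAbs with hT
  have hT0 : T ≠ 0 := Int.natAbs_ne_zero.mpr (mul_ne_zero two_ne_zero
    (ne_zero_of_not_isSquare hsq))
  set M : ℕ := T.divisors.card with hM
  -- the comparison
  have key : ∀ x : ℕ, |((setDN cl c x).card : ℝ) - w * (R x).card| ≤ 0 * Nat.sqrt x + 2 * M := by
    intro x
    have h3 : (setDN cl c x).card = ∑ p ∈ R x, ((setDN cl c x).filter fun P =>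
        Ideal.absNorm (P.1 : Ideal (𝓞 (QF 1 e n))) = p).card := by
      refine Finset.card_eq_sum_card_fiberwise fun P hP => ?_
      obtain ⟨h1, h2, h4, h5⟩ := (mem_setDN cl).mp hP
      obtain ⟨u, r, v, s, e1, e2, -⟩ := (mul_mem_subHN_iff cl hcl ⟨P, h2, h4⟩ hf hcop ha).mp h5
      exact (hR x _).mpr ⟨h1, h2, u, v, e2⟩
    have h4 : ∀ p ∈ R x, |(((setDN cl c x).filter fun P =>
        Ideal.absNorm (P.1 : Ideal (𝓞 (QF 1 e n))) = p).card : ℝ) - w| ≤
        if p ∣ T then 2 else 0 := by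
      intro p hp
      obtain ⟨hpx, hpp, hex⟩ := (hR x p).mp hp
      by_cases hpd : p ∣ T
      · rw [if_pos hpd]
        have h5 : ((setDN cl c x).filter fun P =>
            Ideal.absNorm (P.1 : Ideal (𝓞 (QF 1 e n))) = p) = ∅ := by
          rw [Finset.filter_eq_empty_iff]
          intro P hP hPp
          obtain ⟨h1, h2, h4, h5⟩ := (mem_setDN cl).mp hP
          have h6 := isCoprime_of_isCoprime (Ideal.isPrime_of_prime P.2) hpp hPp h4
          have h7 : (p : ℤ) ∣ 2 * (e ^ 2 - 4 * 1 * n) := by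
            rw [← Int.dvd_natAbs]
            exact_mod_cast hpd
          exact (Nat.prime_iff_prime_int.mp hpp).not_isUnit (h6.isUnit_of_dvd' dvd_rfl h7)
        rw [h5, Finset.card_empty]
        have h8 : (w : ℝ) ≤ 2 := by exact_mod_cast wF_le f
        have h9 : (0 : ℝ) ≤ w := Nat.cast_nonneg _
        rw [abs_le]
        push_cast
        constructor <;> linarith
      · rw [if_neg hpd]
        have hp2 : IsCoprime (p : ℤ) (2 * (e ^ 2 - 4 * 1 * n)) := by
          refine (Prime.coprime_iff_not_dvd (Nat.prime_iff_prime_int.mp hpp)).mpr fun h => hpd ?_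
          rw [← Int.dvd_natAbs] at h
          exact_mod_cast h
        rw [card_fiber_form_n cl hcl hf hcop ha hpp hp2 hex, sub_self, abs_zero]
        intro P
        rw [Finset.mem_filter, mem_setDN]
        constructor
        · rintro ⟨⟨-, -, h6⟩, h7⟩
          exact ⟨h7, h6⟩
        · rintro ⟨h5, h6⟩
          exact ⟨⟨h5.le.trans hpx, by rw [h5]; exact hpp, h6⟩, h5⟩
    have h5 : ((setDN cl c x).card : ℝ) - w * (R x).card = ∑ p ∈ R x,
        ((((setDN cl c x).filter fun P =>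
          Ideal.absNorm (P.1 : Ideal (𝓞 (QF 1 e n))) = p).card : ℝ) - w) := by
      rw [Finset.sum_sub_distrib, Finset.sum_const, nsmul_eq_mul, mul_comm (w : ℝ)]
      congr 1
      exact_mod_cast h3
    rw [h5, zero_mul, zero_add]
    refine (Finset.abs_sum_le_sum_abs _ _).trans ((Finset.sum_le_sum h4).trans ?_)
    rw [← Finset.sum_filter, Finset.sum_const, nsmul_eq_mul, mul_comm]
    have h6 : ((R x).filter fun p => p ∣ T) ⊆ T.divisors := by
      intro p hp
      rw [Nat.mem_divisors]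
      exact ⟨(Finset.mem_filter.mp hp).2, hT0⟩
    have h7 : (((R x).filter fun p => p ∣ T).card : ℝ) ≤ M := by
      exact_mod_cast Finset.card_le_card h6
    linarith
  have h3 := qd_tendsto_of_bounded key (tendsto_setDN cl hcl hsq hsurj c)
  have h4 := h3.const_mul ((w : ℝ)⁻¹)
  have h5 : (w : ℝ)⁻¹ * (1 / (nFormClassNumber (e ^ 2 - 4 * 1 * n) : ℝ)) =
      1 / (w * nFormClassNumber (e ^ 2 - 4 * 1 * n)) := by
    rw [one_div, one_div, mul_inv]
  rw [h5] at h4
  refine h4.congr fun x => ?_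
  field_simp

end Field

/-! ### The theorem -/

/-- **The natural density of the primes represented by a primitive binary quadratic form** of
non-square discriminant `D` (positive definite if `D < 0`): `1 / 2h⁺(D)` if the form is properly
equivalent to its opposite `(a, -b, c)`, and `1 / h⁺(D)` otherwise. -/
theorem density_form_n {f : BForm} (hf : f.Prim) (hsq : ¬ IsSquare f.disc)
    (hpos : f.disc < 0 → 0 < f.a) :
    Tendsto (fun x : ℕ => (Nat.card {p : ℕ // p ≤ x ∧ p.Prime ∧ ∃ u v : ℤ, f.val u v = p} : ℝ) *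
      Real.log x / x) atTop (𝓝 (1 / (wF f * nFormClassNumber f.disc))) := by
  -- the field
  set e : ℤ := f.b with he
  set n : ℤ := f.a * f.c with hn
  have hdisc : f.disc = e ^ 2 - 4 * 1 * n := by
    rw [BForm.disc, he, hn]
    ring
  have hsq' : ¬ IsSquare (e ^ 2 - 4 * 1 * n) := by rw [← hdisc]; exact hsq
  have : Fact (∀ r : ℚ, r ^ 2 ≠ -(((1 : ℤ) : ℚ) * n) + -(e : ℚ) * r) := fact_of_not_isSquare hsq'
  have hD0 := ne_zero_of_not_isSquare hsq'
  have h2 : 2 ≤ (2 * (e ^ 2 - 4 * 1 * n)).natAbs := by omega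
  obtain ⟨f₁, hff₁, hco, hf₁a⟩ := exists_eqv_coprime_pos hf hsq hpos h2
  have hco' : IsCoprime f₁.a (2 * (e ^ 2 - 4 * 1 * n)) := by
    rcases Int.natAbs_eq (2 * (e ^ 2 - 4 * 1 * n)) with h | h
    · rwa [← h] at hco
    · rw [h]
      exact hco.neg_right
  have hf₁d : f₁.disc = e ^ 2 - 4 * 1 * n := by rw [hff₁.disc_eq, hdisc]
  have h := density_form_coprime_n hsq' hf₁d hco' hf₁a
  rw [← hdisc, ← wF_eq hff₁] at h
  refine h.congr fun x => ?_
  congr 3
  refine Nat.card_congr (Equiv.subtypeEquivRight fun p => ?_)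
  exact and_congr_right fun _ => and_congr_right fun _ => hff₁.repr_iff.symm

/-- **The natural density of the primes `x² - n y²`** is `1 / 2h⁺(4n)`, for every `n ≥ 1` which is
not a square. -/
theorem density_sq_sub_mul {n : ℕ} (hn : ¬ IsSquare n) :
    Tendsto (fun x : ℕ => (Nat.card {p : ℕ // p ≤ x ∧ p.Prime ∧
        ∃ u v : ℤ, u ^ 2 - n * v ^ 2 = p} : ℝ) * Real.log x / x) atTop
      (𝓝 (1 / (2 * nFormClassNumber (4 * n)))) := by
  have hprim : (⟨1, 0, -n⟩ : BForm).Prim := by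
    rintro q hq ⟨h1, -, -⟩
    exact (Nat.prime_iff_prime_int.mp hq).not_isUnit (isUnit_of_dvd_one h1)
  have hdisc : (⟨1, 0, -n⟩ : BForm).disc = 4 * n := by
    simp only [BForm.disc]
    ring
  have hsq : ¬ IsSquare (⟨1, 0, -n⟩ : BForm).disc := by
    rw [hdisc]
    rintro ⟨t, ht⟩
    have h1 : (4 : ℤ) * n = t ^ 2 := by linear_combination ht
    have h2 : (2 : ℤ) ∣ t := by
      have h3 : (2 : ℤ) ∣ t ^ 2 := ⟨2 * n, by linear_combination -h1⟩
      exact Int.prime_two.dvd_of_dvd_pow h3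
    obtain ⟨k, rfl⟩ := h2
    refine hn ⟨k.natAbs, ?_⟩
    have h3 : (n : ℤ) = k * k := by linarith
    have h4 : (n : ℤ) = ((k.natAbs * k.natAbs : ℕ) : ℤ) := by
      rw [h3, Nat.cast_mul, Int.natAbs_mul_self']
    exact_mod_cast h4
  have h := density_form_n hprim hsq fun _ => one_pos
  have hw : wF (⟨1, 0, -n⟩ : BForm) = 2 := by
    rw [wF, if_pos]
    have h1 : (⟨1, 0, -n⟩ : BForm).op = ⟨1, 0, -n⟩ := by
      simp [BForm.op]
    rw [h1]
    exact BForm.Eqv.refl _
  rw [hw, hdisc] at h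
  refine h.congr fun x => ?_
  congr 3
  refine Nat.card_congr (Equiv.subtypeEquivRight fun p => ?_)
  refine and_congr_right fun _ => and_congr_right fun _ => ?_
  have h1 : ∀ u v : ℤ, (⟨1, 0, -n⟩ : BForm).val u v = u ^ 2 - n * v ^ 2 := fun u v => by
    simp only [BForm.val]
    ring
  simp only [h1]

end Fermat.Agent.Cor.RayN
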