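import Fermat.Agent.Corollaries.RayN.Final
import Fermat.Agent.Corollaries.Ray.Ideals

/-!
# The ideals are equidistributed in the narrow ray classes (Weber 1896)

For every `J` prime to `𝔪` the number of ideals of norm at most `x` in the narrow ray class of `J`
is asymptotic to `κ ∏_{P ∣ 𝔪} (1 - 1 / NP) x / h`, `κ` the residue of the Dedekind zeta function at
`1` and `h` the number of narrow ray classes modulo `𝔪`.
-/

set_option autoImplicit false
set_option linter.unusedSectionVars false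

noncomputable section

open NumberField nonZeroDivisors Filter Topology

open scoped Classical

namespace Fermat.Agent.Cor.RayN

open Fermat.Agent.ClassL Fermat.Agent.Cor.Ray

universe u

variable {K : Type u} [Field K] [NumberField K] {𝔪 : Ideal (𝓞 K)}

/-- **Weber's theorem: the ideals are equidistributed in the narrow ray classes.** -/
theorem ideals_in_narrow_ray_class (h𝔪 : 𝔪 ≠ ⊥) {J : (Ideal (𝓞 K))⁰}
    (hJ : IsCoprime (J : Ideal (𝓞 K)) 𝔪) :
    Tendsto (fun x : ℕ => (Nat.card {I : (Ideal (𝓞 K))⁰ //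
      Ideal.absNorm (I : Ideal (𝓞 K)) ≤ x ∧ NRayEq 𝔪 I J} : ℝ) / x) atTop
      (𝓝 (dedekindZeta_residue K * eulerAt 𝔪 / nRayNumber 𝔪)) := by
  obtain ⟨G, _, _, cl, hsurj, hcl⟩ := groupNStmt K 𝔪 h𝔪
  obtain ⟨L, hd, hL⟩ := exists_LN cl (entireNStmt K) h𝔪 hsurj hcl
  have key := Psi.tendsto_card_ideals (finite_cl0 cl h𝔪) hd hL (cl ⟨J, hJ⟩)
  rw [natCard_eq_nRayNumber cl hsurj hcl, prod_bad_eq h𝔪 (fun P => by
    rw [Set.Finite.mem_toFinset]
    exact cl0_eq_zero_iff cl)] at key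
  refine key.congr fun x => ?_
  have h1 : ∀ I : (Ideal (𝓞 K))⁰, (cl0 cl I = (cl ⟨J, hJ⟩ : WithZero G)) ↔ NRayEq 𝔪 I J :=
    fun I => by
      rw [cl0_eq_iff_n cl hcl hJ]
      exact ⟨fun h => h.2, fun h => ⟨h.coprime hJ, h⟩⟩
  simp only [h1]
  rfl

/-- **The principal ideals generated by an element `≡ α` modulo `𝔪` with given signs**: `T` is any
set of real places, the generator is negative exactly at the places of `T`. -/
theorem principal_ideals_signs (h𝔪 : 𝔪 ≠ ⊥) {α : 𝓞 K} (hα : IsCoprime (Ideal.span {α}) 𝔪)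
    (T : Finset (RP K)) :
    Tendsto (fun x : ℕ => (Nat.card {I : (Ideal (𝓞 K))⁰ //
      Ideal.absNorm (I : Ideal (𝓞 K)) ≤ x ∧
      ∃ a : 𝓞 K, a - α ∈ 𝔪 ∧
        (∀ w : RP K, (w ∈ T → em w (a : K) < 0) ∧ (w ∉ T → 0 < em w (a : K))) ∧
        (I : Ideal (𝓞 K)) = Ideal.span {a}} : ℝ) / x) atTop
      (𝓝 (dedekindZeta_residue K * eulerAt 𝔪 / nRayNumber 𝔪)) := by
  obtain ⟨β, hβ0, hβ, hβα, hs⟩ := exists_congr_sign h𝔪 hα T
  have hmem : Ideal.span {β} ∈ (Ideal (𝓞 K))⁰ := by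
    refine mem_nonZeroDivisors_of_ne_zero ?_
    rw [Ideal.zero_eq_bot, Ne, Ideal.span_singleton_eq_bot]
    exact hβ0
  refine (ideals_in_narrow_ray_class h𝔪 (J := ⟨Ideal.span {β}, hmem⟩) hβ).congr fun x => ?_
  have h1 : ∀ I : (Ideal (𝓞 K))⁰, NRayEq 𝔪 I ⟨Ideal.span {β}, hmem⟩ ↔
      ∃ a : 𝓞 K, a - α ∈ 𝔪 ∧
        (∀ w : RP K, (w ∈ T → em w (a : K) < 0) ∧ (w ∉ T → 0 < em w (a : K))) ∧
        (I : Ideal (𝓞 K)) = Ideal.span {a} := by
    intro I
    rw [nRayEq_span_iff hβ hβ0 rfl]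
    refine exists_congr fun a => ?_
    have h2 : a - β ∈ 𝔪 ↔ a - α ∈ 𝔪 := by
      constructor
      · intro h
        have := 𝔪.add_mem h hβα
        rwa [sub_add_sub_cancel] at this
      · intro h
        have := 𝔪.sub_mem h hβα
        rwa [sub_sub_sub_cancel_right] at this
    rw [h2]
    simp only [same_sign_iff hs]
  simp only [h1]

/-- the ratio: among the ideals prime to `𝔪`, a proportion of `1 / h` lies in a given narrow ray
class. -/
theorem density_narrow_ray_class (h𝔪 : 𝔪 ≠ ⊥) {J : (Ideal (𝓞 K))⁰}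
    (hJ : IsCoprime (J : Ideal (𝓞 K)) 𝔪) :
    Tendsto (fun x : ℕ => (Nat.card {I : (Ideal (𝓞 K))⁰ //
        Ideal.absNorm (I : Ideal (𝓞 K)) ≤ x ∧ NRayEq 𝔪 I J} : ℝ) /
      Nat.card {I : (Ideal (𝓞 K))⁰ //
        Ideal.absNorm (I : Ideal (𝓞 K)) ≤ x ∧ IsCoprime (I : Ideal (𝓞 K)) 𝔪}) atTop
      (𝓝 (1 / (nRayNumber 𝔪 : ℝ))) := by
  have hκ : dedekindZeta_residue K * eulerAt 𝔪 ≠ 0 :=
    mul_ne_zero (dedekindZeta_residue_ne_zero K) (eulerAt_pos h𝔪).ne'
  have key := (ideals_in_narrow_ray_class h𝔪 hJ).div (ideals_coprime h𝔪) hκ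
  have h1 : dedekindZeta_residue K * eulerAt 𝔪 / nRayNumber 𝔪 /
      (dedekindZeta_residue K * eulerAt 𝔪) = 1 / (nRayNumber 𝔪 : ℝ) := by
    rw [div_div, mul_comm (nRayNumber 𝔪 : ℝ), ← div_div, div_self hκ]
  rw [h1] at key
  refine key.congr' ?_
  filter_upwards [eventually_gt_atTop 0] with x hx
  have hx' : (x : ℝ) ≠ 0 := by exact_mod_cast hx.ne'
  rw [Pi.div_apply, div_div_div_cancel_right₀ hx']

end Fermat.Agent.Cor.RayN

end
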