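import Fermat.Agent.Corollaries.RayN.Defs
import Fermat.Agent.Corollaries.Ray.NonVan

/-!
# Non-vanishing of the L-functions of narrow ray class characters on `Re s ≥ 1`
-/

set_option autoImplicit false
set_option linter.unusedSectionVars false

noncomputable section

open NumberField nonZeroDivisors Complex Filter Topology

open scoped Classical

namespace Fermat.Agent.Cor.RayN

open Fermat.Agent.ClassL Fermat.Agent.Classic.Zeta Fermat.Agent.Cor.Ray

universe u

variable {K : Type u} [Field K] [NumberField K] {𝔪 : Ideal (𝓞 K)}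

/-- an ideal prime to `𝔪` has a power which is generated by a totally positive element `≡ 1`
modulo `𝔪` -/
theorem exists_pow_eq_span_pos (h𝔪 : 𝔪 ≠ ⊥) {I : (Ideal (𝓞 K))⁰}
    (hI : IsCoprime (I : Ideal (𝓞 K)) 𝔪) :
    ∃ n : ℕ, n ≠ 0 ∧ ∃ a : 𝓞 K, ((I ^ n : (Ideal (𝓞 K))⁰) : Ideal (𝓞 K)) = Ideal.span {a} ∧
      a - 1 ∈ 𝔪 ∧ ∀ w : RP K, 0 < em w (a : K) := by
  obtain ⟨n, hn, a, ha, ha1⟩ := exists_pow_eq_span h𝔪 hI
  have ha0 : a ≠ 0 := by
    rintro rfl
    rw [Ideal.span_singleton_eq_bot.mpr rfl] at ha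
    exact nonZeroDivisors.coe_ne_zero _ ha
  refine ⟨n * 2, mul_ne_zero hn two_ne_zero, a ^ 2, ?_, ?_, fun w => ?_⟩
  · rw [pow_mul, SubmonoidClass.coe_pow, ha, Ideal.span_singleton_pow]
  · have h1 : a ^ 2 - 1 = (a + 1) * (a - 1) := by ring
    rw [h1]
    exact 𝔪.mul_mem_left _ ha1
  · have h2 : ((a ^ 2 : 𝓞 K) : K) = (a : K) ^ 2 := by push_cast; rfl
    rw [h2, map_pow]
    have h3 : em w (a : K) ≠ 0 := by
      rw [Ne, map_eq_zero]
      exact fun h => ha0 (by exact_mod_cast h)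
    positivity

theorem NRayChar.isUnitary (h𝔪 : 𝔪 ≠ ⊥) {ψ : (Ideal (𝓞 K))⁰ →* ℂ} (hψ : NRayChar 𝔪 ψ) :
    Psi.IsUnitary ψ := by
  intro I
  by_cases hI : IsCoprime (I : Ideal (𝓞 K)) 𝔪
  · left
    obtain ⟨n, hn, a, ha, ha1, hpos⟩ := exists_pow_eq_span_pos h𝔪 hI
    have h1 : ψ I ^ n = 1 := by
      rw [← map_pow]
      exact hψ.cong _ a ha ha1 hpos
    exact Complex.norm_eq_one_of_pow_eq_one h1 hn
  · exact Or.inr (hψ.eq_zero I hI)

theorem NRayChar.sq {ψ : (Ideal (𝓞 K))⁰ →* ℂ} (hψ : NRayChar 𝔪 ψ) : NRayChar 𝔪 (ψ ^ 2) where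
  norm_le I := by
    rw [MonoidHom.pow_apply, norm_pow]
    exact pow_le_one₀ (norm_nonneg _) (hψ.norm_le I)
  eq_zero I hI := by
    rw [MonoidHom.pow_apply, hψ.eq_zero I hI, zero_pow two_ne_zero]
  cong I a ha ha1 hpos := by
    rw [MonoidHom.pow_apply, hψ.cong I a ha ha1 hpos, one_pow]

/-- (G) **The L-functions of the non-trivial narrow ray class characters do not vanish on `Re s ≥ 1`.** -/
theorem nonVanN (hE : EntireNStmt K) : NonVanNStmt K := by
  intro 𝔪 h𝔪 ψ hψ hnt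
  obtain ⟨L, hLd, hL⟩ := hE 𝔪 h𝔪 ψ hψ hnt
  have hu := hψ.isUnitary h𝔪
  refine ⟨L, hLd, hL, fun s hs => ?_⟩
  rcases hs.eq_or_lt with h1 | h1
  · have hs' : s = 1 + I * s.im := by
      conv_lhs => rw [← Complex.re_add_im s, ← h1, Complex.ofReal_one, mul_comm]
    by_cases h2 : ∃ J : (Ideal (𝓞 K))⁰, IsCoprime (J : Ideal (𝓞 K)) 𝔪 ∧ (ψ ^ 2) J ≠ 1
    · obtain ⟨L₂, hd₂, hL₂⟩ := hE 𝔪 h𝔪 (ψ ^ 2) hψ.sq h2
      rw [hs']
      exact Psi.ne_zero_of_continuation hu hL hL₂ (hLd _) (hd₂ _).continuousAt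
    · have h3 : ∀ J : (Ideal (𝓞 K))⁰, IsCoprime (J : Ideal (𝓞 K)) 𝔪 → ψ J ^ 2 = 1 := by
        intro J hJ
        by_contra h4
        exact h2 ⟨J, hJ, by rwa [MonoidHom.pow_apply]⟩
      by_cases h4 : s.im = 0
      · rw [h4, Complex.ofReal_zero, mul_zero, add_zero] at hs'
        rw [hs']
        refine Psi.ne_zero_of_real (ψ := ψ) (fun J => ?_) hLd hL
        by_cases hJ : IsCoprime (J : Ideal (𝓞 K)) 𝔪
        · exact Or.inr (sq_eq_one_iff.1 (h3 J hJ))
        · exact Or.inl (hψ.eq_zero J hJ)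
      · rw [hs']
        refine Psi.ne_zero_of_continuation (ψ := ψ) hu hL
          (L₂ := fun w => zetaK K w * Psi.badE (finite_bad h𝔪).toFinset w) (fun w hw => ?_)
          (hLd _) ?_
        · refine (Psi.Lp_eq_badE (hu.pow two_ne_zero) (fun P hP => ?_) (fun P hP => ?_) hw).symm
          · rw [Set.Finite.mem_toFinset] at hP
            rw [MonoidHom.pow_apply, hψ.eq_zero P.1 hP, zero_pow two_ne_zero]
          · rw [Set.Finite.mem_toFinset] at hP
            rw [MonoidHom.pow_apply]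
            exact h3 P.1 (not_not.mp hP)
        · refine ContinuousAt.mul ?_ (Psi.differentiable_badE _).continuous.continuousAt
          refine (differentiableAt_LF (K := K) (fun _ => 1) ?_).continuousAt
          intro h5
          have h6 := congrArg Complex.im h5
          simp at h6
          exact h4 h6
  · rw [hL s h1]
    exact Psi.Lp_ne_zero hu.le h1

end Fermat.Agent.Cor.RayN

end
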