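import Fermat.Agent.Corollaries.RayN.Ideals
import Fermat.Agent.Corollaries.RayN.Number

/-!
# Dedekind's `φ` and the explicit constants in Weber's theorem

`card_units_quotient`: `#(𝓞/𝔪)ˣ = N𝔪 ∏_{P ∣ 𝔪} (1 - 1 / NP)`.
-/

set_option autoImplicit false
set_option linter.unusedSectionVars false

noncomputable section

open NumberField nonZeroDivisors Filter Topology UniqueFactorizationMonoid

open scoped Classical

namespace Fermat.Agent.Cor.RayN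

open Fermat.Agent.ClassL Fermat.Agent.Cor.Ray

universe u

variable {K : Type u} [Field K] [NumberField K] {𝔪 : Ideal (𝓞 K)}

theorem isUnit_mk_pow_iff {P : Ideal (𝓞 K)} (hP : P.IsMaximal) {k : ℕ} (hk : k ≠ 0) (a : 𝓞 K) :
    IsUnit (Ideal.Quotient.mk (P ^ k) a) ↔ a ∉ P := by
  constructor
  · intro h ha
    have h1 : IsUnit (Ideal.Quotient.factor (Ideal.pow_le_self hk) (Ideal.Quotient.mk (P ^ k) a) :
        𝓞 K ⧸ P) := h.map _
    rw [Ideal.Quotient.factor_mk, Ideal.Quotient.eq_zero_iff_mem.mpr ha] at h1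
    have : Nontrivial (𝓞 K ⧸ P) := Ideal.Quotient.nontrivial_iff.mpr hP.ne_top
    exact not_isUnit_zero h1
  · intro ha
    have h1 : IsCoprime (Ideal.span {a}) P := by
      rw [Ideal.isCoprime_iff_sup_eq]
      by_contra h2
      have h3 := hP.eq_of_le h2 le_sup_right
      exact ha (h3 ▸ (le_sup_left : Ideal.span {a} ≤ _) (Ideal.mem_span_singleton_self a))
    obtain ⟨b, hb⟩ := isCoprime_span_iff.mp (h1.pow_right (n := k))
    refine IsUnit.of_mul_eq_one (Ideal.Quotient.mk (P ^ k) b) ?_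
    rw [← map_mul, ← map_one (Ideal.Quotient.mk (P ^ k)), Ideal.Quotient.eq, mul_comm]
    exact hb

/-- the units of `𝓞 / P^k` -/
theorem card_units_pow {P : Ideal (𝓞 K)} (hP : P.IsMaximal) (hP0 : P ≠ ⊥) {k : ℕ} (hk : k ≠ 0) :
    (Nat.card (𝓞 K ⧸ P ^ k)ˣ : ℝ) =
      Ideal.absNorm (P ^ k) * (1 - (Ideal.absNorm P : ℝ)⁻¹) := by
  have hfin : Finite (𝓞 K ⧸ P ^ k) := (P ^ k).finiteQuotientOfFreeOfNeBot (pow_ne_zero k hP0)
  set f : (𝓞 K ⧸ P ^ k) →+* 𝓞 K ⧸ P := Ideal.Quotient.factor (Ideal.pow_le_self hk) with hf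
  have hsurj : Function.Surjective f := Ideal.Quotient.factor_surjective _
  have hunit : ∀ x : 𝓞 K ⧸ P ^ k, IsUnit x ↔ ¬ x ∈ f.toAddMonoidHom.ker := by
    intro x
    obtain ⟨a, rfl⟩ := Ideal.Quotient.mk_surjective x
    rw [isUnit_mk_pow_iff hP hk, AddMonoidHom.mem_ker]
    change _ ↔ ¬ (f (Ideal.Quotient.mk (P ^ k) a) = 0)
    rw [hf, Ideal.Quotient.factor_mk, Ideal.Quotient.eq_zero_iff_mem]
  have h1 : Nat.card (𝓞 K ⧸ P ^ k)ˣ = Nat.card {x : 𝓞 K ⧸ P ^ k // ¬ x ∈ f.toAddMonoidHom.ker} := by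
    refine Nat.card_congr ((Submonoid.unitsTypeEquivIsUnitSubmonoid (M := 𝓞 K ⧸ P ^ k)).toEquiv.trans
      (Equiv.subtypeEquivRight fun x => ?_))
    exact hunit x
  have h2 : Nat.card (𝓞 K ⧸ P ^ k) = Nat.card f.toAddMonoidHom.ker +
      Nat.card {x : 𝓞 K ⧸ P ^ k // ¬ x ∈ f.toAddMonoidHom.ker} := by
    rw [← Nat.card_sum]
    exact Nat.card_congr (Equiv.sumCompl fun x : 𝓞 K ⧸ P ^ k => x ∈ f.toAddMonoidHom.ker).symm
  have h3 : Nat.card (𝓞 K ⧸ P ^ k) = Nat.card (𝓞 K ⧸ P) * Nat.card f.toAddMonoidHom.ker := by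
    rw [AddSubgroup.card_eq_card_quotient_mul_card_addSubgroup f.toAddMonoidHom.ker]
    congr 1
    exact Nat.card_congr (QuotientAddGroup.quotientKerEquivOfSurjective f.toAddMonoidHom
      hsurj).toEquiv
  have h4 : Ideal.absNorm (P ^ k) = Nat.card (𝓞 K ⧸ P ^ k) := rfl
  have h5 : Ideal.absNorm P = Nat.card (𝓞 K ⧸ P) := rfl
  have h6 : (Nat.card (𝓞 K ⧸ P) : ℝ) ≠ 0 := by
    rw [← h5]
    exact_mod_cast fun h => hP0 (Ideal.absNorm_eq_zero_iff.mp h)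
  rw [h1, h4, h5]
  have h2' : (Nat.card (𝓞 K ⧸ P ^ k) : ℝ) = Nat.card f.toAddMonoidHom.ker +
      Nat.card {x : 𝓞 K ⧸ P ^ k // ¬ x ∈ f.toAddMonoidHom.ker} := by exact_mod_cast h2
  have h3' : (Nat.card (𝓞 K ⧸ P ^ k) : ℝ) =
      Nat.card (𝓞 K ⧸ P) * Nat.card f.toAddMonoidHom.ker := by exact_mod_cast h3
  rw [mul_sub, mul_one]
  nth_rewrite 2 [h3']
  rw [mul_comm (Nat.card (𝓞 K ⧸ P) : ℝ), mul_assoc, mul_inv_cancel₀ h6, mul_one, h2']
  ring

theorem eulerAt_pow {P : Ideal (𝓞 K)} (hP : Prime P) {k : ℕ} (hk : k ≠ 0) :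
    eulerAt (P ^ k) = 1 - (Ideal.absNorm P : ℝ)⁻¹ := by
  have h1 : normalizedFactors P = {P} := by
    rw [normalizedFactors_irreducible hP.irreducible, normalize_eq]
  rw [eulerAt, normalizedFactors_pow, h1, Multiset.toFinset_nsmul _ _ hk,
    Multiset.toFinset_singleton, Finset.prod_singleton]

theorem eulerAt_mul {I J : Ideal (𝓞 K)} (hI : I ≠ 0) (hJ : J ≠ 0) (h : IsRelPrime I J) :
    eulerAt (I * J) = eulerAt I * eulerAt J := by
  rw [eulerAt, normalizedFactors_mul hI hJ, Multiset.toFinset_add, Finset.prod_union]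
  · rfl
  · rw [Finset.disjoint_left]
    intro P hP hP'
    rw [Multiset.mem_toFinset] at hP hP'
    exact (prime_of_normalized_factor P hP).not_isUnit
      (h (dvd_of_mem_normalizedFactors hP) (dvd_of_mem_normalizedFactors hP'))

/-- **Dedekind's `φ`**: `#(𝓞/𝔪)ˣ = N𝔪 ∏_{P ∣ 𝔪} (1 - 1 / NP)`. -/
theorem card_units_quotient (h𝔪 : 𝔪 ≠ ⊥) :
    (Nat.card (𝓞 K ⧸ 𝔪)ˣ : ℝ) = Ideal.absNorm 𝔪 * eulerAt 𝔪 := by
  revert h𝔪
  refine induction_on_coprime 𝔪 (P := fun 𝔪 : Ideal (𝓞 K) => 𝔪 ≠ ⊥ →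
    (Nat.card (𝓞 K ⧸ 𝔪)ˣ : ℝ) = Ideal.absNorm 𝔪 * eulerAt 𝔪) ?_ ?_ ?_ ?_
  · intro h
    exact absurd rfl h
  · intro I hI _
    have h1 : I = ⊤ := by rwa [Ideal.isUnit_iff] at hI
    subst h1
    have : Subsingleton (𝓞 K ⧸ (⊤ : Ideal (𝓞 K))) := Ideal.Quotient.subsingleton_iff.mpr rfl
    have h2 : Nat.card (𝓞 K ⧸ (⊤ : Ideal (𝓞 K)))ˣ = 1 := Nat.card_unique
    have h3 : eulerAt (⊤ : Ideal (𝓞 K)) = 1 := by
      rw [eulerAt, ← Ideal.one_eq_top, normalizedFactors_one, Multiset.toFinset_zero,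
        Finset.prod_empty]
    rw [h2, h3, Ideal.absNorm_top, Nat.cast_one, mul_one]
  · intro P k hP _
    have hP0 : P ≠ ⊥ := hP.ne_zero
    have hmax : P.IsMaximal := (Ideal.isPrime_of_prime hP).isMaximal hP0
    rcases Nat.eq_zero_or_pos k with rfl | hk
    · have : Subsingleton (𝓞 K ⧸ (P ^ 0 : Ideal (𝓞 K))) :=
        Ideal.Quotient.subsingleton_iff.mpr (by rw [pow_zero, Ideal.one_eq_top])
      have h2 : Nat.card (𝓞 K ⧸ (P ^ 0 : Ideal (𝓞 K)))ˣ = 1 := Nat.card_unique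
      rw [h2, eulerAt, pow_zero, normalizedFactors_one, Multiset.toFinset_zero,
        Finset.prod_empty, map_one, Nat.cast_one, mul_one]
    · rw [eulerAt_pow hP hk.ne']
      exact card_units_pow hmax hP0 hk.ne'
  · intro I J hIJ hI hJ h0
    have hI0 : I ≠ ⊥ := fun h => h0 (by rw [h, Ideal.bot_mul])
    have hJ0 : J ≠ ⊥ := fun h => h0 (by rw [h, Ideal.mul_bot])
    have hco : IsCoprime I J := by
      rw [Ideal.isCoprime_iff_sup_eq, ← Ideal.isUnit_iff]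
      exact hIJ (Ideal.dvd_iff_le.mpr le_sup_left) (Ideal.dvd_iff_le.mpr le_sup_right)
    have h1 : Nat.card (𝓞 K ⧸ I * J)ˣ = Nat.card (𝓞 K ⧸ I)ˣ * Nat.card (𝓞 K ⧸ J)ˣ := by
      rw [← Nat.card_prod]
      exact Nat.card_congr ((Units.mapEquiv
        (Ideal.quotientMulEquivQuotientProd I J hco).toMulEquiv).trans MulEquiv.prodUnits).toEquiv
    rw [h1, Nat.cast_mul, hI hI0, hJ hJ0, map_mul, Nat.cast_mul, eulerAt_mul hI0 hJ0 hIJ]
    ring

/-- **Weber's theorem with its constant**: the number of ideals of norm at most `x` in a narrow ray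
class modulo `𝔪` is asymptotic to `κ E x / (h N𝔪 2^r₁)`, `E` the number of classes of units
modulo `𝔪` and signs. -/
theorem ideals_in_narrow_ray_class_explicit (h𝔪 : 𝔪 ≠ ⊥) {J : (Ideal (𝓞 K))⁰}
    (hJ : IsCoprime (J : Ideal (𝓞 K)) 𝔪) :
    Tendsto (fun x : ℕ => (Nat.card {I : (Ideal (𝓞 K))⁰ //
      Ideal.absNorm (I : Ideal (𝓞 K)) ≤ x ∧ NRayEq 𝔪 I J} : ℝ) / x) atTop
      (𝓝 (dedekindZeta_residue K * Nat.card (unitsMap 𝔪).range /
        (classNumber K * Ideal.absNorm 𝔪 * 2 ^ InfinitePlace.nrRealPlaces K))) := by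
  have hfin : Finite (𝓞 K ⧸ 𝔪) := 𝔪.finiteQuotientOfFreeOfNeBot h𝔪
  have h1 : (nRayNumber 𝔪 : ℝ) * Nat.card (unitsMap 𝔪).range =
      classNumber K * (Nat.card (𝓞 K ⧸ 𝔪)ˣ * 2 ^ InfinitePlace.nrRealPlaces K) := by
    exact_mod_cast nRayNumber_mul h𝔪
  rw [card_units_quotient h𝔪] at h1
  have h2 : (nRayNumber 𝔪 : ℝ) ≠ 0 := by exact_mod_cast nRayNumber_ne_zero h𝔪
  have h3 : (classNumber K : ℝ) ≠ 0 := by exact_mod_cast (classNumber_pos K).ne'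
  have h4 : (Ideal.absNorm 𝔪 : ℝ) ≠ 0 := by
    exact_mod_cast fun h => h𝔪 (Ideal.absNorm_eq_zero_iff.mp h)
  have h5 : dedekindZeta_residue K * Nat.card (unitsMap 𝔪).range /
      (classNumber K * Ideal.absNorm 𝔪 * 2 ^ InfinitePlace.nrRealPlaces K) =
      dedekindZeta_residue K * eulerAt 𝔪 / nRayNumber 𝔪 := by
    rw [div_eq_div_iff (mul_ne_zero (mul_ne_zero h3 h4) (by positivity)) h2]
    linear_combination dedekindZeta_residue K * h1
  rw [h5]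
  exact ideals_in_narrow_ray_class h𝔪 hJ

/-- the wide form -/
theorem ideals_in_ray_class_explicit (h𝔪 : 𝔪 ≠ ⊥) {J : (Ideal (𝓞 K))⁰}
    (hJ : IsCoprime (J : Ideal (𝓞 K)) 𝔪) :
    Tendsto (fun x : ℕ => (Nat.card {I : (Ideal (𝓞 K))⁰ //
      Ideal.absNorm (I : Ideal (𝓞 K)) ≤ x ∧ RayEq 𝔪 I J} : ℝ) / x) atTop
      (𝓝 (dedekindZeta_residue K * Nat.card (unitsMapW 𝔪).range /
        (classNumber K * Ideal.absNorm 𝔪))) := by
  have h1 : (rayNumber 𝔪 : ℝ) * Nat.card (unitsMapW 𝔪).range =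
      classNumber K * Nat.card (𝓞 K ⧸ 𝔪)ˣ := by
    exact_mod_cast rayNumber_mul h𝔪
  rw [card_units_quotient h𝔪] at h1
  have h2 : (rayNumber 𝔪 : ℝ) ≠ 0 := by exact_mod_cast rayNumber_ne_zero h𝔪
  have h3 : (classNumber K : ℝ) ≠ 0 := by exact_mod_cast (classNumber_pos K).ne'
  have h4 : (Ideal.absNorm 𝔪 : ℝ) ≠ 0 := by
    exact_mod_cast fun h => h𝔪 (Ideal.absNorm_eq_zero_iff.mp h)
  have h5 : dedekindZeta_residue K * Nat.card (unitsMapW 𝔪).range /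
      (classNumber K * Ideal.absNorm 𝔪) =
      dedekindZeta_residue K * eulerAt 𝔪 / rayNumber 𝔪 := by
    rw [div_eq_div_iff (mul_ne_zero h3 h4) h2]
    linear_combination dedekindZeta_residue K * h1
  rw [h5]
  exact ideals_in_ray_class h𝔪 hJ

end Fermat.Agent.Cor.RayN

end
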