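import Fermat.Agent.Corollaries.RayN.ComposeReal

/-!
# The class numbers of the real quadratic fields of discriminant `< 100`

One table with Gauss's cycles as certificates, checked by `decide`: `classNumber_of_discr_lt`.
-/

set_option autoImplicit false

open NumberField

namespace Fermat.Agent.Cor.RayN

open Fermat.Agent.Cor.Ray Fermat.Agent.Cor.Ray.BForm

/-- an entry of the table: the discriminant, the bound `B`, the principal form `(1, b, c)`, the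
length of its cycle, the class number and the list of the cycles -/
structure RealEntry where
  /-- the discriminant -/
  D : ℕ
  /-- the bound for the middle coefficient -/
  B : ℕ
  /-- the middle coefficient of the principal form -/
  b : ℤ
  /-- the last coefficient of the principal form -/
  c : ℤ
  /-- the length of the principal cycle -/
  N : ℕ
  /-- the class number -/
  h : ℕ
  /-- the cycles with their lengths -/
  L : List (BForm × ℕ)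

/-- the entry is correct -/
def RealEntry.Ok (x : RealEntry) : Prop :=
  0 < x.D ∧ x.D < (x.B + 1) ^ 2 ∧ Cert x.D x.B x.L ∧ x.b ^ 2 - 4 * x.c = x.D ∧ x.c < 0 ∧
    0 < x.N ∧ BForm.nxt^[x.N] ⟨1, x.b, x.c⟩ = ⟨1, x.b, x.c⟩ ∧
    x.L.length = (if (⟨-x.c, -x.b, -1⟩ : BForm) ∈ BForm.orb x.N ⟨1, x.b, x.c⟩ then 1 else 2) * x.h

instance (x : RealEntry) : Decidable x.Ok := inferInstanceAs (Decidable (_ ∧ _))

/-- the table: all fundamental discriminants `< 100`, and `145`, `229` -/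
def realTable : List RealEntry := [
  ⟨5, 2, -1, -1, 2, 1, [(⟨1, -1, -1⟩, 2)]⟩,
  ⟨8, 2, 0, -2, 4, 1, [(⟨1, 0, -2⟩, 4)]⟩,
  ⟨12, 3, 0, -3, 3, 1, [(⟨1, 0, -3⟩, 3), (⟨2, -2, -1⟩, 3)]⟩,
  ⟨13, 3, -1, -3, 6, 1, [(⟨1, -1, -3⟩, 6)]⟩,
  ⟨17, 4, -1, -4, 10, 1, [(⟨1, -1, -4⟩, 10)]⟩,
  ⟨21, 4, -1, -5, 4, 1, [(⟨1, -1, -5⟩, 4), (⟨3, -3, -1⟩, 4)]⟩,
  ⟨24, 4, 0, -6, 6, 1, [(⟨1, 0, -6⟩, 6), (⟨2, -4, -1⟩, 6)]⟩,
  ⟨28, 5, 0, -7, 7, 1, [(⟨1, 0, -7⟩, 7), (⟨3, -4, -1⟩, 7)]⟩,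
  ⟨29, 5, -1, -7, 10, 1, [(⟨1, -1, -7⟩, 10)]⟩,
  ⟨33, 5, -1, -8, 10, 1, [(⟨1, -1, -8⟩, 10), (⟨2, -5, -1⟩, 10)]⟩,
  ⟨37, 6, -1, -9, 14, 1, [(⟨1, -1, -9⟩, 14)]⟩,
  ⟨40, 6, 0, -10, 12, 2, [(⟨1, 0, -10⟩, 12), (⟨2, -4, -3⟩, 8)]⟩,
  ⟨41, 6, -1, -10, 22, 1, [(⟨1, -1, -10⟩, 22)]⟩,
  ⟨44, 6, 0, -11, 9, 1, [(⟨1, 0, -11⟩, 9), (⟨2, -6, -1⟩, 9)]⟩,
  ⟨53, 7, -1, -13, 14, 1, [(⟨1, -1, -13⟩, 14)]⟩,
  ⟨56, 7, 0, -14, 10, 1, [(⟨1, 0, -14⟩, 10), (⟨5, -6, -1⟩, 10)]⟩,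
  ⟨57, 7, -1, -14, 16, 1, [(⟨1, -1, -14⟩, 16), (⟨2, -7, -1⟩, 16)]⟩,
  ⟨60, 7, 0, -15, 7, 2, [(⟨1, 0, -15⟩, 7), (⟨2, -6, -3⟩, 5), (⟨3, -6, -2⟩, 5), (⟨6, -6, -1⟩, 7)]⟩,
  ⟨61, 7, -1, -15, 22, 1, [(⟨1, -1, -15⟩, 22)]⟩,
  ⟨65, 8, -1, -16, 18, 2, [(⟨1, -1, -16⟩, 18), (⟨2, -7, -2⟩, 14)]⟩,
  ⟨69, 8, -1, -17, 10, 1, [(⟨1, -1, -17⟩, 10), (⟨5, -7, -1⟩, 10)]⟩,
  ⟨73, 8, -1, -18, 42, 1, [(⟨1, -1, -18⟩, 42)]⟩,
  ⟨76, 8, 0, -19, 17, 1, [(⟨1, 0, -19⟩, 17), (⟨2, -6, -5⟩, 17)]⟩,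
  ⟨77, 8, -1, -19, 8, 1, [(⟨1, -1, -19⟩, 8), (⟨7, -7, -1⟩, 8)]⟩,
  ⟨85, 9, -1, -21, 18, 2, [(⟨1, -1, -21⟩, 18), (⟨3, -7, -3⟩, 10)]⟩,
  ⟨88, 9, 0, -22, 18, 1, [(⟨1, 0, -22⟩, 18), (⟨2, -8, -3⟩, 18)]⟩,
  ⟨89, 9, -1, -22, 42, 1, [(⟨1, -1, -22⟩, 42)]⟩,
  ⟨92, 9, 0, -23, 13, 1, [(⟨1, 0, -23⟩, 13), (⟨7, -8, -1⟩, 13)]⟩,
  ⟨93, 9, -1, -23, 12, 1, [(⟨1, -1, -23⟩, 12), (⟨3, -9, -1⟩, 12)]⟩,
  ⟨97, 9, -1, -24, 54, 1, [(⟨1, -1, -24⟩, 54)]⟩,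
  ⟨145, 12, -1, -36, 26, 4, [(⟨1, -1, -36⟩, 26), (⟨2, -11, -3⟩, 18), (⟨2, -9, -8⟩, 18), (⟨4, -9,
    -4⟩, 14)]⟩,
  ⟨229, 15, -1, -57, 30, 3, [(⟨1, -1, -57⟩, 30), (⟨3, -13, -5⟩, 14), (⟨3, -11, -9⟩, 14)]⟩]

theorem realTable_ok : ∀ x ∈ realTable, x.Ok := by
  decide +kernel

variable {K : Type*} [Field K] [NumberField K]

theorem classNumber_of_mem (h2 : Module.finrank ℚ K = 2) {x : RealEntry} (hx : x ∈ realTable)
    (hd : discr K = x.D) : classNumber K = x.h := by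
  obtain ⟨h1, h3, h4, h5, h6, h7, h8, h9⟩ := realTable_ok x hx
  have h := classNumber_eq_of_cert h2 hd h1 h3 x.L h4 h5 h6 h7 h8
  rw [h9] at h
  have h10 : 0 < (if (⟨-x.c, -x.b, -1⟩ : BForm) ∈ BForm.orb x.N ⟨1, x.b, x.c⟩ then 1 else 2) := by
    split_ifs <;> norm_num
  exact (Nat.eq_of_mul_eq_mul_left h10 h).symm

/-- a decidable necessary condition for fundamental discriminants -/
def FundLt (D : ℕ) : Prop :=
  (D % 4 = 1 ∧ D ≠ 1 ∧ ∀ p ∈ [3, 5, 7], D % (p * p) ≠ 0) ∨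
    (D % 4 = 0 ∧ ((D / 4) % 4 = 2 ∨ (D / 4) % 4 = 3) ∧ ∀ p ∈ [3, 5, 7], (D / 4) % (p * p) ≠ 0)

instance (D : ℕ) : Decidable (FundLt D) := inferInstanceAs (Decidable (_ ∨ _))

theorem fundLt_of_isFundDiscr {D : ℕ} (h : IsFundDiscr (D : ℤ)) : FundLt D := by
  have key : ∀ {m p : ℕ}, Squarefree (m : ℤ) → 1 < p → m % (p * p) ≠ 0 := by
    intro m p hm hp h0
    have h1 : (p : ℤ) * p ∣ m := by exact_mod_cast Nat.dvd_of_mod_eq_zero h0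
    have h2 := hm p h1
    rw [Int.isUnit_iff] at h2
    omega
  rcases h with ⟨h1, h2, h3⟩ | ⟨m, h1, h2, h3⟩
  · refine Or.inl ⟨by omega, by omega, fun p hp => key h2 ?_⟩
    revert p
    decide
  · have hm : (((D / 4 : ℕ)) : ℤ) = m := by omega
    rw [← hm] at h3
    refine Or.inr ⟨by omega, by omega, fun p hp => key h3 ?_⟩
    revert p
    decide

theorem exists_entry : ∀ D ∈ List.range 100, FundLt D → ∃ x ∈ realTable, x.D = D := by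
  decide +kernel

theorem value_entry : ∀ x ∈ realTable, x.D < 100 →
    x.h = if x.D ∈ [40, 60, 65, 85] then 2 else 1 := by
  decide +kernel

/-- **The class numbers of all real quadratic fields of discriminant `< 100`**: `2` for the
discriminants `40, 60, 65, 85`, and `1` for all others. -/
theorem classNumber_of_discr_lt (h2 : Module.finrank ℚ K = 2) {D : ℕ} (hd : discr K = D)
    (hD : D < 100) : classNumber K = if D ∈ [40, 60, 65, 85] then 2 else 1 := by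
  have h1 : IsFundDiscr (D : ℤ) := hd ▸ Bin.isFundDiscr_discr h2
  obtain ⟨x, hx, hxD⟩ := exists_entry D (List.mem_range.mpr hD) (fundLt_of_isFundDiscr h1)
  rw [classNumber_of_mem h2 hx (hd.trans (by rw [hxD])), value_entry x hx (by omega), hxD]

/-- a real quadratic field of discriminant `< 40` has class number one -/
theorem classNumber_eq_one_of_discr_lt (h2 : Module.finrank ℚ K = 2) {D : ℕ} (hd : discr K = D)
    (hD : D < 40) : classNumber K = 1 := by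
  rw [classNumber_of_discr_lt h2 hd (by omega), if_neg]
  intro hmem
  have h1 : ∀ d ∈ [40, 60, 65, 85], 40 ≤ d := by decide
  exact absurd (h1 D hmem) (by omega)

/-- the real quadratic field of discriminant `145` has class number `4` -/
theorem classNumber_of_discr_145 (h2 : Module.finrank ℚ K = 2) (hd : discr K = 145) :
    classNumber K = 4 :=
  classNumber_of_mem h2 (x := realTable.get ⟨30, by decide⟩) (List.get_mem _ _) (by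
    rw [hd]
    rfl)

/-- the real quadratic field of discriminant `229` has class number `3` -/
theorem classNumber_of_discr_229 (h2 : Module.finrank ℚ K = 2) (hd : discr K = 229) :
    classNumber K = 3 :=
  classNumber_of_mem h2 (x := realTable.get ⟨31, by decide⟩) (List.get_mem _ _) (by
    rw [hd]
    rfl)

end Fermat.Agent.Cor.RayN
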